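import Mathlib.FieldTheory.IsAlgClosed.Basic
import Mathlib.Algebra.CharP.Lemmas
import Mathlib.Data.Matrix.Mul
import Mathlib.LinearAlgebra.Matrix.ToLin
import Mathlib.Algebra.CharP.Algebra
import Mathlib.FieldTheory.Finite.Basic

/-!
Solving `c = U * σ c + p * V * σ² c` over an unramified complete ring with algebraically closed
residue field, for a matrix `U` fixed by `σ` which is not nilpotent modulo `p`.
-/

set_option autoImplicit false

open Polynomial Matrix Finset

namespace Fermat.Agent.OrdinaryCurve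

section Residue

variable {k : Type*} [Field k] [IsAlgClosed k] (p : ℕ) [Fact p.Prime] [CharP k p]
variable {ι : Type*} [Fintype ι] [DecidableEq ι]

/-- The semilinear map `v ↦ U * v ^ (p)`. -/
def frobAct (U : Matrix ι ι k) (v : ι → k) : ι → k := U *ᵥ fun j => v j ^ p

omit [IsAlgClosed k] [DecidableEq ι] in
theorem frobAct_add (U : Matrix ι ι k) (v w : ι → k) :
    frobAct p U (v + w) = frobAct p U v + frobAct p U w := by
  rw [frobAct, frobAct, frobAct, ← mulVec_add]
  congr 1
  funext j
  simp [add_pow_char]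

omit [IsAlgClosed k] [DecidableEq ι] in
theorem frobAct_zero (U : Matrix ι ι k) : frobAct p U 0 = 0 := by
  have := frobAct_add p U 0 0
  rwa [add_zero, left_eq_add] at this

omit [IsAlgClosed k] in
/-- Iterates of the Frobenius-semilinear action. -/
theorem frobAct_iterate {U : Matrix ι ι k} (hU : ∀ i j, U i j ^ p = U i j) (n : ℕ) (v : ι → k) :
    (frobAct p U)^[n] v = (U ^ n) *ᵥ fun j => v j ^ p ^ n := by
  induction n with
  | zero => simp
  | succ n ih =>
    have hfix : (U ^ n).map (frobenius k p) = U ^ n := by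
      rw [Matrix.map_pow]
      congr 1
      ext i j
      exact hU i j
    rw [Function.iterate_succ_apply', ih, frobAct, pow_succ', ← mulVec_mulVec]
    congr 1
    funext i
    have h := (frobenius k p).map_mulVec (U ^ n) (fun j => v j ^ p ^ n) i
    rw [hfix] at h
    simp only [frobenius_def] at h
    rw [h]
    congr 1
    funext j
    simp only [Function.comp_apply, frobenius_def, ← pow_mul, ← pow_succ]

omit [IsAlgClosed k] [DecidableEq ι] in
theorem frobAct_sum (U : Matrix ι ι k) (f : ℕ → ι → k) (n : ℕ) :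
    frobAct p U (∑ i ∈ range n, f i) = ∑ i ∈ range n, frobAct p U (f i) := by
  induction n with
  | zero => simp [frobAct_zero]
  | succ n ih => rw [Finset.sum_range_succ, Finset.sum_range_succ, frobAct_add, ih]

omit [IsAlgClosed k] in
/-- Telescoping for the sum of the first `r` iterates. -/
theorem frobAct_orbit_sub {U : Matrix ι ι k} (hU : ∀ i j, U i j ^ p = U i j) (r : ℕ) (v : ι → k) :
    frobAct p U (∑ i ∈ range r, (frobAct p U)^[i] v) - ∑ i ∈ range r, (frobAct p U)^[i] v =
      ((U ^ r) *ᵥ fun j => v j ^ p ^ r) - v := by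
  rw [frobAct_sum, ← Finset.sum_sub_distrib]
  simp only [← Function.iterate_succ_apply' (frobAct p U)]
  rw [Finset.sum_range_sub (fun i => (frobAct p U)^[i] v), frobAct_iterate p hU]
  rfl

omit [IsAlgClosed k] in
/-- A power of a matrix with entries in the prime field is idempotent. -/
theorem exists_pow_idempotent {U : Matrix ι ι k} (hU : ∀ i j, U i j ^ p = U i j) :
    ∃ r, 0 < r ∧ U ^ (2 * r) = U ^ r := by
  classical
  set S : Set k := {x : k | x ^ p = x}
  have hS : S.Finite := by
    refine (((X ^ p - X : k[X])).roots.toFinset.finite_toSet).subset fun x hx => ?_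
    simp only [Finset.mem_coe, Multiset.mem_toFinset, mem_roots', ne_eq, IsRoot.def, eval_sub,
      eval_pow, eval_X]
    exact ⟨(FiniteField.X_pow_card_sub_X_ne_zero k (Fact.out : p.Prime).one_lt),
      sub_eq_zero.mpr hx⟩
  have hmem : ∀ n i j, (U ^ n) i j ∈ S := by
    intro n i j
    have hfix : (U ^ n).map (frobenius k p) = U ^ n := by
      rw [Matrix.map_pow]
      congr 1
      ext i j
      exact hU i j
    exact congrFun (congrFun hfix i) j
  have := hS.to_subtype
  obtain ⟨a, b, hne, hab⟩ := Finite.exists_ne_map_eq_of_infinite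
    (fun n => (fun i j => (⟨(U ^ n) i j, hmem n i j⟩ : S)))
  have hpow : U ^ a = U ^ b := by
    ext i j
    exact congrArg Subtype.val (congrFun (congrFun hab i) j)
  wlog hlt : a < b generalizing a b
  · exact this b a hne.symm hab.symm hpow.symm (by omega)
  obtain ⟨d, rfl⟩ : ∃ d, b = a + d := ⟨b - a, by omega⟩
  have hd : 0 < d := by omega
  have hper : ∀ m, U ^ (a + m * d) = U ^ a := by
    intro m
    induction m with
    | zero => simp
    | succ m ih =>
      rw [add_mul, one_mul, ← add_assoc, pow_add, ih, ← pow_add, ← hpow]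
  refine ⟨(a + 1) * d, Nat.mul_pos a.succ_pos hd, ?_⟩
  obtain ⟨e, he⟩ : ∃ e, (a + 1) * d = a + e :=
    ⟨(a + 1) * d - a, by have := Nat.le_mul_of_pos_right (a + 1) hd; omega⟩
  rw [two_mul, show (a + 1) * d + (a + 1) * d = a + (a + 1) * d + e by omega, pow_add, hper,
    ← pow_add, ← he]

/-- `d ↦ U * d ^ (p) - d` is onto. -/
theorem exists_frobAct_sub_eq {U : Matrix ι ι k} (hU : ∀ i j, U i j ^ p = U i j) (e : ι → k) :
    ∃ d, frobAct p U d - d = e := by
  obtain ⟨r, hr, hidem⟩ := exists_pow_idempotent p hU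
  set P := U ^ r with hP
  have hPP : P * P = P := by rw [hP, ← pow_add, ← two_mul, hidem]
  have hroot : ∀ j, ∃ x : k, x ^ p ^ r - x = e j := by
    intro j
    have h2 : 1 < p ^ r := Nat.one_lt_pow hr.ne' (Fact.out : p.Prime).one_lt
    obtain ⟨x, hx⟩ := IsAlgClosed.exists_root (X ^ p ^ r - X - C (e j)) (by
      rw [sub_sub, Polynomial.degree_sub_eq_left_of_degree_lt, Polynomial.degree_X_pow]
      · exact_mod_cast (Nat.one_pos.trans h2).ne'
      · refine lt_of_le_of_lt (degree_add_le _ _) ?_
        rw [Polynomial.degree_X_pow, degree_X]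
        exact max_lt (by exact_mod_cast h2)
          (degree_C_le.trans_lt (by exact_mod_cast Nat.one_pos.trans h2)))
    exact ⟨x, by simpa [sub_eq_zero] using hx⟩
  choose d' hd' using hroot
  set x := P *ᵥ d' - (e - P *ᵥ e) with hxdef
  refine ⟨∑ i ∈ range r, (frobAct p U)^[i] x, ?_⟩
  rw [frobAct_orbit_sub p hU]
  have hfix : P.map (iterateFrobenius k p r) = P := by
    ext i j
    have h := congrFun (congrFun (show (U ^ r).map (frobenius k p) = U ^ r by
      rw [Matrix.map_pow]; congr 1; ext i j; exact hU i j) i) j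
    simp only [Matrix.map_apply, frobenius_def] at h
    rw [Matrix.map_apply, iterateFrobenius_def]
    have : ∀ n, (U ^ r) i j ^ p ^ n = (U ^ r) i j := fun n => by
      induction n with
      | zero => simp
      | succ n ih => rw [pow_succ, pow_mul, ih, h]
    exact this r
  have hpowv : ∀ v : ι → k, (fun j => (P *ᵥ v) j ^ p ^ r) = P *ᵥ fun j => v j ^ p ^ r := by
    intro v
    funext i
    have h := (iterateFrobenius k p r).map_mulVec P v i
    rw [hfix] at h
    simpa [iterateFrobenius_def, Function.comp_def] using h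
  have hxp : (fun j => x j ^ p ^ r) =
      (P *ᵥ fun j => d' j ^ p ^ r) - ((fun j => e j ^ p ^ r) - P *ᵥ fun j => e j ^ p ^ r) := by
    rw [← hpowv, ← hpowv]
    funext j
    simp only [hxdef, Pi.sub_apply, sub_pow_char_pow]
  rw [hxp, mulVec_sub, mulVec_sub, mulVec_mulVec, mulVec_mulVec, hPP, sub_self, sub_zero, hxdef,
    ← sub_add, ← mulVec_sub, show ((fun j => d' j ^ p ^ r) - d') = e from funext hd']
  abel

/-- A nonzero fixed vector, unless the matrix is nilpotent. -/
theorem exists_frobAct_eq {U : Matrix ι ι k} (hU : ∀ i j, U i j ^ p = U i j)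
    (hnil : ∀ n, U ^ n ≠ 0) : ∃ d, d ≠ 0 ∧ frobAct p U d = d := by
  obtain ⟨r, hr, hidem⟩ := exists_pow_idempotent p hU
  obtain ⟨i₀, j₀, hij⟩ : ∃ i j, (U ^ r) i j ≠ 0 := by
    by_contra h
    push Not at h
    exact hnil r (Matrix.ext h)
  set v : ι → k := fun i => (U ^ r) i j₀ with hv
  have hvfix : ∀ n i, v i ^ p ^ n = v i := by
    intro n i
    have h : (U ^ r).map (frobenius k p) = U ^ r := by
      rw [Matrix.map_pow]; congr 1; ext i j; exact hU i j
    induction n with
    | zero => simp
    | succ n ih => rw [pow_succ, pow_mul, ih]; exact congrFun (congrFun h i) j₀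
  have hUv : (U ^ r) *ᵥ v = v := by
    funext i
    show ∑ l, (U ^ r) i l * (U ^ r) l j₀ = (U ^ r) i j₀
    rw [← Matrix.mul_apply, ← pow_add, ← two_mul, hidem]
  -- the sum of the orbit of `lam • v` is fixed when `lam ^ (p ^ r) = lam`
  set w : k → ι → k := fun lam => ∑ i ∈ range r, (frobAct p U)^[i] (lam • v) with hw
  have hwcoord : ∀ lam j, w lam j =
      ∑ i ∈ range r, lam ^ p ^ i * ((U ^ i) *ᵥ v) j := by
    intro lam j
    simp only [hw, Finset.sum_apply]
    refine Finset.sum_congr rfl fun i _ => ?_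
    rw [frobAct_iterate p hU]
    have : (fun l => (lam • v) l ^ p ^ i) = lam ^ p ^ i • v := by
      funext l
      simp [mul_pow, hvfix]
    rw [this, mulVec_smul]
    rfl
  set Q : k[X] := ∑ i ∈ range r, C (((U ^ i) *ᵥ v) i₀) * X ^ p ^ i with hQ
  have hQ1 : Q.coeff 1 = v i₀ := by
    rw [hQ, finsetSum_coeff, Finset.sum_eq_single 0]
    · simp
    · intro i _ hi
      rw [coeff_C_mul, Polynomial.coeff_X_pow, if_neg, mul_zero]
      exact (Nat.one_lt_pow hi (Fact.out : p.Prime).one_lt).ne
    · intro h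
      exact absurd (Finset.mem_range.mpr hr) h
  have hQ0 : Q ≠ 0 := fun h => hij (by rw [h, coeff_zero] at hQ1; exact hQ1.symm)
  have hQdeg : Q.natDegree < p ^ r := by
    refine lt_of_le_of_lt (natDegree_sum_le_of_forall_le (n := p ^ (r - 1)) _ _ fun i hi => ?_) ?_
    · exact (natDegree_C_mul_X_pow_le _ _).trans
        (Nat.pow_le_pow_right (Fact.out : p.Prime).pos (by have := Finset.mem_range.mp hi; omega))
    · exact Nat.pow_lt_pow_right (Fact.out : p.Prime).one_lt (by omega)
  set R : k[X] := X ^ p ^ r - X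
  have h2 : 1 < p ^ r := Nat.one_lt_pow hr.ne' (Fact.out : p.Prime).one_lt
  obtain ⟨lam, hlam, hlamQ⟩ : ∃ lam, lam ^ p ^ r = lam ∧ Q.eval lam ≠ 0 := by
    classical
    by_contra h
    push Not at h
    have hdeg : R.natDegree = p ^ r := FiniteField.X_pow_card_sub_X_natDegree_eq k h2
    have hcard : R.roots.toFinset.card = p ^ r := by
      rw [Multiset.toFinset_card_of_nodup, ← hdeg, IsAlgClosed.card_roots_eq_natDegree]
      refine Polynomial.nodup_roots ?_
      rw [Polynomial.separable_def, show derivative R = -1 by simp [R, derivative_X_pow, hr.ne']]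
      exact isCoprime_one_right.neg_right
    have hle : R.roots.toFinset ⊆ Q.roots.toFinset := by
      intro x hx
      simp only [Multiset.mem_toFinset, mem_roots', IsRoot.def, R, eval_sub, eval_pow, eval_X,
        sub_eq_zero] at hx ⊢
      exact ⟨hQ0, h x hx.2⟩
    have := (Finset.card_le_card hle).trans ((Multiset.toFinset_card_le _).trans (card_roots' Q))
    omega
  refine ⟨w lam, fun h => hlamQ ?_, ?_⟩
  · have := congrFun h i₀
    rw [hwcoord, Pi.zero_apply] at this
    rw [hQ, eval_finsetSum, ← this]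
    exact Finset.sum_congr rfl fun i _ => by rw [eval_C_mul, eval_pow, eval_X, mul_comm]
  · rw [← sub_eq_zero, hw, frobAct_orbit_sub p hU]
    have : (fun l => (lam • v) l ^ p ^ r) = lam • v := by
      funext l
      simp [mul_pow, hvfix, hlam]
    rw [this, mulVec_smul, hUv, sub_self]

end Residue

section Lift

variable {W : Type*} [CommRing W] {k : Type*} [Field k] [IsAlgClosed k]
variable {p : ℕ} [Fact p.Prime] [CharP k p] {ι : Type*} [Fintype ι] [DecidableEq ι]
variable (σ : W →+* W) (res : W →+* k)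

/-- `c ↦ U * σ c + p * V * σ² c - c`. -/
def langDefect (p : ℕ) (U V : Matrix ι ι W) (c : ι → W) : ι → W :=
  U *ᵥ (fun j => σ (c j)) + (p : W) • (V *ᵥ fun j => σ (σ (c j))) - c

omit [IsAlgClosed k] [Fact p.Prime] [CharP k p] [DecidableEq ι] in
/-- The defect of a translate by `p ^ n • d`. -/
theorem langDefect_add_smul (U V : Matrix ι ι W) (c d : ι → W) (n : ℕ) :
    langDefect σ p U V (c + (p : W) ^ n • d) =
      langDefect σ p U V c + (p : W) ^ n • langDefect σ p U V d := by
  have h1 : (fun j => σ ((c + (p : W) ^ n • d) j)) =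
      (fun j => σ (c j)) + (p : W) ^ n • fun j => σ (d j) := by
    funext j; simp
  have h2 : (fun j => σ (σ ((c + (p : W) ^ n • d) j))) =
      (fun j => σ (σ (c j))) + (p : W) ^ n • fun j => σ (σ (d j)) := by
    funext j; simp
  simp only [langDefect, h1, h2, mulVec_add, mulVec_smul, smul_add, smul_sub, smul_comm (p : W)]
  abel

/-- Successive approximation: solutions modulo `p` lift. -/
theorem exists_langDefect_eq_zero (hσ : ∀ x, res (σ x) = res x ^ p)
    (hsurj : Function.Surjective res)
    (hker : ∀ x, res x = 0 → (p : W) ∣ x)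
    (hlim : ∀ x : ℕ → W, (∀ n, (p : W) ^ n ∣ x (n + 1) - x n) →
      ∃ y, ∀ n, (p : W) ^ n ∣ y - x n)
    (hsep : ∀ x : W, (∀ n, (p : W) ^ n ∣ x) → x = 0)
    (U V : Matrix ι ι W) (hU : ∀ i j, σ (U i j) = U i j) (hnil : ∀ n, (U.map res) ^ n ≠ 0) :
    ∃ c : ι → W, (∃ j, res (c j) ≠ 0) ∧
      c = U *ᵥ (fun j => σ (c j)) + (p : W) • (V *ᵥ fun j => σ (σ (c j))) := by
  have hp0 : res (p : W) = 0 := by rw [map_natCast, CharP.cast_eq_zero]
  have hU' : ∀ i j, (U.map res) i j ^ p = (U.map res) i j := fun i j => by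
    rw [Matrix.map_apply, ← hσ, hU]
  have hres : ∀ c : ι → W, res ∘ langDefect σ p U V c =
      frobAct p (U.map res) (res ∘ c) - res ∘ c := by
    intro c
    funext i
    simp only [langDefect, Function.comp_apply, Pi.sub_apply, Pi.add_apply, Pi.smul_apply,
      smul_eq_mul, map_sub, map_add, map_mul, hp0, zero_mul, add_zero, frobAct, RingHom.map_mulVec]
    congr 2
    funext j
    exact hσ _
  -- the first step
  obtain ⟨d₀, hd₀, hfix⟩ := exists_frobAct_eq p hU' hnil
  choose lift hlift using hsurj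
  have hstart : ∀ j, (p : W) ∣ langDefect σ p U V (lift ∘ d₀) j := fun j => hker _ (by
    have := congrFun (hres (lift ∘ d₀)) j
    rw [show res ∘ (lift ∘ d₀) = d₀ from funext fun j => hlift _, hfix, sub_self] at this
    exact this)
  -- the inductive step
  have hstep : ∀ n (c : ι → W), (∀ j, (p : W) ^ (n + 1) ∣ langDefect σ p U V c j) →
      ∃ c' : ι → W, (∀ j, (p : W) ^ (n + 1) ∣ c' j - c j) ∧
        ∀ j, (p : W) ^ (n + 2) ∣ langDefect σ p U V c' j := by
    intro n c hc
    choose e he using hc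
    obtain ⟨d, hd⟩ := exists_frobAct_sub_eq p hU' (-(res ∘ e))
    refine ⟨c + (p : W) ^ (n + 1) • (lift ∘ d), fun j => ⟨lift (d j), by simp⟩, fun j => ?_⟩
    rw [langDefect_add_smul, Pi.add_apply, he j, Pi.smul_apply, smul_eq_mul, ← mul_add,
      pow_succ (p : W) (n + 1)]
    refine mul_dvd_mul_left _ (hker _ ?_)
    have := congrFun (hres (lift ∘ d)) j
    rw [show res ∘ (lift ∘ d) = d from funext fun j => hlift _, hd] at this
    rw [map_add, show res (langDefect σ p U V (lift ∘ d) j) = -res (e j) from this, add_neg_cancel]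
  choose next hnext₁ hnext₂ using hstep
  let seq : ∀ n, {c : ι → W // ∀ j, (p : W) ^ (n + 1) ∣ langDefect σ p U V c j} := fun n =>
    Nat.rec ⟨lift ∘ d₀, fun j => by simpa using hstart j⟩
      (fun m c => ⟨next m c.1 c.2, hnext₂ m c.1 c.2⟩) n
  have hcau : ∀ n j, (p : W) ^ (n + 1) ∣ (seq (n + 1)).1 j - (seq n).1 j := fun n j =>
    hnext₁ n (seq n).1 (seq n).2 j
  choose c hc using fun j => hlim (fun n => (seq n).1 j) fun n =>
    (pow_dvd_pow _ n.le_succ).trans (hcau n j)
  refine ⟨c, ?_, ?_⟩
  · obtain ⟨j, hj⟩ := Function.ne_iff.mp hd₀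
    refine ⟨j, fun h0 => hj ?_⟩
    obtain ⟨w, hw⟩ := hc j 1
    obtain ⟨w', hw'⟩ := hcau 0 j
    have e1 : res ((seq 1).1 j) = 0 := by
      rw [show (seq 1).1 j = c j - (p : W) ^ 1 * w by rw [← hw]; ring, map_sub, h0, map_mul,
        pow_one, hp0, zero_mul, sub_zero]
    have e0 : (seq 0).1 j = lift (d₀ j) := rfl
    have e2 : res ((seq 1).1 j) = res ((seq 0).1 j) := by
      have hw'' : (seq 1).1 j - (seq 0).1 j = (p : W) ^ (0 + 1) * w' := hw'
      rw [← sub_eq_zero, ← map_sub, hw'', map_mul, map_pow, hp0, zero_pow (by omega), zero_mul]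
    rw [e1, e0, hlift] at e2
    exact e2.symm
  · have hall : ∀ n i, (p : W) ^ n ∣ langDefect σ p U V c i := by
      intro n i
      choose d hd using fun j => hc j n
      have hcd : c = (seq n).1 + (p : W) ^ n • d := by
        funext j
        rw [Pi.add_apply, Pi.smul_apply, smul_eq_mul, ← hd j]
        ring
      rw [hcd, langDefect_add_smul, Pi.add_apply, Pi.smul_apply, smul_eq_mul]
      exact dvd_add ((pow_dvd_pow _ n.le_succ).trans ((seq n).2 i)) (dvd_mul_right _ _)
    have hz : langDefect σ p U V c = 0 := funext fun i => hsep _ fun n => hall n i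
    rw [langDefect, sub_eq_zero] at hz
    exact hz.symm

end Lift

end Fermat.Agent.OrdinaryCurve
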