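import Fermat.Agent.OrdinaryCurve.DiscPlace
import Fermat.Agent.FunctionField.RiemannRoch
import Fermat.Prelude.Def_AlgebraicCurve_BaseChangeGalois
import Fermat.Prelude.Def_ModularCurve_LaurentCoeff

/-!
Divisor classes supported on the disc at infinity: a monic series with small lower coefficients
gives the class of its zeros minus a multiple of the point at infinity, and vanishes when the
series is principal.
-/

set_option autoImplicit false

noncomputable section

open PowerSeries AlgebraicCurve Fermat.Agent.FunctionField

namespace Fermat.Agent.OrdinaryCurve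

variable {K : Type*} [NormedField K]

/-- Disc points are determined by their values. -/
@[ext]
theorem DiscPoint.ext {a b : DiscPoint K} (h : a.val = b.val) : a = b := by
  cases a; cases b; cases h; rfl

variable (K) in
/-- The centre of the disc: the point at infinity. -/
def discZero : DiscPoint K := ⟨0, by rw [norm_zero]; exact zero_lt_one⟩

/-- `∏ (X - b)` over a multiset of disc points. -/
def splitSeries (s : Multiset (DiscPoint K)) : K⟦X⟧ := (s.map fun b => X - C b.val).prod

/-- `splitSeries` turns sums into products. -/
theorem splitSeries_add (s t : Multiset (DiscPoint K)) :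
    splitSeries (s + t) = splitSeries s * splitSeries t := by
  rw [splitSeries, Multiset.map_add, Multiset.prod_add]
  rfl

/-- `splitSeries` of a multiset with one more point. -/
theorem splitSeries_cons (b : DiscPoint K) (s : Multiset (DiscPoint K)) :
    splitSeries (b ::ₘ s) = (X - C b.val) * splitSeries s := by
  rw [splitSeries, Multiset.map_cons, Multiset.prod_cons]
  rfl

variable [IsUltrametricDist K] [CompleteSpace K]

omit [CompleteSpace K] in
/-- `splitSeries` is bounded. -/
theorem splitSeries_mem_boundedSeries (s : Multiset (DiscPoint K)) :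
    splitSeries s ∈ boundedSeries K :=
  Subring.multiset_prod_mem _ _ fun x hx => by
    obtain ⟨b, -, rfl⟩ := Multiset.mem_map.mp hx
    exact X_sub_C_mem_boundedSeries b.val

omit [IsUltrametricDist K] [CompleteSpace K] in
theorem splitSeries_ne_zero (s : Multiset (DiscPoint K)) : splitSeries s ≠ 0 := by
  induction s using Multiset.induction with
  | empty => simp [splitSeries]
  | cons b s ih =>
    rw [splitSeries_cons]
    refine mul_ne_zero (fun h => ?_) ih
    simpa using congrArg (coeff 1) h

open scoped Classical in
/-- The order of `splitSeries s` at `a` is the multiplicity of `a` in `s`. -/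
theorem ordB_splitSeries (a : DiscPoint K) (s : Multiset (DiscPoint K)) :
    ordB a ⟨splitSeries s, splitSeries_mem_boundedSeries s⟩ = s.count a := by
  induction s using Multiset.induction with
  | empty =>
    rw [Multiset.count_zero]
    exact ordB_eq_zero a (by rw [show (⟨splitSeries 0, _⟩ : boundedSeries K) = 1 from rfl]; simp)
  | cons b s ih =>
    have hb : (⟨X - C b.val, X_sub_C_mem_boundedSeries b.val⟩ : boundedSeries K) ≠ 0 := fun h => by
      simpa using congrArg (fun x : boundedSeries K => coeff 1 (x : K⟦X⟧)) h
    have hs : (⟨splitSeries s, splitSeries_mem_boundedSeries s⟩ : boundedSeries K) ≠ 0 := fun h =>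
      splitSeries_ne_zero s (congrArg Subtype.val h)
    rw [show (⟨splitSeries (b ::ₘ s), splitSeries_mem_boundedSeries _⟩ : boundedSeries K) =
        ⟨X - C b.val, X_sub_C_mem_boundedSeries b.val⟩ *
          ⟨splitSeries s, splitSeries_mem_boundedSeries s⟩ from Subtype.ext (splitSeries_cons b s),
      ordB_mul a hb hs, ih, Multiset.count_cons]
    by_cases h : a = b
    · subst h
      rw [ordB_X_sub_C_self, if_pos rfl, add_comm]
    · rw [ordB_X_sub_C_of_ne a (fun hv => h (DiscPoint.ext hv.symm)), if_neg h, zero_add,
        add_zero]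

/-- A multiset of disc points is determined by its series. -/
theorem splitSeries_injective : Function.Injective (splitSeries (K := K)) := fun s t h => by
  classical
  refine Multiset.ext.mpr fun a => ?_
  rw [← ordB_splitSeries a s, ← ordB_splitSeries a t]
  simp only [h]

namespace DiscData

variable {F : IntermediateField K (LaurentSeries K)} (D : DiscData F) [IsFunctionField K F]

/-- The divisor of the points of `s`, minus their number times the point at infinity. -/
def discDiv (s : Multiset (DiscPoint K)) : Divisor K F :=
  (s.map fun b => Finsupp.single (D.place b) (1 : ℤ)).sum -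
    (Multiset.card s : ℤ) • Finsupp.single (D.place (discZero K)) 1

/-- `discDiv` is additive. -/
theorem discDiv_add (s t : Multiset (DiscPoint K)) :
    D.discDiv (s + t) = D.discDiv s + D.discDiv t := by
  rw [discDiv, discDiv, discDiv, Multiset.map_add, Multiset.sum_add, Multiset.card_add,
    Nat.cast_add, add_smul]
  abel

variable [IsAlgClosed K]

theorem discDiv_mem_degZero (s : Multiset (DiscPoint K)) :
    D.discDiv s ∈ Divisor.degZero (K := K) (F := F) := by
  rw [Divisor.mem_degZero, discDiv, map_sub, map_zsmul, map_multiset_sum, Multiset.map_map,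
    Divisor.degree_single, deg_eq_one]
  rw [Multiset.map_congr rfl (g := fun _ => (1 : ℤ)) fun b _ => by
    rw [Function.comp_apply, Divisor.degree_single, deg_eq_one]; simp]
  simp

/-- The class in `Pic⁰` of a multiset of disc points. -/
def discClass (s : Multiset (DiscPoint K)) : Pic0 K F :=
  Pic0.mk ⟨D.discDiv s, D.discDiv_mem_degZero s⟩

/-- `discClass` is additive. -/
theorem discClass_add (s t : Multiset (DiscPoint K)) :
    D.discClass (s + t) = D.discClass s + D.discClass t := by
  rw [discClass, discClass, discClass, ← Pic0.mk_add]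
  exact congrArg Pic0.mk (Subtype.ext (D.discDiv_add s t))

omit [IsAlgClosed K] in
open scoped Classical in
/-- The multiplicity of `discDiv s` at a disc place. -/
theorem discDiv_apply_place (a : DiscPoint K) (s : Multiset (DiscPoint K)) :
    D.discDiv s (D.place a) = (s.count a : ℤ) -
      if a = discZero K then (Multiset.card s : ℤ) else 0 := by
  have hp : ∀ b : DiscPoint K, D.place a = D.place b ↔ a = b :=
    fun b => ⟨fun h => DiscPoint.ext (D.place_injective h), fun h => h ▸ rfl⟩
  rw [discDiv, Finsupp.sub_apply, Finsupp.smul_apply, Finsupp.single_apply, smul_eq_mul, mul_ite,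
    mul_one, mul_zero]
  simp only [eq_comm (a := D.place (discZero K)), hp]
  congr 1
  induction s using Multiset.induction with
  | empty => simp
  | cons b s ih =>
    rw [Multiset.map_cons, Multiset.sum_cons, Finsupp.add_apply, ih, Multiset.count_cons,
      Finsupp.single_apply, eq_comm (a := D.place b), hp]
    push_cast
    split_ifs <;> simp [add_comm]

omit [IsAlgClosed K] in
/-- `discDiv s` is supported on the disc. -/
theorem discDiv_apply_of_ne (v : Place K F) (hv : ∀ a, v ≠ D.place a)
    (s : Multiset (DiscPoint K)) : D.discDiv s v = 0 := by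
  rw [discDiv, Finsupp.sub_apply, Finsupp.smul_apply, Finsupp.single_eq_of_ne (hv _), smul_zero,
    sub_zero]
  induction s using Multiset.induction with
  | empty => simp
  | cons b s ih =>
    rw [Multiset.map_cons, Multiset.sum_cons, Finsupp.add_apply, ih,
      Finsupp.single_eq_of_ne (hv b), add_zero]

/-- A function `X ^ (-N) x`, regular away from infinity, with `x` divisible by the series of `s`,
kills the class of `s`. -/
theorem discClass_eq_zero (s : Multiset (DiscPoint K)) {f : F} (hf : f ≠ 0) {x r : boundedSeries K}
    (hx : (x : K⟦X⟧) = splitSeries s * (r : K⟦X⟧))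
    (hrep : (f : LaurentSeries K) * HahnSeries.ofPowerSeries ℤ K (X ^ Multiset.card s) =
      HahnSeries.ofPowerSeries ℤ K (x : K⟦X⟧))
    (hreg : ∀ v : Place K F, v ≠ D.place (discZero K) → 0 ≤ v.ord f) :
    D.discClass s = 0 := by
  classical
  have hX : (⟨X ^ Multiset.card s, pow_mem X_mem_boundedSeries _⟩ : boundedSeries K) ≠ 0 :=
    fun h => pow_ne_zero _ (X_ne_zero (R := K)) (congrArg Subtype.val h)
  have hr : Rep f x ⟨X ^ Multiset.card s, pow_mem X_mem_boundedSeries _⟩ := ⟨hX, hrep⟩
  have hle : D.discDiv s ≤ divFun K f := by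
    refine Finsupp.le_def.mpr fun v => ?_
    rw [divFun_apply]
    by_cases hv : ∃ a, v = D.place a
    · obtain ⟨a, rfl⟩ := hv
      have hx0 : x ≠ 0 := hr.ne_zero hf
      have hr0 : r ≠ 0 := fun h => hx0 (Subtype.ext (by simp [hx, h]))
      have hs0 : (⟨splitSeries s, splitSeries_mem_boundedSeries s⟩ : boundedSeries K) ≠ 0 :=
        fun h => splitSeries_ne_zero s (congrArg Subtype.val h)
      rw [discDiv_apply_place, D.place_ord_of_rep a hf hr,
        show x = ⟨splitSeries s, splitSeries_mem_boundedSeries s⟩ * r from Subtype.ext hx,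
        ordB_mul a hs0 hr0, ordB_splitSeries]
      split_ifs with ha
      · subst ha
        have : ordB (discZero K) ⟨(X : K⟦X⟧) ^ Multiset.card s, pow_mem X_mem_boundedSeries _⟩ =
            Multiset.card s := ordB_eq _ (s := 1) (by simp [discZero]) (by simp)
        rw [this]
        push_cast
        omega
      · have : ordB a ⟨(X : K⟦X⟧) ^ Multiset.card s, pow_mem X_mem_boundedSeries _⟩ = 0 := by
          refine ordB_eq_zero a ?_
          rw [show (⟨(X : K⟦X⟧) ^ Multiset.card s, pow_mem X_mem_boundedSeries _⟩ :
            boundedSeries K) =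
            ⟨X, X_mem_boundedSeries⟩ ^ Multiset.card s from rfl, map_pow, evBdd_X]
          exact pow_ne_zero _ fun h => ha (DiscPoint.ext h)
        rw [this]
        push_cast
        omega
    · push Not at hv
      rw [discDiv_apply_of_ne D v hv]
      exact hreg v (hv _)
  have hdeg : Divisor.degree (D.discDiv s) = Divisor.degree (divFun K f) := by
    rw [Divisor.mem_degZero.mp (D.discDiv_mem_degZero s), degree_divFun]
  have heq : D.discDiv s = divFun K f := by
    by_contra hne
    obtain ⟨v, hv⟩ := Finsupp.ne_iff.mp hne
    have hlt : D.discDiv s + Finsupp.single v 1 ≤ divFun K f := by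
      refine Finsupp.le_def.mpr fun w => ?_
      rw [Finsupp.add_apply, Finsupp.single_apply]
      have h1 := Finsupp.le_def.mp hle w
      split_ifs with h
      · subst h
        omega
      · simpa using h1
    have h2 := degree_mono hlt
    rw [map_add, Divisor.degree_single, deg_eq_one, hdeg] at h2
    simp at h2
  rw [discClass]
  exact (QuotientAddGroup.eq_zero_iff _).mpr ⟨f, hf, fun v => by
    show D.discDiv s v = _
    rw [heq, divFun_apply]⟩

/-- Abel at a point, in the Picard group. -/
theorem discClass_eq_zero_of_principal {ι : Type*} (C₀ : FormalCurve K ι)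
    (hB : ∀ b ∈ C₀.B, b ∈ F)
    (hreg : ∀ b : F, (b : LaurentSeries K) ∈ C₀.B →
      ∀ v : Place K F, v ≠ D.place (discZero K) → 0 ≤ v.ord b)
    (s : Multiset (DiscPoint K)) (h : C₀.Principal (Multiset.card s) (splitSeries s)) :
    D.discClass s = 0 := by
  obtain ⟨x, hx0, hmem, r, hr, hxr⟩ := h
  have hxb : x ∈ boundedSeries K :=
    hxr ▸ mul_mem (splitSeries_mem_boundedSeries s) (mem_boundedSeries.mpr hr)
  set f : F := ⟨_, hB _ hmem⟩ with hf
  have hrep : (f : LaurentSeries K) * HahnSeries.ofPowerSeries ℤ K (X ^ Multiset.card s) =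
      HahnSeries.ofPowerSeries ℤ K x := by
    rw [HahnSeries.ofPowerSeries_X_pow, hf, mul_right_comm, HahnSeries.single_mul_single,
      neg_add_cancel, one_mul, HahnSeries.single_zero_one, one_mul]
  refine D.discClass_eq_zero s (f := f) (fun h0 => hx0 ?_) (x := ⟨x, hxb⟩)
    (r := ⟨r, mem_boundedSeries.mpr hr⟩) hxr hrep (hreg f hmem)
  rw [h0, ZeroMemClass.coe_zero, zero_mul, ← map_zero (HahnSeries.ofPowerSeries ℤ K)] at hrep
  exact (HahnSeries.ofPowerSeries_injective hrep).symm

end DiscData

section Galois

open ModularCurve

variable {F : IntermediateField K (LaurentSeries K)} (D : DiscData F) [IsFunctionField K F]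
variable (τ : K ≃+* K) (hτ : ∀ x, ‖τ x‖ = ‖x‖)

/-- The image of a disc point. -/
def mapPoint (a : DiscPoint K) : DiscPoint K := ⟨τ a.val, by rw [hτ]; exact a.norm_lt⟩

omit [IsUltrametricDist K] [CompleteSpace K] in
/-- `splitSeries` commutes with isometric automorphisms. -/
theorem splitSeries_mapPoint (s : Multiset (DiscPoint K)) :
    splitSeries (s.map (mapPoint τ hτ)) = PowerSeries.map (τ : K →+* K) (splitSeries s) := by
  induction s using Multiset.induction with
  | empty => simp [splitSeries]
  | cons b t ih =>
    rw [Multiset.map_cons, splitSeries_cons, splitSeries_cons, map_mul, ih, map_sub, map_X, map_C]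
    rfl

/-- The image of a bounded series. -/
def mapBdd : boundedSeries K →+* boundedSeries K :=
  ((PowerSeries.map (τ : K →+* K)).comp (boundedSeries K).subtype).codRestrict _ fun r => by
    obtain ⟨M, hM⟩ := r.2
    exact ⟨M, fun l => by simpa [hτ] using hM l⟩

omit [CompleteSpace K] in
@[simp] theorem coe_mapBdd (r : boundedSeries K) :
    (mapBdd τ hτ r : K⟦X⟧) = PowerSeries.map (τ : K →+* K) (r : K⟦X⟧) := rfl

include hτ in
theorem evBdd_mapBdd (a : DiscPoint K) (r : boundedSeries K) :
    evBdd (mapPoint τ hτ a) (mapBdd τ hτ r) = τ (evBdd a r) := by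
  rw [evBdd_apply, evBdd_apply]
  have hc : Continuous (τ : K →+ K) :=
    (AddMonoidHomClass.isometry_of_norm (τ : K →+ K) hτ).continuous
  have h := (by simpa using summable_bdd a r.2 0 : Summable fun n => coeff n (r : K⟦X⟧) * a.val ^ n)
  refine Eq.trans ?_ (h.map_tsum (τ : K →+ K) hc).symm
  exact tsum_congr fun n => by simp [mapPoint]

theorem ordB_mapBdd (a : DiscPoint K) {r : boundedSeries K} (hr : r ≠ 0) :
    ordB (mapPoint τ hτ a) (mapBdd τ hτ r) = ordB a r := by
  obtain ⟨s, hs, hs0⟩ := ordB_spec a hr
  refine ordB_eq _ (s := mapBdd τ hτ s) ?_ (by rw [evBdd_mapBdd τ hτ]; simpa using hs0)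
  rw [coe_mapBdd, coe_mapBdd, hs]
  simp [mapPoint]

theorem place_mapPoint (g : SemilinearAut K F)
    (hg : ∀ f : F, ((g • f : F) : LaurentSeries K) = coeffMap (τ : K →+* K) (f : LaurentSeries K))
    (a : DiscPoint K) : g • D.place a = D.place (mapPoint τ hτ a) := by
  have key : ∀ f : F, f ≠ 0 → (D.place (mapPoint τ hτ a)).ord (g • f) = (D.place a).ord f := by
    intro f hf
    obtain ⟨x, y, h⟩ := D.exists_rep f
    have hmapne : ∀ z : boundedSeries K, z ≠ 0 → mapBdd τ hτ z ≠ 0 := fun z hz h0 => hz <|
      Subtype.ext <| PowerSeries.map_injective (τ : K →+* K) τ.injective <| by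
        rw [← coe_mapBdd τ hτ, h0]; simp
    have hof : ∀ z : K⟦X⟧, coeffMap (τ : K →+* K) (HahnSeries.ofPowerSeries ℤ K z) =
        HahnSeries.ofPowerSeries ℤ K (PowerSeries.map (τ : K →+* K) z) := by
      intro z
      ext m
      rw [coeffMap_coeff]
      rcases lt_or_ge m 0 with hm | hm
      · rw [ofPowerSeries_coeff_neg _ hm, ofPowerSeries_coeff_neg _ hm, map_zero]
      · lift m to ℕ using hm
        rw [HahnSeries.ofPowerSeries_apply_coeff, HahnSeries.ofPowerSeries_apply_coeff,
          PowerSeries.coeff_map]
    have h' : DiscData.Rep (g • f) (mapBdd τ hτ x) (mapBdd τ hτ y) := by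
      refine ⟨hmapne y h.1, ?_⟩
      rw [hg, coe_mapBdd, coe_mapBdd, ← hof, ← hof, ← h.2, map_mul]
    have hgf : g • f ≠ 0 := by simpa using hf
    rw [D.place_ord_of_rep _ hgf h', D.place_ord_of_rep _ hf h,
      ordB_mapBdd τ hτ a (h.ne_zero hf), ordB_mapBdd τ hτ a h.1]
  refine Place.ext (SetLike.ext fun f => ?_)
  rw [mem_iff_adicValuation_le_one, mem_iff_adicValuation_le_one,
    (g • D.place a).adicValuation_le_one_iff, (D.place (mapPoint τ hτ a)).adicValuation_le_one_iff]
  obtain ⟨f', rfl⟩ : ∃ f', g • f' = f := ⟨g⁻¹ • f, smul_inv_smul g f⟩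
  rcases eq_or_ne f' 0 with rfl | hf
  · simp
  rw [SemilinearAut.ord_smul, key f' hf]

variable [IsAlgClosed K]

/-- Semilinear automorphisms act on disc classes through the points. -/
theorem smul_discClass (g : SemilinearAut K F)
    (hg : ∀ f : F, ((g • f : F) : LaurentSeries K) = coeffMap (τ : K →+* K) (f : LaurentSeries K))
    (s : Multiset (DiscPoint K)) :
    g • D.discClass s = D.discClass (s.map (mapPoint τ hτ)) := by
  rw [DiscData.discClass, DiscData.discClass, SemilinearAut.pic0_smul_mk]
  refine congrArg Pic0.mk (Subtype.ext ?_)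
  rw [SemilinearAut.coe_degZeroSMulHom]
  show g • D.discDiv s = D.discDiv _
  rw [DiscData.discDiv, DiscData.discDiv, smul_sub, Multiset.card_map, Multiset.map_map]
  congr 1
  · rw [show g • (s.map fun b => Finsupp.single (D.place b) (1 : ℤ)).sum =
        DistribSMul.toAddMonoidHom (Divisor K F) g
          (s.map fun b => Finsupp.single (D.place b) (1 : ℤ)).sum from rfl,
      map_multiset_sum, Multiset.map_map]
    refine congrArg Multiset.sum (Multiset.map_congr rfl fun b _ => ?_)
    simp [place_mapPoint D τ hτ g hg]
  · rw [Finsupp.smul_single, SemilinearAut.smul_single,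
      place_mapPoint D τ hτ g hg,
      show mapPoint τ hτ (discZero K) = discZero K from DiscPoint.ext (map_zero τ)]

end Galois

end Fermat.Agent.OrdinaryCurve
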