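import Fermat.Agent.Hecke.Degree
import Fermat.Agent.MazurPoint.PhiShape
import Fermat.Agent.GoodReductionS18.PullbackInjective
import Fermat.Agent.ModularFunctionField.Descent

/-!
The degrees of the two maps `X₀(N ℓ) → X₀(N)` over any algebraically closed field of
characteristic zero.
-/

set_option autoImplicit false

noncomputable section

open AlgebraicCurve ModularCurve IntermediateField

namespace Fermat.Agent.OrdinaryCurve

/-- The degree over a simple subextension, computed inside a larger field. -/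
theorem finrank_adjoin_val {K M : Type*} [Field K] [Field M] [Algebra K M]
    {F : IntermediateField K M} {t : M} {E : IntermediateField K⟮t⟯ M}
    (hFE : F = E.restrictScalars K) (x : F) (hx : (x : M) = t) :
    Module.finrank K⟮x⟯ F = Module.finrank K⟮t⟯ E := by
  subst hFE
  let i : K⟮x⟯ ≃ₐ[K] K⟮t⟯ :=
    (K⟮x⟯.equivMap (E.restrictScalars K).val).trans (IntermediateField.equivOfEq (by
      rw [adjoin_map, Set.image_singleton]
      exact congrArg (fun u => K⟮u⟯) hx))
  exact Algebra.finrank_eq_of_equiv_equiv i.toRingEquiv (RingEquiv.refl E)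
    (RingHom.ext fun _ => Subtype.ext rfl)

variable (K : Type*) [Field K] [Algebra ℚ K] [IsAlgClosed K] [CharZero K]

omit [IsAlgClosed K] in
/-- `[K(X₀(M)) : K(j)] = ψ(M)`. -/
theorem finrank_jElt (M : ℕ) [NeZero M] :
    Module.finrank K⟮Hecke.jElt K M⟯ (laurentBaseChange K (modularFunctionFieldFull M)) =
      dedekindPsi M := by
  have hM : (M : K) ≠ 0 := Nat.cast_ne_zero.mpr (NeZero.ne M)
  rw [finrank_adjoin_val ((GoodReductionS18.laurentBaseChange_full_eq K M).trans
    (ModularFunctionField.modularFunctionFieldFullC_eq_restrictScalars hM)) (Hecke.jElt K M)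
    Hecke.jC_eq_jqModC]
  exact ModularFunctionField.finrank_adjoin_jqNModC hM

variable (N ℓ : ℕ) [NeZero N] [NeZero ℓ]

omit [IsAlgClosed K] in
/-- The first degeneracy map has degree `ℓ + 1`. -/
theorem finrankAlong_alpha (hℓ : ℓ.Prime) (hN : ¬ ℓ ∣ N) :
    finrankAlong K (heckeAlphaBar K N ℓ) = ℓ + 1 := by
  have h := Hecke.finrank_adjoin_map (heckeAlphaBar K N ℓ) (Hecke.jElt K N)
  have hj : heckeAlphaBar K N ℓ (Hecke.jElt K N) = Hecke.jElt K (N * ℓ) :=
    Subtype.ext (coe_heckeAlphaBar N ℓ _)
  rw [hj, finrank_jElt, finrank_jElt,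
    Gamma0Cosets.dedekindPsi_mul ((hℓ.coprime_iff_not_dvd.mpr hN).symm)] at h
  have hψℓ : dedekindPsi ℓ = ℓ + 1 := by
    have := Gamma0Cosets.dedekindPsi_prime_pow hℓ one_pos
    simpa using this
  have hpos : 0 < dedekindPsi N := by
    rw [← Gamma0Cosets.card_cosets N]
    exact Nat.pos_of_ne_zero
      (Subgroup.index_ne_zero_of_finite (H := CongruenceSubgroup.Gamma0 N))
  rw [hψℓ] at h
  exact (Nat.eq_of_mul_eq_mul_left hpos h).symm

/-- The second degeneracy map has degree at most `ℓ + 1`. -/
theorem finrankAlong_beta_le (hℓ : ℓ.Prime) :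
    finrankAlong K (heckeBetaBar K N ℓ) ≤ ℓ + 1 := by
  set F := laurentBaseChange K (modularFunctionFieldFull N) with hF
  set F' := laurentBaseChange K (modularFunctionFieldFull (N * ℓ)) with hF'
  let := algebraAlong (heckeBetaBar K N ℓ)
  have := isScalarTower_along (heckeBetaBar K N ℓ)
  have : Module.Finite (laurentBaseChange K (modularFunctionFieldFull N))
      (laurentBaseChange K (modularFunctionFieldFull (N * ℓ))) :=
    Hecke.finiteAlong_of_isFunctionField (heckeBetaBar K N ℓ)
  set x : F' := Hecke.jElt K (N * ℓ) with hx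
  set y : F := Hecke.jElt K N with hy
  set Φ := ModularFunctionField.modularPoly ℓ with hΦ
  set P : Polynomial F := ∑ k ∈ Finset.range (ℓ + 2),
    Polynomial.C (y ^ k) * (Φ.coeff k).map (Int.castRingHom F) with hP
  obtain ⟨h0, h01, hk, -⟩ := MazurPoint.modularPoly_shape hℓ
  have hdeg : Φ.natDegree = ℓ + 1 := MazurPoint.modularPoly_natDegree_prime hℓ
  have hkdeg : ∀ k ∈ Finset.range (ℓ + 2), (Φ.coeff k).natDegree ≤ ℓ + 1 ∧
      (k ≠ 0 → (Φ.coeff k).coeff (ℓ + 1) = 0) := by
    intro k hk'
    rw [Finset.mem_range] at hk'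
    rcases Nat.eq_zero_or_pos k with rfl | hpos
    · exact ⟨h0, fun h => absurd rfl h⟩
    rcases Nat.lt_or_ge k (ℓ + 1) with hlt | hge
    · exact ⟨(hk k hpos (by omega)).trans (by omega),
        fun _ => Polynomial.coeff_eq_zero_of_natDegree_lt
          (lt_of_le_of_lt (hk k hpos (by omega)) (Nat.lt_succ_self ℓ))⟩
    · rw [show k = ℓ + 1 by omega, MazurPoint.coeff_modularPoly_succ hℓ]
      exact ⟨by simp, fun _ => by rw [Polynomial.coeff_one, if_neg (Nat.succ_ne_zero ℓ)]⟩
  have hPdeg : P.natDegree ≤ ℓ + 1 := by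
    refine Polynomial.natDegree_sum_le_of_forall_le _ _ fun k hk' => ?_
    exact (Polynomial.natDegree_C_mul_le _ _).trans
      (Polynomial.natDegree_map_le.trans (hkdeg k hk').1)
  have hPm : P.Monic := by
    refine Polynomial.monic_of_natDegree_le_of_coeff_eq_one _ hPdeg ?_
    rw [hP, Polynomial.finsetSum_coeff, Finset.sum_eq_single 0]
    · rw [Polynomial.coeff_C_mul, Polynomial.coeff_map, h01, pow_zero, map_one, mul_one]
    · intro k hk' hk0
      rw [Polynomial.coeff_C_mul, Polynomial.coeff_map, (hkdeg k hk').2 hk0, map_zero, mul_zero]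
    · exact fun h => absurd (Finset.mem_range.mpr (Nat.succ_pos _)) h
  have hroot : Polynomial.aeval x P = 0 := by
    refine Subtype.ext ?_
    rw [hP, map_sum, AddSubmonoidClass.coe_finsetSum, ZeroMemClass.coe_zero]
    have hv := Hecke.modularPoly_vanish (L := K) ℓ
    rw [Polynomial.eval₂_eq_sum_range, ← hΦ, hdeg] at hv
    refine Eq.trans (Finset.sum_congr rfl fun k _ => ?_) hv
    rw [map_mul, Polynomial.aeval_C, map_pow, MulMemClass.coe_mul, SubmonoidClass.coe_pow,
      mul_comm]
    congr 1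
    · show ((Polynomial.aeval x ((Φ.coeff k).map (Int.castRingHom F)) : F') : LaurentSeries K) = _
      rw [Polynomial.aeval_def, Polynomial.eval₂_map]
      show F'.val.toRingHom (Polynomial.eval₂ _ x _) = _
      rw [Polynomial.hom_eval₂]
      show Polynomial.eval₂ _ (Hecke.jC K) _ = _
      rw [Hecke.jC_eq_jqModC]
      exact congrArg (fun f => Polynomial.eval₂ f (jqModC K) (Φ.coeff k)) (Subsingleton.elim _ _)
    · show ((heckeBetaBar K N ℓ y : F') : LaurentSeries K) ^ k = _
      rw [coe_heckeBetaBar]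
      show qExpand K ℓ (Hecke.jC K) ^ k = _
      rw [Hecke.jC_eq_jqModC]
  have hint : IsIntegral F x := ⟨P, hPm, hroot⟩
  have htop : F⟮x⟯ = ⊤ := by
    refine top_unique fun z _ => ?_
    have hle : F' ≤ (F⟮x⟯.restrictScalars K).map F'.val := by
      conv_lhs => rw [hF', GoodReductionS18.laurentBaseChange_full_eq,
        ModularFunctionField.modularFunctionFieldFullC_eq
          (Nat.cast_ne_zero.mpr (NeZero.ne (N * ℓ))), modularFunctionFieldC]
      rw [adjoin_le_iff, Set.insert_subset_iff, Set.singleton_subset_iff]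
      refine ⟨⟨x, mem_adjoin_simple_self F x, ?_⟩, ?_⟩
      · exact Hecke.jC_eq_jqModC
      · have hm : jqNModC K N ∈ F := by
          rw [hF, GoodReductionS18.laurentBaseChange_full_eq,
            ModularFunctionField.modularFunctionFieldFullC_eq (Nat.cast_ne_zero.mpr (NeZero.ne N))]
          exact subset_adjoin K _ (by simp)
        refine ⟨heckeBetaBar K N ℓ ⟨_, hm⟩, ?_, ?_⟩
        · exact F⟮x⟯.algebraMap_mem ⟨_, hm⟩
        · show ((heckeBetaBar K N ℓ ⟨_, hm⟩ : F') : LaurentSeries K) = _
          rw [coe_heckeBetaBar]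
          show qExpand K ℓ (qExpand K N (jqModC K)) = qExpand K (N * ℓ) (jqModC K)
          rw [qExpand_qExpand]
          exact qExpand_congr (mul_comm ℓ N) _
    obtain ⟨w, hw, hwz⟩ := hle z.2
    exact (Subtype.ext hwz : w = z) ▸ hw
  show Module.finrank F F' ≤ ℓ + 1
  rw [← IntermediateField.finrank_top', ← htop, adjoin.finrank hint]
  exact (Polynomial.natDegree_le_of_dvd (minpoly.dvd F x hroot) hPm.ne_zero).trans hPdeg

end Fermat.Agent.OrdinaryCurve
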