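import Fermat.Agent.OrdinaryCurve.HeckeDiscOrd
import Fermat.Agent.OrdinaryCurve.HeckeDiscDegree
import Fermat.Agent.Hecke.NormIdentity
import Fermat.Agent.CurveBaseChange.Pic0Map
import Fermat.Agent.FunctionField.Approx
import Fermat.Agent.Specialization.JZero

/-!
The Hecke correspondence of `X₀(N)` on the points of the disc at infinity.
-/

set_option autoImplicit false

noncomputable section

open PowerSeries AlgebraicCurve ModularCurve Fermat.Agent.FunctionField

namespace Fermat.Agent.OrdinaryCurve

section Generic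

variable {K F : Type*} [Field K] [Field F] [Algebra K F]

/-- A function with prescribed orders at finitely many places. -/
theorem exists_ord_on [IsFunctionField K F] (S : Finset (Place K F)) (n : Place K F → ℤ) :
    ∃ f : F, f ≠ 0 ∧ ∀ v ∈ S, v.ord f = n v := by
  classical
  rcases S.eq_empty_or_nonempty with rfl | ⟨v₀, hv₀⟩
  · exact ⟨1, one_ne_zero, by simp⟩
  choose g hg0 hg using fun v : Place K F => exists_ord_eq v (n v)
  obtain ⟨f, hf⟩ := approximation S g (fun v => -(n v) - 1)
  have key : ∀ v ∈ S, f ≠ 0 ∧ v.ord f = n v := by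
    intro v hv
    have hgv := (ord_eq_iff v (hg0 v)).mp (hg v)
    have hlt : v.adicValuation (f - g v) < v.adicValuation (g v) := by
      refine lt_of_le_of_lt (hf v hv) ?_
      rw [hgv, WithZero.exp_lt_exp]
      omega
    have heq : v.adicValuation f = v.adicValuation (g v) := by
      have h := v.adicValuation.map_add_eq_of_lt_left hlt
      rwa [add_sub_cancel] at h
    have hf0 : f ≠ 0 := fun h0 => by
      rw [h0, map_zero] at heq
      exact v.adicValuation_ne_zero (hg0 v) heq.symm
    exact ⟨hf0, (ord_eq_iff v hf0).mpr (heq.trans hgv)⟩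
  exact ⟨f, (key v₀ hv₀).1, fun v hv => (key v hv).2⟩

variable {F' : Type*} [Field F'] [Algebra K F'] [HasPrincipalDivisors K F']

section Tower

variable [Algebra F F'] [IsScalarTower K F F'] [Algebra.IsIntegral F F']

/-- The pushforward as a sum over the fibre. -/
theorem pushforward_apply_fiber (E : Divisor K F') (v : Place K F) :
    Divisor.pushforward F E v = ∑ w ∈ v.fiber F', E w * (w.inertiaDeg F : ℤ) := by
  classical
  rw [Divisor.pushforward_apply, ← Finset.sum_filter]
  refine Finset.sum_subset ?_ ?_
  · intro w hw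
    exact Place.mem_fiber.mpr (Finset.mem_filter.mp hw).2
  · intro w hw hw'
    have h0 : E w = 0 := by
      by_contra h
      exact hw' (Finset.mem_filter.mpr ⟨Finsupp.mem_support_iff.mpr h, Place.mem_fiber.mp hw⟩)
    rw [h0, zero_mul]

end Tower

/-- The value of a correspondence at a place depends on finitely many values of the divisor. -/
theorem exists_local_correspondence (φ ψ : F →ₐ[K] F') (hφ : φ.toRingHom.IsIntegral)
    (hψ : ψ.toRingHom.IsIntegral) (v : Place K F) :
    ∃ S : Finset (Place K F), ∀ D D' : Divisor K F, (∀ u ∈ S, D u = D' u) →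
      Divisor.correspondence φ ψ hφ hψ D v = Divisor.correspondence φ ψ hφ hψ D' v := by
  classical
  let T : Finset (Place K F') :=
    letI := algebraAlong ψ
    have := isScalarTower_along ψ
    have := isIntegral_along ψ hψ
    v.fiber F'
  let r : Place K F' → Place K F :=
    letI := algebraAlong φ
    have := isScalarTower_along φ
    have := isIntegral_along φ hφ
    fun w => w.restrict F
  have hT : ∀ E E' : Divisor K F', (∀ w ∈ T, E w = E' w) →
      Divisor.pushforwardAlong ψ hψ E v = Divisor.pushforwardAlong ψ hψ E' v := by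
    let := algebraAlong ψ
    have := isScalarTower_along ψ
    have := isIntegral_along ψ hψ
    intro E E' hE
    exact (pushforward_apply_fiber E v).trans ((Finset.sum_congr rfl fun w hw => by
      rw [hE w hw]).trans (pushforward_apply_fiber E' v).symm)
  have hr : ∀ (D D' : Divisor K F) (w : Place K F'),
      D (r w) = D' (r w) → Divisor.pullbackAlong φ hφ D w = Divisor.pullbackAlong φ hφ D' w := by
    let := algebraAlong φ
    have := isScalarTower_along φ
    have := isIntegral_along φ hφ
    intro D D' w h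
    exact (Divisor.pullback_apply D w).trans
      ((congrArg (fun t => (w.ramificationIndex F : ℤ) * t) h).trans
        (Divisor.pullback_apply D' w).symm)
  exact ⟨T.image r, fun D D' h =>
    hT _ _ fun w hw => hr D D' w (h _ (Finset.mem_image_of_mem r hw))⟩

end Generic

section Series

variable {R : Type*} [CommRing R]

/-- `qExpand` on power series is `expand`. -/
theorem qExpand_ofPowerSeries' (l : ℕ) [NeZero l] (r : R⟦X⟧) :
    qExpand R l (HahnSeries.ofPowerSeries ℤ R r) =
      HahnSeries.ofPowerSeries ℤ R (expand l (NeZero.ne l) r) := by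
  ext n
  by_cases hn : (l : ℤ) ∣ n
  · obtain ⟨m, rfl⟩ := hn
    rw [qExpand_coeff_mul]
    rcases lt_or_ge m 0 with hm | hm
    · rw [ofPowerSeries_coeff_neg _ hm, ofPowerSeries_coeff_neg]
      exact mul_neg_of_pos_of_neg (by exact_mod_cast Nat.pos_of_ne_zero (NeZero.ne l)) hm
    · lift m to ℕ using hm
      rw [← Nat.cast_mul, HahnSeries.ofPowerSeries_apply_coeff,
        HahnSeries.ofPowerSeries_apply_coeff, coeff_expand_mul]
  · rw [qExpand_coeff_of_not_dvd l _ hn]
    rcases lt_or_ge n 0 with hm | hm
    · rw [ofPowerSeries_coeff_neg _ hm]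
    · lift n to ℕ using hm
      rw [HahnSeries.ofPowerSeries_apply_coeff, coeff_expand_of_not_dvd]
      exact fun h => hn (by exact_mod_cast h)

end Series

open ModularFunctionField (twist) in
theorem twist_ofPowerSeries {K : Type*} [Field K] (u : Kˣ) (r : K⟦X⟧) :
    twist u (HahnSeries.ofPowerSeries ℤ K r) =
      HahnSeries.ofPowerSeries ℤ K (rescale (u : K) r) := by
  ext n
  rw [ModularFunctionField.twist_coeff]
  rcases lt_or_ge n 0 with hm | hm
  · rw [ofPowerSeries_coeff_neg _ hm, ofPowerSeries_coeff_neg _ hm, mul_zero]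
  · lift n to ℕ using hm
    rw [HahnSeries.ofPowerSeries_apply_coeff, HahnSeries.ofPowerSeries_apply_coeff, coeff_rescale,
      zpow_natCast, Units.val_pow_eq_pow_val]

section Roots

variable {K : Type*} [NormedField K] [IsAlgClosed K] [CharZero K]
variable (l : ℕ) [NeZero l]

variable (K) in
theorem exists_rootZeta : ∃ z : Kˣ, IsPrimitiveRoot z l := by
  have : NeZero ((l : ℕ) : K) := ⟨Nat.cast_ne_zero.mpr (NeZero.ne l)⟩
  obtain ⟨z, hz⟩ := HasEnoughRootsOfUnity.exists_primitiveRoot K l
  exact ⟨(hz.isUnit (NeZero.ne l)).unit,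
    IsPrimitiveRoot.coe_units_iff.mp (by rwa [IsUnit.unit_spec])⟩

variable (K) in
/-- A primitive `l`-th root of unity. -/
def rootZeta : Kˣ := (exists_rootZeta K l).choose

/-- `rootZeta` is primitive. -/
theorem isPrimitiveRoot_rootZeta : IsPrimitiveRoot (rootZeta K l) l :=
  (exists_rootZeta K l).choose_spec

theorem norm_rootZeta : ‖(rootZeta K l : K)‖ = 1 := by
  have h := congrArg (fun u : Kˣ => ‖(u : K)‖) (isPrimitiveRoot_rootZeta (K := K) l).pow_eq_one
  simp only [Units.val_pow_eq_pow_val, norm_pow, Units.val_one, norm_one] at h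
  exact (pow_eq_one_iff_of_nonneg (norm_nonneg _) (NeZero.ne l)).mp h

theorem norm_rootZeta_pow (i : ℕ) : ‖(rootZeta K l : K) ^ i‖ ≤ 1 := by
  rw [norm_pow, norm_rootZeta, one_pow]

omit [CharZero K] in
theorem exists_rootPoint (b : DiscPoint K) : ∃ c : DiscPoint K, c.val ^ l = b.val := by
  obtain ⟨c, hc⟩ := IsAlgClosed.exists_pow_nat_eq b.val (Nat.pos_of_ne_zero (NeZero.ne l))
  refine ⟨⟨c, ?_⟩, hc⟩
  by_contra h
  push Not at h
  have h1 := b.norm_lt
  rw [← hc, norm_pow] at h1
  exact absurd (one_le_pow₀ (n := l) h) (not_le.mpr h1)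

/-- An `l`-th root of a disc point. -/
def rootPoint (b : DiscPoint K) : DiscPoint K := (exists_rootPoint l b).choose

omit [CharZero K] in
/-- The defining property of `rootPoint`. -/
theorem rootPoint_pow (b : DiscPoint K) : (rootPoint l b).val ^ l = b.val :=
  (exists_rootPoint l b).choose_spec

omit [CharZero K] in
theorem rootPoint_ne_zero {b : DiscPoint K} (hb : b.val ≠ 0) : (rootPoint l b).val ≠ 0 :=
  fun h => hb (by rw [← rootPoint_pow l b, h, zero_pow (NeZero.ne l)])

/-- The `l` roots of `X ^ l = b`, with multiplicity. -/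
def rootPts (b : DiscPoint K) : Multiset (DiscPoint K) :=
  (Multiset.range l).map fun i => mulPoint _ (norm_rootZeta_pow l i) (rootPoint l b)

/-- The number of `rootPts`. -/
theorem card_rootPts (b : DiscPoint K) : Multiset.card (rootPts l b) = l := by
  rw [rootPts, Multiset.card_map, Multiset.card_range]

/-- The series cutting out `rootPts`. -/
theorem splitSeries_rootPts (b : DiscPoint K) : splitSeries (rootPts l b) = X ^ l - C b.val := by
  have hz : IsPrimitiveRoot (rootZeta K l : K) l :=
    IsPrimitiveRoot.coe_units_iff.mpr (isPrimitiveRoot_rootZeta l)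
  have h := congrArg (fun P : Polynomial K => (P : K⟦X⟧))
    (X_pow_sub_C_eq_prod hz (Nat.pos_of_ne_zero (NeZero.ne l)) (rootPoint_pow l b))
  simp only [Polynomial.coe_sub, Polynomial.coe_pow, Polynomial.coe_X, Polynomial.coe_C] at h
  rw [h, ← Polynomial.coeToPowerSeries.ringHom_apply, map_prod, splitSeries, rootPts,
    Multiset.map_map]
  show ((Multiset.range l).map _).prod = _
  rw [Finset.prod_eq_multiset_prod, Finset.range_val]
  refine congrArg Multiset.prod (Multiset.map_congr rfl fun i _ => ?_)
  simp

/-- The image of a multiset of disc points under the Hecke correspondence. -/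
def heckePts (s : Multiset (DiscPoint K)) : Multiset (DiscPoint K) :=
  s.map (powPoint l (NeZero.ne l)) + s.bind (rootPts l)

/-- The Hecke image of no points. -/
theorem heckePts_zero : heckePts l (0 : Multiset (DiscPoint K)) = 0 := by simp [heckePts]

/-- The Hecke image is additive. -/
theorem heckePts_add (s t : Multiset (DiscPoint K)) :
    heckePts l (s + t) = heckePts l s + heckePts l t := by
  simp only [heckePts, Multiset.map_add, Multiset.add_bind]
  abel

theorem heckePts_singleton (a : DiscPoint K) :
    heckePts l {a} = powPoint l (NeZero.ne l) a ::ₘ rootPts l a := by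
  simp [heckePts, Multiset.singleton_add]

theorem card_heckePts (s : Multiset (DiscPoint K)) :
    Multiset.card (heckePts l s) = (l + 1) * Multiset.card s := by
  rw [heckePts, Multiset.card_add, Multiset.card_map, Multiset.card_bind]
  simp [card_rootPts]
  ring

variable [IsUltrametricDist K] [CompleteSpace K]

open scoped Classical in
theorem count_rootPts (a b : DiscPoint K) :
    (rootPts l a).count b = if powPoint l (NeZero.ne l) b = a then
      (if b.val = 0 then l else 1) else 0 := by
  have hne : (⟨X - C a.val, X_sub_C_mem_boundedSeries a.val⟩ : boundedSeries K) ≠ 0 := fun h => by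
    simpa using congrArg (fun x : boundedSeries K => coeff 1 (x : K⟦X⟧)) h
  have he : (⟨splitSeries (rootPts l a), splitSeries_mem_boundedSeries _⟩ : boundedSeries K) =
      bddExpand l (NeZero.ne l) ⟨X - C a.val, X_sub_C_mem_boundedSeries a.val⟩ :=
    Subtype.ext (by rw [coe_bddExpand]; simp [splitSeries_rootPts, expand_C])
  rw [← ordB_splitSeries, he]
  by_cases hb : b.val = 0
  · obtain rfl : b = discZero K := DiscPoint.ext hb
    have hp : powPoint l (NeZero.ne l) (discZero K) = discZero K :=
      DiscPoint.ext (by simp [discZero, zero_pow (NeZero.ne l)])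
    rw [ordB_bddExpand_zero _ _ hne, hp, if_pos hb]
    split_ifs with h
    · subst h
      rw [ordB_X_sub_C_self, mul_one]
    · rw [ordB_X_sub_C_of_ne _ (fun hv => h (DiscPoint.ext hv.symm)), mul_zero]
  · rw [ordB_bddExpand _ _ (Nat.cast_ne_zero.mpr (NeZero.ne l)) hb hne, if_neg hb]
    split_ifs with h
    · subst h
      exact ordB_X_sub_C_self _
    · exact ordB_X_sub_C_of_ne _ (fun hv => h (DiscPoint.ext hv.symm))

end Roots

section Modular

variable {K : Type*} [NormedField K] [IsUltrametricDist K] [CompleteSpace K] [Algebra ℚ K]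
  [IsAlgClosed K] [CharZero K] {N ℓ : ℕ} [NeZero N] [NeZero ℓ]
variable (D : DiscData (laurentBaseChange K (modularFunctionFieldFull N)))

local notation "FK" => laurentBaseChange K (modularFunctionFieldFull N)

omit [Algebra ℚ K] [IsAlgClosed K] [CharZero K] in
theorem ordB_prod {ι : Type*} (a : DiscPoint K) (s : Finset ι) (g : ι → boundedSeries K)
    (hg : ∀ i ∈ s, g i ≠ 0) : ordB a (∏ i ∈ s, g i) = ∑ i ∈ s, ordB a (g i) := by
  classical
  induction s using Finset.induction with
  | empty => simp [ordB_one]
  | insert i s hi ih =>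
    have hg' : ∀ j ∈ s, g j ≠ 0 := fun j hj => hg j (Finset.mem_insert_of_mem hj)
    rw [Finset.prod_insert hi, Finset.sum_insert hi,
      ordB_mul a (hg i (Finset.mem_insert_self i s)) (Finset.prod_ne_zero_iff.mpr hg'), ih hg']

/-- The order of the Hecke transform of a function at a disc point. -/
theorem ord_heckeNorm_place (hℓ : ℓ.Prime) (hN : ¬ ℓ ∣ N) (b : DiscPoint K) {f : FK} (hf : f ≠ 0)
    (hg : Hecke.heckeNorm K N ℓ f ≠ 0) :
    (D.place b).ord (Hecke.heckeNorm K N ℓ f) =
      (D.place (powPoint ℓ (NeZero.ne ℓ) b)).ord f +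
        ((rootPts ℓ b).map fun r => (D.place r).ord f).sum := by
  obtain ⟨x, y, h⟩ := D.exists_rep f
  obtain ⟨x', y', h'⟩ := D.exists_rep (Hecke.heckeNorm K N ℓ f)
  have hx := h.ne_zero hf
  have hy := h.1
  have hx' := h'.ne_zero hg
  have hy' := h'.1
  have hl : ℓ ≠ 0 := NeZero.ne ℓ
  have hll : ℓ * ℓ ≠ 0 := Nat.mul_ne_zero hl hl
  set z := rootZeta K ℓ
  set R : boundedSeries K → boundedSeries K := fun r =>
    bddExpand (ℓ * ℓ) hll r * ∏ i ∈ Finset.range ℓ, bddRescale _ (norm_rootZeta_pow ℓ i) r with hR
  have hkey : bddExpand ℓ hl x' * R y = bddExpand ℓ hl y' * R x := by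
    have h1 := Hecke.qExpand_heckeNorm_of_degree hℓ hN (finrankAlong_alpha K N ℓ hℓ hN)
      (isPrimitiveRoot_rootZeta ℓ) f
    have hid : ∀ r : boundedSeries K, HahnSeries.ofPowerSeries ℤ K (R r : K⟦X⟧) =
        qExpand K (ℓ * ℓ) (HahnSeries.ofPowerSeries ℤ K (r : K⟦X⟧)) *
          ∏ i ∈ Finset.range ℓ,
            ModularFunctionField.twist (z ^ i) (HahnSeries.ofPowerSeries ℤ K (r : K⟦X⟧)) := by
      intro r
      simp only [hR, Subring.coe_mul, map_mul, qExpand_ofPowerSeries', coe_bddExpand,
        SubmonoidClass.coe_finsetProd, map_prod, twist_ofPowerSeries, coe_bddRescale,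
        Units.val_pow_eq_pow_val]
      rfl
    refine Subtype.ext (HahnSeries.ofPowerSeries_injective (Γ := ℤ) (R := K) ?_)
    simp only [Subring.coe_mul, map_mul, coe_bddExpand, ← qExpand_ofPowerSeries', hid, ← h.2,
      ← h'.2, h1, Finset.prod_mul_distrib]
    ring
  have hRne : ∀ r : boundedSeries K, r ≠ 0 → R r ≠ 0 := fun r hr =>
    mul_ne_zero (bddExpand_ne_zero _ _ hr) (Finset.prod_ne_zero_iff.mpr fun i _ =>
      bddRescale_ne_zero _ (pow_ne_zero _ (Units.ne_zero _)) hr)
  have hord : ∀ r : boundedSeries K, r ≠ 0 → ∀ c : DiscPoint K, c.val ^ ℓ = b.val →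
      ordB c (R r) = ordB c (bddExpand (ℓ * ℓ) hll r) +
        ∑ i ∈ Finset.range ℓ, ordB (mulPoint _ (norm_rootZeta_pow ℓ i) c) r := by
    intro r hr c _
    rw [ordB_mul c (bddExpand_ne_zero _ _ hr) (Finset.prod_ne_zero_iff.mpr fun i _ =>
      bddRescale_ne_zero _ (pow_ne_zero _ (Units.ne_zero _)) hr),
      ordB_prod c _ _ fun i _ => bddRescale_ne_zero _ (pow_ne_zero _ (Units.ne_zero _)) hr]
    congr 1
    exact Finset.sum_congr rfl fun i _ =>
      ordB_bddRescale _ (pow_ne_zero _ (Units.ne_zero _)) c hr
  have heq := congrArg (ordB (rootPoint ℓ b)) hkey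
  rw [ordB_mul _ (bddExpand_ne_zero _ _ hx') (hRne y hy),
    ordB_mul _ (bddExpand_ne_zero _ _ hy') (hRne x hx), hord y hy _ (rootPoint_pow ℓ b),
    hord x hx _ (rootPoint_pow ℓ b)] at heq
  simp only [D.place_ord_of_rep b hg h', D.place_ord_of_rep _ hf h, rootPts, Multiset.map_map]
  show _ = _ + ∑ i ∈ Finset.range ℓ, _
  simp only [Function.comp_apply]
  rw [Finset.sum_sub_distrib, ← Nat.cast_sum, ← Nat.cast_sum]
  by_cases hb : b.val = 0
  · obtain rfl : b = discZero K := DiscPoint.ext hb
    have hc : rootPoint ℓ (discZero K) = discZero K := DiscPoint.ext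
      (eq_zero_of_pow_eq_zero ((rootPoint_pow ℓ (discZero K)).trans hb))
    have hm : ∀ i, mulPoint _ (norm_rootZeta_pow ℓ i) (discZero K) = discZero K := fun i =>
      DiscPoint.ext (by simp [discZero])
    have hp : powPoint ℓ hl (discZero K) = discZero K :=
      DiscPoint.ext (by simp [discZero, zero_pow hl])
    rw [hc] at heq ⊢
    simp only [hm, hp, Finset.sum_const, Finset.card_range, smul_eq_mul] at heq ⊢
    rw [ordB_bddExpand_zero _ _ hx', ordB_bddExpand_zero _ _ hy', ordB_bddExpand_zero _ _ hx,
      ordB_bddExpand_zero _ _ hy] at heq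
    zify at heq
    refine mul_left_cancel₀ (Int.natCast_ne_zero.mpr hl) ?_
    push_cast
    linear_combination heq
  · have hc := rootPoint_ne_zero ℓ hb
    have hlK : (ℓ : K) ≠ 0 := Nat.cast_ne_zero.mpr hl
    have hllK : ((ℓ * ℓ : ℕ) : K) ≠ 0 := Nat.cast_ne_zero.mpr hll
    have e1 : powPoint ℓ hl (rootPoint ℓ b) = b := DiscPoint.ext (rootPoint_pow ℓ b)
    have e2 : powPoint (ℓ * ℓ) hll (rootPoint ℓ b) = powPoint ℓ hl b :=
      DiscPoint.ext (by simp [pow_mul, rootPoint_pow])
    rw [ordB_bddExpand _ _ hlK hc hx', ordB_bddExpand _ _ hlK hc hy', e1,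
      ordB_bddExpand _ _ hllK hc hx, ordB_bddExpand _ _ hllK hc hy, e2] at heq
    omega

variable [HasPrincipalDivisors K (laurentBaseChange K (modularFunctionFieldFull (N * ℓ)))]
variable (hα : HeckeAlphaBarIntegral K N ℓ) (hβ : HeckeBetaBarIntegral K N ℓ)

/-- The value of the Hecke correspondence at a disc point. -/
theorem heckeDivBar_apply_place (hℓ : ℓ.Prime) (hN : ¬ ℓ ∣ N) (E : Divisor K FK)
    (b : DiscPoint K) :
    heckeDivBar hα hβ E (D.place b) =
      E (D.place (powPoint ℓ (NeZero.ne ℓ) b)) +
        ((rootPts ℓ b).map fun r => E (D.place r)).sum := by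
  classical
  obtain ⟨S, hS⟩ := exists_local_correspondence (heckeBetaBar K N ℓ) (heckeAlphaBar K N ℓ) hβ hα
    (D.place b)
  obtain ⟨f, hf, hfo⟩ := exists_ord_on
    (S ∪ insert (D.place (powPoint ℓ (NeZero.ne ℓ) b))
      (((rootPts ℓ b).map fun r => D.place r).toFinset))
    fun v => E v
  have hfin := Hecke.finiteAlong_of_isFunctionField (heckeAlphaBar K N ℓ)
  have hNF := Hecke.normFormulaAlong (heckeAlphaBar K N ℓ) hfin
  have hg : Hecke.heckeNorm K N ℓ f ≠ 0 := by
    let := algebraAlong (heckeAlphaBar K N ℓ)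
    have : Module.Finite FK (laurentBaseChange K (modularFunctionFieldFull (N * ℓ))) := hfin
    exact Algebra.norm_ne_zero_iff.mpr
      ((map_ne_zero_iff _ (heckeBetaBar K N ℓ).toRingHom.injective).mpr hf)
  show Divisor.correspondence _ _ hβ hα E (D.place b) = _
  rw [hS E (divFun K f) fun u hu => by rw [divFun_apply, hfo u (Finset.mem_union_left _ hu)]]
  show heckeDivBar hα hβ (divFun K f) (D.place b) = _
  rw [Hecke.heckeDivBar_principal hα hβ hfin hNF hf (fun v => divFun_apply f v),
    ord_heckeNorm_place D hℓ hN b hf hg,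
    hfo _ (Finset.mem_union_right _ (Finset.mem_insert_self _ _))]
  congr 2
  refine Multiset.map_congr rfl fun r hr => hfo _ (Finset.mem_union_right _
    (Finset.mem_insert_of_mem ?_))
  rw [Multiset.mem_toFinset]
  exact Multiset.mem_map_of_mem _ hr

/-- `T (P_a) = P_{a ^ ℓ} + Σ_{r ^ ℓ = a} P_r`. -/
theorem heckeDivBar_single_place (hℓ : ℓ.Prime) (hN : ¬ ℓ ∣ N) (a : DiscPoint K) :
    heckeDivBar hα hβ (Finsupp.single (D.place a) 1) =
      ((heckePts ℓ {a}).map fun r => Finsupp.single (D.place r) (1 : ℤ)).sum := by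
  classical
  have hp : ∀ r r' : DiscPoint K, D.place r = D.place r' ↔ r = r' :=
    fun r r' => ⟨fun h => DiscPoint.ext (D.place_injective h), fun h => h ▸ rfl⟩
  set E := ((heckePts ℓ {a}).map fun r => Finsupp.single (D.place r) (1 : ℤ)).sum with hE
  have hEv : ∀ v, E v = (((heckePts ℓ {a}).map fun r => D.place r).count v : ℤ) := by
    intro v
    rw [hE]
    induction heckePts ℓ {a} using Multiset.induction with
    | empty => simp
    | cons r s ih =>
      rw [Multiset.map_cons, Multiset.sum_cons, Finsupp.add_apply, ih, Multiset.map_cons,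
        Multiset.count_cons, Finsupp.single_apply]
      simp only [eq_comm (a := v)]
      split_ifs <;> push_cast <;> omega
  have hdisc : ∀ b,
    heckeDivBar hα hβ (Finsupp.single (D.place a) 1) (D.place b) = E (D.place b) := by
    intro b
    have hinj : Function.Injective fun r : DiscPoint K => D.place r := fun r r' h => (hp r r').mp h
    rw [heckeDivBar_apply_place D hα hβ hℓ hN, hEv, Multiset.count_map_eq_count' _ _ hinj,
      heckePts_singleton, Multiset.count_cons, count_rootPts, Finsupp.single_apply]
    simp only [hp, eq_comm (a := a)]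
    have hsum : ((rootPts ℓ b).map fun r => (Finsupp.single (D.place a) (1 : ℤ)) (D.place r)).sum =
        ((rootPts ℓ b).count a : ℤ) := by
      induction rootPts ℓ b using Multiset.induction with
      | empty => simp
      | cons r s ih =>
        rw [Multiset.map_cons, Multiset.sum_cons, ih, Multiset.count_cons, Finsupp.single_apply]
        simp only [hp]
        split_ifs <;> push_cast <;> omega
    rw [hsum, count_rootPts]
    by_cases ha : a.val = 0
    · obtain rfl : a = discZero K := DiscPoint.ext ha
      have h0 : powPoint ℓ (NeZero.ne ℓ) (discZero K) = discZero K :=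
        DiscPoint.ext (by simp [discZero, zero_pow (NeZero.ne ℓ)])
      have hb : powPoint ℓ (NeZero.ne ℓ) b = discZero K ↔ b = discZero K :=
        ⟨fun h => DiscPoint.ext (eq_zero_of_pow_eq_zero (congrArg DiscPoint.val h)),
          fun h => h ▸ h0⟩
      simp only [h0, hb, ha, if_true]
      by_cases h : b = discZero K
      · subst h
        simp [discZero, add_comm]
      · simp [h, Ne.symm h]
    · by_cases hb : b.val = 0
      · obtain rfl : b = discZero K := DiscPoint.ext hb
        have h0 : powPoint ℓ (NeZero.ne ℓ) (discZero K) = discZero K :=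
          DiscPoint.ext (by simp [discZero, zero_pow (NeZero.ne ℓ)])
        have h1 : a ≠ discZero K := fun h => ha (congrArg DiscPoint.val h)
        have h2 : powPoint ℓ (NeZero.ne ℓ) a ≠ discZero K := fun h =>
          ha (eq_zero_of_pow_eq_zero (congrArg DiscPoint.val h))
        simp [h0, h1.symm, h2, h2.symm]
      · simp only [ha, hb, if_false]
        simp only [eq_comm (a := b)]
        split_ifs <;> norm_num
  have hnonneg : 0 ≤ heckeDivBar hα hβ (Finsupp.single (D.place a) 1) - E := by
    refine Finsupp.le_def.mpr fun v => ?_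
    rw [Finsupp.sub_apply, Finsupp.zero_apply, sub_nonneg]
    by_cases hv : ∃ b, v = D.place b
    · obtain ⟨b, rfl⟩ := hv
      exact (hdisc b).ge
    · rw [hEv, Multiset.count_eq_zero_of_notMem fun hm => by
        obtain ⟨r, -, hr⟩ := Multiset.mem_map.mp hm
        exact hv ⟨r, hr.symm⟩]
      exact (Specialization.scales_heckeDivBar hα hβ
        (Hecke.fundamentalIdentityAlong _ hβ)).nonneg _
        (Finsupp.single_nonneg.mpr zero_le_one) v
  refine sub_eq_zero.mp (CurveBaseChange.eq_zero_of_nonneg_of_degree hnonneg ?_)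
  have hdeg : Divisor.degree E = ℓ + 1 := by
    rw [hE, map_multiset_sum, Multiset.map_map]
    rw [Multiset.map_congr rfl (g := fun _ => (1 : ℤ)) fun r _ => by
      rw [Function.comp_apply, Divisor.degree_single, deg_eq_one]; simp]
    simp [card_heckePts, add_comm]
  have hdeg' : Divisor.degree (heckeDivBar hα hβ (Finsupp.single (D.place a) 1)) =
      finrankAlong K (heckeBetaBar K N ℓ) := by
    rw [heckeDivBar, Divisor.degree_correspondence _ _ hβ hα
      (Hecke.fundamentalIdentityAlong _ hβ), Divisor.degree_single, deg_eq_one]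
    simp
  have hle := finrankAlong_beta_le K N ℓ hℓ
  refine le_antisymm (by rw [map_sub, hdeg, hdeg']; omega) ?_
  rw [← map_zero (Divisor.degree (K := K) (F := FK))]
  exact degree_mono hnonneg

/-- The Hecke correspondence on divisors supported on the disc. -/
theorem heckeDivBar_discDiv (hℓ : ℓ.Prime) (hN : ¬ ℓ ∣ N) (s : Multiset (DiscPoint K)) :
    heckeDivBar hα hβ (D.discDiv s) = D.discDiv (heckePts ℓ s) := by
  induction s using Multiset.induction with
  | empty => simp [heckePts_zero, DiscData.discDiv]
  | cons a s ih =>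
    rw [← Multiset.singleton_add, D.discDiv_add, map_add, ih, heckePts_add, D.discDiv_add]
    congr 1
    have h0 : heckePts ℓ {discZero K} = Multiset.replicate (ℓ + 1) (discZero K) := by
      rw [Multiset.eq_replicate, card_heckePts]
      refine ⟨by simp, fun r hr => DiscPoint.ext ?_⟩
      rw [heckePts_singleton, Multiset.mem_cons] at hr
      rcases hr with rfl | hr
      · simp [discZero, zero_pow (NeZero.ne ℓ)]
      · obtain ⟨i, -, rfl⟩ := Multiset.mem_map.mp hr
        rw [mulPoint_val, eq_zero_of_pow_eq_zero ((rootPoint_pow ℓ (discZero K)).trans rfl :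
          (rootPoint ℓ (discZero K)).val ^ ℓ = 0), mul_zero]
        rfl
    simp only [DiscData.discDiv, Multiset.map_singleton, Multiset.sum_singleton, map_sub, map_zsmul,
      heckeDivBar_single_place D hα hβ hℓ hN, h0, card_heckePts, Multiset.card_singleton]
    rw [Multiset.map_replicate, Multiset.sum_replicate]
    simp only [Nat.cast_one, one_smul, mul_one, natCast_zsmul]

/-- The Hecke operator on classes supported on the disc. -/
theorem heckeOperatorAlong_discClass (hℓ : ℓ.Prime) (hN : ¬ ℓ ∣ N) (s : Multiset (DiscPoint K)) :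
    heckeOperatorAlong K N ℓ (D.discClass s) = D.discClass (heckePts ℓ s) := by
  have hα : HeckeAlphaBarIntegral K N ℓ := Hecke.isIntegral_of_isFunctionField _
  have hβ : HeckeBetaBarIntegral K N ℓ := Hecke.isIntegral_of_isFunctionField _
  have hfin := Hecke.finiteAlong_of_isFunctionField (heckeAlphaBar K N ℓ)
  rw [heckeOperatorAlong_eq hα hβ (Hecke.fundamentalIdentityAlong _ hβ) hfin
    (Hecke.normFormulaAlong _ hfin)]
  exact congrArg Pic0.mk (Subtype.ext (heckeDivBar_discDiv D hα hβ hℓ hN s))

end Modular

end Fermat.Agent.OrdinaryCurve
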