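import Fermat.Agent.OrdinaryCurve.Interface
import Fermat.Agent.OrdinaryCurve.DiscClass
import Fermat.Agent.OrdinaryCurve.HeckeDiscPlace
import Fermat.Agent.Hecke.Inputs

/-!
The disc at infinity of `X₀(N)` over a nonarchimedean field: `1 / j` is a parameter and every
modular function is a quotient of bounded series.
-/

set_option autoImplicit false

noncomputable section

open PowerSeries AlgebraicCurve ModularCurve Fermat.Agent.FunctionField

namespace Fermat.Agent.OrdinaryCurve

variable (K : Type*) [NormedField K] [IsUltrametricDist K]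

theorem map_intCast_mem_boundedSeries (r : PowerSeries ℤ) :
    r.map (Int.castRingHom K) ∈ boundedSeries K :=
  mem_boundedSeries_of_le_one fun l => by
    rw [coeff_map, eq_intCast]
    exact IsUltrametricDist.norm_intCast_le_one K _

/-- Laurent series that are quotients of bounded series. -/
def boundedQuot : Subfield (LaurentSeries K) where
  carrier := {f | ∃ x y : boundedSeries K, y ≠ 0 ∧
    f * HahnSeries.ofPowerSeries ℤ K (y : K⟦X⟧) = HahnSeries.ofPowerSeries ℤ K (x : K⟦X⟧)}
  zero_mem' := ⟨0, 1, one_ne_zero, by simp⟩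
  one_mem' := ⟨1, 1, one_ne_zero, by simp⟩
  add_mem' := by
    rintro f g ⟨x, y, hy, h⟩ ⟨x', y', hy', h'⟩
    refine ⟨x * y' + x' * y, y * y', mul_ne_zero hy hy', ?_⟩
    simp only [Subring.coe_mul, Subring.coe_add, map_mul, map_add]
    rw [← h, ← h']
    ring
  neg_mem' := by
    rintro f ⟨x, y, hy, h⟩
    exact ⟨-x, y, hy, by rw [Subring.coe_neg, map_neg, neg_mul, h]⟩
  mul_mem' := by
    rintro f g ⟨x, y, hy, h⟩ ⟨x', y', hy', h'⟩
    refine ⟨x * x', y * y', mul_ne_zero hy hy', ?_⟩
    simp only [Subring.coe_mul, map_mul]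
    rw [← h, ← h']
    ring
  inv_mem' := by
    rintro f ⟨x, y, hy, h⟩
    rcases eq_or_ne f 0 with rfl | hf
    · exact ⟨0, 1, one_ne_zero, by simp⟩
    refine ⟨y, x, ?_, ?_⟩
    · rintro rfl
      rw [ZeroMemClass.coe_zero, map_zero, mul_eq_zero, or_iff_right hf,
        ← map_zero (HahnSeries.ofPowerSeries ℤ K)] at h
      exact hy (Subtype.ext (HahnSeries.ofPowerSeries_injective h))
    · rw [← h, ← mul_assoc, inv_mul_cancel₀ hf, one_mul]

section Modular

variable [Algebra ℚ K]

omit [IsUltrametricDist K] in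
theorem coeffEmb_ofPowerSeries_int (r : PowerSeries ℤ) :
    coeffEmb K (HahnSeries.ofPowerSeries ℤ ℚ (r.map (Int.castRingHom ℚ))) =
      HahnSeries.ofPowerSeries ℤ K (r.map (Int.castRingHom K)) := by
  refine HahnSeries.ext ?_
  funext k
  rw [coeffEmb_coeff]
  rcases lt_or_ge k 0 with hk | hk
  · rw [ofPowerSeries_coeff_neg _ hk, ofPowerSeries_coeff_neg _ hk, map_zero]
  · lift k to ℕ using hk
    simp [HahnSeries.ofPowerSeries_apply_coeff]

omit [IsUltrametricDist K] in
theorem coeffEmb_jq_mul_X :
    coeffEmb K jq * HahnSeries.ofPowerSeries ℤ K X =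
      HahnSeries.ofPowerSeries ℤ K (jNum.map (Int.castRingHom K)) := by
  have h : jq * HahnSeries.ofPowerSeries ℤ ℚ X = HahnSeries.ofPowerSeries ℤ ℚ jNumQ := by
    rw [HahnSeries.ofPowerSeries_X, jq, mul_right_comm, HahnSeries.single_mul_single,
      show (-1 : ℤ) + 1 = 0 from rfl, mul_one, HahnSeries.single_zero_one, one_mul]
  have h' := congrArg (coeffEmb K) h
  rw [map_mul] at h'
  rwa [show (X : ℚ⟦X⟧) = (X : PowerSeries ℤ).map (Int.castRingHom ℚ) from (map_X _).symm,
    coeffEmb_ofPowerSeries_int, map_X, jNumQ, coeffEmb_ofPowerSeries_int] at h'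

omit [IsUltrametricDist K] in
theorem coeffEmb_qExpand_jq_mul (d : ℕ) [NeZero d] :
    coeffEmb K (qExpand ℚ d jq) * HahnSeries.ofPowerSeries ℤ K (expand d (NeZero.ne d) X) =
      HahnSeries.ofPowerSeries ℤ K (expand d (NeZero.ne d) (jNum.map (Int.castRingHom K))) := by
  rw [show coeffEmb K (qExpand ℚ d jq) = qExpand K d (coeffEmb K jq) by
      refine HahnSeries.ext ?_
      funext k
      rw [coeffEmb_coeff]
      by_cases hk : (d : ℤ) ∣ k
      · obtain ⟨m, rfl⟩ := hk
        rw [qExpand_coeff_mul, qExpand_coeff_mul, coeffEmb_coeff]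
      · rw [qExpand_coeff_of_not_dvd d _ hk, qExpand_coeff_of_not_dvd d _ hk, map_zero],
    ← qExpand_ofPowerSeries', ← qExpand_ofPowerSeries', ← map_mul, coeffEmb_jq_mul_X]

theorem laurentBaseChange_le_boundedQuot (N : ℕ) {f : LaurentSeries K}
    (hf : f ∈ laurentBaseChange K (modularFunctionFieldFull N)) : f ∈ boundedQuot K := by
  rw [mem_laurentBaseChange_iff] at hf
  refine Subfield.closure_le.mpr ?_ hf
  rintro _ (⟨c, rfl⟩ | ⟨z, hz, rfl⟩)
  · refine ⟨⟨C c, C_mem_boundedSeries c⟩, 1, one_ne_zero, ?_⟩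
    rw [OneMemClass.coe_one, map_one, mul_one, algebraMap_eq_C, HahnSeries.ofPowerSeries_C]
  · refine IntermediateField.adjoin_induction ℚ
      (p := fun w _ => coeffEmb K w ∈ boundedQuot K) ?_ ?_ ?_ ?_ ?_ hz
    · rintro _ ⟨d, hd, -, rfl⟩
      refine ⟨⟨_, expand_mem_boundedSeries d (NeZero.ne d) (map_intCast_mem_boundedSeries K jNum)⟩,
        ⟨_, expand_mem_boundedSeries d (NeZero.ne d) X_mem_boundedSeries⟩, ?_,
        coeffEmb_qExpand_jq_mul K d⟩
      intro h
      have h1 := congrArg (fun r : boundedSeries K => coeff d (r : K⟦X⟧)) h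
      simp only [ZeroMemClass.coe_zero, map_zero] at h1
      rw [show coeff d (expand d (NeZero.ne d) (X : K⟦X⟧)) =
        coeff (d * 1) (expand d (NeZero.ne d) (X : K⟦X⟧)) by rw [mul_one], coeff_expand_mul,
        coeff_one_X] at h1
      exact one_ne_zero h1
    · intro q
      rw [show coeffEmb K (algebraMap ℚ (LaurentSeries ℚ) q) = (q : LaurentSeries K) by
        rw [eq_ratCast, map_ratCast]]
      exact SubfieldClass.ratCast_mem _ q
    · intro a b _ _ ha hb
      rw [map_add]
      exact add_mem ha hb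
    · intro a _ ha
      rw [map_inv₀]
      exact inv_mem ha
    · intro a b _ _ ha hb
      rw [map_mul]
      exact mul_mem ha hb

/-- `1 / j` as a series. -/
def invJSeries : K⟦X⟧ := X * (jNum.invOfUnit 1).map (Int.castRingHom K)

omit [IsUltrametricDist K] in
/-- `invJSeries` is the inverse of `j`. -/
theorem invJSeries_mul :
    coeffEmb K jq * HahnSeries.ofPowerSeries ℤ K (invJSeries K) = 1 := by
  rw [invJSeries, map_mul, ← mul_assoc, coeffEmb_jq_mul_X, ← map_mul, ← map_mul,
    mul_invOfUnit _ _ (by rw [constantCoeff_jNum]; rfl), map_one, map_one]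

variable (N : ℕ)

/-- `1 / j` in the modular function field. -/
def invJ : laurentBaseChange K (modularFunctionFieldFull N) :=
  ⟨coeffEmb K jq, coeffEmb_mem_laurentBaseChange K (by
    simpa [qExpand_one_apply] using jqd_mem_full N (one_dvd N))⟩⁻¹

omit [IsUltrametricDist K] in
/-- The expansion of `1 / j`. -/
theorem coe_invJ : (invJ K N : LaurentSeries K) = HahnSeries.ofPowerSeries ℤ K (invJSeries K) := by
  rw [invJ, IntermediateField.coe_inv]
  exact inv_eq_of_mul_eq_one_right (invJSeries_mul K)

/-- The disc at infinity of the modular function field. -/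
def discDataModular : DiscData (laurentBaseChange K (modularFunctionFieldFull N)) where
  h := invJ K N
  hser := invJSeries K
  h_eq := coe_invJ K N
  h_zero := by rw [invJSeries, map_mul, constantCoeff_X, zero_mul]
  h_one := by
    rw [invJSeries, coeff_succ_X_mul, coeff_map, coeff_zero_eq_constantCoeff,
      constantCoeff_invOfUnit]
    simp
  h_le := fun l => by
    rw [invJSeries, show (X : K⟦X⟧) * (jNum.invOfUnit 1).map (Int.castRingHom K) =
      ((X : PowerSeries ℤ) * jNum.invOfUnit 1).map (Int.castRingHom K) by rw [map_mul, map_X],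
      coeff_map, eq_intCast]
    exact IsUltrametricDist.norm_intCast_le_one K _
  frac := fun f => laurentBaseChange_le_boundedQuot K N f.2

/-- The disc at infinity of `X₀(N)` over `ℂ_p`. -/
def discData (p : ℕ) [Fact p.Prime] (N : ℕ) [NeZero N] : DiscData (curveField p N) :=
  discDataModular ℂ_[p] N

end Modular

section Center

variable {K} [CompleteSpace K] {F : IntermediateField K (LaurentSeries K)} (D : DiscData F)

theorem eq_X_pow_ordB_mul {r : boundedSeries K} (hr : r ≠ 0) :
    ∃ s : K⟦X⟧, (r : K⟦X⟧) = X ^ ordB (discZero K) r * s ∧ constantCoeff s ≠ 0 := by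
  obtain ⟨s, hs, hs0⟩ := ordB_spec (discZero K) hr
  refine ⟨s, by simpa [discZero] using hs, fun h => hs0 ?_⟩
  show ∑' n, coeff n (s : K⟦X⟧) * (0 : K) ^ n = 0
  rw [tsum_eq_single 0 (fun n hn => by rw [zero_pow hn, mul_zero]), pow_zero, mul_one,
    coeff_zero_eq_constantCoeff]
  exact h

/-- The order at the centre of the disc is the order of the Laurent series. -/
theorem order_eq_ordF_discZero {f : F} (hf : f ≠ 0) :
    (f : LaurentSeries K).order = D.ordF (discZero K) f := by
  obtain ⟨x, y, h⟩ := D.exists_rep f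
  obtain ⟨sx, hx, hx0⟩ := eq_X_pow_ordB_mul (h.ne_zero hf)
  obtain ⟨sy, hy, hy0⟩ := eq_X_pow_ordB_mul h.1
  have hord : ∀ (k : ℕ) (s : K⟦X⟧), constantCoeff s ≠ 0 →
      (HahnSeries.ofPowerSeries ℤ K (X ^ k * s)).order = k := by
    intro k s hs
    have h0 : (HahnSeries.ofPowerSeries ℤ K s).coeff 0 = constantCoeff s := by
      simpa using HahnSeries.ofPowerSeries_apply_coeff (Γ := ℤ) s 0
    have hne : HahnSeries.ofPowerSeries ℤ K s ≠ 0 := fun h => hs (by rw [← h0, h]; rfl)
    have hs' : (HahnSeries.ofPowerSeries ℤ K s).order = 0 := by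
      refine le_antisymm (HahnSeries.order_le_of_coeff_ne_zero (by rwa [h0])) ?_
      by_contra hlt
      exact HahnSeries.coeff_order_eq_zero.not.mpr hne
        (ofPowerSeries_coeff_neg _ (not_le.mp hlt))
    rw [map_mul, HahnSeries.order_mul (by
      rw [HahnSeries.ofPowerSeries_X_pow]; exact HahnSeries.single_ne_zero one_ne_zero) hne,
      HahnSeries.ofPowerSeries_X_pow, HahnSeries.order_single one_ne_zero, hs', add_zero]
  have hf' : (f : LaurentSeries K) ≠ 0 := by simpa using hf
  have hy' : HahnSeries.ofPowerSeries ℤ K (y : K⟦X⟧) ≠ 0 := fun hh => h.1 (Subtype.ext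
    (HahnSeries.ofPowerSeries_injective (hh.trans (map_zero _).symm)))
  have h2 := congrArg HahnSeries.order h.2
  rw [HahnSeries.order_mul hf' hy', hx, hy, hord _ _ hx0, hord _ _ hy0] at h2
  rw [D.ordF_eq (discZero K) hf h]
  omega

variable [IsFunctionField K F]

/-- A function is regular at the centre of the disc iff its series has no pole. -/
theorem mem_place_discZero_iff (f : F) :
    f ∈ (D.place (discZero K)).toValuationSubring ↔
      ∀ i < 0, (f : LaurentSeries K).coeff i = 0 := by
  rw [D.mem_place_iff]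
  rcases eq_or_ne f 0 with rfl | hf
  · simp
  rw [or_iff_right hf, ← order_eq_ordF_discZero D hf]
  refine ⟨fun h i hi => HahnSeries.coeff_eq_zero_of_lt_order (hi.trans_le h), fun h => ?_⟩
  by_contra hlt
  exact HahnSeries.coeff_order_eq_zero.not.mpr (by simpa using hf) (h _ (not_le.mp hlt))

/-- Every other place has a pole of some function without pole at the centre. -/
theorem exists_noPole_of_ne {v : Place K F} (hv : v ≠ D.place (discZero K)) :
    ∃ x : F, (∀ i < 0, (x : LaurentSeries K).coeff i = 0) ∧ v.ord x < 0 := by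
  classical
  obtain ⟨x, hx, h⟩ := exists_ord_on {v, D.place (discZero K)}
    (fun w => if w = v then -1 else 0)
  refine ⟨x, (mem_place_discZero_iff D x).mp ?_, ?_⟩
  · rw [D.mem_place_iff]
    right
    rw [← D.place_ord _ x hx, h _ (by simp), if_neg (Ne.symm hv)]
  · rw [h v (by simp), if_pos rfl]
    decide

/-- Regular away from infinity in terms of the places other than the centre. -/
theorem forall_noPole_iff (b : F) :
    (∀ v : Place K F, (∃ x : F, (∀ i < 0, (x : LaurentSeries K).coeff i = 0) ∧ v.ord x < 0) →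
      b ∈ v.toValuationSubring) ↔
    ∀ v : Place K F, v ≠ D.place (discZero K) → b ∈ v.toValuationSubring := by
  refine ⟨fun h v hv => h v (exists_noPole_of_ne D hv), fun h v hv => h v ?_⟩
  rintro rfl
  obtain ⟨x, hx, hneg⟩ := hv
  rcases eq_or_ne x 0 with rfl | hx0
  · simp at hneg
  · have := (D.mem_place_iff (discZero K)).mp ((mem_place_discZero_iff D x).mpr hx)
    rw [or_iff_right hx0, ← D.place_ord _ x hx0] at this
    omega

end Center

section Padic

variable (p : ℕ) [Fact p.Prime] (N : ℕ) [NeZero N]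

/-- `RegularAway` in terms of the centre of the disc. -/
theorem regularAway_iff (b : curveField p N) :
    RegularAway p N b ↔ ∀ v : Place ℂ_[p] (curveField p N),
      v ≠ (discData p N).place (discZero ℂ_[p]) → b ∈ v.toValuationSubring :=
  forall_noPole_iff (discData p N) b

omit [NeZero N] in
/-- Membership in `regularRing`. -/
theorem coe_mem_regularRing_iff (b : curveField p N) :
    (b : LaurentSeries ℂ_[p]) ∈ regularRing p N ↔ RegularAway p N b :=
  ⟨fun ⟨c, hc, h⟩ => (Subtype.ext hc : c = b) ▸ h, fun h => ⟨b, rfl, h⟩⟩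

/-- Members of `regularRing` have no pole outside `∞`. -/
theorem ord_nonneg_of_mem_regularRing (b : curveField p N)
    (hb : (b : LaurentSeries ℂ_[p]) ∈ regularRing p N) (v : Place ℂ_[p] (curveField p N))
    (hv : v ≠ (discData p N).place (discZero ℂ_[p])) : 0 ≤ v.ord b := by
  rcases eq_or_ne b 0 with rfl | hb0
  · simp
  have h := (regularAway_iff p N b).mp ((coe_mem_regularRing_iff p N b).mp hb) v hv
  rw [mem_iff_adicValuation_le_one, v.adicValuation_le_one_iff, or_iff_right hb0] at h
  exact h

omit [NeZero N] in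
/-- `regularRing` lies in the function field. -/
theorem mem_curveField_of_mem_regularRing {x : LaurentSeries ℂ_[p]} (hx : x ∈ regularRing p N) :
    x ∈ curveField p N := by
  obtain ⟨b, rfl, -⟩ := hx
  exact b.2

end Padic

end Fermat.Agent.OrdinaryCurve
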