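import Fermat.Agent.OrdinaryCurve.ConstExt
import Fermat.Agent.OrdinaryCurve.CurveDisc
import Fermat.Agent.CurveBaseChange.Correspondence
import Fermat.Agent.CurveBaseChange.Reduction
import Fermat.Agent.CurveJacobian.Torsion
import Fermat.Agent.ModularFunctionField.Twist

/-!
# `J₀(N)(ℚ̄) → J₀(N)(ℂ_p)`: torsion, Galois and Hecke actions
-/

set_option autoImplicit false

noncomputable section

open AlgebraicCurve ModularCurve
open Fermat.Agent.CurveBaseChange (liftPlace liftDiv liftDegZero pic0Map)

namespace Fermat.Agent.OrdinaryCurve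

local notation "Qbar" => AlgebraicClosure ℚ

variable (p : ℕ) [hp : Fact p.Prime] (N : ℕ) [NeZero N]

/-- The place of the curve over `ℂ_p` over a place of the curve over `ℚ̄`. -/
def upPlace (v : Place Qbar (modularFunctionFieldBar N)) : Place ℂ_[p] (curveField p N) :=
  liftPlace ℂ_[p] (curveField p N) v

/-- Orders of functions at lifted places. -/
theorem ord_upPlace (v : Place Qbar (modularFunctionFieldBar N)) (f : modularFunctionFieldBar N) :
    (upPlace p N v).ord (algebraMap (modularFunctionFieldBar N) (curveField p N) f) = v.ord f :=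
  CurveBaseChange.ord_liftPlace v f

/-- A place over `v` is `upPlace v`. -/
theorem eq_upPlace_of_ord {v : Place Qbar (modularFunctionFieldBar N)}
    {v' : Place ℂ_[p] (curveField p N)}
    (h : ∀ f : modularFunctionFieldBar N,
      v'.ord (algebraMap (modularFunctionFieldBar N) (curveField p N) f) = v.ord f) :
    v' = upPlace p N v :=
  CurveBaseChange.eq_liftPlace_of_ord h

/-- The place of `ord_q` lifts to the centre of the disc. -/
theorem upPlace_eq_place_discZero {v : Place Qbar (modularFunctionFieldBar N)}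
    (hv : ∀ f : modularFunctionFieldBar N, v.ord f = (f : LaurentSeries Qbar).order) :
    upPlace p N v = (discData p N).place (discZero ℂ_[p]) := by
  refine (eq_upPlace_of_ord p N fun f => ?_).symm
  rcases eq_or_ne f 0 with rfl | hf
  · simp
  have hf' : algebraMap (modularFunctionFieldBar N) (curveField p N) f ≠ 0 := by simpa using hf
  rw [(discData p N).place_ord (discZero ℂ_[p]) _ hf', ← order_eq_ordF_discZero (discData p N) hf',
    hv, coe_algebraMap_bar]
  have hne : (f : LaurentSeries Qbar) ≠ 0 := by simpa using hf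
  have h0 : (coeffMap (complexEmb p) (f : LaurentSeries Qbar)).coeff
      (f : LaurentSeries Qbar).order ≠ 0 := by
    rw [coeffMap_coeff]
    exact (map_ne_zero _).mpr (HahnSeries.coeff_order_eq_zero.not.mpr hne)
  refine le_antisymm (HahnSeries.order_le_of_coeff_ne_zero h0) (le_of_not_gt fun hlt => ?_)
  refine HahnSeries.coeff_order_eq_zero.not.mpr (HahnSeries.ne_zero_of_coeff_ne_zero h0) ?_
  rw [coeffMap_coeff, HahnSeries.coeff_eq_zero_of_lt_order hlt, map_zero]

/-- `J₀(N)(ℚ̄) → J₀(N)(ℂ_p)`. -/
def upHom : JZero N →+ Pic0 ℂ_[p] (curveField p N) :=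
  pic0Map (k := Qbar) (F := modularFunctionFieldBar N) ℂ_[p] (curveField p N)

/-- The base change map on a divisor class. -/
theorem upHom_mk (D : Divisor.degZero (K := Qbar) (F := modularFunctionFieldBar N)) :
    upHom p N (Pic0.mk D) = Pic0.mk (liftDegZero ℂ_[p] (curveField p N) D) := rfl

/-- The base change map on `J₀(N)` is injective. -/
theorem upHom_injective : Function.Injective (upHom p N) :=
  CurveBaseChange.pic0Map_injective (k := Qbar) (F := modularFunctionFieldBar N)

theorem finite_torsion_curveField (n : ℕ) (hn : 0 < n) :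
    Finite (Pic0.torsion ℂ_[p] (curveField p N) n) := by
  refine Nat.finite_of_card_ne_zero ?_
  rw [CurveBaseChange.natCard_torsion_eq
    (fun F _ _ _ _ n hn => CurveJacobian.natCard_torsion F n hn) n hn]
  exact pow_ne_zero _ hn.ne'

/-- Every torsion point over `ℂ_p` comes from one over `ℚ̄`. -/
theorem exists_upHom_eq (n : ℕ) (hn : 0 < n) (y : Pic0 ℂ_[p] (curveField p N))
    (hy : n • y = 0) : ∃ x : JZero N, n • x = 0 ∧ upHom p N x = y := by
  have := finite_torsion_curveField p N n hn
  have hy' : y ∈ Pic0.torsion ℂ_[p] (curveField p N) n := by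
    rw [Pic0.mem_torsion, natCast_zsmul, hy]
  obtain ⟨x, hx⟩ := CurveBaseChange.torsionMap_surjective (k := Qbar)
    (F := modularFunctionFieldBar N) (L := ℂ_[p]) (F' := curveField p N) n ⟨y, hy'⟩
  have hxy : upHom p N (x : JZero N) = y := congrArg Subtype.val hx
  exact ⟨x, upHom_injective p N (by rw [map_nsmul, hxy, hy, map_zero]), hxy⟩

/-- The base change map commutes with the local Galois group. -/
theorem upHom_galois (g : PadicAlgCl p ≃ₐ[ℚ_[p]] PadicAlgCl p) (x : JZero N) :
    upHom p N (localGaloisToGlobal p g • x) = completeGalEquiv p g • upHom p N x := by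
  rw [galois_smul_pic0_def, galois_smul_pic0_def]
  refine CurveBaseChange.pic0Map_smul _ _
    (fun f => Subtype.ext (HahnSeries.ext (funext fun m => ?_))) x
  rw [coe_arithmeticGalois_smul, coe_algebraMap_bar, coe_algebraMap_bar,
    coe_arithmeticGalois_smul, coeffMap_coeff, coeffMap_coeff, coeffMap_coeff, coeffMap_coeff]
  exact completeGal_complexEmb p g _

/-- The base change map commutes with `T_l`. -/
theorem upHom_hecke_prime (l : ℕ) (hl : l.Prime) (x : JZero N) :
    upHom p N (heckeOperatorBar N ⟨l, hl⟩ x) =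
      (haveI : NeZero l := ⟨hl.ne_zero⟩; heckeOperatorAlong ℂ_[p] N l (upHom p N x)) := by
  have : NeZero l := ⟨hl.ne_zero⟩
  obtain ⟨hα, hβ, _, hfin, hFI, hN, e⟩ := Hecke.heckeOperatorAlong_eq_pic0 Qbar N l
  obtain ⟨hα', hβ', _, hfin', hFI', hN', e'⟩ := Hecke.heckeOperatorAlong_eq_pic0 ℂ_[p] N l
  rw [heckeOperatorBar_apply, e']
  show upHom p N (heckeOperatorAlong Qbar N l x) = _
  rw [e]
  refine CurveBaseChange.pic0Map_correspondence _ _ _ _ (fun f => Subtype.ext ?_)
    (fun f => Subtype.ext ?_) hβ hα hβ' hα' hFI hfin hN hFI' hfin' hN' x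
  · rw [coe_heckeBetaBar, coe_algebraMap_bar, coe_algebraMap_bar, coe_heckeBetaBar,
      ModularFunctionField.coeffMap_qExpand']
  · rw [coe_heckeAlphaBar, coe_algebraMap_bar, coe_algebraMap_bar, coe_heckeAlphaBar]

/-- The comparison of `J₀(N)` over `ℚ̄` and over `ℂ_p`. -/
def torsionBridge : TorsionBridge p N where
  up := upHom p N
  injective := upHom_injective p N
  surj r y hy := exists_upHom_eq p N (p ^ r) (pow_pos hp.out.pos r) y hy
  galois := upHom_galois p N
  hecke l hl _ x := upHom_hecke_prime p N l hl x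

/-- Torsion of `J₀(N)` over `ℚ̄` and over `ℂ_p` agree, with Galois and Hecke actions. -/
theorem nonempty_torsionBridge : Nonempty (TorsionBridge p N) := ⟨torsionBridge p N⟩

end Fermat.Agent.OrdinaryCurve
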