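import Fermat.Agent.OrdinaryCurve.ConstantTerm
import Fermat.Agent.KummerDivisor.ModularFibre
import Fermat.Prelude.Def_FLTPrelim_Modularity

/-!
# Functions on `X₀(N)` regular away from `∞` are orthogonal to cusp forms

For `b = ∑ bₙ qⁿ` in the function field of `X₀(N)` over `ℚ̄` with no pole outside `∞` and a weight
two cusp form `f = ∑ aₙ qⁿ`, the constant term `∑ b₋ₙ aₙ` of `b f` is zero: the trace of `b f` to
level one is invariant of weight two.
-/

set_option autoImplicit false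

noncomputable section

open Filter Topology UpperHalfPlane CongruenceSubgroup AlgebraicCurve ModularCurve
open Fermat.Agent.KummerDivisor
open scoped MatrixGroups Manifold ModularForm

namespace Fermat.Agent.OrdinaryCurve

local notation "Qbar" => AlgebraicClosure ℚ
local notation "𝕢" => Function.Periodic.qParam

section Analytic

open ModularFunctionField

variable {L : ℕ} [NeZero L] {u c a : ℍ → ℂ} {C A : LaurentSeries ℂ}

theorem tendsto_zero_of_mul_eq (h : ∀ᶠ τ in atImInfty, u τ * c τ = a τ)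
    (hc : HasExp L c C) (ha : HasExp L a A) (hC : C ≠ 0)
    (hA : ∀ i ≤ C.order, A.coeff i = 0) : Tendsto u atImInfty (𝓝 0) := by
  set k := C.order
  have hk : C.coeff k ≠ 0 := HahnSeries.coeff_order_eq_zero.not.mpr hC
  have hc1 := ((HasExp.single L (-k) 1).mul hc).tendsto (NeZero.ne L) fun i hi => by
    rw [HahnSeries.coeff_single_mul, one_mul, sub_neg_eq_add]
    exact HahnSeries.coeff_eq_zero_of_lt_order (by omega)
  have ha1 := ((HasExp.single L (-k) 1).mul ha).tendsto (NeZero.ne L) fun i hi => by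
    rw [HahnSeries.coeff_single_mul, one_mul, sub_neg_eq_add]
    exact hA _ (by omega)
  rw [HahnSeries.coeff_single_mul, one_mul, sub_neg_eq_add, zero_add] at hc1 ha1
  rw [hA k le_rfl] at ha1
  have h2 := ha1.div hc1 hk
  rw [zero_div] at h2
  refine h2.congr' ?_
  filter_upwards [h, hc1.eventually_ne hk] with τ hτ hne
  simp only [Pi.div_apply]
  rw [← hτ, div_eq_iff hne]
  ring

/-- A quotient of holomorphic functions whose denominator vanishes no more than the numerator
is holomorphic. -/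
theorem exists_mdiff_mul_eq {a c : ℍ → ℂ} (ha : MDiff a) (hc : MDiff c)
    (hne : ∀ τ, ordAt τ c ≠ ⊤) (hle : ∀ τ, ordAt τ c ≤ ordAt τ a) :
    ∃ g : ℍ → ℂ, MDiff g ∧ ∀ τ, g τ * c τ = a τ := by
  set A := a ∘ UpperHalfPlane.ofComplex with hA
  set C := c ∘ UpperHalfPlane.ofComplex with hC
  have hloc : ∀ z : ℂ, 0 < z.im → ∃ h : ℂ → ℂ, AnalyticAt ℂ h z ∧
      (∀ᶠ w in 𝓝 z, A w = h w * C w) ∧ ∀ᶠ w in 𝓝[≠] z, C w ≠ 0 := by
    intro z hz
    set τ : ℍ := ⟨z, hz⟩
    have hAz : AnalyticAt ℂ A z := analyticAt_comp_ofComplex ha τ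
    have hCz : AnalyticAt ℂ C z := analyticAt_comp_ofComplex hc τ
    have hCtop : analyticOrderAt C z ≠ ⊤ := hne τ
    obtain ⟨c', hc', hc'0, hCeq⟩ := hCz.analyticOrderAt_ne_top.mp hCtop
    have hCne : ∀ᶠ w in 𝓝[≠] z, C w ≠ 0 :=
      (hCz.eventually_eq_zero_or_eventually_ne_zero).resolve_left
        fun h => hCtop (analyticOrderAt_eq_top.mpr h)
    cases hn : analyticOrderAt A z using ENat.recTopCoe with
    | top =>
      refine ⟨0, analyticAt_const, ?_, hCne⟩
      filter_upwards [analyticOrderAt_eq_top.mp hn] with w hw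
      simp [hw]
    | coe n =>
      obtain ⟨a', ha', -, hAeq⟩ := (hAz.analyticOrderAt_eq_natCast).mp hn
      have hmn : analyticOrderNatAt C z ≤ n := by
        have h1 : analyticOrderAt C z ≤ analyticOrderAt A z := hle τ
        rw [hn, ← Nat.cast_analyticOrderNatAt hCtop] at h1
        exact_mod_cast h1
      refine ⟨fun w => (w - z) ^ (n - analyticOrderNatAt C z) * a' w / c' w, ?_, ?_, hCne⟩
      · exact ((analyticAt_id.sub analyticAt_const).pow _ |>.mul ha').div hc' hc'0
      · filter_upwards [hAeq, hCeq, hc'.continuousAt.eventually_ne hc'0] with w h1 h2 h3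
        rw [h1, h2, smul_eq_mul, smul_eq_mul, ← pow_mul_pow_sub (w - z) hmn]
        field_simp
  set G : ℂ → ℂ := fun z => limUnder (𝓝[≠] z) fun w => A w / C w with hG
  have hGloc : ∀ z : ℂ, 0 < z.im → AnalyticAt ℂ G z ∧ G z * C z = A z := by
    intro z hz
    obtain ⟨h, hh, heq, hCne⟩ := hloc z hz
    have hval : ∀ᶠ w in 𝓝 z, G w = h w := by
      have h1 := eventually_nhdsWithin_iff.mp hCne
      filter_upwards [heq.eventually_nhds, h1.eventually_nhds, hh.eventually_analyticAt]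
        with w hw hw' hwan
      refine Tendsto.limUnder_eq ?_
      refine (hwan.continuousAt.tendsto.mono_left nhdsWithin_le_nhds).congr' ?_
      have h2 : ∀ᶠ x in 𝓝[≠] w, x ≠ z := by
        rcases eq_or_ne w z with rfl | hne'
        · exact self_mem_nhdsWithin
        · exact Eventually.filter_mono nhdsWithin_le_nhds (eventually_ne_nhds hne')
      filter_upwards [h2, Eventually.filter_mono nhdsWithin_le_nhds hw,
        Eventually.filter_mono nhdsWithin_le_nhds hw'] with x hx h3 h4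
      rw [h3, mul_div_assoc, div_self (h4 hx), mul_one]
    refine ⟨hh.congr (hval.mono fun w hw => hw.symm), ?_⟩
    rw [hval.self_of_nhds, heq.self_of_nhds]
  refine ⟨fun τ => G (τ : ℂ), ?_, fun τ => ?_⟩
  · rw [UpperHalfPlane.mdifferentiable_iff]
    refine DifferentiableOn.congr (f := G)
      (fun z hz => (hGloc z hz).1.differentiableAt.differentiableWithinAt) fun z hz => ?_
    simp [ofComplex_apply_of_im_pos hz]
  · have := (hGloc τ τ.im_pos).2
    simpa [hA, hC] using this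

end Analytic

variable (N : ℕ) [NeZero N] (ι : Qbar →+* ℂ)

local notation "A₀" => KummerES.weak (Gamma0 N) N (RingHom.range ι)
local notation "A₁" => KummerES.weak (Gamma N) N (RingHom.range ι)
local notation "𝔽" => modularFunctionFieldBar N

theorem jqModC_order : (jqModC Qbar).order = -1 :=
  le_antisymm (HahnSeries.order_le_of_coeff_ne_zero
    (by rw [ModularCurve.coeff_jqModC_neg_one]; exact one_ne_zero))
    ((HahnSeries.le_order_iff_forall fun h => by
      simpa [h] using ModularCurve.coeff_jqModC_neg_one Qbar).mpr fun i hi => by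
      rw [← pow_one (jqModC Qbar)]
      exact ModularCurve.coeff_jqModC_pow_of_lt Qbar (by simpa using hi))

omit [NeZero N] in
/-- A place containing an element with a pole at `∞` misses a function regular at `∞`. -/
theorem exists_ord_neg_of_mem (v : Place Qbar 𝔽) {J : 𝔽} (hJv : J ∈ v.toValuationSubring)
    (hJ : (J : LaurentSeries Qbar).order < 0) :
    ∃ x : 𝔽, (∀ i < 0, (x : LaurentSeries Qbar).coeff i = 0) ∧ v.ord x < 0 := by
  obtain ⟨π, hπ0, hπ⟩ := FFPlaces.exists_uniformizer v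
  set y := π⁻¹
  have hy : v.ord y < 0 := by rw [v.ord_inv, hπ]; omega
  have hy0 : y ≠ 0 := inv_ne_zero hπ0
  have hJ0 : J ≠ 0 := fun h => by simp [h] at hJ
  set n : ℕ := (-(y : LaurentSeries Qbar).order).toNat
  refine ⟨y * (J⁻¹) ^ n, fun i hi => ?_, ?_⟩
  · refine HahnSeries.coeff_eq_zero_of_lt_order (lt_of_lt_of_le hi ?_)
    have hyL : (y : LaurentSeries Qbar) ≠ 0 := fun h => hy0 (Subtype.ext h)
    have hJL : (J : LaurentSeries Qbar) ≠ 0 := fun h => hJ0 (Subtype.ext h)
    push_cast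
    rw [HahnSeries.order_mul hyL (pow_ne_zero _ (inv_ne_zero hJL)),
      HahnSeries.order_pow, nsmul_eq_mul]
    have h1 : (J : LaurentSeries Qbar)⁻¹.order = -(J : LaurentSeries Qbar).order := by
      have := HahnSeries.order_mul hJL (inv_ne_zero hJL)
      rw [mul_inv_cancel₀ hJL, HahnSeries.order_one] at this
      omega
    rw [h1]
    have h2 : (n : ℤ) ≥ -(y : LaurentSeries Qbar).order := Int.self_le_toNat _
    have h3 := mul_le_mul_of_nonneg_left (show (1 : ℤ) ≤ -(J : LaurentSeries Qbar).order by omega)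
      (Int.natCast_nonneg n)
    linarith
  · rw [v.ord_mul hy0 (pow_ne_zero _ (inv_ne_zero hJ0)), FFPlaces.ord_pow, v.ord_inv J]
    have := mul_nonneg (Int.natCast_nonneg n) ((FFPlaces.mem_iff v).mp hJv)
    linarith

variable {N}

/-- No pole outside `∞`. -/
def InftyRegular (b : modularFunctionFieldBar N) : Prop :=
  ∀ v : Place Qbar (modularFunctionFieldBar N),
    (∃ x : modularFunctionFieldBar N,
      (∀ i < 0, (x : LaurentSeries Qbar).coeff i = 0) ∧ v.ord x < 0) → 0 ≤ v.ord b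

/-- A valuation of the functions of level `N` which is nonnegative on constants and on some
function with a pole at `∞` bounds numerator by denominator. -/
theorem le_of_inftyRegular [Fintype (SL(2, ℤ) ⧸ Gamma0 N)] {b : 𝔽} (hreg : InftyRegular b)
    (V : AddValuation A₁ (WithTop ℤ)) (hV : ∀ a, V a = ⊤ → a = 0)
    (hconst : ∀ z : Qbar, 0 ≤ V (inclHom N ι ⟨fun _ => ι z, KummerES.const_mem_weak ⟨z, rfl⟩⟩))
    (q : SL(2, ℤ) ⧸ Gamma0 N)
    {J : 𝔽} (hJ : J ∈ (conjData N ι).ring V hV q) (hJneg : (J : LaurentSeries Qbar).order < 0)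
    {a c : A₀} (hc : c ≠ 0)
    (hb : b = ModularAnalytic.toField N N ι a / ModularAnalytic.toField N N ι c) :
    V (conjHom N ι q c) ≤ V (conjHom N ι q a) := by
  set D := conjData N ι
  rcases eq_or_ne a 0 with rfl | ha
  · rw [map_zero (conjHom N ι q), AddValuation.map_zero]; exact le_top
  have hb0 : b ≠ 0 := by
    rw [hb]; exact div_ne_zero (D.e_ne_zero ha) (D.e_ne_zero hc)
  have hbmem : b ∈ D.ring V hV q := by
    by_cases htop : D.ring V hV q = ⊤
    · rw [htop]; exact ValuationSubring.mem_top _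
    have hK : ∀ z : Qbar, algebraMap Qbar 𝔽 z ∈ D.ring V hV q := by
      intro z
      rcases eq_or_ne z 0 with rfl | hz
      · rw [map_zero]; exact zero_mem _
      set cz : A₀ := ⟨fun _ => ι z, KummerES.const_mem_weak ⟨z, rfl⟩⟩
      have hcz : cz ≠ 0 := fun h => hz (ι.injective (by
        rw [map_zero]; exact congrFun (congrArg Subtype.val h) UpperHalfPlane.I))
      refine Or.inr ?_
      rw [← toField_const N ι z]
      show 0 ≤ D.valF V hV q (D.e cz)
      rw [D.valF_e V hV q hcz]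
      have h1 : conjHom N ι q cz = inclHom N ι cz := Subtype.ext (funext fun τ => rfl)
      have h2 : (0 : WithTop ℤ) ≤ (D.val V hV q cz : WithTop ℤ) := by
        rw [D.coe_val V hV q hcz]
        show 0 ≤ V (conjHom N ι q cz)
        rw [h1]
        exact hconst z
      exact_mod_cast h2
    set v := FunctionField.placeOfValuationSubring (D.ring V hV q) hK htop
    have h1 := hreg v (exists_ord_neg_of_mem N v hJ hJneg)
    exact (FFPlaces.mem_iff v).mpr h1
  have h2 := ((D.mem_ring V hV).mp hbmem).resolve_left hb0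
  rw [hb] at h2
  change 0 ≤ D.valF V hV q (D.e a / D.e c) at h2
  rw [D.valF_div V hV q ha hc] at h2
  show V (D.conj q c) ≤ V (D.conj q a)
  rw [← D.coe_val V hV q ha, ← D.coe_val V hV q hc, WithTop.coe_le_coe]
  omega

theorem act_top_a_ne {δ : SL(2, ℤ)} (hδ : δ ∉ Gamma0 N) :
    (ModularFunctionField.Tri.act δ (ModularFunctionField.Tri.top : ModularFunctionField.Tri N)).a
      ≠ N := by
  intro ha
  refine hδ ?_
  obtain ⟨-, h2, -, -⟩ :=
    ((ModularFunctionField.Tri.top :
      ModularFunctionField.Tri N).exists_smul δ).choose_spec.choose_spec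
  change (ModularFunctionField.Tri.actMatrix δ
      (ModularFunctionField.Tri.top : ModularFunctionField.Tri N)).1 1 0 *
      ((ModularFunctionField.Tri.act δ
        (ModularFunctionField.Tri.top : ModularFunctionField.Tri N)).a : ℤ) =
    ((ModularFunctionField.Tri.top : ModularFunctionField.Tri N).d : ℤ) * δ.1 1 0 at h2
  generalize (ModularFunctionField.Tri.actMatrix δ
    (ModularFunctionField.Tri.top : ModularFunctionField.Tri N)).1 1 0 = e at h2
  rw [ha, ModularAnalytic.top_d, Nat.cast_one, one_mul] at h2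
  rw [Gamma0_mem, ← h2]
  simp

omit [NeZero N] in
theorem out_inv_mem_iff (q : SL(2, ℤ) ⧸ Gamma0 N) :
    q.out⁻¹ ∈ Gamma0 N ↔ q = ((1 : SL(2, ℤ)) : SL(2, ℤ) ⧸ Gamma0 N) := by
  conv_rhs => rw [← QuotientGroup.out_eq' q, QuotientGroup.eq, mul_one]

omit [NeZero N] in
/-- A nonzero function of the weak level has a finite order at every point. -/
theorem ordAt_ne_top {c : A₀} (hc : c ≠ 0) (τ : ℍ) : ordAt τ c.1 ≠ ⊤ :=
  fun h => hc (Subtype.ext (funext fun z => eq_zero_of_ordAt_eq_top c.2.1 h z))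

/-- On the upper half plane the denominator of a function regular away from `∞` vanishes no more
than its numerator. -/
theorem ordAt_le_of_inftyRegular [Fintype (SL(2, ℤ) ⧸ Gamma0 N)] {b : 𝔽}
    (hreg : InftyRegular b) {a c : A₀} (hc : c ≠ 0)
    (hb : b = ModularAnalytic.toField N N ι a / ModularAnalytic.toField N N ι c) (τ : ℍ) :
    ordAt τ c.1 ≤ ordAt τ a.1 := by
  set e := ModularAnalytic.toField N N ι with he
  set D := conjData N ι
  have hJmem : e (jW N ι) ∈ D.ring (pointVal N ι τ) (fun _ => pointVal_eq_top N ι)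
      ((1 : SL(2, ℤ)) : SL(2, ℤ) ⧸ Gamma0 N) := by
    rcases eq_or_ne (jW N ι) 0 with h | h
    · rw [h, map_zero]; exact zero_mem _
    refine Or.inr ?_
    show 0 ≤ D.valF _ _ _ (D.e (jW N ι))
    rw [D.valF_e _ _ _ h, ← WithTop.coe_le_coe, D.coe_val _ _ _ h, pointVal_apply]
    exact ENat.map_natCast_nonneg
  have hJneg : ((e (jW N ι) : 𝔽) : LaurentSeries Qbar).order < 0 := by
    rw [he, coe_toField_jW, jqModC_order]; omega
  have := le_of_inftyRegular ι hreg (pointVal N ι τ) (fun _ => pointVal_eq_top N ι)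
    (fun z => by rw [pointVal_apply]; exact ENat.map_natCast_nonneg)
    ((1 : SL(2, ℤ)) : SL(2, ℤ) ⧸ Gamma0 N) hJmem hJneg hc hb
  rw [conjHom_base, pointVal_apply, pointVal_apply] at this
  exact ENat.map_natCast_strictMono.le_iff_le.mp this

omit [NeZero N] in
/-- A holomorphic quotient of two `Γ₀(N)`-invariant functions is `Γ₀(N)`-invariant. -/
theorem comp_eq_self_of_mul_eq {a c : A₀} (hc : c ≠ 0) {g : ℍ → ℂ} (hg : MDiff g)
    (hgc : ∀ τ, g τ * c.1 τ = a.1 τ) {γ : SL(2, ℤ)} (hγ : γ ∈ Gamma0 N) :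
    KummerES.comp g γ = g := by
  have hd : MDiff (fun τ => KummerES.comp g γ τ - g τ) := (KummerES.mdiff_comp hg γ).sub hg
  have h0 : ∀ τ, (KummerES.comp g γ τ - g τ) * c.1 τ = 0 := fun τ => by
    have h1 := hgc (γ • τ)
    rw [show c.1 (γ • τ) = c.1 τ from congrFun (c.2.2.1 γ hγ) τ,
      show a.1 (γ • τ) = a.1 τ from congrFun (a.2.2.1 γ hγ) τ] at h1
    rw [sub_mul, KummerES.comp_apply, h1, hgc, sub_self]
  funext τ
  have h1 := ordAt_mul hd c.2.1 τ
  rw [show (fun τ => KummerES.comp g γ τ - g τ) * c.1 = (fun _ => (0 : ℂ)) from funext h0] at h1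
  have htop : ordAt τ (fun _ : ℍ => (0 : ℂ)) = ⊤ := by
    rw [ordAt, analyticOrderAt_eq_top]; exact Eventually.of_forall fun _ => rfl
  rw [htop, eq_comm, ENat.add_eq_top] at h1
  exact sub_eq_zero.mp (eq_zero_of_ordAt_eq_top hd (h1.resolve_right (ordAt_ne_top ι hc τ)) τ)

omit [NeZero N] in
/-- Right translates by representatives of the same coset of a `Γ₀(N)`-invariant function
agree. -/
theorem slash_eq_of_mul_inv_mem {k : ℤ} {F : ℍ → ℂ} (hF : ∀ γ ∈ Gamma0 N, F ∣[k] γ = F)
    {δ δ' : SL(2, ℤ)} (hm : δ * δ'⁻¹ ∈ Gamma0 N) : F ∣[k] δ = F ∣[k] δ' := by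
  conv_lhs => rw [show δ = (δ * δ'⁻¹) * δ' by group, SlashAction.slash_mul, hF _ hm]

omit [NeZero N] in
/-- The trace to level one is invariant under `SL(2, ℤ)`. -/
theorem slash_trace [Fintype (SL(2, ℤ) ⧸ Gamma0 N)] {k : ℤ} {F : ℍ → ℂ}
    (hF : ∀ γ ∈ Gamma0 N, F ∣[k] γ = F) (γ : SL(2, ℤ)) :
    (∑ q : SL(2, ℤ) ⧸ Gamma0 N, F ∣[k] q.out⁻¹) ∣[k] γ =
      ∑ q : SL(2, ℤ) ⧸ Gamma0 N, F ∣[k] q.out⁻¹ := by
  rw [SlashAction.sum_slash]
  refine Fintype.sum_equiv (MulAction.toPerm γ⁻¹) _ _ fun q => ?_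
  rw [← SlashAction.slash_mul]
  refine slash_eq_of_mul_inv_mem hF ?_
  simp only [MulAction.toPerm_apply, inv_inv]
  have h1 : (QuotientGroup.mk (γ⁻¹ * q.out) : SL(2, ℤ) ⧸ Gamma0 N) =
      QuotientGroup.mk (γ⁻¹ • q).out := by
    rw [QuotientGroup.out_eq']
    show γ⁻¹ • (QuotientGroup.mk q.out : SL(2, ℤ) ⧸ Gamma0 N) = _
    rw [QuotientGroup.out_eq']
  rw [QuotientGroup.eq] at h1
  simpa [mul_inv_rev] using h1

omit [NeZero N] in
theorem slash_mul_eq_comp_mul_slash (g F : ℍ → ℂ) (δ : SL(2, ℤ)) :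
    (g * F) ∣[(2 : ℤ)] δ = KummerES.comp g δ * (F ∣[(2 : ℤ)] δ) := by
  funext τ
  simp only [ModularForm.SL_slash_apply, Pi.mul_apply, KummerES.comp_apply]
  ring

open ModularFunctionField (Tri) in
/-- The pole of `j (N τ)` at the cusp `δ ∞`. -/
theorem orderTop_expansion_jN (δ : SL(2, ℤ)) :
    (KummerES.expansion N (KummerES.comp (ModularAnalytic.jN N) δ)).orderTop =
      ((-(((Tri.act δ (Tri.top : Tri N)).a * (Tri.act δ (Tri.top : Tri N)).a : ℕ) : ℤ) : ℤ) :
        WithTop ℤ) := by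
  set T := Tri.act δ (Tri.top : Tri N)
  have h1 : KummerES.HasExp N (KummerES.comp (ModularAnalytic.jN N) δ)
      (ModularAnalytic.jTriSeries T) :=
    ModularAnalytic.kummer_of_hasExp
      (KummerES.mdiff_comp (ModularAnalytic.mdiff_jN N) δ)
      ((ModularAnalytic.hasExp_jTri T).congr fun τ => (ModularAnalytic.jN_smul N δ τ).symm)
  rw [h1.expansion_eq]
  refine le_antisymm (HahnSeries.orderTop_le_of_coeff_ne_zero
    (ModularAnalytic.coeff_jTriSeries_ne_zero T)) ?_
  rw [HahnSeries.le_orderTop_iff_forall]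
  exact fun i hi => ModularAnalytic.coeff_jTriSeries_of_lt T (WithTop.coe_lt_coe.mp hi)

/-- The pole of `j` at every cusp. -/
theorem cuspVal_conjHom_jW [Fintype (SL(2, ℤ) ⧸ Gamma0 N)] (q : SL(2, ℤ) ⧸ Gamma0 N) :
    cuspVal N ι (conjHom N ι q (jW N ι)) = ((-(N : ℤ) : ℤ) : WithTop ℤ) := by
  rw [show conjHom N ι q (jW N ι) = inclHom N ι (jW N ι) from
    (conjData N ι).conj_inv _ (jW_mem N ι) q, cuspVal_apply]
  obtain ⟨P, -, hPF, hPE⟩ := invariant_eq_polynomial N ι (jW_mem N ι)
  show (KummerES.expansion N (jW N ι).1).orderTop = _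
  have h2 := orderTop_eval₂_jT N (P := Polynomial.X) Polynomial.X_ne_zero
  rw [Polynomial.eval₂_X, Polynomial.natDegree_X, mul_one] at h2
  rw [← h2, ← ModularAnalytic.qExpand_coeffMap_toField N N ι, coe_toField_jW,
    ModularFunctionField.coeffMap_jqC]
  rfl

/-- `j (N τ) / j (τ) ^ (N - 1)` has a pole at `∞`. -/
theorem order_qExpand_jqModC_div_neg :
    (qExpand Qbar N (jqModC Qbar) * (jqModC Qbar ^ (N - 1))⁻¹).order < 0 := by
  have hq0 : (jqModC Qbar) ≠ 0 := fun h0 => by
    simpa [h0] using ModularCurve.coeff_jqModC_neg_one Qbar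
  have hqN0 : qExpand Qbar N (jqModC Qbar) ≠ 0 := (map_ne_zero_iff _
    (qExpand_injective N)).mpr hq0
  have hordN : (qExpand Qbar N (jqModC Qbar)).order = -(N : ℤ) := by
    refine le_antisymm (HahnSeries.order_le_of_coeff_ne_zero ?_)
      ((HahnSeries.le_order_iff_forall hqN0).mpr fun i hi => ?_)
    · rw [show -(N : ℤ) = (N : ℤ) * (-1) by ring, qExpand_coeff_mul,
        ModularCurve.coeff_jqModC_neg_one]
      exact one_ne_zero
    · by_cases hdvd : (N : ℤ) ∣ i
      · obtain ⟨m, rfl⟩ := hdvd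
        have : m < -1 := by
          have hN0 : (0 : ℤ) < N := by exact_mod_cast Nat.pos_of_ne_zero (NeZero.ne N)
          nlinarith
        rw [qExpand_coeff_mul]
        exact HahnSeries.coeff_eq_zero_of_lt_order (by rw [jqModC_order]; exact this)
      · exact qExpand_coeff_of_not_dvd N _ hdvd
  rw [HahnSeries.order_mul hqN0 (inv_ne_zero (pow_ne_zero _ hq0)), hordN]
  have h6 := HahnSeries.order_mul (pow_ne_zero (N - 1) hq0)
    (inv_ne_zero (pow_ne_zero (N - 1) hq0))
  rw [mul_inv_cancel₀ (pow_ne_zero _ hq0), HahnSeries.order_one, HahnSeries.order_pow,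
    jqModC_order, nsmul_eq_mul] at h6
  have h7 : ((N - 1 : ℕ) : ℤ) = (N : ℤ) - 1 := by
    have := NeZero.ne N
    omega
  rw [h7] at h6
  linarith

open ModularFunctionField (Tri) in
/-- At a cusp other than `∞` the expansion of the denominator of a function regular away from `∞`
starts no later than that of the numerator. -/
theorem orderTop_le_of_inftyRegular [Fintype (SL(2, ℤ) ⧸ Gamma0 N)] {b : 𝔽}
    (hreg : InftyRegular b) {a c : A₀} (hc : c ≠ 0)
    (hb : b = ModularAnalytic.toField N N ι a / ModularAnalytic.toField N N ι c)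
    {q : SL(2, ℤ) ⧸ Gamma0 N} (hq : q ≠ ((1 : SL(2, ℤ)) : SL(2, ℤ) ⧸ Gamma0 N)) :
    (KummerES.expansion N (KummerES.comp c.1 q.out⁻¹)).orderTop ≤
      (KummerES.expansion N (KummerES.comp a.1 q.out⁻¹)).orderTop := by
  set e := ModularAnalytic.toField N N ι with he
  set D := conjData N ι
  set δ := q.out⁻¹ with hδdef
  set V := cuspVal N ι
  have hVapply : ∀ x : A₀, V (conjHom N ι q x) =
      (KummerES.expansion N (KummerES.comp x.1 δ)).orderTop := fun x => by
    rw [cuspVal_apply, coe_conjHom]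
  set jN' : A₀ := ⟨ModularAnalytic.jN N, ModularAnalytic.jN_mem_weak N N ι dvd_rfl dvd_rfl⟩
  set T := Tri.act δ (Tri.top : Tri N)
  have hjN : V (conjHom N ι q jN') = ((-((T.a * T.a : ℕ) : ℤ) : ℤ) : WithTop ℤ) :=
    (hVapply jN').trans (orderTop_expansion_jN δ)
  have hjW : V (conjHom N ι q (jW N ι)) = ((-(N : ℤ) : ℤ) : WithTop ℤ) :=
    cuspVal_conjHom_jW ι q
  have hjN0 : jN' ≠ 0 := fun h0 => by
    rw [h0, map_zero, AddValuation.map_zero] at hjN
    exact WithTop.coe_ne_top hjN.symm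
  have hjW0 : jW N ι ≠ 0 := fun h0 => by
    rw [h0, map_zero, AddValuation.map_zero] at hjW
    exact WithTop.coe_ne_top hjW.symm
  set J : 𝔽 := e jN' / e (jW N ι) ^ (N - 1)
  have haN : T.a ≤ N - 1 := by
    have h1 : T.a ≠ N := act_top_a_ne fun h => hq ((out_inv_mem_iff q).mp h)
    have h2 : T.a ≤ N := Nat.le_of_dvd (Nat.pos_of_ne_zero (NeZero.ne N))
      ⟨T.d, T.a_mul_d.symm⟩
    omega
  have hJmem' : J ∈ D.ring V (fun _ => cuspVal_eq_top N ι) q := by
    refine Or.inr ?_
    have hpow : jW N ι ^ (N - 1) ≠ 0 := fun h0 => by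
      have h3 : V (conjHom N ι q (jW N ι ^ (N - 1))) = ⊤ := by
        rw [h0, map_zero, AddValuation.map_zero]
      rw [map_pow, AddValuation.map_pow, hjW, ← WithTop.coe_nsmul] at h3
      exact WithTop.coe_ne_top h3
    show 0 ≤ D.valF _ _ _ (D.e jN' / D.e (jW N ι) ^ (N - 1))
    rw [← map_pow D.e, D.valF_div _ _ _ hjN0 hpow, sub_nonneg, ← WithTop.coe_le_coe,
      D.coe_val _ _ _ hjN0, D.coe_val _ _ _ hpow]
    show V (conjHom N ι q (jW N ι ^ (N - 1))) ≤ V (conjHom N ι q jN')
    rw [map_pow, AddValuation.map_pow, hjW, hjN, ← WithTop.coe_nsmul, WithTop.coe_le_coe,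
      nsmul_eq_mul]
    have h4 : T.a * T.a ≤ (N - 1) * N := Nat.mul_le_mul haN (by omega)
    have h5 : ((T.a * T.a : ℕ) : ℤ) ≤ (((N - 1) * N : ℕ) : ℤ) := by exact_mod_cast h4
    push_cast at h5 ⊢
    linarith
  have hJneg' : (J : LaurentSeries Qbar).order < 0 := by
    have hcast : (J : LaurentSeries Qbar) =
        qExpand Qbar N (jqModC Qbar) * ((jqModC Qbar) ^ (N - 1))⁻¹ := by
      show (((e jN' : 𝔽) / e (jW N ι) ^ (N - 1) : 𝔽) : LaurentSeries Qbar) = _
      push_cast
      rw [he, ModularAnalytic.toField_jN N N ι dvd_rfl dvd_rfl, coe_toField_jW, div_eq_mul_inv]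
    rw [hcast]
    exact order_qExpand_jqModC_div_neg
  have h8 := le_of_inftyRegular ι hreg V (fun _ => cuspVal_eq_top N ι) (fun z => by
      rw [cuspVal_apply]
      show 0 ≤ (KummerES.expansion N (fun _ : ℍ => ι z)).orderTop
      rw [(KummerES.HasExp.const (L := N) (ι z)).expansion_eq]
      exact HahnSeries.orderTop_single_le) q hJmem' hJneg' hc hb
  rwa [hVapply, hVapply] at h8

/-- At a cusp other than `∞` the product of a function regular away from `∞` and a cusp form
tends to zero. -/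
theorem tendsto_slash_cusp_zero [Fintype (SL(2, ℤ) ⧸ Gamma0 N)]
    (f : CuspForm (Gamma0 N) 2) {b : 𝔽}
    (hreg : InftyRegular b) {a c : A₀} (hc : c ≠ 0)
    (hb : b = ModularAnalytic.toField N N ι a / ModularAnalytic.toField N N ι c)
    {g : ℍ → ℂ} (hgc : ∀ τ, g τ * c.1 τ = a.1 τ)
    {q : SL(2, ℤ) ⧸ Gamma0 N} (hq : q ≠ ((1 : SL(2, ℤ)) : SL(2, ℤ) ⧸ Gamma0 N)) :
    Tendsto ((g * (f : ℍ → ℂ)) ∣[(2 : ℤ)] q.out⁻¹) atImInfty (𝓝 0) := by
  set δ := q.out⁻¹ with hδdef
  rw [slash_mul_eq_comp_mul_slash]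
  set C := KummerES.expansion N (KummerES.comp c.1 δ)
  set A := KummerES.expansion N (KummerES.comp a.1 δ)
  have hCexp : KummerES.HasExp N (KummerES.comp c.1 δ) C := KummerES.hasExp_expansion c.2 δ
  have hAexp : KummerES.HasExp N (KummerES.comp a.1 δ) A := KummerES.hasExp_expansion a.2 δ
  have hC0 : C ≠ 0 := fun h0 => hc (KummerES.expAt_injective δ (by
    rw [map_zero, KummerES.expAt_apply]; exact h0))
  have hle : C.orderTop ≤ A.orderTop := orderTop_le_of_inftyRegular ι hreg hc hb hq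
  set k := C.order with hk
  have hCk : C.coeff k ≠ 0 := HahnSeries.coeff_order_eq_zero.not.mpr hC0
  set g₀ := A.coeff k / C.coeff k
  have hlim : Tendsto (fun τ => KummerES.comp g δ τ - g₀) atImInfty (𝓝 0) := by
    refine tendsto_zero_of_mul_eq (L := N) (c := KummerES.comp c.1 δ)
      (a := fun τ => KummerES.comp a.1 δ τ - g₀ * KummerES.comp c.1 δ τ) ?_
      (ModularAnalytic.hasExp_of_kummer hCexp)
      ((ModularAnalytic.hasExp_of_kummer hAexp).sub
        ((ModularFunctionField.HasExp.const N g₀).mul (ModularAnalytic.hasExp_of_kummer hCexp)))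
      hC0 fun i hi => ?_
    · exact Eventually.of_forall fun τ => by rw [sub_mul]; exact congrArg (· - _) (hgc (δ • τ))
    · rw [HahnSeries.coeff_sub, HahnSeries.C_mul_eq_smul, HahnSeries.coeff_smul, smul_eq_mul]
      rcases eq_or_lt_of_le hi with h9 | h9
      · rw [h9, div_mul_cancel₀ _ hCk, sub_self]
      · rw [HahnSeries.coeff_eq_zero_of_lt_order (x := C) h9, mul_zero, sub_zero]
        refine HahnSeries.coeff_eq_zero_of_lt_orderTop (lt_of_lt_of_le ?_ hle)
        rw [← HahnSeries.order_eq_orderTop_of_ne_zero hC0]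
        exact WithTop.coe_lt_coe.mpr h9
  have h10 : Tendsto (KummerES.comp g δ) atImInfty (𝓝 g₀) := by
    have := hlim.add_const g₀
    simp only [sub_add_cancel, zero_add] at this
    exact this
  have h11 : Tendsto ((f : ℍ → ℂ) ∣[(2 : ℤ)] δ) atImInfty (𝓝 0) :=
    CuspFormClass.zero_at_infty_slash f δ
  have h12 := h10.mul h11
  rw [mul_zero] at h12
  exact h12

/-- At `∞` a function regular away from `∞` differs from its polar part and constant term by a
function tending to zero. -/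
theorem tendsto_sub_polarPart {b : 𝔽} {a c : A₀} (hc : c ≠ 0)
    (hb : b = ModularAnalytic.toField N N ι a / ModularAnalytic.toField N N ι c)
    {g : ℍ → ℂ} (hgc : ∀ τ, g τ * c.1 τ = a.1 τ) {M : ℕ}
    (hM : ∀ i < -(M : ℤ), (b : LaurentSeries Qbar).coeff i = 0) :
    Tendsto (fun τ : ℍ => g τ - ∑ i ∈ Finset.range (M + 1),
      ι ((b : LaurentSeries Qbar).coeff (-(i : ℤ))) * 𝕢 1 τ ^ (-(i : ℤ)))
      atImInfty (𝓝 0) := by
  have : Fintype (SL(2, ℤ) ⧸ Gamma0 N) := Fintype.ofFinite _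
  set e := ModularAnalytic.toField N N ι with he
  set β : ℕ → ℂ := fun i => ι ((b : LaurentSeries Qbar).coeff (-(i : ℤ)))
  set P : ℍ → ℂ := fun τ => ∑ i ∈ Finset.range (M + 1), β i * 𝕢 1 τ ^ (-(i : ℤ))
  set Ps : LaurentSeries ℂ := ∑ i ∈ Finset.range (M + 1), HahnSeries.single (-(i : ℤ)) (β i)
    with hPs
  set C := KummerES.expansion N c.1
  set A := KummerES.expansion N a.1
  have hCexp : KummerES.HasExp N c.1 C := by
    simpa only [KummerES.comp_one] using KummerES.hasExp_expansion c.2 1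
  have hAexp : KummerES.HasExp N a.1 A := by
    simpa only [KummerES.comp_one] using KummerES.hasExp_expansion a.2 1
  have hC0 : C ≠ 0 := fun h0 => hc (KummerES.expAt_injective 1 (by
    rw [map_zero, KummerES.expAt_apply, KummerES.comp_one]; exact h0))
  have hPexp : ModularFunctionField.HasExp N P (qExpand ℂ N Ps) := by
    have h1 : ModularFunctionField.HasExp 1 P Ps := by
      refine ModularFunctionField.HasExp.sum _ fun i _ => ?_
      simpa using ModularFunctionField.HasExp.single 1 (-(i : ℤ)) (β i)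
    exact h1.qExpand N (one_mul N).symm one_ne_zero
  have hbC : qExpand ℂ N (coeffMap ι (b : LaurentSeries Qbar)) * C = A := by
    rw [show C = qExpand ℂ N (coeffMap ι ((e c : 𝔽) : LaurentSeries Qbar)) from
      (ModularAnalytic.qExpand_coeffMap_toField N N ι c).symm,
      show A = qExpand ℂ N (coeffMap ι ((e a : 𝔽) : LaurentSeries Qbar)) from
      (ModularAnalytic.qExpand_coeffMap_toField N N ι a).symm, ← map_mul, ← map_mul]
    congr 2
    have h1 : b * e c = e a := by
      rw [hb]; exact div_mul_cancel₀ _ ((conjData N ι).e_ne_zero hc)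
    exact_mod_cast congrArg Subtype.val h1
  set R := qExpand ℂ N (coeffMap ι (b : LaurentSeries Qbar) - Ps) with hR
  refine tendsto_zero_of_mul_eq (L := N) (c := c.1) (a := fun τ => a.1 τ - P τ * c.1 τ) ?_
    (ModularAnalytic.hasExp_of_kummer hCexp) ((ModularAnalytic.hasExp_of_kummer hAexp).sub
      (hPexp.mul (ModularAnalytic.hasExp_of_kummer hCexp))) hC0 fun i hi => ?_
  · exact Eventually.of_forall fun τ => by rw [sub_mul, hgc]
  · rw [← hbC, ← sub_mul, ← map_sub, ← hR]
    have hR0 : ∀ i ≤ 0, R.coeff i = 0 := by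
      intro i hi0
      by_cases hdvd : (N : ℤ) ∣ i
      · obtain ⟨m, rfl⟩ := hdvd
        have hm : m ≤ 0 := by
          have hN0 : (0 : ℤ) < N := by exact_mod_cast Nat.pos_of_ne_zero (NeZero.ne N)
          nlinarith
        rw [hR, qExpand_coeff_mul, HahnSeries.coeff_sub, coeffMap_coeff, hPs,
          HahnSeries.coeff_sum]
        simp only [HahnSeries.coeff_single]
        rcases lt_or_ge m (-(M : ℤ)) with hlt | hge
        · rw [hM m hlt, map_zero, Finset.sum_eq_zero, sub_zero]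
          intro j hj
          have := Finset.mem_range.mp hj
          exact if_neg (by omega)
        · obtain ⟨j, rfl⟩ : ∃ j : ℕ, m = -(j : ℤ) := ⟨(-m).toNat, by omega⟩
          have hj : j ∈ Finset.range (M + 1) := Finset.mem_range.mpr (by omega)
          simp [β, neg_inj, Nat.cast_inj, Finset.sum_ite_eq, hj]
      · rw [hR]; exact qExpand_coeff_of_not_dvd N _ hdvd
    rcases eq_or_ne R 0 with hR00 | hR00
    · simp [hR00]
    refine HahnSeries.coeff_eq_zero_of_lt_order ?_
    rw [HahnSeries.order_mul hR00 hC0]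
    have : 0 < R.order := by
      by_contra hle
      exact HahnSeries.coeff_order_eq_zero.not.mpr hR00 (hR0 _ (not_lt.mp hle))
    omega

/-- A cusp form minus the truncation of its expansion at degree `M` is `o(q ^ M)`. -/
theorem tendsto_sub_truncation (f : CuspForm (Gamma0 N) 2) (M : ℕ) :
    Tendsto (fun τ : ℍ => ((f : ℍ → ℂ) τ - ∑ m ∈ Finset.range (M + 1),
      ModularFormClass.qCoeff f m * 𝕢 1 τ ^ (m : ℤ)) / 𝕢 1 τ ^ (M : ℤ)) atImInfty (𝓝 0) := by
  set α : ℕ → ℂ := fun m => ModularFormClass.qCoeff f m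
  set Fp : ℍ → ℂ := fun τ => ∑ m ∈ Finset.range (M + 1), α m * 𝕢 1 τ ^ (m : ℤ)
  have hf : ModularFunctionField.HasExp 1 (f : ℍ → ℂ)
      (HahnSeries.ofPowerSeries ℤ ℂ (qExpansion ((1 : ℕ) : ℝ) (f : ℍ → ℂ))) := by
    refine ModularFunctionField.hasExp_qExpansion one_ne_zero ?_ (CuspFormClass.holo f)
      (CuspFormClass.zero_at_infty f).isBoundedAtImInfty
    exact SlashInvariantFormClass.periodic_comp_ofComplex (h := ((1 : ℕ) : ℝ)) f (by simp)
  have hF : ModularFunctionField.HasExp 1 Fp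
      (∑ m ∈ Finset.range (M + 1), HahnSeries.single (m : ℤ) (α m)) := by
    refine ModularFunctionField.HasExp.sum _ fun i _ => ?_
    simpa using ModularFunctionField.HasExp.single 1 (i : ℤ) (α i)
  refine tendsto_zero_of_mul_eq (L := 1) (c := fun τ : ℍ => 𝕢 1 τ ^ (M : ℤ))
    (C := HahnSeries.single (M : ℤ) 1) ?_ ?_ (hf.sub hF) (by simp) fun i hi => ?_
  · exact Eventually.of_forall fun τ =>
      div_mul_cancel₀ _ (zpow_ne_zero _ (Function.Periodic.qParam_ne_zero _))
  · simpa using ModularFunctionField.HasExp.single 1 (M : ℤ) 1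
  · rw [HahnSeries.order_single one_ne_zero] at hi
    rw [HahnSeries.coeff_sub, HahnSeries.coeff_sum]
    simp only [HahnSeries.coeff_single]
    rcases lt_or_ge i 0 with hneg | hpos
    · rw [ofPowerSeries_coeff_of_neg _ hneg]
      have : ∀ j : ℕ, i ≠ (j : ℤ) := fun j => by omega
      simp [this]
    · lift i to ℕ using hpos
      have hj : i ∈ Finset.range (M + 1) := Finset.mem_range.mpr (by omega)
      rw [HahnSeries.ofPowerSeries_apply_coeff]
      simp [α, ModularFormClass.qCoeff, Nat.cast_inj, Finset.sum_ite_eq, hj]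

omit [NeZero N] in
/-- A polar part of degree at most `M` times `q ^ M` has a limit at `∞`. -/
theorem tendsto_polarPart_mul (β : ℕ → ℂ) (M : ℕ) :
    Tendsto (fun τ : ℍ => (∑ i ∈ Finset.range (M + 1), β i * 𝕢 1 τ ^ (-(i : ℤ))) *
        𝕢 1 τ ^ (M : ℤ))
      atImInfty (𝓝 (∑ i ∈ Finset.range (M + 1), β i * 0 ^ (M - i))) := by
  have h1 : Tendsto (fun τ : ℍ => 𝕢 1 τ) atImInfty (𝓝 0) := qParam_tendsto_atImInfty one_pos
  refine (tendsto_finsetSum (Finset.range (M + 1)) fun i _ =>
    (h1.pow (M - i)).const_mul (β i)).congr fun τ => ?_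
  simp only [Finset.sum_mul]
  refine Finset.sum_congr rfl fun i hi => ?_
  rw [mul_assoc, ← zpow_add₀ (Function.Periodic.qParam_ne_zero _),
    show -(i : ℤ) + M = ((M - i : ℕ) : ℤ) by
      have := Finset.mem_range.mp hi; omega, zpow_natCast]

/-- The product of two truncated expansions as a single trigonometric polynomial. -/
theorem qPoly_prod (β α : ℕ → ℂ) (M : ℕ) (τ : ℂ) :
    qPoly (fun j : ↥(Finset.range (M + 1)) × ↥(Finset.range (M + 1)) => β j.1 * α j.2)
        (fun j => (j.2 : ℕ) - ((j.1 : ℕ) : ℤ)) τ =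
      (∑ i ∈ Finset.range (M + 1), β i * 𝕢 1 τ ^ (-(i : ℤ))) *
        ∑ m ∈ Finset.range (M + 1), α m * 𝕢 1 τ ^ (m : ℤ) := by
  simp only [qPoly, Finset.sum_mul_sum]
  rw [Fintype.sum_prod_type]
  refine Eq.trans ?_ (Finset.sum_coe_sort (Finset.range (M + 1)) _)
  refine Finset.sum_congr rfl fun i _ => ?_
  refine Eq.trans ?_ (Finset.sum_coe_sort (Finset.range (M + 1)) _)
  refine Finset.sum_congr rfl fun j _ => ?_
  rw [sub_eq_add_neg, zpow_add₀ (Function.Periodic.qParam_ne_zero _)]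
  ring

/-- The constant term of `b f` vanishes: the trace of `b f` to level one is invariant of weight
two and differs at `∞` from the truncated expansion of `b f` by a function tending to zero. -/
theorem pair_zero_bar (f : CuspForm (Gamma0 N) 2) {b : 𝔽} (hreg : InftyRegular b) {M : ℕ}
    (hM : ∀ i < -(M : ℤ), (b : LaurentSeries Qbar).coeff i = 0) :
    ∑ n ∈ Finset.range (M + 1), ι ((b : LaurentSeries Qbar).coeff (-(n : ℤ))) *
      ModularFormClass.qCoeff f n = 0 := by
  classical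
  let : Fintype (SL(2, ℤ) ⧸ Gamma0 N) := Fintype.ofFinite _
  obtain ⟨a, c, hc, hb⟩ := (conjData N ι).exists_div b
  obtain ⟨g, hg, hgc⟩ := exists_mdiff_mul_eq a.2.1 c.2.1 (ordAt_ne_top ι hc)
    (ordAt_le_of_inftyRegular ι hreg hc hb)
  have hgf : ∀ γ ∈ Gamma0 N, (g * (f : ℍ → ℂ)) ∣[(2 : ℤ)] γ = g * (f : ℍ → ℂ) := by
    intro γ hγ
    rw [slash_mul_eq_comp_mul_slash, comp_eq_self_of_mul_eq ι hc hg hgc hγ]
    congr 1
    rw [ModularForm.SL_slash]
    exact SlashInvariantFormClass.slash_action_eq f _ (Subgroup.mem_map_of_mem _ hγ)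
  set h : ℍ → ℂ :=
    ∑ q : SL(2, ℤ) ⧸ Gamma0 N, (g * (f : ℍ → ℂ)) ∣[(2 : ℤ)] q.out⁻¹ with hh
  have hmd : MDiff h := by
    rw [hh]
    refine MDifferentiable.sum fun q _ => ?_
    rw [slash_mul_eq_comp_mul_slash]
    exact (KummerES.mdiff_comp hg _).mul
      (MDifferentiable.slash (CuspFormClass.holo f) 2 _)
  set β : ℕ → ℂ := fun i => ι ((b : LaurentSeries Qbar).coeff (-(i : ℤ)))
  set α : ℕ → ℂ := fun m => ModularFormClass.qCoeff f m
  set P : ℍ → ℂ := fun τ => ∑ i ∈ Finset.range (M + 1), β i * 𝕢 1 τ ^ (-(i : ℤ))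
  set Fp : ℍ → ℂ := fun τ => ∑ m ∈ Finset.range (M + 1), α m * 𝕢 1 τ ^ (m : ℤ)
  set cc : ↥(Finset.range (M + 1)) × ↥(Finset.range (M + 1)) → ℂ :=
    fun j => β j.1 * α j.2
  set ee : ↥(Finset.range (M + 1)) × ↥(Finset.range (M + 1)) → ℤ :=
    fun j => (j.2 : ℕ) - ((j.1 : ℕ) : ℤ)
  have hlim : Tendsto (fun τ : ℍ => h τ - qPoly cc ee τ) atImInfty (𝓝 0) := by
    set q₀ : SL(2, ℤ) ⧸ Gamma0 N := ((1 : SL(2, ℤ)) : SL(2, ℤ) ⧸ Gamma0 N)
    have hbase : (g * (f : ℍ → ℂ)) ∣[(2 : ℤ)] q₀.out⁻¹ = g * (f : ℍ → ℂ) :=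
      hgf _ ((out_inv_mem_iff q₀).mpr rfl)
    have hsplit : ∀ τ, h τ - qPoly cc ee τ = (g τ - P τ) * (f : ℍ → ℂ) τ
        + (P τ * 𝕢 1 τ ^ (M : ℤ)) * (((f : ℍ → ℂ) τ - Fp τ) / 𝕢 1 τ ^ (M : ℤ))
        + ∑ q ∈ Finset.univ.erase q₀, ((g * (f : ℍ → ℂ)) ∣[(2 : ℤ)] q.out⁻¹) τ := by
      intro τ
      rw [hh, Finset.sum_apply, ← Finset.add_sum_erase _ _ (Finset.mem_univ q₀), hbase,
        qPoly_prod β α M]
      have hq0 : 𝕢 1 (τ : ℂ) ^ (M : ℤ) ≠ 0 := zpow_ne_zero _ (Function.Periodic.qParam_ne_zero _)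
      simp only [Pi.mul_apply]
      field_simp
      ring
    refine Tendsto.congr (fun τ => (hsplit τ).symm) ?_
    have h0 := CuspFormClass.zero_at_infty f
    have h1 := ((tendsto_sub_polarPart ι hc hb hgc hM).mul h0).add
      ((tendsto_polarPart_mul β M).mul (tendsto_sub_truncation f M))
    have h2 := h1.add (tendsto_finsetSum (Finset.univ.erase q₀)
      fun q hq => tendsto_slash_cusp_zero ι f hreg hc hb hgc (Finset.ne_of_mem_erase hq))
    simpa [P, Fp, β, α] using h2
  have key := sum_eq_zero_of_tendsto cc ee hmd (slash_trace hgf) hlim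
  rw [Fintype.sum_prod_type] at key
  rw [← key]
  refine ((Finset.sum_coe_sort (Finset.range (M + 1)) _).symm.trans ?_)
  refine Finset.sum_congr rfl fun i _ => ?_
  rw [Finset.sum_eq_single i]
  · simp [cc, ee, β, α]
  · intro j _ hj
    refine if_neg fun h0 => hj (Subtype.ext ?_)
    simp only [ee] at h0
    omega
  · simp

end Fermat.Agent.OrdinaryCurve
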