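import Fermat.Agent.OrdinaryCurve.ConstExt
import Fermat.Agent.OrdinaryCurve.PairZero
import Fermat.Agent.CuspIntStr.Main
import Fermat.Agent.S20
import Fermat.Agent.ModCurveGenus.Genus

/-!
The functions on `X₀(N)` over `ℂ_p` regular away from `∞`, with the weight two cusp forms, form a
formal curve.
-/

set_option autoImplicit false

noncomputable section

open AlgebraicCurve ModularCurve CongruenceSubgroup Fermat.Agent.FunctionField

namespace Fermat.Agent.OrdinaryCurve

local notation "Qbar" => AlgebraicClosure ℚ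

open Fermat.Agent.MW.Modular (qPlace ord_qPlace mem_qPlace mem_intSub_iff_coeff)

section Linear

variable {k L : Type*} [Field k] [Field L] {r J : Type*} [Fintype r]

/-- Vectors with no common relation span. -/
theorem span_range_eq_top_of_forall (v : J → r → k)
    (h : ∀ c : r → k, (∀ j, ∑ i, c i * v j i = 0) → c = 0) :
    Submodule.span k (Set.range v) = ⊤ := by
  classical
  by_contra hne
  obtain ⟨φ, hφ0, hφ⟩ := Submodule.exists_le_ker_of_lt_top _ (lt_top_iff_ne_top.mpr hne)
  have hval : ∀ w : r → k, φ w = ∑ i, φ (fun j => if i = j then 1 else 0) * w i := fun w => by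
    rw [LinearMap.pi_apply_eq_sum_univ φ w]
    exact Finset.sum_congr rfl fun i _ => by rw [smul_eq_mul, mul_comm]
  have hc := h (fun i => φ (fun j => if i = j then 1 else 0)) fun j => by
    rw [← hval]
    exact LinearMap.mem_ker.mp (hφ (Submodule.subset_span ⟨j, rfl⟩))
  exact hφ0 (LinearMap.ext fun w => by
    rw [hval, LinearMap.zero_apply]
    exact Finset.sum_eq_zero fun i _ => by rw [congrFun hc i, Pi.zero_apply, zero_mul])

/-- Spanning is preserved by an extension of scalars. -/
theorem span_range_map_eq_top (σ : k →+* L) (v : J → r → k)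
    (h : Submodule.span k (Set.range v) = ⊤) :
    Submodule.span L (Set.range fun j i => σ (v j i)) = ⊤ := by
  classical
  set S := Submodule.span L (Set.range fun j i => σ (v j i))
  have hmem : ∀ w ∈ Submodule.span k (Set.range v), (fun i => σ (w i)) ∈ S := by
    intro w hw
    induction hw using Submodule.span_induction with
    | mem w hw =>
      obtain ⟨j, rfl⟩ := hw
      exact Submodule.subset_span ⟨j, rfl⟩
    | zero => simp [← Pi.zero_def]
    | add a b _ _ ha hb => simpa [Pi.add_def] using S.add_mem ha hb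
    | smul c a _ ha => simpa [Pi.smul_def] using S.smul_mem (σ c) ha
  rw [eq_top_iff, ← (Pi.basisFun L r).span_eq, Submodule.span_le]
  rintro _ ⟨i, rfl⟩
  have := hmem (Pi.single i 1) (h ▸ Submodule.mem_top)
  have e : (Pi.basisFun L r) i = fun j => σ (Pi.single (M := fun _ => k) i 1 j) := by
    funext j
    rw [Pi.basisFun_apply]
    rcases eq_or_ne j i with rfl | hj
    · simp
    · simp [hj]
  rw [e]
  exact this

end Linear

/-- The polar pairing as a finite sum. -/
theorem polarPairing_eq_sum {K ι : Type*} [Field K] (A : ℕ → ι → K) (i : ι) {x : LaurentSeries K}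
    {M : ℕ} (h : ∀ m : ℤ, m < -(M : ℤ) → x.coeff m = 0) :
    polarPairing A i x =
      ∑ n ∈ Finset.range M, x.coeff (-((n + 1 : ℕ) : ℤ)) * A (n + 1) i := by
  refine finsum_eq_sum_of_support_subset (fun n : ℕ => x.coeff (-((n + 1 : ℕ) : ℤ)) * A (n + 1) i)
    fun n hn => ?_
  simp only [Function.mem_support] at hn
  simp only [Finset.coe_range, Set.mem_Iio]
  by_contra hge
  exact left_ne_zero_of_mul hn (h _ (by omega))

/-- A spanning sequence spans up to some index. -/
theorem exists_span_Iic_eq_top {K r : Type*} [Field K] [Fintype r] (v : ℕ → r → K)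
    (h : Submodule.span K (Set.range v) = ⊤) :
    ∃ n : ℕ, Submodule.span K (v '' Set.Iic n) = ⊤ := by
  classical
  have hall : ∀ w ∈ Submodule.span K (Set.range v), ∃ n, w ∈ Submodule.span K (v '' Set.Iic n) := by
    intro w hw
    induction hw using Submodule.span_induction with
    | mem w hw =>
      obtain ⟨j, rfl⟩ := hw
      exact ⟨j, Submodule.subset_span ⟨j, le_refl j, rfl⟩⟩
    | zero => exact ⟨0, zero_mem _⟩
    | add a b _ _ ha hb =>
      obtain ⟨n, hn⟩ := ha
      obtain ⟨m, hm⟩ := hb
      exact ⟨max n m, add_mem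
        (Submodule.span_mono (Set.image_mono (Set.Iic_subset_Iic.mpr (le_max_left n m))) hn)
        (Submodule.span_mono (Set.image_mono (Set.Iic_subset_Iic.mpr (le_max_right n m))) hm)⟩
    | smul c a _ ha =>
      obtain ⟨n, hn⟩ := ha
      exact ⟨n, Submodule.smul_mem _ c hn⟩
  choose N hN using fun i => hall (Pi.single i 1) (h ▸ Submodule.mem_top)
  refine ⟨Finset.univ.sup N, ?_⟩
  rw [eq_top_iff, ← (Pi.basisFun K r).span_eq, Submodule.span_le]
  rintro _ ⟨i, rfl⟩
  rw [Pi.basisFun_apply]
  exact Submodule.span_mono (Set.image_mono (Set.Iic_subset_Iic.mpr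
    (Finset.le_sup (f := N) (Finset.mem_univ i)))) (hN i)

variable (p : ℕ) [hp : Fact p.Prime] (N : ℕ) [NeZero N]

/-- The divisor `n ∞`. -/
def inftyDiv (n : ℕ) : Divisor ℂ_[p] (curveField p N) := Finsupp.single (inftyPlace p N) (n : ℤ)

theorem mem_riemannRochSpace_inftyDiv (n : ℕ) (b : curveField p N) :
    b ∈ riemannRochSpace (inftyDiv p N n) ↔
      RegularAway p N b ∧ ∀ i < -(n : ℤ), (b : LaurentSeries ℂ_[p]).coeff i = 0 := by
  classical
  simp only [mem_riemannRochSpace_iff, regularAway_iff_infty, FFPlaces.mem_iff]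
  rcases eq_or_ne b 0 with rfl | hb
  · simp
  have hb' : (b : LaurentSeries ℂ_[p]) ≠ 0 := Subtype.coe_ne_coe.mpr hb
  simp only [hb, false_or, inftyDiv]
  refine ⟨fun h => ⟨fun v hv => ?_, fun i hi => ?_⟩, fun ⟨h, h'⟩ v => ?_⟩
  · have := h v
    rwa [Finsupp.single_eq_of_ne hv, neg_zero] at this
  · have := h (inftyPlace p N)
    rw [Finsupp.single_eq_same, ord_qPlace] at this
    exact HahnSeries.coeff_eq_zero_of_lt_order (by omega)
  · rcases eq_or_ne v (inftyPlace p N) with rfl | hv
    · rw [Finsupp.single_eq_same, ord_qPlace]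
      exact (HahnSeries.le_order_iff_forall hb').mpr h'
    · rw [Finsupp.single_eq_of_ne hv, neg_zero]
      exact h v hv

theorem mem_riemannRochSpace_of_mem {x : LaurentSeries ℂ_[p]} (hx : x ∈ regularRing p N) :
    ∃ (n : ℕ) (b : curveField p N),
      (b : LaurentSeries ℂ_[p]) = x ∧ b ∈ riemannRochSpace (inftyDiv p N n) := by
  obtain ⟨b, rfl, hb⟩ := hx
  refine ⟨(-(b : LaurentSeries ℂ_[p]).order).toNat, b, rfl,
    (mem_riemannRochSpace_inftyDiv p N _ b).mpr ⟨hb, fun i hi => ?_⟩⟩
  exact HahnSeries.coeff_eq_zero_of_lt_order (by omega)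

/-- The expansion at `∞`, linearly. -/
def expansionLin : curveField p N →ₗ[ℂ_[p]] LaurentSeries ℂ_[p] where
  toFun b := (b : LaurentSeries ℂ_[p])
  map_add' _ _ := rfl
  map_smul' c b := by
    ext k
    rw [RingHom.id_apply, MW.Modular.coe_smul_coeff, HahnSeries.coeff_smul, smul_eq_mul]

variable {N}

theorem QBasis.span_rat (Q : QBasis N) :
    Submodule.span ℚ (Set.range fun n i => (Q.a n i : ℚ)) = ⊤ := by
  refine span_range_eq_top_of_forall _ fun c hc => ?_
  have h0 : ∑ i, (c i : ℂ) • Q.f i = 0 := by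
    refine CuspIntStr.coeffMap_injective N 2 ?_
    rw [map_sum, map_zero]
    funext n
    rw [Finset.sum_apply, Pi.zero_apply]
    have := congrArg (Rat.cast : ℚ → ℂ) (hc n)
    push_cast at this
    rw [← this]
    refine Finset.sum_congr rfl fun i _ => ?_
    rw [map_smul, Pi.smul_apply, smul_eq_mul, Q.coeff n i]
    rfl
  funext i
  exact_mod_cast (Fintype.linearIndependent_iff.mp Q.indep (fun i => (c i : ℂ)) h0 i)

theorem QBasis.rank_eq_genusFF (Q : QBasis N) :
    Q.rank = genusFF ℂ_[p] (curveField p N) := by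
  have h1 : Module.finrank ℂ (CuspForm (Gamma0 N) 2) = Q.rank := by
    rw [Module.finrank_eq_card_basis (Module.Basis.mk Q.indep Q.spans.ge), Fintype.card_fin]
  rw [CurveBaseChange.genusFF_eq Qbar (modularFunctionFieldBar N) ℂ_[p] (curveField p N), ← h1]
  exact_mod_cast (S20.result N).trans (ModCurveGenus.genusFF_FN N).symm

variable (N)

/-- Regular functions over `ℂ_p` are orthogonal to the cusp forms. -/
theorem polarPairing_regular (Q : QBasis N) {x : LaurentSeries ℂ_[p]} (hx : x ∈ regularRing p N)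
    (i : Fin Q.rank) : polarPairing (fun n i => (Q.a n i : ℂ_[p])) i x = 0 := by
  classical
  obtain ⟨n, b, rfl, hb⟩ := mem_riemannRochSpace_of_mem p N hx
  set D : Divisor Qbar (modularFunctionFieldBar N) :=
    Finsupp.single (qPlace (modularFunctionFieldBar N)) (n : ℤ) with hD
  let B := Module.finBasis Qbar (riemannRochSpace D)
  rw [inftyDiv, ← liftPlace_inftyPlace, ← CurveBaseChange.liftDiv_single, ← hD,
    CurveBaseChange.riemannRochSpace_liftDiv D B] at hb
  let φ : curveField p N →ₗ[ℂ_[p]] ℂ_[p] :=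
    (polarPairing (fun n i => (Q.a n i : ℂ_[p])) i).comp (expansionLin p N)
  suffices hφ : ∀ k, φ (algebraMap (modularFunctionFieldBar N) (curveField p N) (B k : _)) = 0 by
    exact LinearMap.mem_ker.mp (Submodule.span_le.mpr
      (by rintro _ ⟨k, rfl⟩; exact hφ k) hb : b ∈ LinearMap.ker φ)
  intro k
  set f : modularFunctionFieldBar N := (B k : modularFunctionFieldBar N) with hf
  have hf' := mem_riemannRochSpace_iff.mp (B k).2
  rw [← hf] at hf'
  have hreg : InftyRegular f := by
    intro v hv
    rcases hf' v with h | h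
    · simp [h]
    · have hne : v ≠ qPlace (modularFunctionFieldBar N) := by
        rintro rfl
        obtain ⟨y, hy, hy'⟩ := hv
        have := (FFPlaces.mem_iff _).mp (mem_qPlace.mpr (mem_intSub_iff_coeff.mpr hy))
        omega
      rwa [hD, Finsupp.single_eq_of_ne hne, neg_zero] at h
  have hcoeff : ∀ m < -(n : ℤ), (f : LaurentSeries Qbar).coeff m = 0 := by
    intro m hm
    rcases hf' (qPlace (modularFunctionFieldBar N)) with h | h
    · simp [h]
    · rw [hD, Finsupp.single_eq_same, ord_qPlace] at h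
      exact HahnSeries.coeff_eq_zero_of_lt_order (by omega)
  have hzero := pair_zero_bar ModCurveGenus.iotaC (Q.f i) hreg hcoeff
  rw [Finset.sum_range_succ', ← Q.coeff 0 i, Q.a_zero, Int.cast_zero, mul_zero, add_zero] at hzero
  have hbar : ∑ k ∈ Finset.range n,
      (f : LaurentSeries Qbar).coeff (-((k + 1 : ℕ) : ℤ)) * (Q.a (k + 1) i : Qbar) = 0 := by
    refine ModCurveGenus.iotaC_injective ?_
    rw [map_zero, map_sum, ← hzero]
    exact Finset.sum_congr rfl fun k _ => by rw [map_mul, map_intCast, Q.coeff]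
  show polarPairing (fun n i => (Q.a n i : ℂ_[p])) i
    (coeffMap (complexEmb p) (f : LaurentSeries Qbar)) = 0
  rw [polarPairing_eq_sum _ _ (M := n) fun m hm => by
    rw [coeffMap_coeff, hcoeff m hm, map_zero]]
  have := congrArg (complexEmb p) hbar
  rw [map_sum, map_zero] at this
  rw [← this]
  exact Finset.sum_congr rfl fun k _ => by rw [map_mul, map_intCast, coeffMap_coeff]

/-- The formal curve of `X₀(N)` over `ℂ_p`. -/
theorem hasFormalCurve : HasFormalCurve p N := by
  intro Q
  classical
  set A : ℕ → Fin Q.rank → ℂ_[p] := fun n i => (Q.a n i : ℂ_[p]) with hA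
  have hg := Q.rank_eq_genusFF p
  have hspan : Submodule.span ℂ_[p] (Set.range A) = ⊤ := by
    have := span_range_map_eq_top (algebraMap ℚ ℂ_[p]) _ Q.span_rat
    simpa [hA, map_intCast] using this
  obtain ⟨n₀, hn₀⟩ := exists_span_Iic_eq_top A hspan
  refine ⟨⟨regularRing p N, A, fun b hb i => polarPairing_regular p N Q hb i,
    fun x hx => ?_, fun b hb hpol => ?_⟩, rfl, rfl⟩
  · -- prescribed principal parts
    set n := max n₀ (-x.order).toNat
    let T : (Fin n → ℂ_[p]) →ₗ[ℂ_[p]] (Fin Q.rank → ℂ_[p]) :=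
      Fintype.linearCombination ℂ_[p] fun k : Fin n => A ((k : ℕ) + 1)
    have hT : ∀ w i, T w i = ∑ k : Fin n, w k * A ((k : ℕ) + 1) i := fun w i => by
      simp [T, Fintype.linearCombination_apply, Finset.sum_apply]
    have hsurj : LinearMap.range T = ⊤ := by
      rw [eq_top_iff, ← hn₀, Submodule.span_le]
      rintro _ ⟨m, hm, rfl⟩
      rcases m with _ | m
      · have : A 0 = 0 := funext fun i => by simp [hA, Q.a_zero]
        rw [this]
        exact zero_mem _
      · have hmn : m < n := by have := Set.mem_Iic.mp hm; omega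
        refine ⟨Pi.single ⟨m, hmn⟩ 1, funext fun i => ?_⟩
        rw [hT, Finset.sum_eq_single (⟨m, hmn⟩ : Fin n)]
        · simp
        · intro k _ hk
          simp [hk]
        · simp
    let P : LaurentSeries ℂ_[p] →ₗ[ℂ_[p]] (Fin n → ℂ_[p]) :=
      { toFun := fun y k => y.coeff (-(((k : ℕ) + 1 : ℕ) : ℤ))
        map_add' := fun a b => funext fun k => by simp
        map_smul' := fun a b => funext fun k => by simp }
    have hTP : ∀ y : LaurentSeries ℂ_[p], (∀ m : ℤ, m < -(n : ℤ) → y.coeff m = 0) → ∀ i,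
        T (P y) i = polarPairing A i y := fun y hy i => by
      rw [hT, polarPairing_eq_sum A i hy,
        ← Fin.sum_univ_eq_sum_range (fun k => y.coeff (-((k + 1 : ℕ) : ℤ)) * A (k + 1) i) n]
      rfl
    let S := riemannRochSpace (inftyDiv p N n)
    let PS : S →ₗ[ℂ_[p]] (Fin n → ℂ_[p]) :=
      P.comp ((expansionLin p N).comp S.subtype)
    have hle : LinearMap.range PS ≤ LinearMap.ker T := by
      rintro _ ⟨⟨b, hb⟩, rfl⟩
      obtain ⟨hreg, hpole⟩ := (mem_riemannRochSpace_inftyDiv p N n b).mp hb
      refine LinearMap.mem_ker.mpr (funext fun i => ?_)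
      show T (P b) i = 0
      rw [hTP _ hpole]
      exact polarPairing_regular p N Q ⟨b, rfl, hreg⟩ i
    have hkerPS : Module.finrank ℂ_[p] (LinearMap.ker PS) ≤ 1 := by
      rw [← Submodule.finrank_map_subtype_eq]
      refine (Submodule.finrank_mono (t := riemannRochSpace (inftyDiv p N 0)) ?_).trans_eq ?_
      · rintro _ ⟨⟨b, hb⟩, hker, rfl⟩
        obtain ⟨hreg, hpole⟩ := (mem_riemannRochSpace_inftyDiv p N n b).mp hb
        refine (mem_riemannRochSpace_inftyDiv p N 0 b).mpr ⟨hreg, fun m hm => ?_⟩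
        rcases lt_or_ge m (-(n : ℤ)) with h | h
        · exact hpole m h
        · have := congrFun (LinearMap.mem_ker.mp hker) ⟨(-m - 1).toNat, by omega⟩
          show (b : LaurentSeries ℂ_[p]).coeff m = 0
          rw [show m = -((((-m - 1).toNat + 1 : ℕ)) : ℤ) by omega]
          exact this
      · rw [show inftyDiv p N 0 = 0 from Finsupp.single_zero _]
        exact ell_zero_eq_one
    have heq : LinearMap.range PS = LinearMap.ker T := by
      refine Submodule.eq_of_le_of_finrank_le hle ?_
      have h1 := PS.finrank_range_add_finrank_ker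
      have h2 := T.finrank_range_add_finrank_ker
      rw [hsurj, finrank_top, Module.finrank_fin_fun, Module.finrank_fin_fun] at h2
      have h3 := riemann_roch (inftyDiv p N n)
      rw [inftyDiv, Divisor.degree_single, deg_eq_one, Nat.cast_one, mul_one, ← inftyDiv] at h3
      simp only [ell] at h3
      rw [← hg] at h3
      change (Module.finrank ℂ_[p] S : ℤ) - _ = _ at h3
      omega
    have hxn : ∀ m : ℤ, m < -(n : ℤ) → x.coeff m = 0 := fun m hm =>
      HahnSeries.coeff_eq_zero_of_lt_order (by omega)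
    obtain ⟨⟨b, hb⟩, hPb⟩ : P x ∈ LinearMap.range PS := by
      rw [heq, LinearMap.mem_ker]
      exact funext fun i => by rw [hTP x hxn, hx i, Pi.zero_apply]
    obtain ⟨hreg, hpole⟩ := (mem_riemannRochSpace_inftyDiv p N n b).mp hb
    refine ⟨b, ⟨b, rfl, hreg⟩, fun m hm => ?_⟩
    rcases lt_or_ge m (-(n : ℤ)) with h | h
    · rw [hpole m h, hxn m h]
    · have := congrFun hPb ⟨(-m - 1).toNat, by omega⟩
      rw [show m = -((((-m - 1).toNat + 1 : ℕ)) : ℤ) by omega]
      exact this
  · -- no pole: constant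
    obtain ⟨b, rfl, hreg⟩ := hb
    have hb0 : b ∈ riemannRochSpace (inftyDiv p N 0) :=
      (mem_riemannRochSpace_inftyDiv p N 0 b).mpr ⟨hreg, fun i hi => hpol i (by simpa using hi)⟩
    rw [show inftyDiv p N 0 = 0 from Finsupp.single_zero _] at hb0
    have h1 : (1 : curveField p N) ∈ riemannRochSpace (0 : Divisor ℂ_[p] (curveField p N)) :=
      fun v => by simp
    obtain ⟨c, hc⟩ := (finrank_eq_one_iff_of_nonzero' (⟨1, h1⟩ : riemannRochSpace
      (0 : Divisor ℂ_[p] (curveField p N))) (fun h => one_ne_zero (congrArg Subtype.val h))).mp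
        ell_zero_eq_one ⟨b, hb0⟩
    refine ⟨c, ?_⟩
    rw [← algebraMap_eq_C]
    have := congrArg (fun y : riemannRochSpace (0 : Divisor ℂ_[p] (curveField p N)) =>
      (((y : curveField p N)) : LaurentSeries ℂ_[p])) hc
    rw [← this, Algebra.algebraMap_eq_smul_one]
    rfl

end Fermat.Agent.OrdinaryCurve
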