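import Fermat.Agent.OrdinaryCurve.ConstExt
import Mathlib.RingTheory.PowerSeries.Ideal
import Fermat.Agent.Carayol.Local.Series

/-!
# Integral lattices of functions with bounded pole order at `∞`

These spaces over `ℂ_p` are spanned by functions with rational expansions, and such a function has
bounded denominators, as `ℤ((q))` is integrally closed.
-/

set_option autoImplicit false

noncomputable section

open AlgebraicCurve ModularCurve HahnSeries
open Fermat.Agent.FunctionField
open Fermat.Agent.MW.Modular (qPlace ord_qPlace regRing mem_regRing)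

namespace Fermat.Agent.OrdinaryCurve

local notation "Qbar" => AlgebraicClosure ℚ

attribute [local instance 3000] MW.Modular.seriesFieldAlgebra

/-- `ℤ((q)) → ℚ((q))`. -/
def intToRat : LaurentSeries ℤ →+* LaurentSeries ℚ := coeffMap (Int.castRingHom ℚ)

theorem mem_range_intToRat {x : LaurentSeries ℚ} :
    x ∈ intToRat.range ↔ ∀ k, ∃ z : ℤ, x.coeff k = z := by
  constructor
  · rintro ⟨y, rfl⟩ k
    exact ⟨y.coeff k, coeffMap_coeff _ _ _⟩
  · intro h
    choose z hz using h
    refine ⟨⟨z, x.isPWO_support.mono fun k hk => ?_⟩, HahnSeries.ext (funext fun k => ?_)⟩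
    · simpa [HahnSeries.mem_support, hz] using hk
    · rw [intToRat, coeffMap_coeff]
      exact (hz k).symm

theorem intToRat_injective : Function.Injective intToRat := fun x y h =>
  HahnSeries.ext (funext fun k => Int.cast_injective (α := ℚ) (by
    simpa [intToRat] using congrArg (fun s : LaurentSeries ℚ => s.coeff k) h))

theorem qExpand_jq_mem_range (d : ℕ) [NeZero d] : qExpand ℚ d jq ∈ intToRat.range := by
  have hj : ∀ k, ∃ z : ℤ, jq.coeff k = z := by
    intro k
    rw [jq, HahnSeries.coeff_single_mul, one_mul]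
    rcases lt_or_ge (k - -1) 0 with h | h
    · exact ⟨0, by rw [ofPowerSeries_coeff_neg _ h, Int.cast_zero]⟩
    · lift k - -1 to ℕ using h with l
      exact ⟨PowerSeries.coeff l jNum, by simp [jNumQ, HahnSeries.ofPowerSeries_apply_coeff]⟩
  refine mem_range_intToRat.mpr fun k => ?_
  by_cases hk : (d : ℤ) ∣ k
  · obtain ⟨m, rfl⟩ := hk
    rw [qExpand_coeff_mul]
    exact hj m
  · exact ⟨0, by rw [qExpand_coeff_of_not_dvd d _ hk, Int.cast_zero]⟩

variable (N : ℕ) [NeZero N]

/-- The series that are quotients of series with integral coefficients. -/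
def intQuot : IntermediateField ℚ (LaurentSeries ℚ) where
  toSubalgebra :=
    { carrier := {y | ∃ a b : LaurentSeries ℤ, b ≠ 0 ∧ y * intToRat b = intToRat a}
      mul_mem' := by
        rintro y y' ⟨a, b, hb, h⟩ ⟨a', b', hb', h'⟩
        exact ⟨a * a', b * b', mul_ne_zero hb hb', by rw [map_mul, map_mul, ← h, ← h']; ring⟩
      add_mem' := by
        rintro y y' ⟨a, b, hb, h⟩ ⟨a', b', hb', h'⟩
        exact ⟨a * b' + a' * b, b * b', mul_ne_zero hb hb', by
          rw [map_add, map_mul, map_mul, map_mul, ← h, ← h']; ring⟩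
      algebraMap_mem' := fun r => ⟨(r.num : LaurentSeries ℤ), (r.den : LaurentSeries ℤ), by
          rw [← map_natCast (HahnSeries.C : ℤ →+* LaurentSeries ℤ),
            map_ne_zero_iff _ HahnSeries.C_injective]
          exact_mod_cast r.den_ne_zero, by
        rw [map_natCast, map_intCast, ← map_natCast (algebraMap ℚ (LaurentSeries ℚ)),
          ← map_intCast (algebraMap ℚ (LaurentSeries ℚ)), ← map_mul, Rat.mul_den_eq_num]⟩ }
  inv_mem' := by
    rintro y ⟨a, b, hb, h⟩
    rcases eq_or_ne y 0 with rfl | hy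
    · exact ⟨0, 1, one_ne_zero, by simp⟩
    refine ⟨b, a, fun ha => ?_, by rw [← h, ← mul_assoc, inv_mul_cancel₀ hy, one_mul]⟩
    rw [ha, map_zero, mul_eq_zero, or_iff_right hy, map_eq_zero_iff _ intToRat_injective] at h
    exact hb h

omit [NeZero N] in
theorem full_le_intQuot : modularFunctionFieldFull N ≤ intQuot := by
  refine IntermediateField.adjoin_le_iff.mpr ?_
  rintro _ ⟨d, hd, -, rfl⟩
  obtain ⟨a, ha⟩ := qExpand_jq_mem_range d
  exact ⟨a, 1, one_ne_zero, by rw [map_one, mul_one, ha]⟩

/-- A rational function regular outside `∞` has bounded denominators. -/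
theorem exists_intToRat_eq {g : modularFunctionFieldFull N}
    (hg : g ∈ regRing (modularFunctionFieldFull N)) :
    ∃ (m : ℕ) (Y : LaurentSeries ℤ), m ≠ 0 ∧
      intToRat Y = (m : LaurentSeries ℚ) * (g : LaurentSeries ℚ) := by
  classical
  set t : modularFunctionFieldFull N :=
    ⟨jq, modularFunctionField_le_full N (jq_mem N)⟩ with ht
  have htord : (t : LaurentSeries ℚ).order < 0 := by
    refine lt_of_le_of_lt (order_le_of_coeff_ne_zero (g := (-1 : ℤ)) ?_) (by norm_num)
    show jq.coeff (-1) ≠ 0
    rw [coeff_jq_neg_one]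
    exact one_ne_zero
  let := FFPlaces.genAlgebra (K := ℚ) t
  obtain ⟨P, hP, hPg⟩ := CurveBaseChange.isIntegral_of_regular (K := ℚ) (t := t) (f := g)
    fun v hv => by
      have hvq : v ≠ qPlace (modularFunctionFieldFull N) := by
        rintro rfl
        rw [ord_qPlace] at hv
        omega
      exact (FFPlaces.mem_iff v).mp (mem_regRing.mp hg v hvq)
  let φ : Polynomial ℚ →+* LaurentSeries ℚ :=
    (modularFunctionFieldFull N).val.toRingHom.comp (algebraMap (Polynomial ℚ) _)
  have hφ : ∀ r : Polynomial ℚ, φ r = Polynomial.aeval jq r := fun r => by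
    show ((Polynomial.aeval t r : modularFunctionFieldFull N) : LaurentSeries ℚ) = _
    exact (Polynomial.aeval_algHom_apply (modularFunctionFieldFull N).val t r).symm
  have hPg' : Polynomial.eval₂ φ (g : LaurentSeries ℚ) P = 0 := by
    have := congrArg (modularFunctionFieldFull N).val.toRingHom hPg
    rwa [Polynomial.hom_eval₂, map_zero] at this
  set m : ℕ := ∏ i ∈ Finset.range P.natDegree,
    ∏ j ∈ (P.coeff i).support, ((P.coeff i).coeff j).den with hm
  have hm0 : m ≠ 0 := Finset.prod_ne_zero_iff.mpr fun i _ =>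
    Finset.prod_ne_zero_iff.mpr fun j _ => Rat.den_ne_zero _
  refine ⟨m, ?_⟩
  set y : LaurentSeries ℚ := (m : LaurentSeries ℚ) * (g : LaurentSeries ℚ) with hy
  set Q := (P.map φ).scaleRoots (m : LaurentSeries ℚ) with hQdef
  have hQy : Polynomial.eval y Q = 0 :=
    Polynomial.scaleRoots_eval₂_eq_zero (RingHom.id _) (r := (g : LaurentSeries ℚ))
      (by rw [Polynomial.eval₂_map, RingHom.id_comp]; exact hPg')
  have hQlift : Q ∈ Polynomial.lifts intToRat := by
    rw [Polynomial.lifts_iff_coeff_lifts]
    intro i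
    rw [hQdef, Polynomial.coeff_scaleRoots, Polynomial.natDegree_map_of_leadingCoeff_ne_zero _
      (by rw [hP.leadingCoeff, map_one]; exact one_ne_zero), Polynomial.coeff_map]
    show _ ∈ intToRat.range
    rcases Nat.lt_trichotomy i P.natDegree with hi | hi | hi
    · have hsplit : P.natDegree - i = (P.natDegree - i - 1) + 1 := by omega
      rw [hsplit, pow_succ, mul_comm _ (m : LaurentSeries ℚ), ← mul_assoc]
      refine mul_mem ?_ (pow_mem
        (show (m : LaurentSeries ℚ) ∈ intToRat.range from ⟨m, map_natCast intToRat m⟩) _)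
      rw [hφ, Polynomial.aeval_eq_sum_range, Finset.sum_mul]
      refine sum_mem fun j _ => ?_
      rw [Algebra.smul_def, mul_right_comm]
      refine mul_mem ?_ (pow_mem ?_ _)
      · rw [← map_natCast (algebraMap ℚ (LaurentSeries ℚ)), ← map_mul]
        by_cases hj : j ∈ (P.coeff i).support
        · obtain ⟨e, he⟩ : ((P.coeff i).coeff j).den ∣ m :=
            (Finset.dvd_prod_of_mem _ hj).trans
              (Finset.dvd_prod_of_mem (fun i => ∏ j ∈ (P.coeff i).support,
                ((P.coeff i).coeff j).den) (Finset.mem_range.mpr hi))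
          refine ⟨((P.coeff i).coeff j).num * e, ?_⟩
          rw [map_mul, map_intCast, map_natCast, he, Nat.cast_mul, ← mul_assoc,
            Rat.mul_den_eq_num, map_mul, map_intCast, map_natCast]
        · rw [Polynomial.notMem_support_iff.mp hj, zero_mul, map_zero]
          exact zero_mem _
      · have := qExpand_jq_mem_range 1
        rwa [qExpand_one_apply] at this
    · rw [hi, Nat.sub_self, pow_zero, mul_one, ← Polynomial.coeff_map,
        show (P.map φ).coeff P.natDegree = 1 by
          rw [Polynomial.coeff_map, ← Polynomial.leadingCoeff, hP.leadingCoeff, map_one]]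
      exact one_mem _
    · rw [Polynomial.coeff_eq_zero_of_natDegree_lt hi, map_zero, zero_mul]
      exact zero_mem _
  obtain ⟨R, hR, -, hRm⟩ := Polynomial.lifts_and_degree_eq_and_monic hQlift
    ((Polynomial.monic_scaleRoots_iff _).mpr (hP.map φ))
  obtain ⟨a, b, hb, hab⟩ : y ∈ intQuot :=
    mul_mem (natCast_mem _ m) (full_le_intQuot N g.2)
  let K := FractionRing (LaurentSeries ℤ)
  have : IsIntegrallyClosed (LaurentSeries ℤ) :=
    Fermat.Agent.Carayol.Local.isIntegrallyClosed_laurentSeries ℤ
  let ψ : K →+* LaurentSeries ℚ := IsFractionRing.lift intToRat_injective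
  have hψ : ∀ x, ψ (algebraMap _ K x) = intToRat x := IsFractionRing.lift_algebraMap _
  set F : K := algebraMap _ K a / algebraMap _ K b
  have hψF : ψ F = y := by
    rw [map_div₀, hψ, hψ, ← hab,
      mul_div_cancel_right₀ _ ((map_ne_zero_iff _ intToRat_injective).mpr hb)]
  have hint : IsIntegral (LaurentSeries ℤ) F := by
    refine ⟨R, hRm, ψ.injective ?_⟩
    rw [Polynomial.hom_eval₂, map_zero, hψF,
      show ψ.comp (algebraMap _ K) = intToRat from RingHom.ext hψ, ← Polynomial.eval_map, hR]
    exact hQy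
  obtain ⟨Y, hY⟩ := IsIntegrallyClosed.algebraMap_eq_of_integral hint
  exact ⟨Y, hm0, by rw [← hψ, hY, hψF]⟩

variable (p : ℕ) [hp : Fact p.Prime]

/-- `q ^ n * x` as a power series, for a series `x` with pole order at most `n`. -/
def shiftSeries {R : Type*} [CommRing R] (n : ℕ) (x : LaurentSeries R) : PowerSeries R :=
  PowerSeries.mk fun k => x.coeff ((k : ℤ) - n)

theorem single_mul_shiftSeries {R : Type*} [Field R] {n : ℕ} {x : LaurentSeries R}
    (hx : ∀ k : ℤ, k < -(n : ℤ) → x.coeff k = 0) :
    HahnSeries.single (-(n : ℤ)) 1 * HahnSeries.ofPowerSeries ℤ R (shiftSeries n x) = x := by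
  refine HahnSeries.ext (funext fun k => ?_)
  rw [HahnSeries.coeff_single_mul, one_mul]
  rcases lt_or_ge (k - -(n : ℤ)) 0 with h | h
  · rw [ofPowerSeries_coeff_neg _ h, hx k (by omega)]
  · obtain ⟨l, hl⟩ := Int.eq_ofNat_of_zero_le h
    rw [hl, HahnSeries.ofPowerSeries_apply_coeff, shiftSeries, PowerSeries.coeff_mk]
    exact congrArg _ (by omega)

theorem shiftSeries_single_mul {R : Type*} [CommRing R] (n : ℕ) (u : PowerSeries R) :
    shiftSeries n (HahnSeries.single (-(n : ℤ)) 1 * HahnSeries.ofPowerSeries ℤ R u) = u := by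
  ext k
  rw [shiftSeries, PowerSeries.coeff_mk, HahnSeries.coeff_single_mul, one_mul,
    show (k : ℤ) - n - -(n : ℤ) = k by omega, HahnSeries.ofPowerSeries_apply_coeff]

/-- Rational functions regular outside `∞` with pole order at most `n`. -/
def ratFuns (n : ℕ) : Set (LaurentSeries ℂ_[p]) :=
  {x | ∃ g : modularFunctionFieldFull N, g ∈ regRing (modularFunctionFieldFull N) ∧
    (∀ k : ℤ, k < -(n : ℤ) → (g : LaurentSeries ℚ).coeff k = 0) ∧
    coeffEmb ℂ_[p] (g : LaurentSeries ℚ) = x}

theorem algebraMap_mul_eq_smul (c : ℂ_[p]) (x : LaurentSeries ℂ_[p]) :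
    algebraMap ℂ_[p] (LaurentSeries ℂ_[p]) c * x = c • x := by
  rw [algebraMap_laurentSeries_eq_single, HahnSeries.single_zero_mul_eq_smul]

theorem mem_regularRing_of_mem_ratFuns {n : ℕ} {x : LaurentSeries ℂ_[p]}
    (hx : x ∈ ratFuns N p n) : x ∈ regularRing p N := by
  obtain ⟨g, hg, -, rfl⟩ := hx
  set gb : modularFunctionFieldBar N := MW.Modular.emb (modularFunctionFieldFull N) g with hgb
  have hgb' : gb ∈ regRing (modularFunctionFieldBar N) := MW.Modular.emb_mem_regRing hg
  refine ⟨algebraMap (modularFunctionFieldBar N) (curveField p N) gb, ?_,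
    regularAway_iff_infty.mpr fun v hv => ?_⟩
  · rw [coe_algebraMap_bar, hgb, MW.Modular.coe_emb]
    exact coeffMap_complexEmb_coeffEmb p _
  · refine (FFPlaces.mem_iff v).mpr ?_
    by_contra! hlt
    obtain ⟨q, rfl⟩ := CurveBaseChange.exists_eq_liftPlace Qbar (P := v) (f := gb) (by omega)
    rw [CurveBaseChange.ord_liftPlace] at hlt
    refine hlt.not_ge ((FFPlaces.mem_iff q).mp (hgb' q ?_))
    rintro rfl
    exact hv (liftPlace_inftyPlace p N)

/-- The functions of bounded pole order are spanned by finitely many rational ones. -/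
theorem exists_finite_spanning (n : ℕ) :
    ∃ G : Set (LaurentSeries ℂ_[p]), G.Finite ∧ G ⊆ ratFuns N p n ∧
      ∀ x ∈ regularRing p N, (∀ k : ℤ, k < -(n : ℤ) → x.coeff k = 0) →
        x ∈ Submodule.span ℂ_[p] G := by
  classical
  set D : Divisor Qbar (modularFunctionFieldBar N) :=
    Finsupp.single (qPlace (modularFunctionFieldBar N)) (n : ℤ) with hD
  let b := Module.finBasis Qbar (riemannRochSpace D)
  have hdec : ∀ i, ∃ G : Finset (LaurentSeries ℂ_[p]), (G : Set _) ⊆ ratFuns N p n ∧
      ((algebraMap (modularFunctionFieldBar N) (curveField p N)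
        (b i : modularFunctionFieldBar N) : curveField p N) : LaurentSeries ℂ_[p]) ∈
          Submodule.span ℂ_[p] (G : Set (LaurentSeries ℂ_[p])) := by
    intro i
    set f : modularFunctionFieldBar N := (b i : modularFunctionFieldBar N) with hf
    have hmem : f ∈ riemannRochSpace D := (b i).2
    rw [mem_riemannRochSpace_iff] at hmem
    have hreg : f ∈ regRing (modularFunctionFieldBar N) := by
      intro v hv
      refine (FFPlaces.mem_iff v).mpr ?_
      rcases hmem v with h | h
      · simp [h]
      · rw [hD, Finsupp.single_eq_of_ne hv] at h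
        simpa using h
    have hpole : ∀ k : ℤ, k < -(n : ℤ) → (f : LaurentSeries Qbar).coeff k = 0 := by
      intro k hk
      rcases hmem (qPlace (modularFunctionFieldBar N)) with h | h
      · simp [h]
      · rw [hD, Finsupp.single_eq_same, ord_qPlace] at h
        exact coeff_eq_zero_of_lt_order (by omega)
    obtain ⟨s, g, hsum⟩ := MW.Modular.exists_eq_sum (modularFunctionFieldFull N) f
    rw [hsum] at hreg hpole
    have hg := MW.Modular.mem_regRing_of_sum_mem hreg
    refine ⟨s.image fun j => coeffEmb ℂ_[p] (g j : LaurentSeries ℚ), ?_, ?_⟩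
    · intro x hx
      obtain ⟨j, hj, rfl⟩ := Finset.mem_image.mp hx
      exact ⟨g j, hg j hj,
        fun k hk => MW.Modular.coeff_eq_zero_of_sum (hpole k hk) j hj, rfl⟩
    · have : ((algebraMap (modularFunctionFieldBar N) (curveField p N) f : curveField p N) :
          LaurentSeries ℂ_[p]) = ∑ j ∈ s, complexEmb p (MW.Modular.qbasis j) •
            coeffEmb ℂ_[p] (g j : LaurentSeries ℚ) := by
        refine HahnSeries.ext (funext fun k => ?_)
        rw [coe_algebraMap_bar, coeffMap_coeff, hsum, MW.Modular.coeff_sum_emb, map_sum,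
          HahnSeries.coeff_sum]
        refine Finset.sum_congr rfl fun j _ => ?_
        rw [HahnSeries.coeff_smul, coeffEmb_coeff, smul_eq_mul, Algebra.smul_def, map_mul,
          mul_comm]
        exact congrArg (_ * ·)
          (RingHom.congr_fun (RingHom.ext_rat ((complexEmb p).comp (algebraMap ℚ Qbar)) _) _)
      rw [this]
      exact sum_mem fun j hj => Submodule.smul_mem _ _
        (Submodule.subset_span (Finset.mem_coe.mpr (Finset.mem_image_of_mem _ hj)))
  choose G hG hGspan using hdec
  refine ⟨⋃ i, (G i : Set (LaurentSeries ℂ_[p])), Set.finite_iUnion fun i => (G i).finite_toSet,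
    Set.iUnion_subset hG, ?_⟩
  rintro x ⟨z, rfl, hz⟩ hk
  have hzmem : z ∈ riemannRochSpace
      (CurveBaseChange.liftDiv ℂ_[p] (curveField p N) D) := by
    rw [hD, CurveBaseChange.liftDiv_single, liftPlace_inftyPlace, mem_riemannRochSpace_iff]
    intro v
    rcases eq_or_ne z 0 with h0 | h0
    · exact Or.inl h0
    refine Or.inr ?_
    by_cases hv : v = inftyPlace p N
    · subst hv
      rw [Finsupp.single_eq_same, ord_qPlace]
      by_contra! hlt
      exact coeff_order_eq_zero.not.mpr (fun e => h0 (Subtype.ext e)) (hk _ (by omega))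
    · rw [Finsupp.single_eq_of_ne hv]
      simpa using (FFPlaces.mem_iff v).mp (regularAway_iff_infty.mp hz v hv)
  rw [CurveBaseChange.riemannRochSpace_liftDiv D b] at hzmem
  clear hz hk
  induction hzmem using Submodule.span_induction with
  | mem z hz =>
    obtain ⟨i, rfl⟩ := hz
    exact Submodule.span_mono (Set.subset_iUnion
      (fun i => (G i : Set (LaurentSeries ℂ_[p]))) i) (hGspan i)
  | zero => exact zero_mem _
  | add y z _ _ hy hz => exact add_mem hy hz
  | smul c y _ hy =>
    rw [IntermediateField.coe_smul, Algebra.smul_def, algebraMap_mul_eq_smul]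
    exact Submodule.smul_mem _ c hy

/-- **The functions of bounded pole order at `∞` have integral lattices.** -/
theorem hasLattices : HasLattices p N := by
  classical
  intro ι C hC n
  obtain ⟨G, hGfin, hG, hspan⟩ := exists_finite_spanning N p n
  obtain ⟨H, hHG, hHspan, hHind⟩ := exists_linearIndependent ℂ_[p] G
  have : Fintype H := (hGfin.subset hHG).fintype
  let e := (Fintype.equivFin H).symm
  have hscale : ∀ i : Fin (Fintype.card H), ∃ (c : ℂ_[p]) (W : PowerSeries (unramHat p)),
      c ≠ 0 ∧ PowerSeries.map (unramHat p).subtype W =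
        shiftSeries n (c • (e i : LaurentSeries ℂ_[p])) := by
    intro i
    obtain ⟨g, hg, -, hgx⟩ := hG (hHG (e i).2)
    obtain ⟨m, Y, hm, hY⟩ := exists_intToRat_eq N hg
    refine ⟨(m : ℂ_[p]), PowerSeries.mk fun k => (Y.coeff ((k : ℤ) - n) : unramHat p),
      Nat.cast_ne_zero.mpr hm, ?_⟩
    ext k
    rw [PowerSeries.coeff_map, PowerSeries.coeff_mk, shiftSeries, PowerSeries.coeff_mk, map_intCast,
      HahnSeries.coeff_smul, ← hgx, coeffEmb_coeff, smul_eq_mul,
      ← map_natCast (algebraMap ℚ ℂ_[p]), ← map_mul, ← map_intCast (algebraMap ℚ ℂ_[p])]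
    refine congrArg _ ?_
    have h := congrArg (fun s : LaurentSeries ℚ => s.coeff ((k : ℤ) - n)) hY
    simp only [intToRat, coeffMap_coeff, eq_intCast] at h
    rw [h, ← map_natCast (HahnSeries.C : ℚ →+* LaurentSeries ℚ), HahnSeries.C_mul_eq_smul,
      HahnSeries.coeff_smul, smul_eq_mul]
  choose c W hc hW using hscale
  have hpole : ∀ i, ∀ k : ℤ, k < -(n : ℤ) →
      (c i • (e i : LaurentSeries ℂ_[p])).coeff k = 0 := by
    intro i k hk
    obtain ⟨g, -, hgk, hgx⟩ := hG (hHG (e i).2)
    rw [HahnSeries.coeff_smul, ← hgx, coeffEmb_coeff, hgk k hk, map_zero, smul_zero]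
  let T : PowerSeries ℂ_[p] →ₗ[ℂ_[p]] LaurentSeries ℂ_[p] :=
    { toFun := fun u => HahnSeries.single (-(n : ℤ)) 1 * HahnSeries.ofPowerSeries ℤ ℂ_[p] u
      map_add' := fun u v => by rw [map_add, mul_add]
      map_smul' := fun r u => by
        rw [PowerSeries.smul_eq_C_mul, map_mul, HahnSeries.ofPowerSeries_C, RingHom.id_apply,
          mul_left_comm, HahnSeries.C_mul_eq_smul] }
  have hTW : ∀ i, T (PowerSeries.map (unramHat p).subtype (W i)) =
      c i • (e i : LaurentSeries ℂ_[p]) := fun i => by
    rw [hW]; exact single_mul_shiftSeries (hpole i)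
  have hind : LinearIndependent ℂ_[p] fun i => c i • (e i : LaurentSeries ℂ_[p]) :=
    (hHind.comp e e.injective).units_smul fun i => Units.mk0 (c i) (hc i)
  refine ⟨⟨Fintype.card H, W, fun i => ?_, ?_, fun u hu => ?_⟩⟩
  · show T _ ∈ C.B
    rw [hC, hTW]
    rw [← algebraMap_mul_eq_smul]
    exact mul_mem ((regularRing p N).algebraMap_mem _)
      (mem_regularRing_of_mem_ratFuns N p (hG (hHG (e i).2)))
  · refine LinearIndependent.of_comp T ?_
    rw [show (T ∘ fun i => PowerSeries.map (unramHat p).subtype (W i)) =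
      fun i => c i • (e i : LaurentSeries ℂ_[p]) from funext hTW]
    exact hind
  · have hu' : T u ∈ Submodule.span ℂ_[p]
        (Set.range fun i => c i • (e i : LaurentSeries ℂ_[p])) := by
      have h1 : T u ∈ Submodule.span ℂ_[p] H := by
        rw [hHspan]
        refine hspan (T u) (by rw [← hC]; exact hu) fun k hk => ?_
        show (HahnSeries.single (-(n : ℤ)) 1 * HahnSeries.ofPowerSeries ℤ ℂ_[p] u).coeff k = 0
        rw [HahnSeries.coeff_single_mul, ofPowerSeries_coeff_neg _ (by omega), mul_zero]
      refine Submodule.span_le.mpr (fun x hx => ?_) h1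
      obtain ⟨i, hi⟩ := e.surjective ⟨x, hx⟩
      have : x = (c i)⁻¹ • (c i • (e i : LaurentSeries ℂ_[p])) := by
        rw [smul_smul, inv_mul_cancel₀ (hc i), one_smul, hi]
      rw [this]
      exact Submodule.smul_mem _ _ (Submodule.subset_span ⟨i, rfl⟩)
    obtain ⟨a, ha⟩ := (Submodule.mem_span_range_iff_exists_fun ℂ_[p]).mp hu'
    refine ⟨a, ?_⟩
    have hinj : Function.Injective T := fun u v huv => by
      rw [← shiftSeries_single_mul n u, ← shiftSeries_single_mul n v]
      exact congrArg (shiftSeries n) huv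
    refine hinj ?_
    rw [map_sum, ← ha]
    refine Finset.sum_congr rfl fun i _ => ?_
    rw [← PowerSeries.smul_eq_C_mul, map_smul, hTW]

end Fermat.Agent.OrdinaryCurve
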