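import Fermat.Agent.OrdinaryCurve.Assembly
import Fermat.Agent.OrdinaryCurve.CurveB
import Fermat.Agent.OrdinaryCurve.CurveLattice
import Fermat.Agent.OrdinaryCurve.Bridge

/-!
# The ordinary part of the Tate module of `J₀(N)`

`OrdinaryTate` holds for every prime `p` and every level `N`.
-/

set_option autoImplicit false

noncomputable section

namespace Fermat.Agent.OrdinaryCurve

variable (p : ℕ) [hp : Fact p.Prime] (N : ℕ) [NeZero N]

/-- **The ordinary line at `p`.** -/
theorem ordinaryTate : OrdinaryTate p N :=
  ordinaryTate_of_inputs (p := p) (N := N) (hasFormalCurve _ _) (hasLattices _ _)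
    (nonempty_torsionBridge _ _)

end Fermat.Agent.OrdinaryCurve
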