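import Fermat.Agent.OrdinaryCurve.FamilyClass

/-!
The Hecke correspondence maps a family to a family whose logarithm is transformed by the matrix
of the Hecke operator on the coefficient vectors.
-/

set_option autoImplicit false

noncomputable section

open PowerSeries Matrix

namespace Fermat.Agent.OrdinaryCurve

section Log

variable {K : Type*} [Field K] [CharZero K] {ι : Type*} [Fintype ι]
variable {A : ℕ → ι → K} {l : ℕ} {M : Matrix ι ι K}

theorem lam_hecke_of_not_dvd (hl : l.Prime)
    (hA : ∀ m i, A (l * m) i + (if l ∣ m then (l : K) * A (m / l) i else 0) = (M *ᵥ A m) i)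
    {n : ℕ} (hn : ¬ l ∣ n) (i : ι) :
    lam A (n * l) i + expand l hl.ne_zero (lam A n i) = ∑ b, C (M i b) * lam A n b := by
  ext k
  rw [map_add, coeff_expand, coeff_lam, map_sum]
  simp only [coeff_C_mul, coeff_lam, ← mul_div_assoc]
  rw [← Finset.sum_div]
  have h := hA (k * n) i
  simp only [mulVec, dotProduct] at h
  rw [← h, add_div]
  congr 1
  · congr 2; ring
  by_cases hk : l ∣ k
  · obtain ⟨k', rfl⟩ := hk
    rw [if_pos (dvd_mul_right l k'), if_pos (Dvd.intro (k' * n) (by ring)),
      Nat.mul_div_cancel_left _ hl.pos, mul_assoc, Nat.mul_div_cancel_left _ hl.pos, Nat.cast_mul,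
      mul_div_mul_left _ _ (Nat.cast_ne_zero.mpr hl.ne_zero)]
  · rw [if_neg hk, if_neg fun h2 => (hl.dvd_mul.mp h2).elim hk hn, zero_div]

theorem lam_hecke_of_dvd
    (hA : ∀ m i, A (l * m) i + (if l ∣ m then (l : K) * A (m / l) i else 0) = (M *ᵥ A m) i)
    {n : ℕ} (hn : l ∣ n) (i : ι) :
    lam A (n * l) i + l • lam A (n / l) i = ∑ b, C (M i b) * lam A n b := by
  ext k
  rw [map_add, map_nsmul, coeff_lam, coeff_lam, map_sum]
  simp only [coeff_C_mul, coeff_lam, ← mul_div_assoc]
  rw [← Finset.sum_div]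
  have h := hA (k * n) i
  simp only [mulVec, dotProduct] at h
  rw [← h, if_pos (hn.mul_left k), add_div, nsmul_eq_mul, Nat.mul_div_assoc k hn]
  congr 1
  · congr 2; ring
  · ring

variable {J : Type*} [Fintype J]

/-- The number of image families of the `j`-th member. -/
abbrev heckeCopies (l : ℕ) (n : J → ℕ) (j : J) : ℕ := if l ∣ n j then l else 1

/-- The exponents of the image family. -/
def heckeExp (l : ℕ) (n : J → ℕ) : (J ⊕ (Σ j, Fin (heckeCopies l n j))) → ℕ :=
  Sum.elim (fun j => n j * l) fun x => if l ∣ n x.1 then n x.1 / l else n x.1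

/-- The series of the image family. -/
def heckeSer {R : Type*} [CommRing R] (l : ℕ) (n : J → ℕ) (z : J → R⟦X⟧) :
    (J ⊕ (Σ j, Fin (heckeCopies l n j))) → R⟦X⟧ :=
  Sum.elim z fun x => if l ∣ n x.1 then z x.1 else z x.1 ^ l

omit [Fintype J] in
/-- The Hecke exponents are positive. -/
theorem heckeExp_pos {n : J → ℕ} (hl : l.Prime) (hn : ∀ j, 1 ≤ n j) :
    ∀ x, 1 ≤ heckeExp l n x := by
  rintro (j | x)
  · exact Nat.mul_pos (hn j) hl.pos
  · simp only [heckeExp, Sum.elim_inr]
    split_ifs with h
    · exact Nat.div_pos (Nat.le_of_dvd (hn _) h) hl.pos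
    · exact hn _

omit [Fintype J] in
/-- The Hecke series vanish at `0`. -/
theorem constantCoeff_heckeSer {R : Type*} [CommRing R] {n : J → ℕ} {z : J → R⟦X⟧}
    (hl : l.Prime) (hz : ∀ j, constantCoeff (z j) = 0) :
    ∀ x, constantCoeff (heckeSer l n z x) = 0 := by
  rintro (j | x)
  · exact hz j
  · simp only [heckeSer, Sum.elim_inr]
    split_ifs
    · exact hz _
    · rw [map_pow, hz, zero_pow hl.ne_zero]

omit [Fintype J] in
/-- The Hecke series commute with `map`. -/
theorem map_heckeSer {R S : Type*} [CommRing R] [CommRing S] (f : R →+* S) (n : J → ℕ)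
    (z : J → R⟦X⟧) (x : J ⊕ (Σ j, Fin (heckeCopies l n j))) :
    PowerSeries.map f (heckeSer l n z x) = heckeSer l n (fun j => PowerSeries.map f (z j)) x := by
  rcases x with j | x
  · rfl
  · simp only [heckeSer, Sum.elim_inr]
    split_ifs <;> simp

/-- The logarithm of the image family. -/
theorem logVec_hecke (hl : l.Prime)
    (hA : ∀ m i, A (l * m) i + (if l ∣ m then (l : K) * A (m / l) i else 0) = (M *ᵥ A m) i)
    (n : J → ℕ) {z : J → K⟦X⟧} (hz : ∀ j, constantCoeff (z j) = 0) (i : ι) :
    logVec A (heckeExp l n) (heckeSer l n z) i = ∑ b, C (M i b) * logVec A n z b := by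
  simp only [logVec, Fintype.sum_sum_type, Fintype.sum_sigma, heckeExp, heckeSer, Sum.elim_inl,
    Sum.elim_inr]
  simp only [Finset.sum_const, Finset.card_univ, Fintype.card_fin, Finset.mul_sum]
  rw [Finset.sum_comm (f := fun b j => C (M i b) * _), ← Finset.sum_add_distrib]
  refine Finset.sum_congr rfl fun j _ => ?_
  have hS : HasSubst (z j) := HasSubst.of_constantCoeff_zero' (hz j)
  have hC : ∀ c : K, (C c).subst (z j) = C c := fun c => by rw [subst_C]; rfl
  have hR : ∑ b, C (M i b) * (lam A (n j) b).subst (z j) =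
      (∑ b, C (M i b) * lam A (n j) b).subst (z j) := by
    rw [← coe_substAlgHom hS, map_sum]
    refine Finset.sum_congr rfl fun b _ => ?_
    rw [map_mul, coe_substAlgHom, hC]
  rw [hR]
  by_cases h : l ∣ n j
  · simp only [heckeCopies, if_pos h]
    rw [← lam_hecke_of_dvd hA h i, ← coe_substAlgHom hS, map_add, map_nsmul]
  · simp only [heckeCopies, if_neg h, one_smul]
    rw [← lam_hecke_of_not_dvd hl hA h i, ← coe_substAlgHom hS, map_add, coe_substAlgHom,
      expand_apply, subst_comp_subst_apply (HasSubst.X_pow hl.ne_zero) hS, subst_pow hS,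
      subst_X hS]

end Log

section Points

variable {K : Type*} [NormedField K] [IsAlgClosed K] [CharZero K] [IsUltrametricDist K]
  [CompleteSpace K]
variable {l : ℕ} [NeZero l] {J : Type*} [Fintype J]

omit [IsUltrametricDist K] [CompleteSpace K] [Fintype J] in
theorem heckePts_sum (s : Finset J) (m : J → Multiset (DiscPoint K)) :
    heckePts l (∑ j ∈ s, m j) = ∑ j ∈ s, heckePts l (m j) := by
  classical
  induction s using Finset.induction_on with
  | empty => simp [heckePts_zero]
  | insert a s ha ih => rw [Finset.sum_insert ha, Finset.sum_insert ha, heckePts_add, ih]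

/-- The Hecke correspondence on the points of a family. -/
theorem heckePts_famPts (hl : l.Prime) (W : Subring K) (hW : ∀ x ∈ W, ‖x‖ ≤ 1) {n : J → ℕ}
    (hn : ∀ j, 1 ≤ n j) {z : J → W⟦X⟧} (hz : ∀ j, constantCoeff (z j) = 0) (a : DiscPoint K) :
    heckePts l (idxPts n (famAt W hW z hz a)) =
      idxPts (heckeExp l n)
        (famAt W hW (heckeSer l n z) (constantCoeff_heckeSer hl hz) a) := by
  rw [idxPts, heckePts_sum, idxPts, Fintype.sum_sum_type, Fintype.sum_sigma,
    ← Finset.sum_add_distrib]
  refine Finset.sum_congr rfl fun j _ => ?_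
  have : NeZero (n j) := ⟨Nat.one_le_iff_ne_zero.mp (hn j)⟩
  set b := famAt W hW z hz a j
  have hb1 : famAt W hW (heckeSer l n z) (constantCoeff_heckeSer hl hz) a (Sum.inl j) = b := rfl
  rw [hb1, rootsOfPow_eq, heckePts, bind_rootPts l (n j) b, add_comm]
  refine congrArg₂ (· + ·) rfl ?_
  simp only [heckeExp, Sum.elim_inr]
  by_cases h : l ∣ n j
  · have hc : ∀ i : Fin (heckeCopies l n j),
        famAt W hW (heckeSer l n z) (constantCoeff_heckeSer hl hz) a
          (Sum.inr ⟨j, i⟩) = b := fun i =>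
      DiscPoint.ext (by
        show evalAt W hW a (heckeSer l n z (Sum.inr ⟨j, i⟩)) = evalAt W hW a (z j)
        simp [heckeSer, if_pos h])
    simp only [hc, if_pos h, Finset.sum_const, Finset.card_univ, Fintype.card_fin, heckeCopies]
    obtain ⟨m, hm⟩ := h
    have : NeZero m := ⟨fun h0 => NeZero.ne (n j) (by rw [hm, h0, mul_zero])⟩
    have : NeZero (l * m) := ⟨mul_ne_zero hl.ne_zero (NeZero.ne m)⟩
    have e : rootPts (n j) b = rootPts (l * m) b := by
      rw [← rootsOfPow_eq, ← rootsOfPow_eq, hm]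
    rw [e, map_powPoint_rootPts_mul hl m b, hm, Nat.mul_div_cancel_left _ hl.pos]
  · have hc : ∀ i : Fin (heckeCopies l n j),
        famAt W hW (heckeSer l n z) (constantCoeff_heckeSer hl hz) a (Sum.inr ⟨j, i⟩) =
          powPoint l hl.ne_zero b := fun i =>
      DiscPoint.ext (by
        show evalAt W hW a (heckeSer l n z (Sum.inr ⟨j, i⟩)) = evalAt W hW a (z j) ^ l
        simp [heckeSer, if_neg h])
    simp only [hc, if_neg h, Finset.sum_const, Finset.card_univ, Fintype.card_fin, heckeCopies,
      one_smul]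
    exact map_powPoint_rootPts hl (n j) h b

end Points

end Fermat.Agent.OrdinaryCurve
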