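import Fermat.Agent.OrdinaryCurve.Vectors
import Fermat.Agent.OrdinaryCurve.HeckeFamily
import Fermat.Agent.OrdinaryCurve.CurveDisc

/-!
# The ordinary part of the Tate module of `J₀(N)`

`OrdinaryTate` from the formal curve, its lattices and the torsion bridge: the class of a family
with logarithm `c log (1 + X)` at the points `ζ_{p^r} - 1` gives the Tate module element of `c`.
-/

set_option autoImplicit false

noncomputable section

open PowerSeries AlgebraicCurve ModularCurve Matrix
open Fermat.Agent.CarayolReduction (tateModule)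

namespace Fermat.Agent.OrdinaryCurve

variable (p : ℕ) [hp : Fact p.Prime]

local notation "Qbar" => AlgebraicClosure ℚ
local notation "Cp" => ℂ_[p]
local notation "W" => unramHat p

theorem norm_unram (x : ℂ_[p]) (hx : x ∈ unramHat p) : ‖x‖ ≤ 1 := norm_unramHat_le p hx

theorem exists_rootSystem : ∃ ζ : ℕ → Qbar, ∀ r,
    IsPrimitiveRoot (ζ r) (p ^ r) ∧ ζ (r + 1) ^ p = ζ r := by
  have : NeZero p := ⟨hp.out.ne_zero⟩
  obtain ⟨ω, hω⟩ := HasEnoughRootsOfUnity.exists_primitiveRoot Qbar p
  choose g hg using fun x : Qbar => IsAlgClosed.exists_pow_nat_eq x hp.out.pos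
  let ζ : ℕ → Qbar := fun r => Nat.rec (motive := fun _ => Qbar) 1
    (fun k x => if k = 0 then ω else g x) r
  have hstep : ∀ r, ζ (r + 1) ^ p = ζ r := by
    intro r
    rcases r with - | r
    · show (if (0 : ℕ) = 0 then ω else g (ζ 0)) ^ p = 1
      rw [if_pos rfl, hω.pow_eq_one]
    · show (if r + 1 = 0 then ω else g (ζ (r + 1))) ^ p = ζ (r + 1)
      rw [if_neg (Nat.succ_ne_zero r), hg]
  have hpow : ∀ r k, ζ (r + k) ^ p ^ k = ζ r := by
    intro r k
    induction k with
    | zero => simp
    | succ k ih => rw [pow_succ', pow_mul, ← add_assoc, hstep, ih]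
  refine ⟨ζ, fun r => ⟨?_, hstep r⟩⟩
  rcases r with - | r
  · simp [ζ]
  · refine IsPrimitiveRoot.iff_orderOf.mpr (orderOf_eq_prime_pow ?_ ?_)
    · have h1 := hpow 1 r
      rw [add_comm] at h1
      rw [h1]
      exact hω.ne_one hp.out.one_lt
    · have := hpow 0 (r + 1)
      rw [zero_add] at this
      exact this

/-- A compatible system of `p`-power roots of unity. -/
def rootSys : ℕ → Qbar := (exists_rootSystem p).choose

/-- The chosen root of unity is primitive. -/
theorem isPrimitiveRoot_rootSys (r : ℕ) : IsPrimitiveRoot (rootSys p r) (p ^ r) :=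
  ((exists_rootSystem p).choose_spec r).1

theorem rootSys_pow (r : ℕ) : rootSys p (r + 1) ^ p = rootSys p r :=
  ((exists_rootSystem p).choose_spec r).2

/-- The point `ζ_{p^r} - 1` of the disc. -/
def rootDisc (r : ℕ) : DiscPoint ℂ_[p] :=
  ⟨complexEmb p (rootSys p r) - 1, norm_root_sub_one_lt (norm_prime_lt_one p) (r := r)
    (by rw [← map_pow, (isPrimitiveRoot_rootSys p r).pow_eq_one, map_one])⟩

/-- `1 + rootDisc` is the chosen root of unity. -/
theorem one_add_rootDisc (r : ℕ) : 1 + (rootDisc p r).val = complexEmb p (rootSys p r) :=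
  add_sub_cancel _ _

theorem val_powParam (m : ℕ) (a : DiscPoint ℂ_[p]) :
    (imagePoint (unramHat p) (norm_unram p) _ (constantCoeff_powParam _ m) a).val =
      (1 + a.val) ^ m - 1 := by
  show evalAt (unramHat p) (norm_unram p) a (powParam _ m) = _
  rw [powParam, map_sub, map_pow, map_add, map_one, evalAt_X]

theorem powParam_rootDisc (r : ℕ) :
    imagePoint (unramHat p) (norm_unram p) _ (constantCoeff_powParam _ p) (rootDisc p (r + 1)) =
      rootDisc p r :=
  DiscPoint.ext (by
    rw [val_powParam, one_add_rootDisc, ← map_pow, rootSys_pow]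
    rfl)

theorem powParam_pow_rootDisc (r : ℕ) :
    imagePoint (unramHat p) (norm_unram p) _ (constantCoeff_powParam _ (p ^ r)) (rootDisc p r) =
      discZero ℂ_[p] :=
  DiscPoint.ext (by
    rw [val_powParam, one_add_rootDisc, ← map_pow, (isPrimitiveRoot_rootSys p r).pow_eq_one,
      map_one, sub_self]
    rfl)

variable (N : ℕ) [NeZero N]

/-- A formal curve on the functions regular away from `∞` satisfies `IsRegularRing`. -/
theorem isRegularRing_of_eq {ι : Type*} {C : FormalCurve ℂ_[p] ι} (hB : C.B = regularRing p N) :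
    IsRegularRing C (discData p N) where
  le b hb := mem_curveField_of_mem_regularRing p N (hB ▸ hb)
  regular b hb := ord_nonneg_of_mem_regularRing p N b (hB ▸ hb)
  mem b hb := by
    rw [hB, coe_mem_regularRing_iff, regularAway_iff]
    intro v hv
    exact (FFPlaces.mem_iff v).mpr (hb v hv)

/-- The data of the construction: an integral basis, the matrix of `U_p`, indices spanning modulo
`p`, the formal curve with its lattices, and the torsion comparison. -/
structure Setup where
  Q : QBasis N
  U : Matrix (Fin Q.rank) (Fin Q.rank) ℤ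
  isU : IsUMat Q p U
  n : Fin Q.rank → ℕ
  one_le : ∀ j, 1 ≤ n j
  det : ¬ (p : ℤ) ∣ (Matrix.of fun i j => Q.a (n j) i).det
  C₀ : FormalCurve ℂ_[p] (Fin Q.rank)
  hB : C₀.B = regularRing p N
  hA : C₀.A = fun m i => (Q.a m i : ℂ_[p])
  lat : ∀ m, C₀.Lattice (unramHat p) m
  bridge : TorsionBridge p N

namespace Setup

variable {p N} (S : Setup p N)

local notation "hW" => norm_unram p

theorem isRegularRing : IsRegularRing S.C₀ (discData p N) :=
  isRegularRing_of_eq p N S.hB

/-- The series of `c`. -/
def ser (c : fixVectors p S.U) : Fin S.Q.rank → (unramHat p)⟦X⟧ :=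
  (exists_family p S.Q S.isU S.det c).choose

/-- The series of `c` vanish at `0`. -/
theorem ser_zero (c : fixVectors p S.U) (j : Fin S.Q.rank) : constantCoeff (S.ser c j) = 0 :=
  (exists_family p S.Q S.isU S.det c).choose_spec.1 j

theorem logVec_ser (c : fixVectors p S.U) (i : Fin S.Q.rank) :
    logVec S.C₀.A S.n (fun j => PowerSeries.map (unramHat p).subtype (S.ser c j)) i =
      C ((c : Fin S.Q.rank → unramHat p) i : ℂ_[p]) * log ℂ_[p] := by
  rw [S.hA]
  exact (exists_family p S.Q S.isU S.det c).choose_spec.2 i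

/-- The class of `c` at a point. -/
def cls (c : fixVectors p S.U) (a : DiscPoint ℂ_[p]) : Pic0 ℂ_[p] (curveField p N) :=
  (discData p N).discClass (idxPts S.n (famAt (unramHat p) hW (S.ser c) (S.ser_zero c) a))

theorem cls_add_of_family {J : Type} [Fintype J] {n : J → ℕ} (hn : ∀ j, 1 ≤ n j)
    {z : J → (unramHat p)⟦X⟧} (hz : ∀ j, constantCoeff (z j) = 0) (c : fixVectors p S.U)
    (hlog : ∀ i, logVec S.C₀.A n (fun j => PowerSeries.map (unramHat p).subtype (z j)) i +
      C ((c : Fin S.Q.rank → unramHat p) i : ℂ_[p]) * log ℂ_[p] = 0) (a : DiscPoint ℂ_[p]) :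
    (discData p N).discClass (idxPts n (famAt (unramHat p) hW z hz a)) + S.cls c a = 0 := by
  rw [cls, ← DiscData.discClass_add, ← idxPts_elim]
  have hz' : ∀ x, constantCoeff (Sum.elim z (S.ser c) x) = 0 := by
    rintro (j | j)
    · exact hz j
    · exact S.ser_zero c j
  have h := discClass_idxPts_eq_zero (unramHat p) hW S.lat S.isRegularRing.le
    S.isRegularRing.regular
    (n := Sum.elim n S.n) (by rintro (j | j); exacts [hn j, S.one_le j]) hz' (fun i => by
      rw [← hlog i, ← S.logVec_ser c i]
      simp only [logVec, Fintype.sum_sum_type, Sum.elim_inl, Sum.elim_inr]) a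
  refine Eq.trans (congrArg (fun y => (discData p N).discClass (idxPts (Sum.elim n S.n) y)) ?_) h
  funext x
  rcases x with j | j <;> rfl

theorem cls_neg (c : fixVectors p S.U) (a : DiscPoint ℂ_[p]) : S.cls (-c) a = -S.cls c a := by
  rw [eq_neg_iff_add_eq_zero]
  refine S.cls_add_of_family S.one_le (S.ser_zero (-c)) c (fun i => ?_) a
  rw [S.logVec_ser (-c) i]
  simp

/-- A family with logarithm `c log (1 + X)` has the class of `c`. -/
theorem discClass_family {J : Type} [Fintype J] {n : J → ℕ} (hn : ∀ j, 1 ≤ n j)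
    {z : J → (unramHat p)⟦X⟧} (hz : ∀ j, constantCoeff (z j) = 0) (c : fixVectors p S.U)
    (hlog : ∀ i, logVec S.C₀.A n (fun j => PowerSeries.map (unramHat p).subtype (z j)) i =
      C ((c : Fin S.Q.rank → unramHat p) i : ℂ_[p]) * log ℂ_[p]) (a : DiscPoint ℂ_[p]) :
    (discData p N).discClass (idxPts n (famAt (unramHat p) hW z hz a)) = S.cls c a := by
  have h := S.cls_add_of_family hn hz (-c) (fun i => by rw [hlog i]; simp) a
  rwa [S.cls_neg, add_neg_eq_zero] at h

theorem cls_add (c d : fixVectors p S.U) (a : DiscPoint ℂ_[p]) :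
    S.cls (c + d) a = S.cls c a + S.cls d a := by
  symm
  rw [cls, cls, ← DiscData.discClass_add, ← idxPts_elim]
  have hz : ∀ x, constantCoeff (Sum.elim (S.ser c) (S.ser d) x) = 0 := by
    rintro (j | j)
    · exact S.ser_zero c j
    · exact S.ser_zero d j
  have hlog : ∀ i, logVec S.C₀.A (Sum.elim S.n S.n)
      (fun x => PowerSeries.map (unramHat p).subtype (Sum.elim (S.ser c) (S.ser d) x)) i =
      C (((c + d : fixVectors p S.U) : Fin S.Q.rank → unramHat p) i : ℂ_[p]) * log ℂ_[p] := by
    intro i
    simp only [AddSubgroup.coe_add, Pi.add_apply, Subring.coe_add, map_add, add_mul,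
      ← S.logVec_ser c i, ← S.logVec_ser d i]
    simp only [logVec, Fintype.sum_sum_type, Sum.elim_inl, Sum.elim_inr]
  refine Eq.trans (congrArg (fun y => (discData p N).discClass (idxPts (Sum.elim S.n S.n) y)) ?_)
    (S.discClass_family (n := Sum.elim S.n S.n) (by rintro (j | j) <;> exact S.one_le j) hz (c + d)
      hlog a)
  funext x
  rcases x with j | j <;> rfl

/-- The class at a point, as a homomorphism. -/
def clsHom (a : DiscPoint ℂ_[p]) : fixVectors p S.U →+ Pic0 ℂ_[p] (curveField p N) :=
  AddMonoidHom.mk' (fun c => S.cls c a) fun c d => S.cls_add c d a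

theorem cls_powParam (c : fixVectors p S.U) (m : ℕ) (a : DiscPoint ℂ_[p]) :
    S.cls c (imagePoint (unramHat p) hW _ (constantCoeff_powParam _ m) a) = m • S.cls c a := by
  set φ := powParam (unramHat p) m
  have hφ : constantCoeff φ = 0 := constantCoeff_powParam _ m
  have hz : ∀ j, constantCoeff ((S.ser c j).subst φ) = 0 := fun j => by
    rw [← coeff_zero_eq_constantCoeff_apply, coeff_subst_eq_sum hφ]
    simp [S.ser_zero c j]
  have hφK : constantCoeff (PowerSeries.map (unramHat p).subtype φ) = 0 := by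
    rw [const_map, hφ, map_zero]
  have hlog : ∀ i, logVec S.C₀.A S.n
      (fun j => PowerSeries.map (unramHat p).subtype ((S.ser c j).subst φ)) i =
      C (((m • c : fixVectors p S.U) : Fin S.Q.rank → unramHat p) i : ℂ_[p]) * log ℂ_[p] := by
    intro i
    simp only [map_subst' (HasSubst.of_constantCoeff_zero' hφ)]
    rw [logVec_subst _ _ (fun j => by rw [const_map, S.ser_zero, map_zero]) hφK, S.logVec_ser c i,
      subst_mul (HasSubst.of_constantCoeff_zero' hφK), subst_C, log_subst_powParam]
    simp [nsmul_eq_mul, mul_left_comm, mul_assoc]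
    exact Or.inl (Or.inl rfl)
  rw [show m • S.cls c a = S.cls (m • c) a from (map_nsmul (S.clsHom a) m c).symm,
    ← S.discClass_family S.one_le hz (m • c) hlog a]
  refine congrArg (fun y => (discData p N).discClass (idxPts S.n y)) (funext fun j => ?_)
  exact DiscPoint.ext (evalAt_subst (unramHat p) hW φ hφ (S.ser c j) a).symm

theorem cls_center (c : fixVectors p S.U) : S.cls c (discZero ℂ_[p]) = 0 := by
  have h := S.cls_powParam c 0 (discZero ℂ_[p])
  rw [zero_nsmul] at h
  refine Eq.trans (congrArg (S.cls c) (DiscPoint.ext ?_)) h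
  rw [val_powParam, pow_zero, sub_self]
  rfl

theorem cls_rootDisc_succ (c : fixVectors p S.U) (r : ℕ) :
    p • S.cls c (rootDisc p (r + 1)) = S.cls c (rootDisc p r) := by
  rw [← S.cls_powParam, powParam_rootDisc]

theorem pow_smul_cls (c : fixVectors p S.U) (r : ℕ) : p ^ r • S.cls c (rootDisc p r) = 0 := by
  rw [← S.cls_powParam, powParam_pow_rootDisc, cls_center]

/-- The point over `ℚ̄`. -/
def pt (c : fixVectors p S.U) (r : ℕ) : JZero N :=
  (S.bridge.surj r _ (S.pow_smul_cls c r)).choose

theorem up_pt (c : fixVectors p S.U) (r : ℕ) :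
    S.bridge.up (S.pt c r) = S.cls c (rootDisc p r) :=
  (S.bridge.surj r _ (S.pow_smul_cls c r)).choose_spec.2

/-- The map to the Tate module. -/
def toTate : fixVectors p S.U →+ tateModule (JZero N) p :=
  AddMonoidHom.mk' (fun c => ⟨S.pt c, by
      refine ⟨S.bridge.injective ?_, fun r => S.bridge.injective ?_⟩
      · rw [up_pt, map_zero]
        simpa using S.pow_smul_cls c 0
      · rw [map_nsmul, up_pt, up_pt, cls_rootDisc_succ]⟩)
    fun c d => Subtype.ext (funext fun r => S.bridge.injective (by
      show S.bridge.up (S.pt (c + d) r) = S.bridge.up (S.pt c r + S.pt d r)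
      rw [map_add, up_pt, up_pt, up_pt, cls_add]))

theorem up_toTate (c : fixVectors p S.U) (r : ℕ) :
    S.bridge.up ((S.toTate c).1 r) = S.cls c (rootDisc p r) := S.up_pt c r

/-- `toTate` is injective. -/
theorem toTate_injective : Function.Injective S.toTate := by
  rw [injective_iff_map_eq_zero]
  intro c hc
  by_contra hne
  have hcK : (fun i => ((c : Fin S.Q.rank → unramHat p) i : ℂ_[p])) ≠ 0 := fun h =>
    hne (Subtype.ext (funext fun i => Subtype.ext (congrFun h i)))
  have hz : ∀ j, constantCoeff (S.ser c j) = 0 := S.ser_zero c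
  obtain ⟨a, ⟨r, rfl⟩, hnot⟩ := exists_not_principal (unramHat p) hW S.C₀ S.lat S.n S.one_le
    (S.ser c) hz _ (S.logVec_ser c) (π := (p : ℂ_[p])) (norm_prime_lt_one p)
    (fun x hx h0 => exists_norm_eq_pow p hx h0) (Set.range (rootDisc p)) (fun d => by
      obtain ⟨r₀, h⟩ := exists_forall_lt_pow_root_sub_one (norm_prime_lt_one p)
        (Nat.cast_ne_zero.mpr hp.out.ne_zero : (p : ℂ_[p]) ≠ 0) d
      exact ⟨rootDisc p (r₀ + 1), ⟨_, rfl⟩, h r₀ le_rfl _
        ((isPrimitiveRoot_rootSys p (r₀ + 1)).map_of_injective (complexEmb p).injective)⟩) hcK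
  apply hnot
  have h0 : S.cls c (rootDisc p r) = 0 := by
    rw [← up_toTate, hc]
    simp
  have h1 := principal_of_discClass_eq_zero (unramHat p) hW S.lat S.isRegularRing _ h0
  rw [card_idxPts S.one_le, splitSeries_idxPts S.one_le] at h1
  exact h1

/-- `toTate` commutes with `T_l`. -/
theorem toTate_hecke (l : ℕ) (hl : l.Prime) (hlN : ¬ l ∣ N)
    (M : Matrix (Fin S.Q.rank) (Fin S.Q.rank) ℤ) (hM : IsTMat S.Q l M) (c c' : fixVectors p S.U)
    (hc : (c' : Fin S.Q.rank → unramHat p) = M.map (Int.cast : ℤ → unramHat p) *ᵥ c) (r : ℕ) :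
    (S.toTate c').1 r = heckeOperatorBar N ⟨l, hl⟩ ((S.toTate c).1 r) := by
  have : NeZero l := ⟨hl.ne_zero⟩
  refine S.bridge.injective ?_
  rw [S.bridge.hecke l hl hlN, up_toTate, up_toTate, cls, cls,
    heckeOperatorAlong_discClass (discData p N) hl hlN, heckePts_famPts hl (unramHat p) hW S.one_le
      (S.ser_zero c) (rootDisc p r)]
  refine (S.discClass_family (heckeExp_pos hl S.one_le) _ c' (fun i => ?_) _).symm
  have hA' : ∀ m i, S.C₀.A (l * m) i + (if l ∣ m then (l : ℂ_[p]) * S.C₀.A (m / l) i else 0) =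
      (M.map (Int.cast : ℤ → ℂ_[p]) *ᵥ S.C₀.A m) i := fun m i => by
    rw [S.hA]; exact hM.cast_apply ℂ_[p] m i
  simp only [map_heckeSer]
  rw [logVec_hecke hl hA' S.n (fun j => by rw [const_map, S.ser_zero c, map_zero]) i]
  simp only [S.logVec_ser c, hc, mulVec, dotProduct, Matrix.map_apply]
  rw [AddSubmonoidClass.coe_finsetSum, map_sum, Finset.sum_mul]
  refine Finset.sum_congr rfl fun b _ => ?_
  simp [mul_assoc]

theorem map_log_completeGal (g : PadicAlgCl p ≃ₐ[ℚ_[p]] PadicAlgCl p) :
    PowerSeries.map (completeGal p g) (log ℂ_[p]) = log ℂ_[p] := map_log _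

/-- The local Galois group acts on the image of `toTate` through its action on `c` twisted by
the cyclotomic character. -/
theorem toTate_galois (g : PadicAlgCl p ≃ₐ[ℚ_[p]] PadicAlgCl p) (c c' : fixVectors p S.U)
    (hc : ∀ i, (c' : Fin S.Q.rank → unramHat p) i =
      unramGal p g ((c : Fin S.Q.rank → unramHat p) i))
    (r a : ℕ) (ha : ∀ μ : Qbar, μ ^ p ^ r = 1 → localGaloisToGlobal p g μ = μ ^ a) :
    localGaloisToGlobal p g • (S.toTate c).1 r = a • (S.toTate c').1 r := by
  refine S.bridge.injective ?_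
  rw [S.bridge.galois, map_nsmul, up_toTate, up_toTate, cls]
  set τ : ℂ_[p] ≃+* ℂ_[p] := (completeGalEquiv p g).toRingEquiv
  have hτ : ∀ x, ‖τ x‖ = ‖x‖ := norm_completeGal p g
  rw [galois_smul_pic0_def,
    smul_discClass (discData p N) τ hτ (arithmeticGalois (modularFunctionFieldFull N)
      (completeGalEquiv p g)) (fun _ => rfl), idxPts_map τ hτ S.one_le]
  have hz : ∀ j, constantCoeff (PowerSeries.map (unramGal p g) (S.ser c j)) = 0 := fun j => by
    rw [const_map, S.ser_zero, map_zero]
  have hmap : ∀ j,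
    PowerSeries.map (unramHat p).subtype (PowerSeries.map (unramGal p g) (S.ser c j)) =
      PowerSeries.map (completeGal p g) (PowerSeries.map (unramHat p).subtype (S.ser c j)) :=
    fun j => by ext k; simp [coe_unramGal]
  have hlog : ∀ i, logVec S.C₀.A S.n (fun j => PowerSeries.map (unramHat p).subtype
      (PowerSeries.map (unramGal p g) (S.ser c j))) i =
      C ((c' : Fin S.Q.rank → unramHat p) i : ℂ_[p]) * log ℂ_[p] := by
    intro i
    have h := congrArg (PowerSeries.map (completeGal p g)) (S.logVec_ser c i)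
    rw [map_mul, map_C, map_log_completeGal, ← coe_unramGal, ← hc] at h
    rw [← h, logVec, logVec, map_sum]
    refine Finset.sum_congr rfl fun j _ => ?_
    rw [hmap, map_subst' (HasSubst.of_constantCoeff_zero' (by
      rw [const_map, S.ser_zero, map_zero])), map_lam (completeGal p g) (fun m i => by
      rw [S.hA]; exact map_intCast _ _)]
  -- the moved point
  have hpt : mapPoint τ hτ (rootDisc p r) =
      imagePoint (unramHat p) hW _ (constantCoeff_powParam _ a) (rootDisc p r) := by
    refine DiscPoint.ext ?_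
    rw [val_powParam, one_add_rootDisc]
    show completeGal p g (complexEmb p (rootSys p r) - 1) = _
    rw [map_sub, map_one, completeGal_complexEmb,
      ha _ (isPrimitiveRoot_rootSys p r).pow_eq_one, map_pow]
  have key : ∀ j, mapPoint τ hτ (famAt (unramHat p) hW (S.ser c) (S.ser_zero c) (rootDisc p r) j) =
      famAt (unramHat p) hW (fun j => PowerSeries.map (unramGal p g) (S.ser c j)) hz
        (mapPoint τ hτ (rootDisc p r)) j := by
    intro j
    refine DiscPoint.ext ?_
    show completeGal p g (evalAt (unramHat p) hW (rootDisc p r) (S.ser c j)) =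
      evalAt (unramHat p) hW (mapPoint τ hτ (rootDisc p r))
        (PowerSeries.map (unramGal p g) (S.ser c j))
    rw [evalAt_apply, evalAt_apply]
    rw [Summable.map_tsum (summable_eval (unramHat p) hW (rootDisc p r) (S.ser c j))
      (completeGal p g) (continuous_completeGal p g)]
    refine tsum_congr fun k => ?_
    rw [coeff_map, coe_unramGal, map_mul, map_pow]
    rfl
  simp only [key]
  rw [S.discClass_family S.one_le hz c' hlog, hpt, S.cls_powParam]

end Setup

/-- **The ordinary part of the Tate module**, from the formal curve, its lattices and the torsion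
comparison. -/
theorem ordinaryTate_of_inputs (hC : HasFormalCurve p N) (hL : HasLattices p N)
    (hT : Nonempty (TorsionBridge p N)) : OrdinaryTate p N := by
  intro Q U hU
  obtain ⟨n, hn1, hn⟩ := Q.exists_indices p
  obtain ⟨C₀, hB, hA⟩ := hC Q
  obtain ⟨T⟩ := hT
  let S : Setup p N :=
    ⟨Q, U, hU, n, hn1, hn, C₀, hB, hA, fun m => (hL _ C₀ hB m).some, T⟩
  exact ⟨S.toTate, S.toTate_injective, fun l hl hlN M hM c c' hc r =>
    S.toTate_hecke l hl hlN M hM c c' hc r,
    fun g c c' hc r a ha => S.toTate_galois g c c' hc r a ha⟩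

end Fermat.Agent.OrdinaryCurve
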