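import Mathlib.RingTheory.PowerSeries.Log
import Mathlib.RingTheory.PowerSeries.Exp

/-!
Formal logarithm and exponential of power series over a `ℚ`-algebra: additivity and inversion.
-/

set_option autoImplicit false

noncomputable section

open PowerSeries

namespace Fermat.Agent.OrdinaryCurve

variable {A : Type*} [CommRing A] [Algebra ℚ A]

/-- A `ℚ`-algebra is torsion free. -/
theorem isAddTorsionFree_of_rat : IsAddTorsionFree A where
  nsmul_right_injective n hn a b h := by
    simp only [nsmul_eq_mul] at h
    have h1 := congrArg (algebraMap ℚ A ((n : ℚ)⁻¹) * ·) h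
    simpa only [← mul_assoc, ← map_natCast (algebraMap ℚ A) n, ← map_mul,
      inv_mul_cancel₀ (Nat.cast_ne_zero.mpr hn : (n : ℚ) ≠ 0), map_one, one_mul] using h1

/-- `exp` substituted at a series. -/
def expOf (f : A⟦X⟧) : A⟦X⟧ := (exp A).subst f

omit [Algebra ℚ A] in
/-- `f - 1` can be substituted when `f` has constant term one. -/
theorem hasSubst_sub_one {f : A⟦X⟧} (hf : constantCoeff f = 1) : HasSubst (f - 1) :=
  HasSubst.of_constantCoeff_zero' (by rw [map_sub, map_one, hf, sub_self])

/-- `expOf` has constant term one. -/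
theorem constantCoeff_expOf {f : A⟦X⟧} (hf : constantCoeff f = 0) :
    constantCoeff (expOf f) = 1 := by
  rw [← coeff_zero_eq_constantCoeff_apply, expOf,
    coeff_subst' (HasSubst.of_constantCoeff_zero' hf), finsum_eq_single _ 0]
  · simp
  · intro d hd
    simp [hf, hd]

/-- The derivative of `expOf`. -/
theorem derivative_expOf {f : A⟦X⟧} (hf : constantCoeff f = 0) :
    d⁄dX A (expOf f) = expOf f * d⁄dX A f := by
  rw [expOf, derivative_subst (HasSubst.of_constantCoeff_zero' hf), derivative_exp]

/-- The logarithmic derivative. -/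
theorem mul_derivative_logOf {f : A⟦X⟧} (hf : constantCoeff f = 1) :
    f * d⁄dX A (logOf f) = d⁄dX A f := by
  have h1 : (1 + X) * d⁄dX A (log A) = 1 := by
    rw [deriv_log]
    ext n
    rcases n with _ | n
    · simp [add_mul]
    · rw [add_mul, one_mul, map_add, coeff_succ_X_mul, coeff_mk, coeff_mk, coeff_one,
        if_neg (Nat.succ_ne_zero n), ← map_add]
      rw [show ((-1 : ℚ) ^ (n + 1) + (-1) ^ n) = 0 by rw [pow_succ]; ring, map_zero]
  have hs := hasSubst_sub_one hf
  have h2 : (1 + X : A⟦X⟧).subst (f - 1) = f := by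
    rw [subst_add hs, subst_X hs, ← coe_substAlgHom hs, map_one, add_sub_cancel]
  rw [logOf_eq, derivative_subst hs, ← mul_assoc]
  conv_lhs => arg 1; arg 1; rw [← h2]
  rw [← subst_mul hs, h1, ← coe_substAlgHom hs, map_one, one_mul, map_sub,
    PowerSeries.derivative_one, sub_zero]

/-- Solutions of `y' = c * y` with constant coefficient one are unique. -/
theorem eq_of_derivative_eq {y z c : A⟦X⟧} (hy : d⁄dX A y = y * c) (hz : d⁄dX A z = z * c)
    (hy0 : constantCoeff y = 1) (hz0 : constantCoeff z = 1) : y = z := by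
  have := isAddTorsionFree_of_rat (A := A)
  obtain ⟨u, rfl⟩ := isUnit_iff_constantCoeff.mpr (hz0.symm ▸ isUnit_one : IsUnit (constantCoeff z))
  have hu0 : constantCoeff (↑u⁻¹ : A⟦X⟧) = 1 := by
    have h := congrArg constantCoeff u.inv_mul
    rwa [map_mul, hz0, mul_one, map_one] at h
  have h : y * (↑u⁻¹ : A⟦X⟧) = 1 := by
    refine derivative.ext ?_ (by rw [map_mul, hy0, hu0, map_one, mul_one])
    rw [PowerSeries.derivative_one, Derivation.leibniz, derivative_inv, hy, hz, smul_eq_mul,
      smul_eq_mul]
    linear_combination (- y * (↑u⁻¹ : A⟦X⟧) * c) * (Units.mul_inv u)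
  calc y = y * (↑u⁻¹ : A⟦X⟧) * (↑u : A⟦X⟧) := by rw [mul_assoc, Units.inv_mul, mul_one]
    _ = (↑u : A⟦X⟧) := by rw [h, one_mul]

/-- `exp` inverts `log`. -/
theorem expOf_logOf {f : A⟦X⟧} (hf : constantCoeff f = 1) : expOf (logOf f) = f :=
  eq_of_derivative_eq (derivative_expOf (constantCoeff_logOf hf)) (mul_derivative_logOf hf).symm
    (constantCoeff_expOf (constantCoeff_logOf hf)) hf

/-- `exp` turns sums into products. -/
theorem expOf_add {a b : A⟦X⟧} (ha : constantCoeff a = 0) (hb : constantCoeff b = 0) :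
    expOf (a + b) = expOf a * expOf b := by
  have hab : constantCoeff (a + b) = 0 := by rw [map_add, ha, hb, add_zero]
  refine eq_of_derivative_eq (c := d⁄dX A (a + b)) (derivative_expOf hab) ?_
    (constantCoeff_expOf hab)
    (by rw [map_mul, constantCoeff_expOf ha, constantCoeff_expOf hb, mul_one])
  rw [Derivation.leibniz, derivative_expOf ha, derivative_expOf hb, map_add, smul_eq_mul,
    smul_eq_mul]
  ring

/-- `log` turns products into sums. -/
theorem logOf_mul {f g : A⟦X⟧} (hf : constantCoeff f = 1) (hg : constantCoeff g = 1) :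
    logOf (f * g) = logOf f + logOf g := by
  have := isAddTorsionFree_of_rat (A := A)
  have hfg : constantCoeff (f * g) = 1 := by rw [map_mul, hf, hg, mul_one]
  refine derivative.ext ?_ (by
    rw [map_add, constantCoeff_logOf hf, constantCoeff_logOf hg, constantCoeff_logOf hfg, add_zero])
  have hu : IsUnit (f * g) := isUnit_iff_constantCoeff.mpr (hfg.symm ▸ isUnit_one)
  refine hu.mul_left_cancel ?_
  rw [mul_derivative_logOf hfg, Derivation.leibniz, map_add, smul_eq_mul, smul_eq_mul,
    ← mul_derivative_logOf hf, ← mul_derivative_logOf hg]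
  ring

/-- `logOf` turns powers into multiples. -/
theorem logOf_pow {f : A⟦X⟧} (hf : constantCoeff f = 1) (k : ℕ) :
    logOf (f ^ k) = k • logOf f := by
  induction k with
  | zero =>
    rw [pow_zero, zero_smul, logOf_eq, sub_self, subst_zero_of_constantCoeff_zero constantCoeff_log]
  | succ k ih =>
    rw [pow_succ, logOf_mul (by rw [map_pow, hf, one_pow]) hf, ih, succ_nsmul]

end Fermat.Agent.OrdinaryCurve
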