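import Mathlib.RingTheory.LaurentSeries
import Mathlib.RingTheory.PowerSeries.Basic
import Mathlib.Algebra.Module.Rat

/-!
Iterated power series: exchanging the two variables, and division by a series congruent to a
power of `X` modulo the parameter.
-/

set_option autoImplicit false

noncomputable section

open PowerSeries Finset

namespace Fermat.Agent.OrdinaryCurve

section Swap

variable {R : Type*} [CommRing R]

/-- Exchange the two variables of an iterated power series ring. -/
def swapVars : R⟦X⟧⟦X⟧ →+* R⟦X⟧⟦X⟧ where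
  toFun f := mk fun l => mk fun e => coeff l (coeff e f)
  map_zero' := by ext; simp
  map_one' := by
    ext l e
    simp only [coeff_mk, coeff_one]
    by_cases he : e = 0
    · subst he
      by_cases hl : l = 0 <;> simp [hl]
    · by_cases hl : l = 0 <;> simp [he, hl]
  map_add' f g := by ext; simp
  map_mul' f g := by
    ext l e
    simp only [coeff_mk, coeff_mul, map_sum]
    exact Finset.sum_comm

/-- The coefficients of `swapVars`. -/
@[simp] theorem coeff_coeff_swapVars (f : R⟦X⟧⟦X⟧) (l e : ℕ) :
    coeff e (coeff l (swapVars f)) = coeff l (coeff e f) := by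
  simp [swapVars]

/-- `swapVars` as iterated coefficients. -/
theorem coeff_swapVars (f : R⟦X⟧⟦X⟧) (l : ℕ) :
    coeff l (swapVars f) = mk fun e => coeff l (coeff e f) := by
  simp [swapVars]

end Swap

section Division

variable {R : Type*} [CommRing R]

/-- `u` is congruent to `X ^ N` modulo the parameter and has degree `N`. -/
structure IsDist (N : ℕ) (u : R⟦X⟧⟦X⟧) : Prop where
  zero : constantCoeff u = X ^ N
  low : ∀ e, 1 ≤ e → ∀ l, N ≤ l → coeff l (coeff e u) = 0

/-- All coefficients have degree `< N`. -/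
def IsLow (N : ℕ) (f : R⟦X⟧⟦X⟧) : Prop := ∀ e l, N ≤ l → coeff l (coeff e f) = 0

/-- `1` is distinguished of degree zero. -/
theorem IsDist.one : IsDist 0 (1 : R⟦X⟧⟦X⟧) where
  zero := by simp
  low e he l _ := by
    have : (coeff e) (1 : R⟦X⟧⟦X⟧) = 0 := by
      rw [coeff_one, if_neg (by omega)]
    rw [this, map_zero]

/-- Products of distinguished series are distinguished. -/
theorem IsDist.mul {N M : ℕ} {u w : R⟦X⟧⟦X⟧} (hu : IsDist N u) (hw : IsDist M w) :
    IsDist (N + M) (u * w) where
  zero := by rw [map_mul, hu.zero, hw.zero, pow_add]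
  low e he l hl := by
    rw [coeff_mul, map_sum]
    refine Finset.sum_eq_zero fun ij hij => ?_
    rw [Finset.HasAntidiagonal.mem_antidiagonal] at hij
    rw [coeff_mul]
    refine Finset.sum_eq_zero fun ab hab => ?_
    rw [Finset.HasAntidiagonal.mem_antidiagonal] at hab
    have hbu : ∀ i a, N + 1 ≤ a → coeff a (coeff i u) = 0 := by
      intro i a ha
      rcases Nat.eq_zero_or_pos i with rfl | hi
      · rw [coeff_zero_eq_constantCoeff_apply, hu.zero, coeff_X_pow, if_neg (by omega)]
      · exact hu.low i hi a (by omega)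
    have hbw : ∀ i a, M + 1 ≤ a → coeff a (coeff i w) = 0 := by
      intro i a ha
      rcases Nat.eq_zero_or_pos i with rfl | hi
      · rw [coeff_zero_eq_constantCoeff_apply, hw.zero, coeff_X_pow, if_neg (by omega)]
      · exact hw.low i hi a (by omega)
    by_cases h1 : N + 1 ≤ ab.1
    · rw [hbu _ _ h1, zero_mul]
    by_cases h2 : M + 1 ≤ ab.2
    · rw [hbw _ _ h2, mul_zero]
    by_cases h3 : ij.1 = 0
    · rw [hw.low ij.2 (by omega) ab.2 (by omega), mul_zero]
    · rw [hu.low ij.1 (by omega) ab.1 (by omega), zero_mul]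

/-- Powers of distinguished series are distinguished. -/
theorem IsDist.pow {N : ℕ} {u : R⟦X⟧⟦X⟧} (hu : IsDist N u) (k : ℕ) : IsDist (k * N) (u ^ k) := by
  induction k with
  | zero => simpa using IsDist.one
  | succ k ih => simpa [pow_succ, add_mul] using ih.mul hu

theorem coeff_X_pow_mul_add (f : R⟦X⟧) (N l : ℕ) : coeff (l + N) (X ^ N * f) = coeff l f := by
  rw [coeff_X_pow_mul', if_pos (Nat.le_add_left N l), Nat.add_sub_cancel]

/-- Division by a distinguished series. -/
theorem IsDist.exists_division {N : ℕ} {u : R⟦X⟧⟦X⟧} (hu : IsDist N u) (F : R⟦X⟧⟦X⟧) :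
    ∃ r rem, F = u * r + rem ∧ IsLow N rem := by
  let step : (e : ℕ) → ((a : ℕ) → a < e → R⟦X⟧) → R⟦X⟧ := fun e prev =>
    coeff e F - ∑ i : Fin e, coeff (e - (i : ℕ)) u * prev i i.2
  let rc : ℕ → R⟦X⟧ := fun e => Nat.strongRecOn e fun e prev =>
    PowerSeries.mk fun l => coeff (l + N) (step e prev)
  have hrc : ∀ e, rc e = PowerSeries.mk fun l => coeff (l + N) (step e fun a _ => rc a) :=
    fun e => Nat.strongRecOn_eq (motive := fun _ => R⟦X⟧)
      (fun e prev => PowerSeries.mk fun l => coeff (l + N) (step e prev)) e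
  refine ⟨PowerSeries.mk rc, F - u * PowerSeries.mk rc, by ring, fun e l hl => ?_⟩
  rw [map_sub, coeff_mul, Finset.Nat.sum_antidiagonal_eq_sum_range_succ_mk, Finset.sum_range_succ']
  simp only [coeff_mk, Nat.sub_zero, coeff_zero_eq_constantCoeff_apply, hu.zero, map_sub, map_add]
  obtain ⟨k, rfl⟩ := Nat.exists_eq_add_of_le' hl
  rw [coeff_X_pow_mul_add, hrc e, coeff_mk]
  simp only [step, map_sub]
  have : ∑ i ∈ Finset.range e, coeff (i + 1) u * rc (e - (i + 1)) =
      ∑ i : Fin e, coeff (e - (i : ℕ)) u * rc i := by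
    rw [← Finset.sum_range_reflect, Fin.sum_univ_eq_sum_range (fun i => coeff (e - i) u * rc i)]
    refine Finset.sum_congr rfl fun i hi => ?_
    rw [Finset.mem_range] at hi
    rw [show e - 1 - i + 1 = e - i by omega, show e - (e - i) = i by omega]
  rw [this]
  ring

/-- Uniqueness of division. -/
theorem IsDist.eq_zero_of_low {N : ℕ} {u r : R⟦X⟧⟦X⟧} (hu : IsDist N u) (h : IsLow N (u * r)) :
    r = 0 := by
  ext e : 1
  rw [map_zero]
  induction e using Nat.strong_induction_on with
  | _ e ih =>
    ext l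
    have hl := h e (l + N) (Nat.le_add_left N l)
    rw [coeff_mul, map_sum, Finset.sum_eq_single (0, e)] at hl
    · rwa [coeff_zero_eq_constantCoeff_apply, hu.zero, coeff_X_pow_mul_add] at hl
    · intro b hb hne
      rw [Finset.HasAntidiagonal.mem_antidiagonal] at hb
      have : b.1 ≠ 0 := fun h0 => hne (Prod.ext h0 (by simp only; omega))
      rw [ih b.2 (by omega), mul_zero, map_zero]
    · intro h0
      exact absurd (Finset.HasAntidiagonal.mem_antidiagonal.mpr (zero_add e)) h0

/-- Distinguished series stay distinguished under maps. -/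
theorem IsDist.map {S : Type*} [CommRing S] (f : R →+* S) {N : ℕ} {u : R⟦X⟧⟦X⟧}
    (hu : IsDist N u) : IsDist N (PowerSeries.map (PowerSeries.map f) u) where
  zero := by
    rw [← coeff_zero_eq_constantCoeff_apply, coeff_map, coeff_zero_eq_constantCoeff_apply,
      hu.zero, map_pow, map_X]
  low e he l hl := by rw [coeff_map, coeff_map, hu.low e he l hl, map_zero]

end Division

section Laurent

variable {K : Type*} [Field K]

/-- Coefficientwise inclusion of power series into Laurent series. -/
def toLaurent : K⟦X⟧⟦X⟧ →+* (LaurentSeries K)⟦X⟧ :=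
  PowerSeries.map (HahnSeries.ofPowerSeries ℤ K)

/-- The coefficients of `toLaurent`. -/
@[simp] theorem coeff_toLaurent (f : K⟦X⟧⟦X⟧) (e : ℕ) :
    coeff e (toLaurent f) = HahnSeries.ofPowerSeries ℤ K (coeff e f) := coeff_map _ _ _

/-- A power series has no coefficient in negative degree. -/
theorem ofPowerSeries_coeff_neg {R : Type*} [Semiring R] (f : R⟦X⟧) {m : ℤ} (hm : m < 0) :
    (HahnSeries.ofPowerSeries ℤ R f).coeff m = 0 := by
  rw [HahnSeries.ofPowerSeries_apply]
  refine HahnSeries.embDomain_of_notMem_range ?_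
  rintro ⟨k, rfl⟩
  exact absurd hm (not_lt.mpr (Int.natCast_nonneg k))

/-- A Laurent series without polar part is a power series. -/
theorem exists_ofPowerSeries_eq (x : LaurentSeries K) (hx : ∀ m : ℤ, m < 0 → x.coeff m = 0) :
    ∃ f : K⟦X⟧, HahnSeries.ofPowerSeries ℤ K f = x := by
  refine ⟨mk fun k => x.coeff (k : ℤ), ?_⟩
  ext m
  rcases lt_or_ge m 0 with hm | hm
  · rw [ofPowerSeries_coeff_neg _ hm, hx m hm]
  · lift m to ℕ using hm
    rw [HahnSeries.ofPowerSeries_apply_coeff, coeff_mk]

end Laurent

end Fermat.Agent.OrdinaryCurve
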