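import Mathlib.Analysis.Normed.Ring.InfiniteSum
import Mathlib.Analysis.SpecificLimits.Normed
import Mathlib.Analysis.Normed.Group.Ultra
import Mathlib.RingTheory.PowerSeries.Basic
import Mathlib.LinearAlgebra.Matrix.Rank
import Mathlib.LinearAlgebra.Matrix.NonsingularInverse
import Mathlib.LinearAlgebra.Matrix.ToLinearEquiv
import Mathlib.Data.Nat.Choose.Dvd
import Mathlib.Analysis.Normed.Ring.Ultra
import Mathlib.RingTheory.RootsOfUnity.PrimitiveRoots

/-!
Specialisation of integral power series: evaluation in the open unit disc, nonvanishing near the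
boundary (in particular at `ζ - 1` for roots of unity of large `p`-power order), and the fact that
a matrix with a kernel keeps one after specialisation.
-/

set_option autoImplicit false

noncomputable section

open Finset

namespace Fermat.Agent.OrdinaryCurve

section Kernel

variable {R : Type*} [CommRing R] {L : Type*} [Field L]
variable {m n : Type*} [Fintype m] [Fintype n]

/-- A matrix with injective action has an invertible maximal square submatrix. -/
theorem exists_submatrix_det_ne_zero [DecidableEq n] (N : Matrix m n L)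
    (hinj : ∀ w : n → L, N.mulVec w = 0 → w = 0) : ∃ row : n → m, (N.submatrix row id).det ≠ 0 := by
  classical
  obtain ⟨g, hg⟩ := LinearMap.exists_leftInverse_of_injective N.mulVecLin
    (LinearMap.ker_eq_bot.mpr ((injective_iff_map_eq_zero _).mpr hinj))
  set B := LinearMap.toMatrix' g with hB
  have hBM : B * N = 1 := by
    rw [← Matrix.toLin'.injective.eq_iff, Matrix.toLin'_mul, hB, Matrix.toLin'_toMatrix',
      Matrix.toLin'_one, Matrix.toLin'_apply']
    exact hg
  have hspan : Submodule.span L (Set.range fun i => N i) = ⊤ := by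
    rw [eq_top_iff]
    rintro x -
    have hx : x = ∑ i, (Matrix.vecMul x B) i • N i := by
      rw [← Matrix.vecMul_eq_sum, Matrix.vecMul_vecMul, hBM, Matrix.vecMul_one]
    rw [hx]
    exact Submodule.sum_mem _ fun i _ => Submodule.smul_mem _ _ (Submodule.subset_span ⟨i, rfl⟩)
  obtain ⟨s, hs, hsspan, hli⟩ := exists_linearIndependent L (Set.range fun i => N i)
  let b : Module.Basis s L (n → L) :=
    Module.Basis.mk hli (by rw [Subtype.range_coe, hsspan.trans hspan])
  let e : n ≃ s := (Pi.basisFun L n).indexEquiv b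
  choose row hrow using fun j : n => hs (e j).2
  refine ⟨row, ?_⟩
  have hli' : LinearIndependent L (N.submatrix row id).row := by
    rw [show (N.submatrix row id).row = Subtype.val ∘ e from funext hrow]
    exact hli.comp e e.injective
  exact ((Matrix.isUnit_iff_isUnit_det _).mp
    (Matrix.linearIndependent_rows_iff_isUnit.mp hli')).ne_zero

/-- If a matrix over `R` acquires a nonzero kernel vector in a domain containing `R`, so does
every specialisation of it to a field. -/
theorem exists_kernel_of_specialize [DecidableEq n] {R' : Type*} [CommRing R'] [IsDomain R']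
    (incl : R →+* R') (hincl : Function.Injective incl) (φ : R →+* L)
    (M : Matrix m n R) (v : n → R') (hv : v ≠ 0)
    (hMv : (M.map incl).mulVec v = 0) : ∃ w : n → L, w ≠ 0 ∧ (M.map φ).mulVec w = 0 := by
  by_contra hcon
  push Not at hcon
  obtain ⟨row, hdet⟩ := exists_submatrix_det_ne_zero (M.map φ) fun w hw => by
    by_contra h0
    exact hcon w h0 hw
  apply hv
  refine Matrix.eq_zero_of_mulVec_eq_zero (M := (M.map incl).submatrix row id) ?_ ?_
  · intro h
    apply hdet
    by_contra hne
    have h0 : (M.submatrix row id).det ≠ 0 := by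
      intro h1
      apply hne
      rw [Matrix.submatrix_map, ← RingHom.mapMatrix_apply, ← RingHom.map_det, h1, map_zero]
    apply h0
    apply hincl
    rw [RingHom.map_det, RingHom.mapMatrix_apply, ← Matrix.submatrix_map, h, map_zero]
  · funext j
    exact congrFun hMv (row j)

end Kernel

section Eval

variable {K : Type*} [NormedField K] [CompleteSpace K] (W : Subring K) (hW : ∀ x ∈ W, ‖x‖ ≤ 1)

/-- A point of the open unit disc. -/
structure DiscPoint (K : Type*) [NormedField K] where
  val : K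
  norm_lt : ‖val‖ < 1

include hW in
omit [CompleteSpace K] in
theorem summable_norm_eval (a : DiscPoint K) (f : PowerSeries W) :
    Summable fun n => ‖((PowerSeries.coeff n f : W) : K) * a.val ^ n‖ := by
  refine Summable.of_nonneg_of_le (fun n => norm_nonneg _) (fun n => ?_)
    (summable_geometric_of_lt_one (norm_nonneg a.val) a.norm_lt)
  rw [norm_mul, norm_pow]
  exact mul_le_of_le_one_left (pow_nonneg (norm_nonneg _) _) (hW _ (SetLike.coe_mem _))

include hW in
/-- Series over the ball converge on the disc. -/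
theorem summable_eval (a : DiscPoint K) (f : PowerSeries W) :
    Summable fun n => ((PowerSeries.coeff n f : W) : K) * a.val ^ n :=
  (summable_norm_eval W hW a f).of_norm

/-- Evaluation of an integral power series at a point of the open unit disc. -/
def evalAt (a : DiscPoint K) : PowerSeries W →+* K where
  toFun f := ∑' n, ((PowerSeries.coeff n f : W) : K) * a.val ^ n
  map_one' := by
    rw [tsum_eq_single 0]
    · simp
    · intro n hn
      simp [PowerSeries.coeff_one, hn]
  map_zero' := by simp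
  map_add' f g := by
    rw [← (summable_eval W hW a f).tsum_add (summable_eval W hW a g)]
    exact tsum_congr fun n => by simp [add_mul]
  map_mul' f g := by
    rw [tsum_mul_tsum_eq_tsum_sum_antidiagonal_of_summable_norm (summable_norm_eval W hW a f)
      (summable_norm_eval W hW a g)]
    refine tsum_congr fun n => ?_
    rw [PowerSeries.coeff_mul, AddSubmonoidClass.coe_finsetSum, Finset.sum_mul]
    refine Finset.sum_congr rfl fun ij hij => ?_
    rw [Finset.HasAntidiagonal.mem_antidiagonal] at hij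
    rw [← hij, pow_add, Subring.coe_mul]
    ring

/-- Evaluation is the sum of the series. -/
theorem evalAt_apply (a : DiscPoint K) (f : PowerSeries W) :
    evalAt W hW a f = ∑' n, ((PowerSeries.coeff n f : W) : K) * a.val ^ n := rfl

/-- Evaluation of `X`. -/
theorem evalAt_X (a : DiscPoint K) : evalAt W hW a PowerSeries.X = a.val := by
  rw [evalAt_apply, tsum_eq_single 1]
  · simp
  · intro n hn
    simp [PowerSeries.coeff_X, hn]

/-- Evaluation of a constant. -/
theorem evalAt_C (a : DiscPoint K) (c : W) : evalAt W hW a (PowerSeries.C c) = c := by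
  rw [evalAt_apply, tsum_eq_single 0]
  · simp
  · intro n hn
    simp [PowerSeries.coeff_C, hn]

variable [IsUltrametricDist K]

/-- Values have norm at most one. -/
theorem norm_evalAt_le (a : DiscPoint K) (f : PowerSeries W) : ‖evalAt W hW a f‖ ≤ 1 := by
  rw [evalAt_apply]
  refine IsUltrametricDist.norm_tsum_le_of_forall_le_of_nonneg zero_le_one fun n => ?_
  rw [norm_mul, norm_pow]
  exact mul_le_one₀ (hW _ (SetLike.coe_mem _)) (pow_nonneg (norm_nonneg _) _)
    (pow_le_one₀ (norm_nonneg _) a.norm_lt.le)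

/-- Series without constant term take values in the disc. -/
theorem norm_evalAt_lt (a : DiscPoint K) (f : PowerSeries W)
    (hf : PowerSeries.constantCoeff f = 0) : ‖evalAt W hW a f‖ < 1 := by
  obtain ⟨g, rfl⟩ := PowerSeries.X_dvd_iff.mpr hf
  rw [map_mul, evalAt_X, norm_mul]
  exact lt_of_le_of_lt (mul_le_of_le_one_right (norm_nonneg _) (norm_evalAt_le W hW a g)) a.norm_lt

variable {π : K} (hπ : ‖π‖ < 1) (hdisc : ∀ x ∈ W, x ≠ 0 → ∃ k : ℕ, ‖x‖ = ‖π‖ ^ k)

omit [CompleteSpace K] [IsUltrametricDist K] in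
theorem exists_coeff_ne (f : PowerSeries W) (hf : f ≠ 0) : ∃ n, PowerSeries.coeff n f ≠ 0 := by
  by_contra h
  push Not at h
  exact hf (PowerSeries.ext fun n => by rw [h n, map_zero])

include hπ hdisc in
/-- A nonzero series with discretely valued coefficients does not vanish near the boundary. -/
theorem exists_bound (f : PowerSeries W) (hf : f ≠ 0) :
    ∃ d : ℕ, ∀ a : DiscPoint K, ‖π‖ < ‖a.val‖ ^ d → evalAt W hW a f ≠ 0 := by
  classical
  have hex : ∃ k : ℕ, ∃ n, ‖((PowerSeries.coeff n f : W) : K)‖ = ‖π‖ ^ k := by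
    obtain ⟨n, hn⟩ := exists_coeff_ne W f hf
    obtain ⟨k, hk⟩ := hdisc _ (SetLike.coe_mem (PowerSeries.coeff n f))
      (by simpa using hn)
    exact ⟨k, n, hk⟩
  let k := Nat.find hex
  have hd : ∃ d, ‖((PowerSeries.coeff d f : W) : K)‖ = ‖π‖ ^ k := Nat.find_spec hex
  let d := Nat.find hd
  refine ⟨d, fun a ha h0 => ?_⟩
  have hcd : ‖((PowerSeries.coeff d f : W) : K)‖ = ‖π‖ ^ k := Nat.find_spec hd
  have hcoef : ∀ n, ‖((PowerSeries.coeff n f : W) : K)‖ ≤ ‖π‖ ^ k ∧
      (n < d → ‖((PowerSeries.coeff n f : W) : K)‖ ≤ ‖π‖ ^ (k + 1)) := by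
    intro n
    by_cases h : ((PowerSeries.coeff n f : W) : K) = 0
    · rw [h, norm_zero]
      exact ⟨by positivity, fun _ => by positivity⟩
    obtain ⟨j, hj⟩ := hdisc _ (SetLike.coe_mem _) h
    have hkj : k ≤ j := Nat.find_le ⟨n, hj⟩
    refine ⟨hj ▸ pow_le_pow_of_le_one (norm_nonneg _) hπ.le hkj, fun hn => ?_⟩
    rw [hj]
    refine pow_le_pow_of_le_one (norm_nonneg _) hπ.le (lt_of_le_of_ne hkj fun he => ?_)
    exact Nat.find_min hd hn (he ▸ hj)
  have hπ0 : π ≠ 0 ∨ π = 0 := em' _
  have ha0 : 0 < ‖a.val‖ ^ d := lt_of_le_of_lt (norm_nonneg π) ha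
  have hk0 : 0 < ‖π‖ ^ k := by
    rcases (pow_nonneg (norm_nonneg π) k).lt_or_eq with h | h
    · exact h
    · exfalso
      rw [← h, norm_eq_zero] at hcd
      rcases Nat.eq_zero_or_pos k with hk | hk
      · rw [hk, pow_zero] at h
        exact zero_ne_one h
      · obtain ⟨n, hn⟩ := exists_coeff_ne W f hf
        apply hn
        have := (hcoef n).1
        rw [← h, norm_le_zero_iff] at this
        exact Subtype.ext this
  have hB : ∀ n, n ≠ d → ‖((PowerSeries.coeff n f : W) : K) * a.val ^ n‖ ≤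
      max (‖π‖ ^ (k + 1)) (‖π‖ ^ k * ‖a.val‖ ^ (d + 1)) := by
    intro n hn
    rw [norm_mul, norm_pow]
    rcases hn.lt_or_gt with h | h
    · refine le_max_of_le_left ?_
      calc _ ≤ ‖π‖ ^ (k + 1) * 1 := by
            gcongr
            · exact (hcoef n).2 h
            · exact pow_le_one₀ (norm_nonneg _) a.norm_lt.le
        _ = _ := mul_one _
    · refine le_max_of_le_right ?_
      exact mul_le_mul (hcoef n).1 (pow_le_pow_of_le_one (norm_nonneg _) a.norm_lt.le h)
        (by positivity) (by positivity)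
  have hlt : max (‖π‖ ^ (k + 1)) (‖π‖ ^ k * ‖a.val‖ ^ (d + 1)) < ‖π‖ ^ k * ‖a.val‖ ^ d := by
    refine max_lt ?_ ?_
    · rw [pow_succ]
      exact mul_lt_mul_of_pos_left ha hk0
    · refine mul_lt_mul_of_pos_left ?_ hk0
      rw [pow_succ]
      exact mul_lt_of_lt_one_right ha0 a.norm_lt
  rw [evalAt_apply, (summable_eval W hW a f).tsum_eq_add_tsum_ite d, add_eq_zero_iff_eq_neg] at h0
  have h1 := congrArg (fun x : K => ‖x‖) h0
  simp only [norm_neg] at h1
  have h2 : ‖∑' n, if n = d then 0 else ((PowerSeries.coeff n f : W) : K) * a.val ^ n‖ ≤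
      max (‖π‖ ^ (k + 1)) (‖π‖ ^ k * ‖a.val‖ ^ (d + 1)) := by
    refine IsUltrametricDist.norm_tsum_le_of_forall_le_of_nonneg (le_max_of_le_left (by positivity))
      fun n => ?_
    split_ifs with h
    · rw [norm_zero]
      exact le_max_of_le_left (by positivity)
    · exact hB n h
  rw [norm_mul, norm_pow, hcd] at h1
  linarith

end Eval

section RootsOfUnity

variable {K : Type*} [NormedField K] [IsUltrametricDist K] {p : ℕ} [hp : Fact p.Prime]

/-- Elements within the disc of a `p`-th root: `(1 + x) ^ p - 1` is small. -/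
theorem norm_one_add_pow_sub_one_le {x : K} (hx : ‖x‖ ≤ 1) :
    ‖(1 + x) ^ p - 1‖ ≤ max (‖(p : K)‖ * ‖x‖) (‖x‖ ^ p) := by
  rw [add_comm 1 x, add_pow, Finset.sum_range_succ', pow_zero, one_mul, Nat.choose_zero_right]
  simp only [one_pow, Nat.cast_one, mul_one, add_sub_cancel_right]
  refine IsUltrametricDist.norm_sum_le_of_forall_le_of_nonneg
    (le_max_of_le_left (by positivity)) fun i hi => ?_
  rw [Finset.mem_range] at hi
  rcases Nat.lt_or_ge (i + 1) p with h | h
  · refine le_max_of_le_left ?_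
    obtain ⟨c, hc⟩ := hp.out.dvd_choose_self (Nat.succ_ne_zero i) h
    rw [hc, Nat.cast_mul, norm_mul, norm_mul, norm_pow, mul_comm]
    gcongr
    · exact mul_le_of_le_one_right (norm_nonneg _) (IsUltrametricDist.norm_natCast_le_one K c)
    · exact pow_le_of_le_one (norm_nonneg _) hx (Nat.succ_ne_zero i)
  · refine le_max_of_le_right ?_
    obtain rfl : p = i + 1 := by omega
    simp

/-- Roots of unity of `p`-power order lie in the disc of `1`. -/
theorem norm_root_sub_one_lt (hpK : ‖(p : K)‖ < 1) {r : ℕ} {ζ : K} (hζ : ζ ^ p ^ r = 1) :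
    ‖ζ - 1‖ < 1 := by
  induction r generalizing ζ with
  | zero =>
    rw [pow_zero, pow_one] at hζ
    simp [hζ]
  | succ r ih =>
    rw [pow_succ', pow_mul] at hζ
    have h := ih hζ
    have hn : ‖ζ‖ = 1 := by
      have h1 : ‖ζ ^ p‖ = 1 := by
        have := congrArg (fun x : K => ‖x‖) hζ
        simp only [norm_pow, norm_one] at this
        rw [norm_pow]
        exact (pow_eq_one_iff_of_nonneg (by positivity) (pow_ne_zero _ hp.out.ne_zero)).mp this
      rw [norm_pow] at h1
      exact (pow_eq_one_iff_of_nonneg (norm_nonneg _) hp.out.ne_zero).mp h1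
    have hle : ‖ζ - 1‖ ≤ 1 := by
      rw [sub_eq_add_neg]
      exact (IsUltrametricDist.norm_add_le_max _ _).trans (by simp [hn])
    by_contra hge
    have heq : ‖ζ - 1‖ = 1 := le_antisymm hle (not_lt.mp hge)
    -- the leading term `(ζ - 1) ^ p` cannot be compensated
    have hrest : ‖(1 + (ζ - 1)) ^ p - 1 - (ζ - 1) ^ p‖ < 1 := by
      rw [add_comm 1 (ζ - 1), add_pow, Finset.sum_range_succ, Nat.sub_self, pow_zero,
        Nat.choose_self, Nat.cast_one, mul_one, mul_one,
        show ∀ a b : K, a + b - 1 - b = a - 1 by intros; ring]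
      obtain ⟨q, hq⟩ := Nat.exists_eq_add_of_le' hp.out.pos
      rw [hq, Finset.sum_range_succ', pow_zero, Nat.choose_zero_right, Nat.cast_one]
      simp only [one_pow, mul_one, add_sub_cancel_right]
      refine lt_of_le_of_lt
        (IsUltrametricDist.norm_sum_le_of_forall_le_of_nonneg (norm_nonneg _) fun i hi => ?_) hpK
      rw [Finset.mem_range] at hi
      obtain ⟨c, hc⟩ := hp.out.dvd_choose_self (Nat.succ_ne_zero i) (by omega)
      rw [← hq, hc, Nat.cast_mul, norm_mul, norm_mul, norm_pow, heq, one_pow, one_mul]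
      exact mul_le_of_le_one_right (norm_nonneg _) (IsUltrametricDist.norm_natCast_le_one K c)
    rw [add_sub_cancel] at hrest
    have : ‖(ζ - 1) ^ p‖ < 1 := by
      have hs := IsUltrametricDist.norm_add_le_max (ζ ^ p - 1) (-(ζ ^ p - 1 - (ζ - 1) ^ p))
      rw [norm_neg, show ζ ^ p - 1 + -(ζ ^ p - 1 - (ζ - 1) ^ p) = (ζ - 1) ^ p by ring] at hs
      exact lt_of_le_of_lt hs (max_lt h hrest)
    rw [norm_pow, heq, one_pow] at this
    exact lt_irrefl _ this

/-- Lower bound on `ζ - 1` for a primitive root of unity of order `p ^ (r + 1)`. -/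
theorem norm_le_pow_root_sub_one (hpK : ‖(p : K)‖ < 1) (hp0 : (p : K) ≠ 0) {r : ℕ} {ζ : K}
    (hζ : IsPrimitiveRoot ζ (p ^ (r + 1))) : ‖(p : K)‖ ≤ ‖ζ - 1‖ ^ p ^ r := by
  have hpos : 0 < ‖(p : K)‖ := norm_pos_iff.mpr hp0
  induction r generalizing ζ with
  | zero =>
    rw [zero_add, pow_one] at hζ
    rw [pow_zero, pow_one]
    set x := ζ - 1 with hxdef
    have hx : ‖x‖ < 1 := norm_root_sub_one_lt hpK (r := 1) (by rw [pow_one]; exact hζ.pow_eq_one)
    have hne : x ≠ 0 := sub_ne_zero.mpr (hζ.ne_one hp.out.one_lt)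
    have hsum : ∑ i ∈ Finset.range p, ((p.choose (i + 1) : ℕ) : K) * x ^ i = 0 := by
      apply mul_left_cancel₀ hne
      rw [mul_zero, Finset.mul_sum]
      have h1 : (x + 1) ^ p = 1 := by rw [hxdef, sub_add_cancel]; exact hζ.pow_eq_one
      rw [add_pow, Finset.sum_range_succ', pow_zero, Nat.choose_zero_right] at h1
      simp only [one_pow, Nat.cast_one, mul_one, add_eq_right] at h1
      rw [← h1]
      exact Finset.sum_congr rfl fun i _ => by ring
    obtain ⟨q, hq⟩ := Nat.exists_eq_add_of_le' hp.out.pos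
    rw [hq, Finset.sum_range_succ', ← hq, pow_zero, mul_one, Nat.choose_one_right] at hsum
    have hbound : ‖(p : K)‖ ≤ max (‖(p : K)‖ * ‖x‖) (‖x‖ ^ q) := by
      have hpe : ‖(p : K)‖ =
        ‖∑ k ∈ Finset.range q, ((p.choose (k + 1 + 1) : ℕ) : K) * x ^ (k + 1)‖ := by
        rw [eq_neg_of_add_eq_zero_left hsum, norm_neg]
      refine hpe.le.trans ?_
      refine IsUltrametricDist.norm_sum_le_of_forall_le_of_nonneg
        (le_max_of_le_left (by positivity)) fun i hi => ?_
      rw [Finset.mem_range] at hi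
      rw [norm_mul, norm_pow]
      rcases Nat.lt_or_ge (i + 2) p with h | h
      · refine le_max_of_le_left ?_
        obtain ⟨c, hc⟩ := hp.out.dvd_choose_self (Nat.succ_ne_zero (i + 1)) h
        rw [hc, Nat.cast_mul, norm_mul]
        gcongr
        · exact mul_le_of_le_one_right (norm_nonneg (p : K))
            (IsUltrametricDist.norm_natCast_le_one K c)
        · exact pow_le_of_le_one (norm_nonneg _) hx.le (Nat.succ_ne_zero i)
      · refine le_max_of_le_right ?_
        obtain rfl : q = i + 1 := by omega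
        exact mul_le_of_le_one_left (by positivity) (IsUltrametricDist.norm_natCast_le_one K _)
    rcases le_max_iff.mp hbound with h | h
    · exact absurd h (not_le.mpr (mul_lt_of_lt_one_right hpos hx))
    · exact h.trans (pow_le_of_le_one (norm_nonneg _) hx.le (by have := hp.out.two_le; omega))
  | succ r ih =>
    have hx : ‖ζ - 1‖ < 1 := norm_root_sub_one_lt hpK hζ.pow_eq_one
    have hy := ih (hζ.pow (pow_pos hp.out.pos _) (pow_succ' p (r + 1)))
    have hmax : ‖ζ ^ p - 1‖ ≤ max (‖(p : K)‖ * ‖ζ - 1‖) (‖ζ - 1‖ ^ p) := by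
      conv_lhs => rw [← add_sub_cancel 1 ζ]
      exact norm_one_add_pow_sub_one_le hx.le
    rcases le_max_iff.mp hmax with h | h
    · exfalso
      have hlt : ‖(p : K)‖ * ‖ζ - 1‖ < ‖(p : K)‖ := mul_lt_of_lt_one_right hpos hx
      have h2 : (‖(p : K)‖ * ‖ζ - 1‖) ^ p ^ r ≤ ‖(p : K)‖ * ‖ζ - 1‖ :=
        pow_le_of_le_one (by positivity) (hlt.le.trans hpK.le) (pow_ne_zero _ hp.out.ne_zero)
      exact not_le.mpr hlt (hy.trans ((pow_le_pow_left₀ (norm_nonneg _) h _).trans h2))
    · rw [pow_succ', pow_mul]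
      exact hy.trans (pow_le_pow_left₀ (norm_nonneg _) h _)

/-- Roots of unity approach the boundary of the disc. -/
theorem exists_forall_lt_pow_root_sub_one (hpK : ‖(p : K)‖ < 1) (hp0 : (p : K) ≠ 0) (d : ℕ) :
    ∃ r₀ : ℕ, ∀ r, r₀ ≤ r → ∀ ζ : K, IsPrimitiveRoot ζ (p ^ (r + 1)) →
      ‖(p : K)‖ < ‖ζ - 1‖ ^ d := by
  refine ⟨d, fun r hr ζ hζ => ?_⟩
  have hx : ‖ζ - 1‖ < 1 := norm_root_sub_one_lt hpK hζ.pow_eq_one
  have hne : 0 < ‖ζ - 1‖ := norm_pos_iff.mpr
    (sub_ne_zero.mpr (hζ.ne_one (one_lt_pow₀ hp.out.one_lt (Nat.succ_ne_zero r))))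
  exact lt_of_le_of_lt (norm_le_pow_root_sub_one hpK hp0 hζ)
    (pow_lt_pow_right_of_lt_one₀ hne hx (lt_of_le_of_lt hr (Nat.lt_pow_self hp.out.one_lt)))

end RootsOfUnity

end Fermat.Agent.OrdinaryCurve
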