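import Fermat.Agent.OrdinaryCurve.Dwork
import Fermat.Agent.OrdinaryCurve.Specialize
import Fermat.Agent.OrdinaryCurve.LogExp
import Fermat.Agent.OrdinaryCurve.Series
import Mathlib.LinearAlgebra.LinearIndependent.Basic
import Mathlib.RingTheory.PowerSeries.NoZeroDivisors

/-!
Abel's theorem on the formal disc at a rational point, in terms of the ring of functions regular
away from that point: a family of divisors `E - N ∞` inside the disc is principal iff its formal
logarithm vanishes.
-/

set_option autoImplicit false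

noncomputable section

open PowerSeries Finset

namespace Fermat.Agent.OrdinaryCurve

variable {K : Type*} [Field K] [CharZero K]
variable {ι : Type*}

/-- The polar pairing with the vectors `A`: the sum of `x_{-n} * A n i` over `n ≥ 1`. -/
def polarPairing (A : ℕ → ι → K) (i : ι) : LaurentSeries K →ₗ[K] K where
  toFun x := ∑ᶠ n : ℕ, x.coeff (-((n + 1 : ℕ) : ℤ)) * A (n + 1) i
  map_add' x y := by
    rw [← finsum_add_distrib (finite_polar A i x) (finite_polar A i y)]
    exact finsum_congr fun n => by rw [HahnSeries.coeff_add, add_mul]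
  map_smul' c x := by
    rw [RingHom.id_apply, smul_eq_mul, mul_finsum' _ _ (finite_polar A i x)]
    exact finsum_congr fun n => by rw [HahnSeries.coeff_smul, smul_eq_mul, mul_assoc]
where
  finite_polar (A : ℕ → ι → K) (i : ι) (x : LaurentSeries K) :
      (fun n : ℕ => x.coeff (-((n + 1 : ℕ) : ℤ)) * A (n + 1) i).HasFiniteSupport := by
    refine Set.Finite.subset (Finset.range (-x.order).toNat).finite_toSet ?_
    intro n hn
    simp only [Function.mem_support] at hn
    have h := HahnSeries.order_le_of_coeff_ne_zero (left_ne_zero_of_mul hn)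
    simp only [Finset.coe_range, Set.mem_Iio]
    omega

omit [CharZero K] in
theorem polarPairing_eq_zero (A : ℕ → ι → K) (i : ι) {x : LaurentSeries K}
    (h : ∀ m : ℤ, m < 0 → x.coeff m = 0) : polarPairing A i x = 0 :=
  finsum_eq_zero_of_forall_eq_zero fun n => by rw [h _ (by omega), zero_mul]

omit [CharZero K] in
/-- The polar pairing with a monomial. -/
theorem polarPairing_single (A : ℕ → ι → K) (i : ι) {n : ℕ} (hn : 1 ≤ n) (c : K) :
    polarPairing A i (HahnSeries.single (-(n : ℤ)) c) = c * A n i := by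
  obtain ⟨k, rfl⟩ := Nat.exists_eq_add_of_le' hn
  show ∑ᶠ m : ℕ, _ = _
  rw [finsum_eq_single _ k]
  · rw [HahnSeries.coeff_single_same]
  · intro m hm
    rw [HahnSeries.coeff_single_of_ne (by omega), zero_mul]

/-- Functions regular away from a rational point, seen through their expansions at that point,
together with the expansion coefficients `A` of a basis of the regular differentials. -/
structure FormalCurve (K : Type*) [Field K] (ι : Type*) where
  B : Subalgebra K (LaurentSeries K)
  A : ℕ → ι → K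
  pair_zero : ∀ b ∈ B, ∀ i, polarPairing A i b = 0
  pair_exists : ∀ x : LaurentSeries K, (∀ i, polarPairing A i x = 0) →
    ∃ b ∈ B, ∀ m : ℤ, m < 0 → b.coeff m = x.coeff m
  holo_const : ∀ b ∈ B, (∀ m : ℤ, m < 0 → b.coeff m = 0) → ∃ c : K, b = HahnSeries.C c

omit [CharZero K] in
/-- Scalars as constant series. -/
theorem algebraMap_eq_C (r : K) : algebraMap K (LaurentSeries K) r = HahnSeries.C r := by
  rw [HahnSeries.algebraMap_apply', PowerSeries.algebraMap_apply, HahnSeries.ofPowerSeries_C,
    Algebra.algebraMap_self, RingHom.id_apply]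

omit [CharZero K] in
theorem coeff_coeff_map_C_mul (c : K⟦X⟧) (f : K⟦X⟧⟦X⟧) (e l : ℕ) :
    coeff l (coeff e (PowerSeries.map C c * f)) =
      ∑ ab ∈ antidiagonal e, coeff ab.1 c * coeff l (coeff ab.2 f) := by
  rw [coeff_mul, map_sum]
  exact Finset.sum_congr rfl fun ab _ => by rw [coeff_map, coeff_C_mul]

namespace FormalCurve

variable (C₀ : FormalCurve K ι)

/-- `X ^ (-N) * x ∈ B`. -/
def Mem (N : ℕ) (x : K⟦X⟧) : Prop :=
  HahnSeries.single (-(N : ℤ)) 1 * HahnSeries.ofPowerSeries ℤ K x ∈ C₀.B

/-- An integral basis of the functions with pole order at most `N`. -/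
structure Lattice (W : Subring K) (N : ℕ) where
  rank : ℕ
  basis : Fin rank → W⟦X⟧
  mem : ∀ k, C₀.Mem N (PowerSeries.map W.subtype (basis k))
  indep : LinearIndependent K fun k => PowerSeries.map W.subtype (basis k)
  spans : ∀ x, C₀.Mem N x → ∃ c : Fin rank → K,
    x = ∑ k, C (c k) * PowerSeries.map W.subtype (basis k)

/-- The normalised series `X ^ (-N) * u`, with constant coefficient one. -/
def normalize (N : ℕ) (u : K⟦X⟧⟦X⟧) : (LaurentSeries K)⟦X⟧ :=
  C (HahnSeries.single (-(N : ℤ)) 1) * toLaurent u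

omit [CharZero K] in
/-- The coefficients of `normalize`. -/
theorem coeff_normalize (N : ℕ) (u : K⟦X⟧⟦X⟧) (e : ℕ) :
    coeff e (normalize N u) =
      HahnSeries.single (-(N : ℤ)) 1 * HahnSeries.ofPowerSeries ℤ K (coeff e u) := by
  rw [normalize, coeff_C_mul, coeff_toLaurent]

omit [CharZero K] in
theorem constantCoeff_normalize {N : ℕ} {u : K⟦X⟧⟦X⟧} (hu : IsDist N u) :
    constantCoeff (normalize N u) = 1 := by
  rw [← coeff_zero_eq_constantCoeff_apply, coeff_normalize, coeff_zero_eq_constantCoeff_apply,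
    hu.zero, HahnSeries.ofPowerSeries_X_pow, HahnSeries.single_mul_single, neg_add_cancel, one_mul]
  rfl

omit [CharZero K] in
theorem normalize_mul (N M : ℕ) (u w : K⟦X⟧⟦X⟧) :
    normalize (N + M) (u * w) = normalize N u * normalize M w := by
  rw [normalize, normalize, normalize, map_mul,
    show HahnSeries.single (-((N + M : ℕ) : ℤ)) (1 : K) =
      HahnSeries.single (-(N : ℤ)) 1 * HahnSeries.single (-(M : ℤ)) 1 by
      rw [HahnSeries.single_mul_single, one_mul]; congr 1; simp only [Nat.cast_add, neg_add],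
    map_mul]
  ring

/-- The formal logarithm of a distinguished series, paired with the differentials. -/
def logPair (N : ℕ) (u : K⟦X⟧⟦X⟧) (i : ι) : K⟦X⟧ :=
  PowerSeries.mk fun e => polarPairing C₀.A i (coeff e (logOf (normalize N u)))

/-- `logPair` turns products into sums. -/
theorem logPair_mul {N M : ℕ} {u w : K⟦X⟧⟦X⟧} (hu : IsDist N u) (hw : IsDist M w) (i : ι) :
    C₀.logPair (N + M) (u * w) i = C₀.logPair N u i + C₀.logPair M w i := by
  ext e
  simp only [logPair, coeff_mk, map_add, normalize_mul,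
    logOf_mul (constantCoeff_normalize hu) (constantCoeff_normalize hw)]

/-- `logPair` of a power. -/
theorem logPair_pow {N : ℕ} {u : K⟦X⟧⟦X⟧} (hu : IsDist N u) (k : ℕ) (i : ι) :
    C₀.logPair (k * N) (u ^ k) i = k • C₀.logPair N u i := by
  induction k with
  | zero =>
    have h2 := C₀.logPair_mul (u := (1 : K⟦X⟧⟦X⟧)) IsDist.one (w := 1) IsDist.one i
    rw [mul_one, left_eq_add] at h2
    rw [zero_mul, pow_zero, zero_smul]
    exact h2
  | succ k ih =>
    rw [pow_succ, add_mul, one_mul, C₀.logPair_mul (hu.pow k) hu, ih, succ_nsmul]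

omit [CharZero K] in
theorem coeff_mem_map {f : (LaurentSeries K)⟦X⟧} :
    (∀ e, coeff e f ∈ C₀.B) ↔
      f ∈ (PowerSeries.map (C₀.B.val : C₀.B →+* LaurentSeries K)).range := by
  constructor
  · intro h
    refine ⟨PowerSeries.mk fun e => ⟨coeff e f, h e⟩, ?_⟩
    ext e : 1
    rw [coeff_map, coeff_mk]
    rfl
  · rintro ⟨g, rfl⟩ e
    rw [coeff_map]
    exact SetLike.coe_mem (coeff e g)

/-- Rational constants lie in the ring of the curve. -/
theorem ratCast_mem (q : ℚ) : algebraMap ℚ (LaurentSeries K) q ∈ C₀.B := by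
  rw [← (HahnSeries.C (Γ := ℤ) (R := K)).map_rat_algebraMap q, ← algebraMap_eq_C]
  exact C₀.B.algebraMap_mem _

theorem expOf_mem {β : (LaurentSeries K)⟦X⟧} (hβ0 : constantCoeff β = 0)
    (hβ : ∀ e, coeff e β ∈ C₀.B) (e : ℕ) : coeff e (expOf β) ∈ C₀.B := by
  rw [expOf, coeff_subst_eq_sum hβ0]
  refine Subalgebra.sum_mem _ fun d _ => ?_
  rw [smul_eq_mul, coeff_exp]
  refine Subalgebra.mul_mem _ (C₀.ratCast_mem _) ?_
  exact C₀.coeff_mem_map.mpr (pow_mem (C₀.coeff_mem_map.mp hβ) d) e

theorem logOf_mem {b : (LaurentSeries K)⟦X⟧} (hb0 : constantCoeff b = 1)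
    (hb : ∀ e, coeff e b ∈ C₀.B) (e : ℕ) : coeff e (logOf b) ∈ C₀.B := by
  rw [logOf_eq, coeff_subst_eq_sum (by rw [map_sub, map_one, hb0, sub_self])]
  refine Subalgebra.sum_mem _ fun d _ => ?_
  rw [smul_eq_mul, coeff_log]
  refine Subalgebra.mul_mem _ ?_ ?_
  · split_ifs
    · exact C₀.B.zero_mem
    · exact C₀.ratCast_mem _
  · refine C₀.coeff_mem_map.mpr (pow_mem (sub_mem (C₀.coeff_mem_map.mp hb) (one_mem _)) d) e

theorem map_ofPowerSeries_rat (f : K⟦X⟧⟦X⟧) (hf : constantCoeff f = 0) :
    expOf (toLaurent f) = toLaurent (expOf f) := by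
  rw [expOf, expOf, toLaurent, map_subst' (HasSubst.of_constantCoeff_zero' hf), map_exp]

variable (W : Subring K) {N : ℕ} (Λ : C₀.Lattice W N)

/-- Coefficients in `W`, seen in `K`. -/
def toK : W⟦X⟧⟦X⟧ →+* K⟦X⟧⟦X⟧ := PowerSeries.map (PowerSeries.map W.subtype)

/-- The remainders of the lattice under division by `u`. -/
def remainder {u : W⟦X⟧⟦X⟧} (hu : IsDist N u) (k : Fin Λ.rank) : W⟦X⟧⟦X⟧ :=
  (hu.exists_division (C (Λ.basis k))).choose_spec.choose

/-- The quotients of the lattice under division by `u`. -/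
def quotient {u : W⟦X⟧⟦X⟧} (hu : IsDist N u) (k : Fin Λ.rank) : W⟦X⟧⟦X⟧ :=
  (hu.exists_division (C (Λ.basis k))).choose

omit [CharZero K] in
/-- The defining property of division by a distinguished series. -/
theorem division_spec {u : W⟦X⟧⟦X⟧} (hu : IsDist N u) (k : Fin Λ.rank) :
    C (Λ.basis k) = u * C₀.quotient W Λ hu k + C₀.remainder W Λ hu k ∧
      IsLow N (C₀.remainder W Λ hu k) :=
  (hu.exists_division (C (Λ.basis k))).choose_spec.choose_spec

/-- The matrix of the remainders. -/
def matrix {u : W⟦X⟧⟦X⟧} (hu : IsDist N u) : Matrix (Fin N) (Fin Λ.rank) W⟦X⟧ :=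
  fun l k => coeff (l : ℕ) (swapVars (C₀.remainder W Λ hu k))

omit [CharZero K] in
/-- A combination of the lattice is divisible by `u` exactly when its coefficients lie in the
kernel of the matrix. -/
theorem combination {u : W⟦X⟧⟦X⟧} (hu : IsDist N u) (c : Fin Λ.rank → K⟦X⟧)
    (hc : ((C₀.matrix W Λ hu).map (PowerSeries.map W.subtype)).mulVec c = 0) :
    ∑ k, PowerSeries.map C (c k) * toK W (C (Λ.basis k)) =
      toK W u * ∑ k, PowerSeries.map C (c k) * toK W (C₀.quotient W Λ hu k) := by
  have hrem : ∑ k, PowerSeries.map C (c k) * toK W (C₀.remainder W Λ hu k) = 0 := by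
    ext e l
    simp only [map_sum, coeff_coeff_map_C_mul, toK, coeff_map, map_zero]
    rcases lt_or_ge l N with hl | hl
    · have h := congrArg (coeff e) (congrFun hc ⟨l, hl⟩)
      rw [Pi.zero_apply, map_zero, Matrix.mulVec, dotProduct, map_sum] at h
      rw [← h]
      refine Finset.sum_congr rfl fun k _ => ?_
      rw [Matrix.map_apply, matrix, mul_comm ((PowerSeries.map W.subtype) _), coeff_mul]
      refine Finset.sum_congr rfl fun ab _ => ?_
      rw [coeff_map, coeff_swapVars, coeff_mk]
    · refine Finset.sum_eq_zero fun k _ => Finset.sum_eq_zero fun ab _ => ?_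
      rw [(C₀.division_spec W Λ hu k).2 _ _ hl, map_zero, mul_zero]
  conv_lhs =>
    arg 2; ext k
    rw [(C₀.division_spec W Λ hu k).1, map_add, map_mul, mul_add]
  rw [Finset.sum_add_distrib, hrem, add_zero, Finset.mul_sum]
  exact Finset.sum_congr rfl fun k _ => by ring

/-- **Abel, forward**: vanishing logarithm gives a combination divisible by `u`. -/
theorem exists_kernel_of_logPair_eq_zero {u : W⟦X⟧⟦X⟧} (hu : IsDist N u)
    (hlog : ∀ i, C₀.logPair N (toK W u) i = 0) :
    ∃ c : Fin Λ.rank → K⟦X⟧, c ≠ 0 ∧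
      ((C₀.matrix W Λ hu).map (PowerSeries.map W.subtype)).mulVec c = 0 := by
  have huK : IsDist N (toK W u) := hu.map _
  set v := normalize N (toK W u) with hv
  have hv0 : constantCoeff v = 1 := constantCoeff_normalize huK
  have hpair : ∀ e i, polarPairing C₀.A i (coeff e (logOf v)) = 0 := by
    intro e i
    have := congrArg (coeff e) (hlog i)
    rwa [logPair, coeff_mk, map_zero] at this
  choose β hβmem hβ using fun e => C₀.pair_exists _ (hpair e)
  let β' : ℕ → LaurentSeries K := fun e => if e = 0 then 0 else β e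
  let Β : (LaurentSeries K)⟦X⟧ := PowerSeries.mk β'
  have hΒ0 : constantCoeff Β = 0 := by simp [Β, β', ← coeff_zero_eq_constantCoeff_apply]
  have hΒmem : ∀ e, coeff e Β ∈ C₀.B := by
    intro e
    simp only [Β, β', coeff_mk]
    split_ifs
    · exact C₀.B.zero_mem
    · exact hβmem e
  have hholo : ∀ e, ∃ f : K⟦X⟧, HahnSeries.ofPowerSeries ℤ K f = coeff e (Β - logOf v) := by
    intro e
    refine exists_ofPowerSeries_eq _ fun m hm => ?_
    simp only [map_sub, HahnSeries.coeff_sub, Β, β', coeff_mk]
    split_ifs with h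
    · subst h
      simp [coeff_zero_eq_constantCoeff_apply, constantCoeff_logOf hv0]
    · rw [hβ e m hm, sub_self]
  choose f hf using hholo
  let F : K⟦X⟧⟦X⟧ := PowerSeries.mk f
  have hF : toLaurent F = Β - logOf v := by
    ext e : 1
    rw [coeff_toLaurent, coeff_mk, hf e]
  have hF0 : constantCoeff F = 0 := by
    apply HahnSeries.ofPowerSeries_injective (Γ := ℤ) (R := K)
    rw [map_zero, ← coeff_zero_eq_constantCoeff_apply, ← coeff_toLaurent, hF,
      coeff_zero_eq_constantCoeff_apply, map_sub, hΒ0, constantCoeff_logOf hv0, sub_zero]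
  set x := toK W u * expOf F with hx
  have hxb : normalize N x = expOf Β := by
    rw [show Β = logOf v + toLaurent F by rw [hF]; ring, expOf_add (constantCoeff_logOf hv0)
      (by rw [← coeff_zero_eq_constantCoeff_apply, coeff_toLaurent,
        coeff_zero_eq_constantCoeff_apply, hF0, map_zero]),
      expOf_logOf hv0, map_ofPowerSeries_rat F hF0, hv, normalize, normalize, hx, map_mul]
    ring
  have hxmem : ∀ e, C₀.Mem N (coeff e x) := by
    intro e
    rw [Mem, ← coeff_normalize, hxb]
    exact C₀.expOf_mem hΒ0 hΒmem e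
  choose c hc using fun e => Λ.spans _ (hxmem e)
  let cs : Fin Λ.rank → K⟦X⟧ := fun k => PowerSeries.mk fun e => c e k
  have hxcs : x = ∑ k, PowerSeries.map C (cs k) * toK W (C (Λ.basis k)) := by
    ext e : 1
    simp only [map_sum, toK, map_C, coeff_mul_C, coeff_map, cs, coeff_mk]
    exact hc e
  refine ⟨cs, fun h0 => ?_, ?_⟩
  · have : coeff 0 x = 0 := by simp [hxcs, h0]
    rw [coeff_zero_eq_constantCoeff_apply, hx, map_mul, huK.zero, constantCoeff_expOf hF0,
      mul_one] at this
    exact pow_ne_zero N PowerSeries.X_ne_zero this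
  · -- uniqueness of the division
    have hlow : IsLow N (∑ k, PowerSeries.map C (cs k) * toK W (C₀.remainder W Λ hu k)) := by
      intro e l hl
      simp only [map_sum, coeff_coeff_map_C_mul, toK, coeff_map]
      refine Finset.sum_eq_zero fun k _ => Finset.sum_eq_zero fun ab _ => ?_
      rw [(C₀.division_spec W Λ hu k).2 _ _ hl, map_zero, mul_zero]
    have heq : toK W u * (expOf F - ∑ k, PowerSeries.map C (cs k) * toK W (C₀.quotient W Λ hu k)) =
        ∑ k, PowerSeries.map C (cs k) * toK W (C₀.remainder W Λ hu k) := by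
      rw [mul_sub, ← hx, hxcs, Finset.mul_sum, ← Finset.sum_sub_distrib]
      refine Finset.sum_congr rfl fun k _ => ?_
      rw [(C₀.division_spec W Λ hu k).1, map_add, map_mul]
      ring
    have hquot : expOf F - ∑ k, PowerSeries.map C (cs k) * toK W (C₀.quotient W Λ hu k) = 0 :=
      huK.eq_zero_of_low (by rw [heq]; exact hlow)
    rw [hquot, mul_zero] at heq
    funext l
    ext e
    have h := congrArg (fun g => coeff (l : ℕ) (coeff e g)) heq.symm
    simp only [map_sum, coeff_coeff_map_C_mul, toK, coeff_map, map_zero] at h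
    rw [Pi.zero_apply, map_zero, Matrix.mulVec, dotProduct, map_sum, ← h]
    refine Finset.sum_congr rfl fun k _ => ?_
    rw [Matrix.map_apply, matrix, mul_comm ((PowerSeries.map W.subtype) _), coeff_mul]
    refine Finset.sum_congr rfl fun ab _ => ?_
    simp only [cs, coeff_map, coeff_swapVars, coeff_mk]

/-- **Abel, converse**: a combination divisible by `u` forces vanishing logarithm. -/
theorem logPair_eq_zero_of_kernel {u : W⟦X⟧⟦X⟧} (hu : IsDist N u) (c : Fin Λ.rank → K⟦X⟧)
    (hc0 : c ≠ 0) (hc : ((C₀.matrix W Λ hu).map (PowerSeries.map W.subtype)).mulVec c = 0)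
    (i : ι) : C₀.logPair N (toK W u) i = 0 := by
  classical
  have hex : ∃ m, ∃ k, coeff m (c k) ≠ 0 := by
    by_contra h
    push Not at h
    exact hc0 (funext fun k => PowerSeries.ext fun m => by simp [h m k])
  set m := Nat.find hex with hm
  have hdvd : ∀ k, (X : K⟦X⟧) ^ m ∣ c k := fun k => X_pow_dvd_iff.mpr fun l hl => by
    by_contra h
    exact Nat.find_min hex hl ⟨k, h⟩
  choose c' hc' using hdvd
  have hker : ((C₀.matrix W Λ hu).map (PowerSeries.map W.subtype)).mulVec c' = 0 := by
    funext l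
    have h := congrFun hc l
    simp only [Matrix.mulVec, dotProduct, Pi.zero_apply, hc'] at h ⊢
    refine mul_left_cancel₀ (pow_ne_zero m (X_ne_zero (R := K))) ?_
    rw [mul_zero, Finset.mul_sum, ← h]
    exact Finset.sum_congr rfl fun k _ => by ring
  have hne : (fun k => constantCoeff (c' k)) ≠ 0 := by
    intro h0
    obtain ⟨k, hk⟩ := Nat.find_spec hex
    apply hk
    rw [← hm, hc' k, coeff_X_pow_mul', if_pos le_rfl, Nat.sub_self,
      coeff_zero_eq_constantCoeff_apply]
    exact congrFun h0 k
  set x := ∑ k, PowerSeries.map C (c' k) * toK W (C (Λ.basis k)) with hxdef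
  set r := ∑ k, PowerSeries.map C (c' k) * toK W (C₀.quotient W Λ hu k) with hrdef
  have hx : x = toK W u * r := C₀.combination W Λ hu c' hker
  have hxmem : ∀ e, C₀.Mem N (coeff e x) := by
    intro e
    simp only [hxdef, map_sum, toK, map_C, coeff_mul_C, coeff_map, Mem, map_mul, Finset.mul_sum,
      HahnSeries.ofPowerSeries_C]
    refine Subalgebra.sum_mem _ fun k _ => ?_
    rw [mul_left_comm]
    exact Subalgebra.mul_mem _ (algebraMap_eq_C (coeff e (c' k)) ▸ C₀.B.algebraMap_mem _) (Λ.mem k)
  have huK : IsDist N (toK W u) := hu.map _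
  have hx0 : coeff 0 x ≠ 0 := by
    simp only [hxdef, map_sum, toK, map_C, coeff_mul_C, coeff_map]
    intro h
    apply hne
    funext k
    rw [← coeff_zero_eq_constantCoeff_apply, Pi.zero_apply]
    exact linearIndependent_iff'.mp Λ.indep Finset.univ (fun k => coeff 0 (c' k))
      (by rw [← h]; exact Finset.sum_congr rfl fun k _ => by rw [PowerSeries.smul_eq_C_mul])
      k (Finset.mem_univ k)
  have hb : ∀ e, coeff e (normalize N (toK W u) * toLaurent r) ∈ C₀.B := by
    intro e
    have := hxmem e
    rw [Mem, ← coeff_normalize, hx, normalize, (toLaurent (K := K)).map_mul, ← mul_assoc] at this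
    exact this
  have hb0 : constantCoeff (normalize N (toK W u) * toLaurent r) =
      HahnSeries.ofPowerSeries ℤ K (constantCoeff r) := by
    rw [map_mul, constantCoeff_normalize huK, one_mul, ← coeff_zero_eq_constantCoeff_apply,
      coeff_toLaurent, coeff_zero_eq_constantCoeff_apply]
  obtain ⟨a, ha⟩ := C₀.holo_const _ (hb0 ▸ coeff_zero_eq_constantCoeff_apply
      (normalize N (toK W u) * toLaurent r) ▸ hb 0) fun l hl => ofPowerSeries_coeff_neg _ hl
  have hr0 : constantCoeff r = C a := by
    apply HahnSeries.ofPowerSeries_injective (Γ := ℤ) (R := K)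
    rw [ha, HahnSeries.ofPowerSeries_C]
  have ha0 : a ≠ 0 := by
    rintro rfl
    apply hx0
    rw [hx, coeff_zero_eq_constantCoeff_apply, map_mul, hr0, map_zero, mul_zero]
  set r' := C (C a⁻¹) * r with hr'
  have hr'0 : constantCoeff r' = 1 := by
    rw [hr', map_mul, constantCoeff_C, hr0, ← map_mul, inv_mul_cancel₀ ha0, map_one]
  have hr'L : constantCoeff (toLaurent r') = 1 := by
    rw [← coeff_zero_eq_constantCoeff_apply, coeff_toLaurent, coeff_zero_eq_constantCoeff_apply,
      hr'0, map_one]
  have hb' : ∀ e, coeff e (normalize N (toK W u) * toLaurent r') ∈ C₀.B := by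
    intro e
    rw [hr', (toLaurent (K := K)).map_mul, toLaurent, map_C, ← toLaurent, mul_left_comm,
      coeff_C_mul, HahnSeries.ofPowerSeries_C]
    exact Subalgebra.mul_mem _ (algebraMap_eq_C a⁻¹ ▸ C₀.B.algebraMap_mem a⁻¹) (hb e)
  ext e
  rw [logPair, coeff_mk, map_zero]
  have hprod := C₀.logOf_mem (b := normalize N (toK W u) * toLaurent r')
    (by rw [map_mul, constantCoeff_normalize huK, hr'L, one_mul]) hb' e
  rw [logOf_mul (constantCoeff_normalize huK) hr'L, map_add] at hprod
  have h1 := C₀.pair_zero _ hprod i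
  rw [map_add] at h1
  suffices h2 : polarPairing C₀.A i (coeff e (logOf (toLaurent r'))) = 0 by
    exact (eq_neg_of_add_eq_zero_left h1).trans (neg_eq_zero.mpr h2)
  refine polarPairing_eq_zero _ _ fun l hl => ?_
  have hlog : logOf (toLaurent r') = toLaurent (logOf r') := by
    rw [logOf_eq, logOf_eq, toLaurent, map_subst' (hasSubst_sub_one hr'0), map_log, map_sub,
      map_one]
  rw [hlog, coeff_toLaurent]
  exact ofPowerSeries_coeff_neg _ hl

end FormalCurve

end Fermat.Agent.OrdinaryCurve
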