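import Fermat.Agent.OrdinaryCurve.LocalField
import Fermat.Agent.OrdinaryCurve.Abel
import Fermat.Agent.CarayolReduction.TateMap
import Fermat.Prelude.Def_CuspForm_IntegralLattice
import Fermat.Prelude.Def_ModularCurve_HeckeModule
import Fermat.Prelude.Def_ModularCurve_ArithmeticGalois
import Fermat.Prelude.Thm_CongruenceSubgroup_one_mem_strictPeriods_Gamma0

/-!
# The ordinary part at `p` of the Tate module of `J₀(N)`: definitions

Integral bases of weight two cusp forms with the matrices of Hecke operators on their coefficient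
vectors; the function field of `X₀(N)` over `ℂ_p` with its ring of functions regular away from `∞`
(`HasFormalCurve`, `HasLattices`); the comparison of torsion over `ℚ̄` and over `ℂ_p`
(`TorsionBridge`); and the property `OrdinaryTate`: vectors fixed by `U ∘ Frobenius` give points
of the Tate module of `J₀(N)` on which the local Galois group acts through Frobenius twisted by
the cyclotomic character.
-/

set_option autoImplicit false

noncomputable section

open AlgebraicCurve ModularCurve CongruenceSubgroup Matrix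
open Fermat.Agent.CarayolReduction (tateModule)

namespace Fermat.Agent.OrdinaryCurve

local notation "Qbar" => AlgebraicClosure ℚ

/-- An integral basis of the weight two cusp forms on `Γ₀(N)`: integral coefficients `a n i`, and
an integral combination divisible by `m` has coefficients divisible by `m`. -/
structure QBasis (N : ℕ) where
  rank : ℕ
  f : Fin rank → CuspForm (Gamma0 N) 2
  a : ℕ → Fin rank → ℤ
  coeff : ∀ n i, (a n i : ℂ) = ModularFormClass.qCoeff (f i) n
  indep : LinearIndependent ℂ f
  spans : Submodule.span ℂ (Set.range f) = ⊤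
  saturated : ∀ (m : ℤ) (c : Fin rank → ℤ),
    (∀ n, m ∣ ∑ i, c i * a n i) → ∀ i, m ∣ c i

/-- `U` is the matrix of the operator `l` on the coefficient vectors: `a (l n) = U (a n)`. -/
def IsUMat {N : ℕ} (Q : QBasis N) (l : ℕ) (U : Matrix (Fin Q.rank) (Fin Q.rank) ℤ) : Prop :=
  ∀ n : ℕ, Q.a (l * n) = U *ᵥ Q.a n

/-- `M` is the matrix of `T_l` on the coefficient vectors:
`a (l n) + l a (n / l) = M (a n)`. -/
def IsTMat {N : ℕ} (Q : QBasis N) (l : ℕ) (M : Matrix (Fin Q.rank) (Fin Q.rank) ℤ) : Prop :=
  ∀ n : ℕ, Q.a (l * n) + (if l ∣ n then (l : ℤ) • Q.a (n / l) else 0) = M *ᵥ Q.a n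

/-- Cusp forms have no constant coefficient. -/
theorem QBasis.a_zero {N : ℕ} (Q : QBasis N) (i : Fin Q.rank) : Q.a 0 i = 0 := by
  have h : (Q.a 0 i : ℂ) = 0 := by
    rw [Q.coeff]
    exact CuspFormClass.qExpansion_coeff_zero (Q.f i) one_pos
      (CongruenceSubgroup.one_mem_strictPeriods_Gamma0 N)
  exact_mod_cast h

/-- The relation defining the matrix of `T_l`, in any ring. -/
theorem IsTMat.cast_apply {N : ℕ} {Q : QBasis N} {l : ℕ} {M : Matrix (Fin Q.rank) (Fin Q.rank) ℤ}
    (hM : IsTMat Q l M) (K : Type*) [CommRing K] (m : ℕ) (i : Fin Q.rank) :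
    (Q.a (l * m) i : K) + (if l ∣ m then (l : K) * Q.a (m / l) i else 0) =
      ∑ b, (M i b : K) * Q.a m b := by
  have h := congrArg (Int.cast : ℤ → K) (congrFun (hM m) i)
  simp only [mulVec, dotProduct, Pi.add_apply, Int.cast_add, Int.cast_sum, Int.cast_mul] at h
  rw [← h]
  split_ifs <;> simp

variable (p : ℕ) [hp : Fact p.Prime] (N : ℕ) [NeZero N]

/-- The function field of `X₀(N)` over `ℂ_p`. -/
abbrev curveField : IntermediateField ℂ_[p] (LaurentSeries ℂ_[p]) :=
  laurentBaseChange ℂ_[p] (modularFunctionFieldFull N)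

/-- No pole at the centre of the disc, in coefficients. -/
def NoPoleAtInfty (x : curveField p N) : Prop :=
  ∀ i < 0, (x : LaurentSeries ℂ_[p]).coeff i = 0

/-- A function with no pole outside `∞`. -/
def RegularAway (b : curveField p N) : Prop :=
  ∀ v : Place ℂ_[p] (curveField p N),
    (∃ x : curveField p N, NoPoleAtInfty p N x ∧ v.ord x < 0) → b ∈ v.toValuationSubring

/-- The ring of functions regular away from `∞`. -/
def regularRing : Subalgebra ℂ_[p] (LaurentSeries ℂ_[p]) where
  carrier := {x | ∃ b : curveField p N, (b : LaurentSeries ℂ_[p]) = x ∧ RegularAway p N b}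
  one_mem' := ⟨1, rfl, fun _ _ => one_mem _⟩
  zero_mem' := ⟨0, rfl, fun _ _ => zero_mem _⟩
  add_mem' := by
    rintro _ _ ⟨b, rfl, hb⟩ ⟨c, rfl, hc⟩
    exact ⟨b + c, rfl, fun v hv => add_mem (hb v hv) (hc v hv)⟩
  mul_mem' := by
    rintro _ _ ⟨b, rfl, hb⟩ ⟨c, rfl, hc⟩
    exact ⟨b * c, rfl, fun v hv => mul_mem (hb v hv) (hc v hv)⟩
  algebraMap_mem' r :=
    ⟨algebraMap ℂ_[p] (curveField p N) r, rfl, fun v _ => v.algebraMap_mem' r⟩

/-- The functions regular away from `∞` and the forms of `Q` form a formal curve. -/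
def HasFormalCurve : Prop :=
  ∀ Q : QBasis N, ∃ C : FormalCurve ℂ_[p] (Fin Q.rank),
    C.B = regularRing p N ∧ C.A = fun n i => (Q.a n i : ℂ_[p])

/-- The functions of bounded pole order at `∞` have integral lattices. -/
def HasLattices : Prop :=
  ∀ (ι : Type) (C : FormalCurve ℂ_[p] ι), C.B = regularRing p N →
    ∀ n : ℕ, Nonempty (C.Lattice (unramHat p) n)

/-- The extension of a local Galois element to `ℂ_p`, as an automorphism over `ℚ`. -/
def completeGalEquiv (g : PadicAlgCl p ≃ₐ[ℚ_[p]] PadicAlgCl p) : ℂ_[p] ≃ₐ[ℚ] ℂ_[p] :=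
  AlgEquiv.ofRingEquiv (f := RingEquiv.ofRingHom (completeGal p g) (completeGal p g⁻¹)
      (RingHom.ext fun x => UniformSpace.Completion.induction_on x
        (isClosed_eq ((continuous_completeGal p g).comp (continuous_completeGal p g⁻¹))
          continuous_id) fun a => by
            show completeGal p g (completeGal p g⁻¹ (a : ℂ_[p])) = (a : ℂ_[p])
            rw [completeGal_coe, completeGal_coe, ← AlgEquiv.mul_apply, mul_inv_cancel]
            rfl)
      (RingHom.ext fun x => UniformSpace.Completion.induction_on x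
        (isClosed_eq ((continuous_completeGal p g⁻¹).comp (continuous_completeGal p g))
          continuous_id) fun a => by
            show completeGal p g⁻¹ (completeGal p g (a : ℂ_[p])) = (a : ℂ_[p])
            rw [completeGal_coe, completeGal_coe, ← AlgEquiv.mul_apply, inv_mul_cancel]
            rfl))
    fun q => by simp

/-- Torsion of `J₀(N)` over `ℚ̄` is torsion over `ℂ_p`, with Galois and Hecke
actions. -/
structure TorsionBridge where
  up : JZero N →+ Pic0 ℂ_[p] (curveField p N)
  injective : Function.Injective up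
  surj : ∀ (r : ℕ) (y : Pic0 ℂ_[p] (curveField p N)), p ^ r • y = 0 →
    ∃ x : JZero N, p ^ r • x = 0 ∧ up x = y
  galois : ∀ (g : PadicAlgCl p ≃ₐ[ℚ_[p]] PadicAlgCl p) (x : JZero N),
    up (localGaloisToGlobal p g • x) = completeGalEquiv p g • up x
  hecke : ∀ (l : ℕ) (hl : l.Prime), ¬ l ∣ N → ∀ x : JZero N,
    up (heckeOperatorBar N ⟨l, hl⟩ x) =
      (haveI : NeZero l := ⟨hl.ne_zero⟩; heckeOperatorAlong ℂ_[p] N l (up x))

/-- The vectors fixed by `U` composed with Frobenius. -/
def fixVectors {r : ℕ} (U : Matrix (Fin r) (Fin r) ℤ) : AddSubgroup (Fin r → unramHat p) where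
  carrier := {c | U.map (Int.cast : ℤ → unramHat p) *ᵥ (fun i => unramFrob p (c i)) = c}
  zero_mem' := by simp [← Pi.zero_def]
  add_mem' {c d} hc hd := by
    simp only [Set.mem_ofPred_eq, Pi.add_apply, map_add] at hc hd ⊢
    rw [show (fun i => unramFrob p (c i) + unramFrob p (d i)) =
      (fun i => unramFrob p (c i)) + fun i => unramFrob p (d i) from rfl, mulVec_add, hc, hd]
  neg_mem' {c} hc := by
    simp only [Set.mem_ofPred_eq, Pi.neg_apply, map_neg] at hc ⊢
    rw [show (fun i => -unramFrob p (c i)) = -fun i => unramFrob p (c i) from rfl, mulVec_neg, hc]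

/-- An injective map from the fixed vectors to the Tate module, commuting with the
Hecke operators, twisting the action of the decomposition group by the cyclotomic character. -/
def OrdinaryTate : Prop :=
  ∀ (Q : QBasis N) (U : Matrix (Fin Q.rank) (Fin Q.rank) ℤ), IsUMat Q p U →
    ∃ Φ : fixVectors p U →+ tateModule (JZero N) p,
      Function.Injective Φ ∧
      (∀ (l : ℕ) (hl : l.Prime), ¬ l ∣ N →
        ∀ M : Matrix (Fin Q.rank) (Fin Q.rank) ℤ, IsTMat Q l M →
        ∀ c c' : fixVectors p U,
          (c' : Fin Q.rank → unramHat p) = M.map (Int.cast : ℤ → unramHat p) *ᵥ c →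
          ∀ n, (Φ c').1 n = heckeOperatorBar N ⟨l, hl⟩ ((Φ c).1 n)) ∧
      ∀ (g : PadicAlgCl p ≃ₐ[ℚ_[p]] PadicAlgCl p) (c c' : fixVectors p U),
        (∀ i, (c' : Fin Q.rank → unramHat p) i = unramGal p g ((c : Fin Q.rank → unramHat p) i)) →
        ∀ n a : ℕ, (∀ μ : Qbar, μ ^ p ^ n = 1 → localGaloisToGlobal p g μ = μ ^ a) →
          localGaloisToGlobal p g • (Φ c).1 n = a • (Φ c').1 n

end Fermat.Agent.OrdinaryCurve
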