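import Fermat.Agent.OrdinaryCurve.ClassFamily
import Fermat.Agent.OrdinaryCurve.HeckeFamily
import Fermat.Agent.OrdinaryCurve.Interface
import Fermat.Agent.OrdinaryCurve.CurveDisc

/-!
The Hecke operators act on the classes of disc families through their matrices on the coefficient
vectors.
-/

set_option autoImplicit false

noncomputable section

open PowerSeries AlgebraicCurve ModularCurve Matrix

namespace Fermat.Agent.OrdinaryCurve

section List

variable {K : Type*} [NormedField K] [IsUltrametricDist K]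

variable [CharZero K] [CompleteSpace K] [IsAlgClosed K] (a : DiscPoint K)

/-- The image of a list under the Hecke correspondence of a prime. -/
def heckeTerms {l : ℕ} (hl : l.Prime) (F : List (DiscTerm K)) : List (DiscTerm K) :=
  famTerms (heckeExp l fun j : Fin F.length => F[(j : ℕ)].deg)
    (fun x => Nat.one_le_iff_ne_zero.mp
      (heckeExp_pos hl (fun j : Fin F.length => Nat.one_le_iff_ne_zero.mpr F[(j : ℕ)].deg_ne) x))
    (heckeSer l (fun j : Fin F.length => F[(j : ℕ)].deg) fun j => F[(j : ℕ)].ser)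
    (constantCoeff_heckeSer hl fun j => F[(j : ℕ)].ser_zero)

theorem listPts_heckeTerms {l : ℕ} [NeZero l] (hl : l.Prime) (F : List (DiscTerm K)) :
    listPts a (heckeTerms hl F) = heckePts l (listPts a F) := by
  rw [listPts_eq_idxPts a F, heckeTerms, listPts_famTerms,
    heckePts_famPts hl (ballRing K) norm_le_of_mem_ballRing
      (n := fun j : Fin F.length => F[(j : ℕ)].deg)
      (fun j => Nat.one_le_iff_ne_zero.mpr F[(j : ℕ)].deg_ne) _ a]

omit [CompleteSpace K] [IsAlgClosed K] in
theorem famLog_heckeTerms {ι : Type*} [Fintype ι] {A : ℕ → ι → K} {l : ℕ} (hl : l.Prime)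
    {M : Matrix ι ι K}
    (hA : ∀ m i, A (l * m) i + (if l ∣ m then (l : K) * A (m / l) i else 0) = (M *ᵥ A m) i)
    (F : List (DiscTerm K)) (i : ι) :
    famLog A (heckeTerms hl F) i = ∑ b, C (M i b) * famLog A F b := by
  rw [heckeTerms, famLog_famTerms]
  simp only [map_heckeSer]
  rw [logVec_hecke hl hA _ (fun j => by rw [const_map, F[(j : ℕ)].ser_zero, map_zero]) i]
  simp only [famLog_eq_logVec A F]

end List

variable {p : ℕ} [Fact p.Prime] {N : ℕ} [NeZero N] {Q : QBasis N}

/-- **`T_l` on classes**: it multiplies the vector of logarithms by the matrix of `T_l`. -/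
theorem DiscCurve.IsClass.hecke {S : DiscCurve (curveField p N) (Fin Q.rank)}
    (hS : S.disc = discData p N) (hA : S.curve.A = fun n i => (Q.a n i : ℂ_[p])) {l : ℕ}
    (hl : l.Prime) (hlN : ¬ l ∣ N) {M : Matrix (Fin Q.rank) (Fin Q.rank) ℤ} (hM : IsTMat Q l M)
    {a : DiscPoint ℂ_[p]} {R : Fin Q.rank → ℂ_[p]⟦X⟧} {x : Pic0 ℂ_[p] (curveField p N)}
    (hx : S.IsClass a R x) :
    haveI : NeZero l := ⟨hl.ne_zero⟩
    S.IsClass a (fun i => ∑ b, C (M i b : ℂ_[p]) * R b) (heckeOperatorAlong ℂ_[p] N l x) := by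
  have : NeZero l := ⟨hl.ne_zero⟩
  obtain ⟨F, G, hF, hG, rfl⟩ := hx
  have hA' : ∀ m i, S.curve.A (l * m) i +
      (if l ∣ m then (l : ℂ_[p]) * S.curve.A (m / l) i else 0) =
      (M.map (Int.cast : ℤ → ℂ_[p]) *ᵥ S.curve.A m) i := fun m i => by
    rw [hA]; exact hM.cast_apply ℂ_[p] m i
  refine ⟨heckeTerms hl F, heckeTerms hl G, fun i => ?_, fun i => ?_, ?_⟩
  · rw [famLog_heckeTerms hl hA']
    simp only [hF, Matrix.map_apply]
  · rw [famLog_heckeTerms hl hA']
    simp only [hG, Matrix.map_apply, mul_neg, Finset.sum_neg_distrib]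
  · rw [DiscCurve.famClass, DiscCurve.famClass, hS, listPts_heckeTerms,
      heckeOperatorAlong_discClass (discData p N) hl hlN]

end Fermat.Agent.OrdinaryCurve
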