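import Fermat.Agent.OrdinaryCurve.GoodCurve
import Fermat.Agent.OrdinaryCurve.Assembly

/-!
At a prime of good reduction, the classes with logarithms `c log (1 + X)` at the points
`ζ_{p^r} - 1` determine the solution `c`.
-/

set_option autoImplicit false

noncomputable section

open PowerSeries Matrix AlgebraicCurve ModularCurve Fermat.Agent.FunctionField

namespace Fermat.Agent.OrdinaryCurve

variable {p : ℕ} [hp : Fact p.Prime] {N : ℕ} [NeZero N] {Q : QBasis N}

/-- The ring of a disc curve with the forms of `Q` is the ring of functions regular away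
from `∞`. -/
theorem DiscCurve.B_eq_regularRing {S : DiscCurve (curveField p N) (Fin Q.rank)}
    (hS : S.disc = discData p N) (hA : S.curve.A = fun n i => (Q.a n i : ℂ_[p])) :
    S.curve.B = regularRing p N := by
  have hle : ∀ b ∈ S.curve.B, b ∈ regularRing p N := fun b hb => by
    have hb' := S.mem_field b hb
    refine ⟨⟨b, hb'⟩, rfl, (regularAway_iff p N _).mpr fun v hv => ?_⟩
    exact (FFPlaces.mem_iff v).mpr (S.regular ⟨b, hb'⟩ hb v (by rwa [hS]))
  refine le_antisymm hle fun x hx => ?_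
  obtain ⟨C₁, hB₁, -⟩ := hasFormalCurve p N Q
  obtain ⟨b, hb, hxb⟩ := S.curve.pair_exists x fun i => by
    rw [hA]; exact polarPairing_regular p N Q hx i
  obtain ⟨c, hc⟩ := C₁.holo_const (x - b) (by rw [hB₁]; exact sub_mem hx (hle b hb))
    fun m hm => by simp [hxb m hm]
  rw [sub_eq_iff_eq_add.mp hc, ← algebraMap_eq_C]
  exact add_mem (S.curve.B.algebraMap_mem c) hb

variable {H : Matrix (Fin Q.rank) (Fin Q.rank) ℤ}

/-- A solution with trivial classes at all `ζ_{p^r} - 1` is zero. -/
theorem eq_zero_of_isClass_rootDisc (S : DiscCurve (curveField p N) (Fin Q.rank))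
    (hS : S.disc = discData p N) (hA : S.curve.A = fun n i => (Q.a n i : ℂ_[p]))
    (hH : IsTMat Q p H) (c : Fin Q.rank → unramHat p)
    (hc : ∀ i, ∑ l, (H i l : unramHat p) * unramFrob p (c l) -
      (p : unramHat p) * unramFrob p (unramFrob p (c i)) = c i)
    (h : ∀ r, S.IsClass (rootDisc p r) (fun i => C (c i : ℂ_[p]) * log ℂ_[p]) 0) : c = 0 := by
  by_contra hne
  have hcK : (fun i => (c i : ℂ_[p])) ≠ 0 := fun h0 =>
    hne (funext fun i => Subtype.ext (congrFun h0 i))
  have hW : ∀ x ∈ unramHat p, ‖x‖ ≤ 1 := fun x hx => norm_unramHat_le p hx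
  obtain ⟨n, hn1, hn⟩ := Q.exists_indices p
  have hFE := hasFunctionalEquation_log_good p Q hH c hc
  obtain ⟨z, hz, hzR⟩ := exists_family_good p Q hH hn hFE
  have hzR' : ∀ i, logVec S.curve.A n (fun j => PowerSeries.map (unramHat p).subtype (z j)) i =
      C (c i : ℂ_[p]) * log ℂ_[p] := fun i => by rw [hA]; exact hzR i
  have hB := DiscCurve.B_eq_regularRing hS hA
  have Λ : ∀ m, S.curve.Lattice (unramHat p) m := fun m =>
    (hasLattices N p (Fin Q.rank) S.curve hB m).some
  obtain ⟨a, ⟨r, rfl⟩, hnot⟩ := exists_not_principal (unramHat p) hW S.curve Λ n hn1 z hz _ hzR'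
    (π := (p : ℂ_[p])) (norm_prime_lt_one p)
    (fun x hx h0 => exists_norm_eq_pow p hx h0) (Set.range (rootDisc p)) (fun d => by
      obtain ⟨r₀, h'⟩ := exists_forall_lt_pow_root_sub_one (norm_prime_lt_one p)
        (Nat.cast_ne_zero.mpr hp.out.ne_zero : (p : ℂ_[p]) ≠ 0) d
      exact ⟨rootDisc p (r₀ + 1), ⟨_, rfl⟩, h' r₀ le_rfl _
        ((isPrimitiveRoot_rootSys p (r₀ + 1)).map_of_injective (complexEmb p).injective)⟩) hcK
  apply hnot
  -- the family of `z` at `rootDisc p r`
  let inc : unramHat p →+* ballRing ℂ_[p] := Subring.inclusion fun x hx => hW x hx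
  let F : List (DiscTerm ℂ_[p]) := famTerms n (fun j => Nat.one_le_iff_ne_zero.mp (hn1 j))
    (fun j => PowerSeries.map inc (z j)) fun j => by rw [const_map, hz, map_zero]
  have hlog : ∀ i, famLog S.curve.A F i = C (c i : ℂ_[p]) * log ℂ_[p] := fun i => by
    rw [← hzR' i, famLog_famTerms]
    rfl
  obtain ⟨F₀, G₀, hF₀, hG₀, h0⟩ := h r
  have hcl : S.famClass (rootDisc p r) F = 0 :=
    DiscCurve.IsClass.eq ⟨F, G₀, hlog, hG₀, rfl⟩ ⟨F₀, G₀, hF₀, hG₀, h0⟩
  have hpts : listPts (rootDisc p r) F =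
      idxPts n (famAt (unramHat p) hW z hz (rootDisc p r)) := by
    rw [listPts_famTerms]
    rfl
  have hR : IsRegularRing S.curve (discData p N) := isRegularRing_of_eq p N hB
  rw [DiscCurve.famClass, hpts, hS] at hcl
  have h1 := principal_of_discClass_eq_zero (unramHat p) hW Λ hR _ hcl
  rw [card_idxPts hn1, splitSeries_idxPts hn1] at h1
  exact h1

end Fermat.Agent.OrdinaryCurve
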