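import Fermat.Agent.OrdinaryCurve.FamilyClass

/-!
Classes of disc divisor families as functions of their vectors of logarithms.

A family is a list of terms `q ^ n = z (t)`.  Two families with opposite vectors of logarithms
have opposite classes at every point, so the class is a partial homomorphism in the vector,
compatible with substitutions of the parameter, Hecke operators and isometric automorphisms.
-/

set_option autoImplicit false

noncomputable section

open PowerSeries AlgebraicCurve Fermat.Agent.FunctionField

namespace Fermat.Agent.OrdinaryCurve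

variable {K : Type*} [NormedField K] [IsUltrametricDist K]

variable (K) in
/-- The closed unit ball. -/
def ballRing : Subring K where
  carrier := {x | ‖x‖ ≤ 1}
  one_mem' := (norm_one (α := K)).le
  zero_mem' := by simp
  neg_mem' := fun {x} hx => show ‖-x‖ ≤ 1 by rw [norm_neg]; exact hx
  add_mem' := fun {x y} hx hy =>
    (IsUltrametricDist.norm_add_le_max x y).trans (max_le hx hy)
  mul_mem' := fun {x y} hx hy => show ‖x * y‖ ≤ 1 by
    rw [norm_mul]; exact mul_le_one₀ hx (norm_nonneg _) hy

/-- Elements of the ball have norm at most one. -/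
theorem norm_le_of_mem_ballRing : ∀ x ∈ ballRing K, ‖x‖ ≤ 1 := fun _ h => h

variable (K) in
/-- A term `q ^ deg = ser (t)`. -/
structure DiscTerm where
  deg : ℕ
  deg_ne : deg ≠ 0
  ser : (ballRing K)⟦X⟧
  ser_zero : constantCoeff ser = 0

/-- The series of a term, with coefficients in `K`. -/
def DiscTerm.serK (t : DiscTerm K) : K⟦X⟧ := PowerSeries.map (ballRing K).subtype t.ser

theorem DiscTerm.constantCoeff_serK (t : DiscTerm K) : constantCoeff t.serK = 0 := by
  rw [DiscTerm.serK, const_map, t.ser_zero, map_zero]

/-- The series of a term can be substituted. -/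
theorem DiscTerm.hasSubst_serK (t : DiscTerm K) : HasSubst t.serK :=
  HasSubst.of_constantCoeff_zero' t.constantCoeff_serK

/-- Substitution of the parameter. -/
def DiscTerm.substP (t : DiscTerm K) (φ : (ballRing K)⟦X⟧) (hφ : constantCoeff φ = 0) :
    DiscTerm K :=
  ⟨t.deg, t.deg_ne, t.ser.subst φ, by
    rw [← coeff_zero_eq_constantCoeff_apply, coeff_subst_eq_sum hφ]
    simp [t.ser_zero]⟩

section Log

variable {ι : Type*} (A : ℕ → ι → K)

/-- The vector of logarithms of a family. -/
def famLog (F : List (DiscTerm K)) (i : ι) : K⟦X⟧ :=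
  (F.map fun t => (lam A t.deg i).subst t.serK).sum

theorem famLog_append (F G : List (DiscTerm K)) (i : ι) :
    famLog A (F ++ G) i = famLog A F i + famLog A G i := by
  simp [famLog]

/-- A finite family as a list of terms. -/
def famTerms {J : Type*} [Fintype J] (n : J → ℕ) (hn : ∀ j, n j ≠ 0) (z : J → (ballRing K)⟦X⟧)
    (hz : ∀ j, constantCoeff (z j) = 0) : List (DiscTerm K) :=
  Finset.univ.toList.map fun j => ⟨n j, hn j, z j, hz j⟩

/-- The logarithms of a finite family are its vector of logarithms. -/
theorem famLog_famTerms {J : Type*} [Fintype J] (n : J → ℕ) (hn : ∀ j, n j ≠ 0)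
    (z : J → (ballRing K)⟦X⟧) (hz : ∀ j, constantCoeff (z j) = 0) (i : ι) :
    famLog A (famTerms n hn z hz) i =
      logVec A n (fun j => PowerSeries.map (ballRing K).subtype (z j)) i := by
  rw [famLog, famTerms, logVec, List.map_map, ← Finset.sum_map_toList]
  rfl

/-- The logarithms of a list as a vector of logarithms. -/
theorem famLog_eq_logVec (F : List (DiscTerm K)) (i : ι) :
    famLog A F i = logVec A (fun j : Fin F.length => F[(j : ℕ)].deg)
      (fun j => PowerSeries.map (ballRing K).subtype F[(j : ℕ)].ser) i := by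
  rw [famLog, logVec, ← Fin.sum_univ_fun_getElem F (fun t => (lam A t.deg i).subst t.serK)]
  rfl

theorem famLog_subst (F : List (DiscTerm K)) (φ : (ballRing K)⟦X⟧) (hφ : constantCoeff φ = 0)
    (i : ι) : famLog A (F.map fun t => t.substP φ hφ) i =
      (famLog A F i).subst (PowerSeries.map (ballRing K).subtype φ) := by
  have hφK : HasSubst (PowerSeries.map (ballRing K).subtype φ) :=
    HasSubst.of_constantCoeff_zero' (by rw [const_map, hφ, map_zero])
  rw [famLog, famLog, ← coe_substAlgHom hφK, map_list_sum, List.map_map, List.map_map]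
  refine congrArg List.sum (List.map_congr_left fun t _ => ?_)
  simp only [Function.comp_apply, DiscTerm.substP, DiscTerm.serK, coe_substAlgHom,
    map_subst' (HasSubst.of_constantCoeff_zero' hφ)]
  exact (subst_comp_subst_apply t.hasSubst_serK hφK _).symm

end Log

section Points

variable [CompleteSpace K] [IsAlgClosed K] [CharZero K] (a : DiscPoint K)

/-- The value of the series of a term. -/
def DiscTerm.value (t : DiscTerm K) : DiscPoint K :=
  imagePoint (ballRing K) norm_le_of_mem_ballRing t.ser t.ser_zero a

/-- The points of a term. -/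
def DiscTerm.pts (t : DiscTerm K) : Multiset (DiscPoint K) :=
  haveI : NeZero t.deg := ⟨t.deg_ne⟩
  rootPts t.deg (t.value a)

/-- The series cutting out the points of a term. -/
theorem DiscTerm.splitSeries_pts (t : DiscTerm K) :
    splitSeries (t.pts a) =
      X ^ t.deg - C (evalAt (ballRing K) norm_le_of_mem_ballRing a t.ser) := by
  have : NeZero t.deg := ⟨t.deg_ne⟩
  rw [DiscTerm.pts, splitSeries_rootPts]
  rfl

/-- The points of a family. -/
def listPts (F : List (DiscTerm K)) : Multiset (DiscPoint K) := (F.map fun t => t.pts a).sum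

theorem listPts_append (F G : List (DiscTerm K)) :
    listPts a (F ++ G) = listPts a F + listPts a G := by simp [listPts]

/-- The points of a list with one more term. -/
theorem listPts_cons (t : DiscTerm K) (F : List (DiscTerm K)) :
    listPts a (t :: F) = t.pts a + listPts a F := by simp [listPts]

/-- The series cutting out the points of a list. -/
theorem splitSeries_listPts (F : List (DiscTerm K)) :
    splitSeries (listPts a F) = (F.map fun t =>
      X ^ t.deg - C (evalAt (ballRing K) norm_le_of_mem_ballRing a t.ser)).prod := by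
  induction F with
  | nil => simp [listPts, splitSeries]
  | cons t F ih =>
    rw [listPts_cons, splitSeries_add, List.map_cons, List.prod_cons, t.splitSeries_pts, ih]

theorem DiscTerm.pts_eq (t : DiscTerm K) : t.pts a = rootsOfPow t.deg (t.value a) := by
  have : NeZero t.deg := ⟨t.deg_ne⟩
  rw [rootsOfPow_eq]
  rfl

/-- The points of a finite family. -/
theorem listPts_famTerms {J : Type*} [Fintype J] (n : J → ℕ) (hn : ∀ j, n j ≠ 0)
    (z : J → (ballRing K)⟦X⟧) (hz : ∀ j, constantCoeff (z j) = 0) :
    listPts a (famTerms n hn z hz) =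
      idxPts n (famAt (ballRing K) norm_le_of_mem_ballRing z hz a) := by
  rw [listPts, famTerms, List.map_map, idxPts, ← Finset.sum_map_toList]
  exact congrArg List.sum (List.map_congr_left fun j _ => DiscTerm.pts_eq a _)

/-- The points of a list as points of a finite family. -/
theorem listPts_eq_idxPts (F : List (DiscTerm K)) :
    listPts a F = idxPts (fun j : Fin F.length => F[(j : ℕ)].deg)
      (famAt (ballRing K) norm_le_of_mem_ballRing (fun j => F[(j : ℕ)].ser)
        (fun j => F[(j : ℕ)].ser_zero) a) := by
  rw [listPts, idxPts, ← Fin.sum_univ_fun_getElem F (fun t => t.pts a)]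
  exact Finset.sum_congr rfl fun j _ => DiscTerm.pts_eq a _

theorem listPts_subst (F : List (DiscTerm K)) (φ : (ballRing K)⟦X⟧) (hφ : constantCoeff φ = 0) :
    listPts a (F.map fun t => t.substP φ hφ) =
      listPts (imagePoint (ballRing K) norm_le_of_mem_ballRing φ hφ a) F := by
  rw [listPts, listPts, List.map_map]
  refine congrArg List.sum (List.map_congr_left fun t _ => ?_)
  have : NeZero t.deg := ⟨t.deg_ne⟩
  simp only [Function.comp_apply, DiscTerm.pts, DiscTerm.substP, DiscTerm.value]
  congr 1
  exact DiscPoint.ext (evalAt_subst (ballRing K) norm_le_of_mem_ballRing φ hφ t.ser a)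

end Points

variable (F₀ : IntermediateField K (LaurentSeries K)) (ι : Type*)

/-- A formal curve whose functions live in `F₀`, with disc data and integral lattices. -/
structure DiscCurve [IsFunctionField K F₀] [CompleteSpace K] where
  curve : FormalCurve K ι
  disc : DiscData F₀
  mem_field : ∀ b ∈ curve.B, b ∈ F₀
  regular : ∀ b : F₀, (b : LaurentSeries K) ∈ curve.B →
    ∀ v : Place K F₀, v ≠ disc.place (discZero K) → 0 ≤ v.ord b
  lattice : ∀ N, Nonempty (curve.Lattice (ballRing K) N)

variable {F₀ ι} [IsFunctionField K F₀] [CompleteSpace K] [IsAlgClosed K] [CharZero K]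

namespace DiscCurve

variable (S : DiscCurve F₀ ι)

/-- The class of a family at a point. -/
def famClass (a : DiscPoint K) (F : List (DiscTerm K)) : Pic0 K F₀ :=
  S.disc.discClass (listPts a F)

theorem famClass_append (a : DiscPoint K) (F G : List (DiscTerm K)) :
    S.famClass a (F ++ G) = S.famClass a F + S.famClass a G := by
  rw [famClass, listPts_append, DiscData.discClass_add]
  rfl

/-- A family with vanishing logarithms has trivial classes. -/
theorem famClass_eq_zero {F : List (DiscTerm K)} (h : ∀ i, famLog S.curve.A F i = 0)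
    (a : DiscPoint K) : S.famClass a F = 0 := by
  rw [famClass, listPts_eq_idxPts]
  exact discClass_idxPts_eq_zero (ballRing K) norm_le_of_mem_ballRing
    (fun N => (S.lattice N).some) S.mem_field S.regular
    (n := fun j : Fin F.length => F[(j : ℕ)].deg) (z := fun j : Fin F.length => F[(j : ℕ)].ser)
    (fun j => Nat.one_le_iff_ne_zero.mpr F[(j : ℕ)].deg_ne) (fun j => F[(j : ℕ)].ser_zero)
    (fun i => (famLog_eq_logVec _ F i).symm.trans (h i)) a

/-- `x` is the class at `a` of a family with logarithms `R`, some family having logarithms `-R`. -/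
def IsClass (a : DiscPoint K) (R : ι → K⟦X⟧) (x : Pic0 K F₀) : Prop :=
  ∃ F G : List (DiscTerm K), (∀ i, famLog S.curve.A F i = R i) ∧
    (∀ i, famLog S.curve.A G i = -R i) ∧ S.famClass a F = x

variable {S}

/-- The class with given logarithms is unique. -/
theorem IsClass.eq {a : DiscPoint K} {R : ι → K⟦X⟧} {x y : Pic0 K F₀} (hx : S.IsClass a R x)
    (hy : S.IsClass a R y) : x = y := by
  obtain ⟨F, G, hF, hG, rfl⟩ := hx
  obtain ⟨F', G', hF', hG', rfl⟩ := hy
  have h1 := S.famClass_eq_zero (F := F ++ G') (fun i => by
    rw [famLog_append, hF, hG', add_neg_cancel]) a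
  have h2 := S.famClass_eq_zero (F := F' ++ G') (fun i => by
    rw [famLog_append, hF', hG', add_neg_cancel]) a
  rw [famClass_append] at h1 h2
  exact add_right_cancel (h1.trans h2.symm)

variable (S) in
theorem isClass_zero (a : DiscPoint K) : S.IsClass a (fun _ => 0) 0 :=
  ⟨[], [], fun i => by simp [famLog], fun i => by simp [famLog],
    S.famClass_eq_zero (F := []) (fun i => by simp [famLog]) a⟩

/-- `IsClass` respects pointwise equality of logarithms. -/
theorem IsClass.congr {a : DiscPoint K} {R R' : ι → K⟦X⟧} {x : Pic0 K F₀} (hx : S.IsClass a R x)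
    (h : ∀ i, R i = R' i) : S.IsClass a R' x := by
  obtain rfl : R = R' := funext h
  exact hx

/-- Classes add with their logarithms. -/
theorem IsClass.add {a : DiscPoint K} {R R' : ι → K⟦X⟧} {x y : Pic0 K F₀} (hx : S.IsClass a R x)
    (hy : S.IsClass a R' y) : S.IsClass a (fun i => R i + R' i) (x + y) := by
  obtain ⟨F, G, hF, hG, rfl⟩ := hx
  obtain ⟨F', G', hF', hG', rfl⟩ := hy
  exact ⟨F ++ F', G ++ G', fun i => by rw [famLog_append, hF, hF'],
    fun i => by rw [famLog_append, hG, hG']; ring, S.famClass_append a F F'⟩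

/-- Classes negate with their logarithms. -/
theorem IsClass.neg {a : DiscPoint K} {R : ι → K⟦X⟧} {x : Pic0 K F₀} (hx : S.IsClass a R x) :
    S.IsClass a (fun i => -R i) (-x) := by
  obtain ⟨F, G, hF, hG, rfl⟩ := hx
  refine ⟨G, F, hG, fun i => by rw [hF, neg_neg], ?_⟩
  have h := S.famClass_eq_zero (F := G ++ F) (fun i => by
    rw [famLog_append, hF, hG, neg_add_cancel]) a
  rw [famClass_append] at h
  exact eq_neg_of_add_eq_zero_left h

/-- Natural multiples of classes. -/
theorem IsClass.nsmul {a : DiscPoint K} {R : ι → K⟦X⟧} {x : Pic0 K F₀} (hx : S.IsClass a R x)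
    (k : ℕ) : S.IsClass a (fun i => k • R i) (k • x) := by
  induction k with
  | zero => simpa using S.isClass_zero a
  | succ k ih => simpa only [succ_nsmul] using ih.add hx

/-- Integer multiples of classes. -/
theorem IsClass.zsmul {a : DiscPoint K} {R : ι → K⟦X⟧} {x : Pic0 K F₀} (hx : S.IsClass a R x)
    (k : ℤ) : S.IsClass a (fun i => k • R i) (k • x) := by
  obtain ⟨n, rfl | rfl⟩ := k.eq_nat_or_neg
  · simpa only [natCast_zsmul] using hx.nsmul n
  · simpa only [neg_zsmul, natCast_zsmul] using (hx.nsmul n).neg

/-- Finite sums of classes. -/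
theorem IsClass.sum {a : DiscPoint K} {κ : Type*} (s : Finset κ) {R : κ → ι → K⟦X⟧}
    {x : κ → Pic0 K F₀} (hx : ∀ k ∈ s, S.IsClass a (R k) (x k)) :
    S.IsClass a (fun i => ∑ k ∈ s, R k i) (∑ k ∈ s, x k) := by
  classical
  induction s using Finset.induction with
  | empty => simpa using S.isClass_zero a
  | insert k s hk ih =>
    simp only [Finset.sum_insert hk]
    exact (hx k (Finset.mem_insert_self k s)).add
      (ih fun j hj => hx j (Finset.mem_insert_of_mem hj))

/-- Substitution of the parameter. -/
theorem IsClass.subst {φ : (ballRing K)⟦X⟧} (hφ : constantCoeff φ = 0) {a : DiscPoint K}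
    {R : ι → K⟦X⟧} {x : Pic0 K F₀}
    (hx : S.IsClass (imagePoint (ballRing K) norm_le_of_mem_ballRing φ hφ a) R x) :
    S.IsClass a (fun i => (R i).subst (PowerSeries.map (ballRing K).subtype φ)) x := by
  obtain ⟨F, G, hF, hG, rfl⟩ := hx
  refine ⟨F.map fun t => t.substP φ hφ, G.map fun t => t.substP φ hφ,
    fun i => by rw [famLog_subst, hF], fun i => ?_, ?_⟩
  · rw [famLog_subst, hG, ← coe_substAlgHom (HasSubst.of_constantCoeff_zero'
      (by rw [const_map, hφ, map_zero] :
        constantCoeff (PowerSeries.map (ballRing K).subtype φ) = 0)),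
      map_neg]
  · rw [famClass, famClass, listPts_subst]

variable (S) in
/-- Classes from two opposite families over a subring of the unit ball. -/
theorem isClass_of_series {W : Subring K} (hW : ∀ x ∈ W, ‖x‖ ≤ 1) {J : Type*} [Fintype J]
    (n : J → ℕ) (hn : ∀ j, n j ≠ 0) (z z' : J → W⟦X⟧) (hz : ∀ j, constantCoeff (z j) = 0)
    (hz' : ∀ j, constantCoeff (z' j) = 0) (R : ι → K⟦X⟧)
    (hR : ∀ i, logVec S.curve.A n (fun j => PowerSeries.map W.subtype (z j)) i = R i)
    (hR' : ∀ i, logVec S.curve.A n (fun j => PowerSeries.map W.subtype (z' j)) i = -R i)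
    (a : DiscPoint K) :
    ∃ x, S.IsClass a R x := by
  let inc : W →+* ballRing K := Subring.inclusion fun x hx => hW x hx
  let mk : ∀ (w : J → W⟦X⟧), (∀ j, constantCoeff (w j) = 0) → List (DiscTerm K) := fun w hw =>
    famTerms n hn (fun j => PowerSeries.map inc (w j))
      fun j => by rw [const_map, hw, map_zero]
  have hlog : ∀ w hw i, famLog S.curve.A (mk w hw) i =
      logVec S.curve.A n (fun j => PowerSeries.map W.subtype (w j)) i := fun w hw i => by
    rw [famLog_famTerms]
    rfl
  exact ⟨_, mk z hz, mk z' hz', fun i => by rw [hlog z hz, hR],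
    fun i => by rw [hlog z' hz', hR'], rfl⟩

end DiscCurve

end Fermat.Agent.OrdinaryCurve
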