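import Fermat.Agent.OrdinaryCurve.ClassFamily
import Fermat.Agent.OrdinaryCurve.CurveDisc

/-!
Isometric automorphisms of the constants act on classes of disc divisor families through the
coefficients of the series: the local Galois action on classes over `ℂ_p`.
-/

set_option autoImplicit false

noncomputable section

open PowerSeries AlgebraicCurve ModularCurve Fermat.Agent.FunctionField

namespace Fermat.Agent.OrdinaryCurve

section Twist

variable {K : Type*} [NormedField K] [IsUltrametricDist K] (τ : K ≃+* K) (hτ : ∀ x, ‖τ x‖ = ‖x‖)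

/-- An isometric automorphism on the closed unit ball. -/
def ballMap : ballRing K →+* ballRing K :=
  ((τ : K →+* K).comp (ballRing K).subtype).codRestrict (ballRing K) fun x => by
    show ‖τ x‖ ≤ 1
    rw [hτ]
    exact x.2

/-- The term with twisted coefficients. -/
def DiscTerm.galMap (t : DiscTerm K) : DiscTerm K :=
  ⟨t.deg, t.deg_ne, PowerSeries.map (ballMap τ hτ) t.ser, by
    rw [const_map, t.ser_zero, map_zero]⟩

theorem DiscTerm.serK_galMap (t : DiscTerm K) :
    (t.galMap τ hτ).serK = PowerSeries.map (τ : K →+* K) t.serK :=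
  PowerSeries.ext fun k => by simp [DiscTerm.galMap, DiscTerm.serK, ballMap]

theorem famLog_galMap [CharZero K] {ι : Type*} [Fintype ι] {A : ℕ → ι → K}
    (hA : ∀ n i, τ (A n i) = A n i) (F : List (DiscTerm K)) (i : ι) :
    famLog A (F.map (DiscTerm.galMap τ hτ)) i = PowerSeries.map (τ : K →+* K) (famLog A F i) := by
  rw [famLog, famLog, map_list_sum, List.map_map, List.map_map]
  refine congrArg List.sum (List.map_congr_left fun t _ => ?_)
  simp only [Function.comp_apply, DiscTerm.serK_galMap, map_subst' t.hasSubst_serK,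
    map_lam (τ : K →+* K) (A := A) hA]
  rfl

variable [CompleteSpace K]

theorem evalAt_galMap (a : DiscPoint K) (t : DiscTerm K) :
    evalAt (ballRing K) norm_le_of_mem_ballRing (mapPoint τ hτ a) (t.galMap τ hτ).ser =
      τ (evalAt (ballRing K) norm_le_of_mem_ballRing a t.ser) := by
  have hc : Continuous (τ : K →+ K) :=
    (AddMonoidHomClass.isometry_of_norm (τ : K →+ K) hτ).continuous
  rw [evalAt_apply, evalAt_apply]
  refine Eq.trans ?_ ((summable_eval (ballRing K) norm_le_of_mem_ballRing a t.ser).map_tsum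
    (τ : K →+ K) hc).symm
  refine tsum_congr fun k => ?_
  simp [DiscTerm.galMap, ballMap, mapPoint]

variable [IsAlgClosed K] [CharZero K]

theorem DiscTerm.pts_galMap (a : DiscPoint K) (t : DiscTerm K) :
    (t.galMap τ hτ).pts (mapPoint τ hτ a) = (t.pts a).map (mapPoint τ hτ) :=
  splitSeries_injective <| by
    rw [splitSeries_mapPoint, DiscTerm.splitSeries_pts, DiscTerm.splitSeries_pts,
      evalAt_galMap, map_sub, map_pow, map_X, map_C]
    rfl

theorem listPts_galMap (a : DiscPoint K) (F : List (DiscTerm K)) :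
    listPts (mapPoint τ hτ a) (F.map (DiscTerm.galMap τ hτ)) =
      (listPts a F).map (mapPoint τ hτ) := by
  induction F with
  | nil => simp [listPts]
  | cons t F ih =>
    rw [List.map_cons, listPts_cons, listPts_cons, Multiset.map_add, t.pts_galMap τ hτ a, ih]

variable {F₀ : IntermediateField K (LaurentSeries K)} [IsFunctionField K F₀] {ι : Type*}
  [Fintype ι] {S : DiscCurve F₀ ι}

/-- A semilinear automorphism acting on coefficients by `τ` maps classes to classes. -/
theorem DiscCurve.IsClass.smul_semilinear (e : SemilinearAut K F₀)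
    (he : ∀ f : F₀, ((e • f : F₀) : LaurentSeries K) = coeffMap (τ : K →+* K) (f : LaurentSeries K))
    (hA : ∀ n i, τ (S.curve.A n i) = S.curve.A n i) {a : DiscPoint K} {R : ι → K⟦X⟧}
    {x : Pic0 K F₀} (hx : S.IsClass a R x) :
    S.IsClass (mapPoint τ hτ a) (fun i => PowerSeries.map (τ : K →+* K) (R i)) (e • x) := by
  obtain ⟨F, G, hF, hG, rfl⟩ := hx
  refine ⟨F.map (DiscTerm.galMap τ hτ), G.map (DiscTerm.galMap τ hτ),
    fun i => by rw [famLog_galMap τ hτ hA, hF],
    fun i => by rw [famLog_galMap τ hτ hA, hG, map_neg], ?_⟩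
  rw [DiscCurve.famClass, DiscCurve.famClass, listPts_galMap,
    smul_discClass S.disc τ hτ e he]

end Twist

variable {p : ℕ} [hp : Fact p.Prime] {N : ℕ} [NeZero N] {Q : QBasis N}

/-- The local Galois action on classes. -/
theorem DiscCurve.IsClass.galois {S : DiscCurve (curveField p N) (Fin Q.rank)}
    (_hS : S.disc = discData p N) (hA : S.curve.A = fun n i => (Q.a n i : ℂ_[p]))
    (g : PadicAlgCl p ≃ₐ[ℚ_[p]] PadicAlgCl p) {a : DiscPoint ℂ_[p]}
    {R : Fin Q.rank → ℂ_[p]⟦X⟧} {x : Pic0 ℂ_[p] (curveField p N)} (hx : S.IsClass a R x)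
    {b : DiscPoint ℂ_[p]} (hb : b.val = completeGal p g a.val) :
    S.IsClass b (fun i => PowerSeries.map (completeGal p g) (R i))
      (completeGalEquiv p g • x) := by
  have hτ : ∀ y, ‖(completeGalEquiv p g).toRingEquiv y‖ = ‖y‖ := norm_completeGal p g
  obtain rfl : b = mapPoint (completeGalEquiv p g).toRingEquiv hτ a := DiscPoint.ext hb
  rw [galois_smul_pic0_def]
  exact hx.smul_semilinear _ hτ
    (arithmeticGalois (modularFunctionFieldFull N) (completeGalEquiv p g)) (fun _ => rfl)
    fun n i => by rw [hA]; exact map_intCast _ _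

variable (p)

/-- Inertia fixes the completed maximal unramified ring. -/
theorem completeGal_eq_self_of_inertia {g : PadicAlgCl p ≃ₐ[ℚ_[p]] PadicAlgCl p}
    (hg : localGaloisToGlobal p g ∈ (padicPlace p).inertiaSubgroupIn ℚ) {x : ℂ_[p]}
    (hx : x ∈ unramHat p) : completeGal p g x = x :=
  congrArg Subtype.val (unramGal_eq_id_of_inertia p hg ⟨x, hx⟩)

/-- A local Galois element lies in the decomposition group at `p`. -/
theorem mem_decomposition_localGalois (g : PadicAlgCl p ≃ₐ[ℚ_[p]] PadicAlgCl p) :
    localGaloisToGlobal p g ∈ (padicPlace p).decompositionSubgroup ℚ :=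
  localGaloisToGlobal_mem_decompositionSubgroup p g

end Fermat.Agent.OrdinaryCurve
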