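import Fermat.Prelude.Def_GaloisRep_CompletionBridge
import Fermat.Agent.PoitouTate.LocalDecomp
import Fermat.Agent.HeckeAlg.DVRExtension
import Fermat.Agent.HeckeDatum.TraceInvariance
import Fermat.Agent.Frobenius.Existence
import Mathlib.NumberTheory.Padics.Complex
import Mathlib.FieldTheory.Finite.Basic

/-!
The completed maximal unramified ring `unramHat p` inside `ℂ_p`: the closure of `ℤ_p` with the
roots of unity of order prime to `p`. Its norms are the powers of `‖p‖`, it is `p`-saturated and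
complete, its residue field is algebraically closed, the local Galois group acts on it
continuously with inertia trivial, and a Frobenius element lifts the `p`-th power map.
-/

set_option autoImplicit false

noncomputable section

open scoped NNReal
open Filter Topology

namespace Fermat.Agent.OrdinaryCurve

variable (p : ℕ) [hp : Fact p.Prime]

local notation "Qp" => PadicAlgCl p
local notation "Gp" => PadicAlgCl p ≃ₐ[ℚ_[p]] PadicAlgCl p

/-! ### The local Galois group acting on `ℂ_p` -/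

theorem norm_localGalois (g : Gp) (x : Qp) : ‖g x‖ = ‖x‖ :=
  congrArg NNReal.toReal (nnnorm_padicAlgCl_algEquiv p g x)

theorem continuous_localGalois (g : Gp) : Continuous (g : Qp →+* Qp) :=
  (AddMonoidHomClass.isometry_of_norm (g : Qp →+* Qp) (norm_localGalois p g)).continuous

/-- The continuous extension of a local Galois element to `ℂ_p`. -/
def completeGal (g : Gp) : ℂ_[p] →+* ℂ_[p] :=
  UniformSpace.Completion.mapRingHom (g : Qp →+* Qp) (continuous_localGalois p g)

/-- `completeGal` extends the Galois action. -/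
theorem completeGal_coe (g : Gp) (x : Qp) : completeGal p g (x : ℂ_[p]) = ((g x : Qp) : ℂ_[p]) :=
  UniformSpace.Completion.mapRingHom_coe (continuous_localGalois p g) x

/-- `completeGal` is continuous. -/
theorem continuous_completeGal (g : Gp) : Continuous (completeGal p g) :=
  UniformSpace.Completion.continuous_map

/-- `completeGal` is isometric. -/
theorem norm_completeGal (g : Gp) (x : ℂ_[p]) : ‖completeGal p g x‖ = ‖x‖ := by
  induction x using UniformSpace.Completion.induction_on with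
  | hp => exact isClosed_eq (continuous_completeGal p g).norm continuous_norm
  | ih a => rw [completeGal_coe, PadicComplex.norm_extends, PadicComplex.norm_extends,
      norm_localGalois]

/-- The chosen embedding of `ℚ̄` into `ℂ_p`. -/
def complexEmb : AlgebraicClosure ℚ →+* ℂ_[p] :=
  (algebraMap Qp ℂ_[p]).comp (padicEmbedding p).toRingHom

/-- `complexEmb` intertwines the local and global Galois actions. -/
theorem completeGal_complexEmb (g : Gp) (x : AlgebraicClosure ℚ) :
    completeGal p g (complexEmb p x) = complexEmb p (localGaloisToGlobal p g x) := by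
  show completeGal p g ((padicEmbedding p x : Qp) : ℂ_[p]) = _
  rw [completeGal_coe, ← padicEmbedding_localGaloisToGlobal]
  rfl

/-- Integrality in `ℂ_p` is membership in the chosen place. -/
theorem norm_complexEmb_le_one_iff (x : AlgebraicClosure ℚ) :
    ‖complexEmb p x‖ ≤ 1 ↔ x ∈ padicPlace p := by
  rw [mem_padicPlace_iff, ← NNReal.coe_le_coe, coe_nnnorm, NNReal.coe_one,
    ← PadicComplex.norm_extends p (padicEmbedding p x)]
  rfl

/-! ### Roots of unity of order prime to `p` -/

/-- Roots of unity of order prime to `p`. -/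
def primeRoots : Set Qp := {ζ | ∃ m : ℕ, ¬ p ∣ m ∧ ζ ^ m = 1}

/-- `ℤ_p` with the roots of unity of order prime to `p`. -/
def unramRing : Subalgebra ℤ_[p] Qp := Algebra.adjoin ℤ_[p] (primeRoots p)

/-- `ℤ_p` with the `m`-th roots of unity. -/
def levelRing (m : ℕ) : Subalgebra ℤ_[p] Qp := Algebra.adjoin ℤ_[p] {ζ | ζ ^ m = 1}

/-- `ℤ_p` maps through `ℚ_p`. -/
theorem algebraMap_int_apply (x : ℤ_[p]) :
    algebraMap ℤ_[p] Qp x = algebraMap ℚ_[p] Qp (x : ℚ_[p]) :=
  IsScalarTower.algebraMap_apply ℤ_[p] ℚ_[p] Qp x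

/-- `ℤ_p` embeds isometrically. -/
theorem norm_algebraMap_int (x : ℤ_[p]) : ‖algebraMap ℤ_[p] Qp x‖ = ‖x‖ := by
  rw [algebraMap_int_apply, norm_algebraMap']
  rfl

theorem norm_natCast_prime : ‖(p : Qp)‖ = (p : ℝ)⁻¹ := by
  rw [← map_natCast (algebraMap ℚ_[p] Qp), norm_algebraMap', Padic.norm_p]

/-- The norm of `p`. -/
theorem norm_prime_complex : ‖(p : ℂ_[p])‖ = (p : ℝ)⁻¹ := by
  rw [← PadicComplex.coe_natCast, PadicComplex.norm_extends, norm_natCast_prime]

/-- `p` has norm less than one. -/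
theorem norm_prime_lt_one : ‖(p : ℂ_[p])‖ < 1 := by
  rw [norm_prime_complex]
  exact inv_lt_one_of_one_lt₀ (by exact_mod_cast hp.out.one_lt)

/-- `p` has positive norm. -/
theorem norm_prime_pos : 0 < ‖(p : ℂ_[p])‖ :=
  norm_pos_iff.mpr (Nat.cast_ne_zero.mpr hp.out.ne_zero)

theorem finite_levelRing {m : ℕ} (hm : m ≠ 0) : Module.Finite ℤ_[p] (levelRing p m) := by
  classical
  have hs : {ζ : Qp | ζ ^ m = 1}.Finite := by
    refine (Polynomial.X ^ m - Polynomial.C 1 : Polynomial Qp).roots.toFinset.finite_toSet.subset ?_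
    intro ζ hζ
    rw [Finset.mem_coe, Multiset.mem_toFinset, Polynomial.mem_roots', Polynomial.IsRoot.def,
      Polynomial.eval_sub, Polynomial.eval_pow, Polynomial.eval_X, Polynomial.eval_C]
    exact ⟨Polynomial.X_pow_sub_C_ne_zero (Nat.pos_of_ne_zero hm) 1, sub_eq_zero.mpr hζ⟩
  exact Module.Finite.iff_fg.mpr (fg_adjoin_of_finite hs fun ζ hζ =>
    IsIntegral.of_pow (Nat.pos_of_ne_zero hm)
      (by rw [show ζ ^ m = 1 from hζ]; exact isIntegral_one))

theorem levelRing_mono {m n : ℕ} (h : m ∣ n) : levelRing p m ≤ levelRing p n := by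
  refine Algebra.adjoin_mono fun ζ hζ => ?_
  obtain ⟨c, rfl⟩ := h
  show ζ ^ (m * c) = 1
  rw [pow_mul, show ζ ^ m = 1 from hζ, one_pow]

theorem levelRing_le {m : ℕ} (hm : ¬ p ∣ m) : levelRing p m ≤ unramRing p :=
  Algebra.adjoin_mono fun _ hζ => ⟨m, hm, hζ⟩

/-- Every element of `unramRing` has a finite level. -/
theorem exists_level {x : Qp} (hx : x ∈ unramRing p) : ∃ m, ¬ p ∣ m ∧ x ∈ levelRing p m := by
  induction hx using Algebra.adjoin_induction with
  | mem x hx =>
    obtain ⟨m, hm, hx⟩ := hx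
    exact ⟨m, hm, Algebra.subset_adjoin hx⟩
  | algebraMap r => exact ⟨1, hp.out.not_dvd_one, Subalgebra.algebraMap_mem _ r⟩
  | add x y _ _ hx hy =>
    obtain ⟨m, hm, hx⟩ := hx
    obtain ⟨n, hn, hy⟩ := hy
    exact ⟨m * n, fun h => (hp.out.dvd_mul.mp h).elim hm hn,
      add_mem (levelRing_mono p (dvd_mul_right m n) hx) (levelRing_mono p (dvd_mul_left n m) hy)⟩
  | mul x y _ _ hx hy =>
    obtain ⟨m, hm, hx⟩ := hx
    obtain ⟨n, hn, hy⟩ := hy
    exact ⟨m * n, fun h => (hp.out.dvd_mul.mp h).elim hm hn,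
      mul_mem (levelRing_mono p (dvd_mul_right m n) hx) (levelRing_mono p (dvd_mul_left n m) hy)⟩

theorem norm_le_one_of_mem {x : Qp} (hx : x ∈ unramRing p) : ‖x‖ ≤ 1 := by
  induction hx using Algebra.adjoin_induction with
  | mem x hx =>
    obtain ⟨m, hm, hx⟩ := hx
    have hm0 : m ≠ 0 := fun h => hm (h ▸ dvd_zero p)
    refine le_of_eq ?_
    have h := congrArg norm hx
    rwa [norm_pow, norm_one, pow_eq_one_iff_of_nonneg (norm_nonneg x) hm0] at h
  | algebraMap r => rw [norm_algebraMap_int]; exact r.norm_le_one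
  | add x y _ _ hx hy => exact (IsUltrametricDist.norm_add_le_max x y).trans (max_le hx hy)
  | mul x y _ _ hx hy => rw [norm_mul]; exact mul_le_one₀ hx (norm_nonneg _) hy

/-- Galois fixes `ℤ_p`. -/
theorem localGalois_algebraMap_int (g : Gp) (r : ℤ_[p]) :
    g (algebraMap ℤ_[p] Qp r) = algebraMap ℤ_[p] Qp r := by
  rw [algebraMap_int_apply, AlgEquiv.commutes]

theorem localGalois_mem_unramRing (g : Gp) {x : Qp} (hx : x ∈ unramRing p) :
    g x ∈ unramRing p := by
  induction hx using Algebra.adjoin_induction with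
  | mem x hx =>
    obtain ⟨m, hm, hx⟩ := hx
    exact Algebra.subset_adjoin ⟨m, hm, by rw [← map_pow, hx, map_one]⟩
  | algebraMap r => rw [localGalois_algebraMap_int]; exact Subalgebra.algebraMap_mem _ r
  | add x y _ _ hx hy => rw [map_add]; exact add_mem hx hy
  | mul x y _ _ hx hy => rw [map_mul]; exact mul_mem hx hy

/-- Some local Galois element is `ζ ↦ ζ ^ p` on roots of unity of order prime to `p`. -/
theorem exists_frobenius : ∃ φ : Gp, ∀ ζ ∈ primeRoots p, φ ζ = ζ ^ p := by
  have hA : (padicPlace p).LiesOverPrime p := PoitouTate.padicPlace_liesOverPrime p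
  obtain ⟨σ, hσ⟩ := Frobenius.exists_isFrobeniusAt hp.out hA
  obtain ⟨g, hg⟩ : σ ∈ (localGaloisToGlobal p).range := by
    rw [PoitouTate.range_localGaloisToGlobal]
    exact hσ.mem_decompositionSubgroup
  refine ⟨g, fun ζ hζ => ?_⟩
  obtain ⟨m, hm, hζ⟩ := hζ
  have hm0 : m ≠ 0 := fun h => hm (h ▸ dvd_zero p)
  obtain ⟨y, rfl⟩ := PoitouTate.mem_range_padicEmbedding p (z := ζ)
    (IsIntegral.of_pow (Nat.pos_of_ne_zero hm0) (by rw [hζ]; exact isIntegral_one))
  rw [← padicEmbedding_localGaloisToGlobal, hg, ← map_pow]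
  congr 1
  have hy : y ^ m = 1 := (padicEmbedding p).toRingHom.injective
    (by rw [map_pow, map_one]; exact hζ)
  have h := HeckeDatum.frobenius_pow_apply_eq (padicPlace p) hA
    ((hp.out.coprime_iff_not_dvd.mpr hm).symm) hm0 hσ 1 hy
  simpa using h

/-- A chosen Frobenius element of the local Galois group. -/
def frobElt : Gp := (exists_frobenius p).choose

theorem frobElt_apply {ζ : Qp} (hζ : ζ ∈ primeRoots p) : frobElt p ζ = ζ ^ p :=
  (exists_frobenius p).choose_spec ζ hζ

/-- The Frobenius congruence at level `m`. -/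
theorem frobElt_congr {m : ℕ} (hm : ¬ p ∣ m) {x : Qp} (hx : x ∈ levelRing p m) :
    ∃ y ∈ levelRing p m, frobElt p x = x ^ p + (p : Qp) * y := by
  induction hx using Algebra.adjoin_induction with
  | mem x hx => exact ⟨0, zero_mem _, by rw [frobElt_apply p ⟨m, hm, hx⟩, mul_zero, add_zero]⟩
  | algebraMap r =>
    obtain ⟨s, hs⟩ : (p : ℤ_[p]) ∣ r - r ^ p := by
      rw [← Ideal.mem_span_singleton, ← PadicInt.maximalIdeal_eq_span_p, ← PadicInt.ker_toZMod,
        RingHom.mem_ker, map_sub, map_pow, ZMod.pow_card, sub_self]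
    refine ⟨algebraMap ℤ_[p] Qp s, Subalgebra.algebraMap_mem _ s, ?_⟩
    rw [localGalois_algebraMap_int, ← map_natCast (algebraMap ℤ_[p] Qp) p, ← map_mul, ← hs,
      map_sub, map_pow]
    ring
  | add x y hx hy ihx ihy =>
    obtain ⟨u, hu, ex⟩ := ihx
    obtain ⟨v, hv, ey⟩ := ihy
    obtain ⟨r, hr⟩ := exists_add_pow_prime_eq hp.out (⟨x, hx⟩ : levelRing p m) ⟨y, hy⟩
    have hr' : (x + y) ^ p = x ^ p + y ^ p + (p : Qp) * x * y * r := by
      simpa using congrArg Subtype.val hr
    refine ⟨u + v - x * y * r, sub_mem (add_mem hu hv) (mul_mem (mul_mem hx hy) r.2), ?_⟩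
    rw [map_add, ex, ey, hr']
    ring
  | mul x y hx hy ihx ihy =>
    obtain ⟨u, hu, ex⟩ := ihx
    obtain ⟨v, hv, ey⟩ := ihy
    refine ⟨x ^ p * v + y ^ p * u + (p : Qp) * (u * v), add_mem (add_mem
      (mul_mem (pow_mem hx p) hv) (mul_mem (pow_mem hy p) hu))
      (mul_mem (natCast_mem _ p) (mul_mem hu hv)), ?_⟩
    rw [map_mul, ex, ey, mul_pow]
    ring

theorem localGalois_mem_levelRing (g : Gp) {m : ℕ} {x : Qp} (hx : x ∈ levelRing p m) :
    g x ∈ levelRing p m := by
  induction hx using Algebra.adjoin_induction with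
  | mem x hx => exact Algebra.subset_adjoin (show g x ^ m = 1 by rw [← map_pow, hx, map_one])
  | algebraMap r => rw [localGalois_algebraMap_int]; exact Subalgebra.algebraMap_mem _ r
  | add x y _ _ hx hy => rw [map_add]; exact add_mem hx hy
  | mul x y _ _ hx hy => rw [map_mul]; exact mul_mem hx hy

theorem frobElt_iterate_congr {m : ℕ} (hm : ¬ p ∣ m) {x : Qp} (hx : x ∈ levelRing p m) (k : ℕ) :
    ∃ y ∈ levelRing p m, (frobElt p ^ k) x = x ^ p ^ k + (p : Qp) * y := by
  induction k with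
  | zero => exact ⟨0, zero_mem _, by simp⟩
  | succ k ih =>
    obtain ⟨y, hy, e⟩ := ih
    obtain ⟨u, hu, eu⟩ := frobElt_congr p hm (pow_mem hx (p ^ k))
    refine ⟨u + frobElt p y, add_mem hu (localGalois_mem_levelRing p _ hy), ?_⟩
    rw [pow_succ' (frobElt p), AlgEquiv.mul_apply, e, map_add, map_mul, eu, map_natCast, pow_succ,
      pow_mul]
    ring

/-- An element of `ℤ_p[μ']` has norm one or is divisible by `p`. -/
theorem norm_eq_one_or_eq_mul {x : Qp} (hx : x ∈ unramRing p) :
    (‖x‖ = 1 ∧ x⁻¹ ∈ unramRing p) ∨ ∃ y ∈ unramRing p, x = (p : Qp) * y := by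
  obtain ⟨m, hm, hx⟩ := exists_level p hx
  have hm0 : m ≠ 0 := fun h => hm (h ▸ dvd_zero p)
  have := finite_levelRing p hm0
  have : IsLocalRing (levelRing p m) :=
    HeckeAlg.isLocalRing_of_module_finite (O := ℤ_[p])
  set a : levelRing p m := ⟨x, hx⟩
  by_cases ha : IsUnit a
  · left
    obtain ⟨u, hu⟩ := ha
    have hmul : x * ((u⁻¹ : (levelRing p m)ˣ) : levelRing p m).1 = 1 := by
      have h := congrArg Subtype.val u.mul_inv
      rw [hu] at h
      exact h
    refine ⟨le_antisymm (norm_le_one_of_mem p (levelRing_le p hm hx)) ?_, ?_⟩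
    · have h := congrArg norm hmul
      rw [norm_mul, norm_one] at h
      rw [← h]
      exact mul_le_of_le_one_right (norm_nonneg _)
        (norm_le_one_of_mem p (levelRing_le p hm (Subtype.prop _)))
    · rw [inv_eq_of_mul_eq_one_right hmul]
      exact levelRing_le p hm (Subtype.prop _)
  · right
    obtain ⟨k, hk0, hkm⟩ : ∃ k, k ≠ 0 ∧ p ^ k ≡ 1 [MOD m] :=
      ⟨m.totient, (Nat.totient_pos.mpr (Nat.pos_of_ne_zero hm0)).ne',
        Nat.ModEq.pow_totient (hp.out.coprime_iff_not_dvd.mpr hm)⟩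
    have hroot : ∀ j : ℕ, ∀ ζ : Qp, ζ ^ m = 1 → (frobElt p ^ j) ζ = ζ ^ p ^ j := by
      intro j ζ hζ
      induction j with
      | zero => simp
      | succ j ih =>
        rw [pow_succ', AlgEquiv.mul_apply, ih,
          frobElt_apply p ⟨m, hm, by rw [← pow_mul, mul_comm, pow_mul, hζ, one_pow]⟩, ← pow_mul,
          ← pow_succ]
    have hfix' : ∀ z ∈ levelRing p m, (frobElt p ^ k) z = z := by
      intro z hz
      induction hz using Algebra.adjoin_induction with
      | mem z hz =>
        rw [hroot k z hz]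
        obtain ⟨c, hc⟩ := (Nat.modEq_iff_dvd' (Nat.one_le_pow _ _ hp.out.pos)).mp hkm.symm
        rw [show p ^ k = m * c + 1 by have := Nat.one_le_pow k p hp.out.pos; omega, pow_succ,
          pow_mul, show z ^ m = 1 from hz, one_pow, one_mul]
      | algebraMap r => exact localGalois_algebraMap_int p _ r
      | add z w _ _ hz hw => rw [map_add, hz, hw]
      | mul z w _ _ hz hw => rw [map_mul, hz, hw]
    obtain ⟨y, hy, e⟩ := frobElt_iterate_congr p hm hx k
    rw [hfix' x hx] at e
    have hpk : 1 < p ^ k := Nat.one_lt_pow hk0 hp.out.one_lt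
    have hunit : IsUnit (1 - a ^ (p ^ k - 1)) := by
      refine IsLocalRing.isUnit_one_sub_self_of_mem_nonunits _ ?_
      rw [mem_nonunits_iff, isUnit_pow_iff (by omega)]
      exact ha
    obtain ⟨u, hu⟩ := hunit
    refine ⟨(((u⁻¹ : (levelRing p m)ˣ) : levelRing p m) * ⟨y, hy⟩ : levelRing p m).1,
      levelRing_le p hm (Subtype.prop _), ?_⟩
    have h : a * (u : levelRing p m) = (p : levelRing p m) * ⟨y, hy⟩ := by
      rw [hu, mul_sub, mul_one, ← pow_succ', Nat.sub_add_cancel hpk.le]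
      refine Subtype.ext ?_
      simp only [AddSubgroupClass.coe_sub, SubmonoidClass.coe_pow, MulMemClass.coe_mul,
        SubringClass.coe_natCast]
      rw [eq_comm, ← sub_eq_of_eq_add' e]
    have : a = (p : levelRing p m) * (((u⁻¹ : (levelRing p m)ˣ) : levelRing p m) * ⟨y, hy⟩) := by
      rw [← mul_assoc, mul_comm (p : levelRing p m), mul_assoc, ← h, mul_comm a, ← mul_assoc,
        Units.inv_mul, one_mul]
    simpa using congrArg Subtype.val this

/-! ### The completion -/

/-- The completed unramified ring. -/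
def unramHat : Subring ℂ_[p] :=
  ((unramRing p).toSubring.map (algebraMap Qp ℂ_[p])).topologicalClosure

/-- `unramHat` is closed. -/
theorem isClosed_unramHat : IsClosed (unramHat p : Set ℂ_[p]) :=
  Subring.isClosed_topologicalClosure _

/-- `unramRing` lies in `unramHat`. -/
theorem coe_mem_unramHat {x : Qp} (hx : x ∈ unramRing p) : (x : ℂ_[p]) ∈ unramHat p :=
  Subring.le_topologicalClosure _ ⟨x, hx, rfl⟩

/-- `unramRing` is dense in `unramHat`. -/
theorem exists_approx {x : ℂ_[p]} (hx : x ∈ unramHat p) {ε : ℝ} (hε : 0 < ε) :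
    ∃ a ∈ unramRing p, ‖x - (a : ℂ_[p])‖ < ε := by
  obtain ⟨_, ⟨a, ha, rfl⟩, h⟩ := Metric.mem_closure_iff.mp
    (show x ∈ closure ((unramRing p).toSubring.map (algebraMap Qp ℂ_[p]) : Set ℂ_[p]) from hx) ε hε
  exact ⟨a, ha, by rwa [dist_eq_norm] at h⟩

theorem mem_unramHat_of_forall_approx {x : ℂ_[p]}
    (h : ∀ ε : ℝ, 0 < ε → ∃ a ∈ unramRing p, ‖x - (a : ℂ_[p])‖ < ε) : x ∈ unramHat p := by
  show x ∈ closure ((unramRing p).toSubring.map (algebraMap Qp ℂ_[p]) : Set ℂ_[p])
  rw [Metric.mem_closure_iff]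
  intro ε hε
  obtain ⟨a, ha, hlt⟩ := h ε hε
  exact ⟨_, ⟨a, ha, rfl⟩, by rwa [dist_eq_norm]⟩

/-- `unramHat` lies in the unit ball. -/
theorem norm_unramHat_le {x : ℂ_[p]} (hx : x ∈ unramHat p) : ‖x‖ ≤ 1 := by
  obtain ⟨a, ha, h⟩ := exists_approx p hx one_pos
  have h1 : ‖(a : ℂ_[p])‖ ≤ 1 := by rw [PadicComplex.norm_extends]; exact norm_le_one_of_mem p ha
  calc ‖x‖ = ‖(x - (a : ℂ_[p])) + (a : ℂ_[p])‖ := by rw [sub_add_cancel]
    _ ≤ max ‖x - (a : ℂ_[p])‖ ‖(a : ℂ_[p])‖ := IsUltrametricDist.norm_add_le_max _ _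
    _ ≤ 1 := max_le h.le h1

theorem exists_norm_eq_of_mem {a : Qp} (ha : a ∈ unramRing p) (h0 : a ≠ 0) :
    ∃ k : ℕ, ‖a‖ = ‖(p : Qp)‖ ^ k := by
  have hp1 : ‖(p : Qp)‖ < 1 := by
    rw [norm_natCast_prime]; exact inv_lt_one_of_one_lt₀ (by exact_mod_cast hp.out.one_lt)
  obtain ⟨N, hN⟩ := exists_pow_lt_of_lt_one (norm_pos_iff.mpr h0) hp1
  induction N generalizing a with
  | zero => exact absurd (norm_le_one_of_mem p ha) (not_le.mpr (by simpa using hN))
  | succ N ih =>
    rcases norm_eq_one_or_eq_mul p ha with ⟨h, -⟩ | ⟨y, hy, rfl⟩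
    · exact ⟨0, by rw [h, pow_zero]⟩
    · rw [norm_mul, pow_succ'] at hN
      obtain ⟨k, hk⟩ := ih hy (right_ne_zero_of_mul h0)
        (lt_of_mul_lt_mul_left hN (norm_nonneg _))
      exact ⟨k + 1, by rw [norm_mul, hk, pow_succ']⟩

/-- The ultrametric isosceles property. -/
theorem norm_eq_of_sub_lt {x y : ℂ_[p]} (h : ‖x - y‖ < ‖x‖) : ‖x‖ = ‖y‖ :=
  (IsUltrametricDist.norm_eq_of_add_norm_lt_max (by
    rw [← sub_eq_add_neg]; exact lt_max_of_lt_left h)).trans (norm_neg y)

/-- The norms of `unramHat p` are powers of `‖p‖`. -/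
theorem exists_norm_eq_pow {x : ℂ_[p]} (hx : x ∈ unramHat p) (h0 : x ≠ 0) :
    ∃ k : ℕ, ‖x‖ = ‖(p : ℂ_[p])‖ ^ k := by
  obtain ⟨a, ha, h⟩ := exists_approx p hx (norm_pos_iff.mpr h0)
  have hxa : ‖x‖ = ‖(a : ℂ_[p])‖ := norm_eq_of_sub_lt p h
  obtain ⟨k, hk⟩ := exists_norm_eq_of_mem p ha fun h' => h0 (by
    rw [← norm_eq_zero, hxa, h', PadicComplex.norm_extends, norm_zero])
  exact ⟨k, by rw [hxa, PadicComplex.norm_extends, hk, norm_natCast_prime, norm_prime_complex]⟩

/-- Elements of norm one are units of `unramHat p`. -/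
theorem inv_mem_unramHat {x : ℂ_[p]} (hx : x ∈ unramHat p) (h1 : ‖x‖ = 1) :
    x⁻¹ ∈ unramHat p := by
  have hx0 : x ≠ 0 := fun h => one_ne_zero (h1.symm.trans (by rw [h, norm_zero]))
  refine mem_unramHat_of_forall_approx p fun ε hε => ?_
  obtain ⟨a, ha, h⟩ := exists_approx p hx (lt_min hε one_pos)
  have ha1 : ‖(a : ℂ_[p])‖ = 1 :=
    (norm_eq_of_sub_lt p
      (h.trans_le (by rw [h1]; exact min_le_right _ _))).symm.trans h1
  rcases norm_eq_one_or_eq_mul p ha with ⟨-, hinv⟩ | ⟨y, hy, rfl⟩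
  · refine ⟨a⁻¹, hinv, ?_⟩
    have ha0 : (a : ℂ_[p]) ≠ 0 := fun h' => one_ne_zero (ha1.symm.trans (by rw [h', norm_zero]))
    rw [PadicComplex.coe_eq p a⁻¹, map_inv₀, ← PadicComplex.coe_eq, inv_sub_inv hx0 ha0,
      norm_div, norm_mul, h1, ha1, mul_one,
      div_one, norm_sub_rev]
    exact h.trans_le (min_le_left _ _)
  · exfalso
    rw [PadicComplex.norm_extends, norm_mul] at ha1
    have : ‖(p : Qp)‖ * ‖y‖ ≤ ‖(p : Qp)‖ :=
      mul_le_of_le_one_right (norm_nonneg _) (norm_le_one_of_mem p hy)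
    rw [ha1, norm_natCast_prime, ← norm_prime_complex] at this
    exact absurd this (not_le.mpr (norm_prime_lt_one p))

theorem div_mem_unramHat {x : ℂ_[p]} (hx : x ∈ unramHat p) (hle : ‖x‖ ≤ ‖(p : ℂ_[p])‖) :
    x / p ∈ unramHat p := by
  refine mem_unramHat_of_forall_approx p fun ε hε => ?_
  obtain ⟨a, ha, h⟩ := exists_approx p hx
    (lt_min (mul_pos hε (norm_prime_pos p)) (norm_prime_pos p))
  have hle' : ‖(a : ℂ_[p])‖ ≤ ‖(p : ℂ_[p])‖ :=
    calc ‖(a : ℂ_[p])‖ = ‖((a : ℂ_[p]) - x) + x‖ := by rw [sub_add_cancel]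
      _ ≤ max ‖(a : ℂ_[p]) - x‖ ‖x‖ := IsUltrametricDist.norm_add_le_max _ _
      _ ≤ ‖(p : ℂ_[p])‖ := max_le
          (by rw [norm_sub_rev]; exact (h.trans_le (min_le_right _ _)).le) hle
  rcases norm_eq_one_or_eq_mul p ha with ⟨h1, -⟩ | ⟨y, hy, rfl⟩
  · rw [PadicComplex.norm_extends, h1] at hle'
    exact absurd hle' (not_le.mpr (norm_prime_lt_one p))
  · refine ⟨y, hy, ?_⟩
    have hp0 : (p : ℂ_[p]) ≠ 0 := norm_pos_iff.mp (norm_prime_pos p)
    have hcoe : (((p : Qp) * y : Qp) : ℂ_[p]) = (p : ℂ_[p]) * (y : ℂ_[p]) := by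
      rw [UniformSpace.Completion.coe_mul, PadicComplex.coe_natCast]
    rw [show x / (p : ℂ_[p]) - (y : ℂ_[p]) = (x - (((p : Qp) * y : Qp) : ℂ_[p])) / p by
      rw [hcoe]; field_simp, norm_div, div_lt_iff₀ (norm_prime_pos p)]
    exact h.trans_le (min_le_left _ _)

/-- Divisibility by `p ^ n` in `unramHat p` is read off the norm. -/
theorem pow_dvd_iff_norm_le {x : unramHat p} {n : ℕ} :
    (p : unramHat p) ^ n ∣ x ↔ ‖(x : ℂ_[p])‖ ≤ ‖(p : ℂ_[p])‖ ^ n := by
  constructor
  · rintro ⟨y, rfl⟩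
    simp only [MulMemClass.coe_mul, SubmonoidClass.coe_pow, SubringClass.coe_natCast, norm_mul,
      norm_pow]
    exact mul_le_of_le_one_right (pow_nonneg (norm_nonneg _) _) (norm_unramHat_le p y.2)
  · induction n generalizing x with
    | zero => intro _; rw [pow_zero]; exact one_dvd x
    | succ n ih =>
      intro h
      have hp1 := norm_prime_lt_one p
      have hle : ‖(x : ℂ_[p])‖ ≤ ‖(p : ℂ_[p])‖ := h.trans (by
        rw [pow_succ']
        exact mul_le_of_le_one_right (norm_nonneg _) (pow_le_one₀ (norm_nonneg _) hp1.le))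
      have hx : x = (p : unramHat p) * ⟨(x : ℂ_[p]) / p, div_mem_unramHat p x.2 hle⟩ :=
        Subtype.ext (by
          simp only [MulMemClass.coe_mul, SubringClass.coe_natCast]
          rw [mul_div_cancel₀ _ (norm_pos_iff.mp (norm_prime_pos p))])
      rw [hx, pow_succ']
      refine mul_dvd_mul_left _ (ih ?_)
      rw [norm_div, div_le_iff₀ (norm_prime_pos p)]
      exact h.trans_eq (pow_succ _ _)

/-- `unramHat p` is `p`-adically separated. -/
theorem eq_zero_of_forall_dvd (x : unramHat p) (h : ∀ n : ℕ, (p : unramHat p) ^ n ∣ x) :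
    x = 0 := by
  refine Subtype.ext (norm_le_zero_iff.mp (ge_of_tendsto'
    (tendsto_pow_atTop_nhds_zero_of_lt_one (norm_nonneg _) (norm_prime_lt_one p)) fun n => ?_))
  exact (pow_dvd_iff_norm_le p).mp (h n)

/-- `unramHat p` is `p`-adically complete. -/
theorem exists_limit (x : ℕ → unramHat p)
    (h : ∀ n, (p : unramHat p) ^ n ∣ x (n + 1) - x n) :
    ∃ y, ∀ n, (p : unramHat p) ^ n ∣ y - x n := by
  set c := ‖(p : ℂ_[p])‖
  have hstep : ∀ n, ‖(x (n + 1) : ℂ_[p]) - x n‖ ≤ c ^ n := fun n =>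
    (pow_dvd_iff_norm_le p).mp (h n)
  have htail : ∀ n d, ‖(x (n + d) : ℂ_[p]) - x n‖ ≤ c ^ n := by
    intro n d
    induction d with
    | zero => simp [c]
    | succ d ih =>
      calc ‖(x (n + (d + 1)) : ℂ_[p]) - x n‖
          = ‖((x (n + d + 1) : ℂ_[p]) - x (n + d)) + ((x (n + d) : ℂ_[p]) - x n)‖ := by
            rw [sub_add_sub_cancel, add_assoc]
        _ ≤ max _ _ := IsUltrametricDist.norm_add_le_max _ _
        _ ≤ c ^ n := max_le ((hstep _).trans (pow_le_pow_of_le_one (norm_nonneg _)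
            (norm_prime_lt_one p).le (Nat.le_add_right n d))) ih
  obtain ⟨y, hy⟩ := cauchySeq_tendsto_of_complete
    (cauchySeq_of_le_geometric c 1 (norm_prime_lt_one p) (f := fun n => (x n : ℂ_[p]))
      fun n => by rw [dist_eq_norm, norm_sub_rev, one_mul]; exact hstep n)
  have hmem : y ∈ unramHat p :=
    (isClosed_unramHat p).mem_of_tendsto hy (Eventually.of_forall fun n => (x n).2)
  refine ⟨⟨y, hmem⟩, fun n => (pow_dvd_iff_norm_le p).mpr ?_⟩
  refine le_of_tendsto ((tendsto_norm.comp ((hy.sub_const (x n : ℂ_[p])))))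
    (eventually_atTop.mpr ⟨n, fun b hb => ?_⟩)
  obtain ⟨d, rfl⟩ := Nat.exists_eq_add_of_le hb
  exact htail n d

/-- A local Galois element on the completed unramified ring. -/
def unramGal (g : Gp) : unramHat p →+* unramHat p :=
  ((completeGal p g).comp (unramHat p).subtype).codRestrict (unramHat p) fun x =>
    mem_unramHat_of_forall_approx p fun ε hε => by
      obtain ⟨a, ha, h⟩ := exists_approx p x.2 hε
      exact ⟨g a, localGalois_mem_unramRing p g ha, by
        rw [RingHom.comp_apply, Subring.coe_subtype, ← completeGal_coe, ← map_sub,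
          norm_completeGal]
        exact h⟩

/-- `unramGal` is `completeGal`. -/
@[simp]
theorem coe_unramGal (g : Gp) (x : unramHat p) :
    (unramGal p g x : ℂ_[p]) = completeGal p g x := rfl

/-- Inertia fixes the completed unramified ring. -/
theorem unramGal_eq_id_of_inertia {g : Gp}
    (hg : localGaloisToGlobal p g ∈ (padicPlace p).inertiaSubgroupIn ℚ) :
    ∀ x, unramGal p g x = x := by
  have hA : (padicPlace p).LiesOverPrime p := PoitouTate.padicPlace_liesOverPrime p
  have hfix : ∀ a ∈ unramRing p, g a = a := by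
    intro a ha
    induction ha using Algebra.adjoin_induction with
    | mem z hz =>
      obtain ⟨m, hm, hz⟩ := hz
      have hm0 : m ≠ 0 := fun h => hm (h ▸ dvd_zero p)
      obtain ⟨y, rfl⟩ := PoitouTate.mem_range_padicEmbedding p (z := z)
        (IsIntegral.of_pow (Nat.pos_of_ne_zero hm0) (by rw [hz]; exact isIntegral_one))
      rw [← padicEmbedding_localGaloisToGlobal, HeckeDatum.inertia_apply_eq (padicPlace p) hA
        ((hp.out.coprime_iff_not_dvd.mpr hm).symm) hm0 hg
        ((padicEmbedding p).toRingHom.injective (by rw [map_pow, map_one]; exact hz))]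
    | algebraMap r => exact localGalois_algebraMap_int p g r
    | add z w _ _ hz hw => rw [map_add, hz, hw]
    | mul z w _ _ hz hw => rw [map_mul, hz, hw]
  intro x
  refine Subtype.ext (sub_eq_zero.mp (norm_le_zero_iff.mp (le_of_forall_pos_le_add fun ε hε => ?_)))
  rw [zero_add, coe_unramGal]
  obtain ⟨a, ha, h⟩ := exists_approx p x.2 hε
  calc ‖completeGal p g x - x‖
      = ‖completeGal p g ((x : ℂ_[p]) - (a : ℂ_[p])) + ((a : ℂ_[p]) - x)‖ := by
        rw [map_sub, completeGal_coe, hfix a ha]; ring_nf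
    _ ≤ max _ _ := IsUltrametricDist.norm_add_le_max _ _
    _ ≤ ε := max_le (by rw [norm_completeGal]; exact h.le) (by rw [norm_sub_rev]; exact h.le)

/-- The Frobenius of the completed unramified ring. -/
def unramFrob : unramHat p →+* unramHat p := unramGal p (frobElt p)

/-- Frobenius lifts the `p`-th power map. -/
theorem dvd_unramFrob_sub_pow (x : unramHat p) : (p : unramHat p) ∣ unramFrob p x - x ^ p := by
  rw [← pow_one (p : unramHat p)]
  refine (pow_dvd_iff_norm_le p).mpr ?_
  rw [pow_one]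
  have hpos := norm_prime_pos p
  obtain ⟨a, ha, h⟩ := exists_approx p x.2 hpos
  obtain ⟨m, hm, ham⟩ := exists_level p ha
  obtain ⟨y, hy, e⟩ := frobElt_congr p hm ham
  set φ := completeGal p (frobElt p)
  have h1 : ‖φ ((x : ℂ_[p]) - (a : ℂ_[p]))‖ ≤ ‖(p : ℂ_[p])‖ := by
    rw [norm_completeGal]; exact h.le
  have h2 : ‖(a : ℂ_[p]) ^ p - (x : ℂ_[p]) ^ p‖ ≤ ‖(p : ℂ_[p])‖ := by
    rw [← geom_sum₂_mul, norm_mul]
    refine (mul_le_mul_of_nonneg_right ?_ (norm_nonneg _)).trans
      (by rw [one_mul, norm_sub_rev]; exact h.le)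
    refine IsUltrametricDist.norm_sum_le_of_forall_le_of_nonneg zero_le_one fun i _ => ?_
    rw [norm_mul, norm_pow, norm_pow]
    exact mul_le_one₀ (pow_le_one₀ (norm_nonneg _)
      (by rw [PadicComplex.norm_extends]; exact norm_le_one_of_mem p ha))
      (pow_nonneg (norm_nonneg _) _) (pow_le_one₀ (norm_nonneg _) (norm_unramHat_le p x.2))
  have h3 : ‖φ (a : ℂ_[p]) - (a : ℂ_[p]) ^ p‖ ≤ ‖(p : ℂ_[p])‖ := by
    rw [completeGal_coe, e, UniformSpace.Completion.coe_add, UniformSpace.Completion.coe_mul,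
      PadicComplex.coe_natCast, PadicComplex.coe_eq p (a ^ p), map_pow, ← PadicComplex.coe_eq,
      add_sub_cancel_left, norm_mul, PadicComplex.norm_extends]
    exact mul_le_of_le_one_right (norm_nonneg _)
      (norm_le_one_of_mem p (levelRing_le p hm hy))
  simp only [AddSubgroupClass.coe_sub, SubmonoidClass.coe_pow]
  calc ‖φ (x : ℂ_[p]) - (x : ℂ_[p]) ^ p‖
      = ‖φ ((x : ℂ_[p]) - (a : ℂ_[p])) + ((φ (a : ℂ_[p]) - (a : ℂ_[p]) ^ p) +
          ((a : ℂ_[p]) ^ p - (x : ℂ_[p]) ^ p))‖ := by rw [map_sub]; ring_nf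
    _ ≤ max _ _ := IsUltrametricDist.norm_add_le_max _ _
    _ ≤ ‖(p : ℂ_[p])‖ :=
        max_le h1 ((IsUltrametricDist.norm_add_le_max _ _).trans (max_le h3 h2))

/-! ### The residue field -/

/-- The residue ideal of the completed unramified ring. -/
def unramIdeal : Ideal (unramHat p) := Ideal.span {(p : unramHat p)}

theorem mem_unramIdeal_iff (x : unramHat p) :
    x ∈ unramIdeal p ↔ ‖(x : ℂ_[p])‖ < 1 := by
  rw [unramIdeal, Ideal.mem_span_singleton, ← pow_one (p : unramHat p), pow_dvd_iff_norm_le,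
    pow_one]
  refine ⟨fun h => h.trans_lt (norm_prime_lt_one p), fun h => ?_⟩
  rcases eq_or_ne (x : ℂ_[p]) 0 with h0 | h0
  · rw [h0, norm_zero]; exact norm_nonneg _
  obtain ⟨k, hk⟩ := exists_norm_eq_pow p x.2 h0
  rw [hk] at h ⊢
  rcases k with - | k
  · exact absurd h (by simp)
  · exact (pow_le_pow_of_le_one (norm_nonneg _) (norm_prime_lt_one p).le
      (Nat.le_add_left 1 k)).trans_eq (pow_one _)

instance isMaximal_unramIdeal : (unramIdeal p).IsMaximal := by
  refine Ideal.isMaximal_iff.mpr ⟨by simp [mem_unramIdeal_iff], fun J x hJ hx hxJ => ?_⟩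
  rw [mem_unramIdeal_iff, not_lt] at hx
  have h1 : ‖(x : ℂ_[p])‖ = 1 := le_antisymm (norm_unramHat_le p x.2) hx
  have hone : (⟨_, inv_mem_unramHat p x.2 h1⟩ : unramHat p) * x = 1 := Subtype.ext (by
    simp only [MulMemClass.coe_mul, OneMemClass.coe_one]
    exact inv_mul_cancel₀ fun h0 => one_ne_zero (h1.symm.trans (by rw [h0, norm_zero])))
  exact hone ▸ J.mul_mem_left _ hxJ

/-- The residue field of the completed unramified ring. -/
abbrev UnramResidue : Type _ := unramHat p ⧸ unramIdeal p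

instance instFieldUnramResidue : Field (UnramResidue p) := Ideal.Quotient.field _

/-- Reduction to the residue field. -/
def unramRes : unramHat p →+* UnramResidue p := Ideal.Quotient.mk _

instance charP_unramResidue : CharP (UnramResidue p) p :=
  CharP.quotient (unramHat p) p (by
    rw [mem_nonunits_iff]
    intro h
    obtain ⟨u, hu⟩ := h
    have hmem : (p : unramHat p) ∈ unramIdeal p := Ideal.mem_span_singleton_self _
    exact (isMaximal_unramIdeal p).ne_top
      (Ideal.eq_top_of_isUnit_mem _ (hu ▸ hmem) u.isUnit))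

/-- The residue map is surjective. -/
theorem unramRes_surjective : Function.Surjective (unramRes p) := Ideal.Quotient.mk_surjective

/-- The kernel of the residue map is generated by `p`. -/
theorem dvd_of_unramRes_eq_zero (x : unramHat p) (h : unramRes p x = 0) :
    (p : unramHat p) ∣ x :=
  Ideal.mem_span_singleton.mp (Ideal.Quotient.eq_zero_iff_mem.mp h)

/-- The residue map turns Frobenius into the `p`-th power. -/
theorem unramRes_unramFrob (x : unramHat p) :
    unramRes p (unramFrob p x) = unramRes p x ^ p := by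
  rw [← map_pow, ← sub_eq_zero, ← map_sub]
  exact Ideal.Quotient.eq_zero_iff_mem.mpr
    (Ideal.mem_span_singleton.mpr (dvd_unramFrob_sub_pow p x))

/-- The residue field is algebraic over the prime field. -/
theorem exists_pow_eq_self (x : UnramResidue p) : ∃ k, k ≠ 0 ∧ x ^ p ^ k = x := by
  obtain ⟨w, rfl⟩ := unramRes_surjective p x
  obtain ⟨a, ha, h⟩ := exists_approx p w.2 one_pos
  set w' : unramHat p := ⟨(a : ℂ_[p]), coe_mem_unramHat p ha⟩
  have hww : unramRes p w = unramRes p w' := by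
    rw [← sub_eq_zero, ← map_sub]
    exact Ideal.Quotient.eq_zero_iff_mem.mpr ((mem_unramIdeal_iff p _).mpr h)
  obtain ⟨m, hm, ham⟩ := exists_level p ha
  have hm0 : m ≠ 0 := fun h => hm (h ▸ dvd_zero p)
  refine ⟨m.totient, (Nat.totient_pos.mpr (Nat.pos_of_ne_zero hm0)).ne', ?_⟩
  rw [hww]
  clear hww h
  have key : ∀ (z : Qp) (hz : z ∈ levelRing p m),
      unramRes p ⟨(z : ℂ_[p]), coe_mem_unramHat p (levelRing_le p hm hz)⟩ ^ p ^ m.totient =
        unramRes p ⟨(z : ℂ_[p]), coe_mem_unramHat p (levelRing_le p hm hz)⟩ := by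
    intro z hz
    induction hz using Algebra.adjoin_induction with
    | mem z hz =>
      rw [← map_pow]
      congr 1
      refine Subtype.ext ?_
      obtain ⟨c, hc⟩ := (Nat.modEq_iff_dvd' (Nat.one_le_pow _ _ hp.out.pos)).mp
        (Nat.ModEq.pow_totient (hp.out.coprime_iff_not_dvd.mpr hm)).symm
      have : z ^ p ^ m.totient = z := by
        rw [show p ^ m.totient = m * c + 1 by
          have := Nat.one_le_pow m.totient p hp.out.pos; omega, pow_succ, pow_mul,
          show z ^ m = 1 from hz, one_pow, one_mul]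
      simp only [SubmonoidClass.coe_pow]
      rw [PadicComplex.coe_eq, ← map_pow, this]
    | algebraMap r =>
      rw [← map_pow, ← sub_eq_zero, ← map_sub]
      refine Ideal.Quotient.eq_zero_iff_mem.mpr ((mem_unramIdeal_iff p _).mpr ?_)
      simp only [AddSubgroupClass.coe_sub, SubmonoidClass.coe_pow]
      rw [PadicComplex.coe_eq, ← map_pow, ← map_sub, ← map_pow, ← map_sub,
        ← PadicComplex.coe_eq, PadicComplex.norm_extends, norm_algebraMap_int,
        PadicInt.norm_lt_one_iff_dvd, ← Ideal.mem_span_singleton,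
        ← PadicInt.maximalIdeal_eq_span_p, ← PadicInt.ker_toZMod, RingHom.mem_ker, map_sub,
        map_pow, ZMod.pow_card_pow, sub_self]
    | add z w hz hw ihz ihw =>
      rw [show (⟨((z + w : Qp) : ℂ_[p]), _⟩ : unramHat p) =
        ⟨(z : ℂ_[p]), coe_mem_unramHat p (levelRing_le p hm hz)⟩ +
          ⟨(w : ℂ_[p]), coe_mem_unramHat p (levelRing_le p hm hw)⟩ from
        Subtype.ext (UniformSpace.Completion.coe_add z w), map_add, add_pow_char_pow, ihz, ihw]
    | mul z w hz hw ihz ihw =>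
      rw [show (⟨((z * w : Qp) : ℂ_[p]), _⟩ : unramHat p) =
        ⟨(z : ℂ_[p]), coe_mem_unramHat p (levelRing_le p hm hz)⟩ *
          ⟨(w : ℂ_[p]), coe_mem_unramHat p (levelRing_le p hm hw)⟩ from
        Subtype.ext (UniformSpace.Completion.coe_mul z w), map_mul, mul_pow, ihz, ihw]
  exact key a ham

/-- A field of characteristic `p`, algebraic over its prime field, in which `X ^ M - 1` splits
for all `M` prime to `p`, is algebraically closed. -/
theorem isAlgClosed_of_splits (k : Type*) [Field k] [CharP k p]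
    (halg : ∀ y : k, ∃ n, n ≠ 0 ∧ y ^ p ^ n = y)
    (hsplit : ∀ M : ℕ, 0 < M → ¬ p ∣ M → (Polynomial.X ^ M - 1 : Polynomial k).Splits) :
    IsAlgClosed k := by
  refine IsAlgClosed.of_exists_root _ fun f _ hirr => ?_
  let K := AlgebraicClosure k
  obtain ⟨x, hx⟩ := IsAlgClosed.exists_root (f.map (algebraMap k K)) (by
    rw [Polynomial.degree_map]
    exact (Polynomial.degree_pos_of_irreducible hirr).ne')
  suffices hx' : x ∈ (algebraMap k K).range by
    obtain ⟨y, rfl⟩ := hx'
    refine ⟨y, ?_⟩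
    rw [Polynomial.IsRoot.def, Polynomial.eval_map_algebraMap,
      Polynomial.aeval_algebraMap_apply] at hx
    simpa using (algebraMap k K).injective (hx.trans (map_zero _).symm)
  let : Algebra (ZMod p) k := ZMod.algebra _ p
  have : Algebra.IsIntegral (ZMod p) k := ⟨fun y => by
    obtain ⟨n, hn, hy⟩ := halg y
    exact ⟨Polynomial.X ^ p ^ n - Polynomial.X,
      Polynomial.monic_X_pow_sub (by
        rw [Polynomial.degree_X]; exact_mod_cast Nat.one_lt_pow hn hp.out.one_lt),
      by simp [hy]⟩⟩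
  have : Algebra.IsIntegral (ZMod p) K := Algebra.IsIntegral.trans (R := ZMod p) (A := k) (B := K)
  let E := IntermediateField.adjoin (ZMod p) ({x} : Set K)
  have : FiniteDimensional (ZMod p) E :=
    IntermediateField.adjoin.finiteDimensional (Algebra.IsIntegral.isIntegral x)
  have : Finite E := Module.finite_of_finite (ZMod p)
  have := Fintype.ofFinite E
  obtain ⟨n, hn, hcard⟩ := FiniteField.card E p
  set x' : E := ⟨x, IntermediateField.mem_adjoin_simple_self _ x⟩
  rcases eq_or_ne x 0 with hx0 | hx0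
  · exact hx0 ▸ zero_mem _
  set M := p ^ (n : ℕ) - 1 with hMdef
  have h2 : 1 < p ^ (n : ℕ) := Nat.one_lt_pow n.pos.ne' hp.out.one_lt
  have hM : ¬ p ∣ M := by
    intro hdvd
    obtain ⟨a, ha⟩ := dvd_pow_self p (n.pos.ne' : (n : ℕ) ≠ 0)
    obtain ⟨b, hb⟩ := hdvd
    refine hp.out.not_dvd_one ⟨a - b, ?_⟩
    rw [Nat.mul_sub, ← ha, ← hb]
    omega
  have hM0 : 0 < M := by omega
  have hxM : x ^ M = 1 := by
    have h : (x' : E) ^ Fintype.card E = x' := FiniteField.pow_card x'
    have h' : x ^ p ^ (n : ℕ) = x := by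
      rw [← hcard]; exact congrArg Subtype.val h
    refine mul_right_cancel₀ hx0 ?_
    rw [← pow_succ, Nat.sub_add_cancel h2.le, h', one_mul]
  exact (hsplit M hM0 hM).mem_range_of_isRoot (Polynomial.X_pow_sub_C_ne_zero hM0 1)
    (i := algebraMap k K) (by simp [hxM])

/-- The residue field is algebraically closed. -/
instance isAlgClosed_unramResidue : IsAlgClosed (UnramResidue p) := by
  refine isAlgClosed_of_splits p _ (exists_pow_eq_self p) fun M hM0 hM => ?_
  have hM' : NeZero ((M : ℕ) : Qp) := ⟨Nat.cast_ne_zero.mpr hM0.ne'⟩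
  obtain ⟨ζ, hζ⟩ := HasEnoughRootsOfUnity.exists_primitiveRoot Qp M
  have hζ' : ∀ i ∈ Polynomial.nthRootsFinset M (1 : Qp), i ∈ unramRing p := fun i hi =>
    Algebra.subset_adjoin ⟨M, hM, (Polynomial.mem_nthRootsFinset hM0 _).mp hi⟩
  -- push the factorisation of `X ^ M - 1` to the residue field
  let toW : unramRing p →+* unramHat p :=
    ((algebraMap Qp ℂ_[p]).comp (unramRing p).val.toRingHom).codRestrict _ fun a =>
      coe_mem_unramHat p a.2
  have hfac : (Polynomial.X ^ M - 1 : Polynomial (unramRing p)) =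
      ∏ i ∈ (Polynomial.nthRootsFinset M (1 : Qp)).attach,
        (Polynomial.X - Polynomial.C ⟨i.1, hζ' i.1 i.2⟩) := by
    apply Polynomial.map_injective (unramRing p).val.toRingHom Subtype.val_injective
    rw [Polynomial.map_sub, Polynomial.map_pow, Polynomial.map_X, Polynomial.map_one,
      Polynomial.X_pow_sub_one_eq_prod hM0 hζ, Polynomial.map_prod,
      ← Finset.prod_attach (Polynomial.nthRootsFinset M (1 : Qp))]
    exact Finset.prod_congr rfl fun i _ => by simp
  have h0 := congrArg (Polynomial.map ((unramRes p).comp toW)) hfac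
  simp only [Polynomial.map_sub, Polynomial.map_pow, Polynomial.map_X, Polynomial.map_one,
    Polynomial.map_prod, Polynomial.map_C] at h0
  rw [h0]
  exact Polynomial.Splits.prod fun i _ => Polynomial.Splits.X_sub_C _

end Fermat.Agent.OrdinaryCurve
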