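import Fermat.Agent.OrdinaryCurve.LocalField
import Fermat.Agent.OrdinaryCurve.Lang

/-!
# Semilinear fixed vectors of a unit matrix

For `A` in `GL_d(ℤ_p)` a nonzero vector `x` over the completed unramified ring satisfies
`A (Frob x) = x`.
-/

set_option autoImplicit false

noncomputable section

open Matrix

namespace Fermat.Agent.OrdinaryCurve

variable (p : ℕ) [hp : Fact p.Prime]

/-- `ℤ_p` inside the completed unramified ring. -/
def padicToUnram : ℤ_[p] →+* unramHat p :=
  ((algebraMap (PadicAlgCl p) ℂ_[p]).comp (algebraMap ℤ_[p] (PadicAlgCl p))).codRestrict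
    (unramHat p) fun r => coe_mem_unramHat p (Subalgebra.algebraMap_mem (unramRing p) r)

/-- Frobenius fixes `ℤ_p`. -/
theorem unramFrob_padicToUnram (r : ℤ_[p]) :
    unramFrob p (padicToUnram p r) = padicToUnram p r := by
  refine Subtype.ext ?_
  show completeGal p (frobElt p) ((algebraMap ℤ_[p] (PadicAlgCl p) r : PadicAlgCl p) : ℂ_[p]) = _
  rw [completeGal_coe, localGalois_algebraMap_int]
  rfl

/-- `completeGal` respects composition. -/
theorem completeGal_mul (g h : PadicAlgCl p ≃ₐ[ℚ_[p]] PadicAlgCl p) (y : ℂ_[p]) :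
    completeGal p (g * h) y = completeGal p g (completeGal p h y) :=
  UniformSpace.Completion.induction_on y
    (isClosed_eq (continuous_completeGal p _)
      ((continuous_completeGal p g).comp (continuous_completeGal p h))) fun a => by
    rw [completeGal_coe, completeGal_coe, completeGal_coe, AlgEquiv.mul_apply]

/-- A nonzero semilinear fixed vector. -/
theorem exists_semilinear_fixed {ι : Type*} [Fintype ι] [DecidableEq ι] [Nonempty ι]
    (A : Matrix ι ι ℤ_[p]) (hA : IsUnit A.det) :
    ∃ x : ι → unramHat p, x ≠ 0 ∧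
      (A.map (padicToUnram p)) *ᵥ (fun j => unramFrob p (x j)) = x := by
  obtain ⟨c, ⟨j, hj⟩, hc⟩ := exists_langDefect_eq_zero (p := p) (unramFrob p) (unramRes p)
    (unramRes_unramFrob p) (unramRes_surjective p) (dvd_of_unramRes_eq_zero p)
    (exists_limit p) (eq_zero_of_forall_dvd p) (A.map (padicToUnram p)) 0
    (fun i k => unramFrob_padicToUnram p _) fun n h0 => by
      have h1 : IsUnit (((A.map (padicToUnram p)).map (unramRes p)) ^ n).det := by
        rw [Matrix.det_pow, Matrix.map_map, ← RingHom.coe_comp, ← RingHom.mapMatrix_apply,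
          ← RingHom.map_det]
        exact (hA.map _).pow n
      rw [h0, Matrix.det_zero] at h1
      exact not_isUnit_zero h1
  refine ⟨c, fun h => hj (by rw [h, Pi.zero_apply, map_zero]), ?_⟩
  rw [zero_mulVec, smul_zero, add_zero] at hc
  exact hc.symm

end Fermat.Agent.OrdinaryCurve
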