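import Fermat.Agent.OrdinaryCurve.Interface
import Fermat.Agent.MW.Modular.Main
import Fermat.Agent.CurveBaseChange.RRSpace

/-!
# `X₀(N)` over `ℂ_p` as a constant field extension of `X₀(N)` over `ℚ̄`

The place `inftyPlace` is the one centred at `∞`; it is the extension of the one over `ℚ̄`, and
`RegularAway` means regular at every other place.
-/

set_option autoImplicit false

noncomputable section

open AlgebraicCurve ModularCurve HahnSeries
open Fermat.Agent.FunctionField
open Fermat.Agent.CurveBaseChange (IsConstExt liftPlace)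
open Fermat.Agent.MW.Modular (qPlace ord_qPlace HasSimplePole mem_qPlace mem_intSub_iff_coeff)

namespace Fermat.Agent.OrdinaryCurve

local notation "Qbar" => AlgebraicClosure ℚ

variable (p : ℕ) [hp : Fact p.Prime] (N : ℕ) [NeZero N]

/-- Shortcut for the constants of the curve over `ℂ_p`. -/
@[reducible]
instance curveFieldAlgebra : Algebra ℂ_[p] (curveField p N) :=
  SubalgebraClass.toAlgebra (curveField p N)

/-- `ℂ_p` as an algebra over `ℚ̄`, along `complexEmb`. -/
instance qbarAlgebra : Algebra Qbar ℂ_[p] := (complexEmb p).toAlgebra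

/-- The two embeddings of rational series into series over `ℂ_p` agree. -/
theorem coeffMap_complexEmb_coeffEmb (x : LaurentSeries ℚ) :
    coeffMap (complexEmb p) (coeffEmb Qbar x) = coeffEmb ℂ_[p] x := by
  refine HahnSeries.ext (funext fun k => ?_)
  rw [coeffMap_coeff, coeffEmb_coeff, coeffEmb_coeff]
  exact RingHom.congr_fun (RingHom.ext_rat ((complexEmb p).comp (algebraMap ℚ Qbar)) _) _

theorem coeffMap_const {K L : Type*} [Field K] [Field L] (e : K →+* L) (c : K) :
    coeffMap e (algebraMap K (LaurentSeries K) c) = algebraMap L (LaurentSeries L) (e c) := by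
  refine HahnSeries.ext (funext fun k => ?_)
  rw [coeffMap_coeff, algebraMap_laurentSeries_eq_single, algebraMap_laurentSeries_eq_single]
  rcases eq_or_ne k 0 with rfl | hk
  · rw [coeff_single_same, coeff_single_same]
  · rw [coeff_single_of_ne hk, coeff_single_of_ne hk, map_zero]

omit [NeZero N] in
theorem coeffMap_mem_curveField {x : LaurentSeries Qbar} (hx : x ∈ modularFunctionFieldBar N) :
    coeffMap (complexEmb p) x ∈ curveField p N := by
  have hle : Subfield.closure (Set.range (algebraMap Qbar (LaurentSeries Qbar)) ∪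
      ⇑(coeffEmb Qbar) '' (modularFunctionFieldFull N : Set (LaurentSeries ℚ))) ≤
      (curveField p N).toSubfield.comap (coeffMap (complexEmb p)) := by
    rw [Subfield.closure_le]
    rintro _ (⟨c, rfl⟩ | ⟨y, hy, rfl⟩)
    · show coeffMap (complexEmb p) _ ∈ curveField p N
      rw [coeffMap_const]
      exact (curveField p N).algebraMap_mem _
    · show coeffMap (complexEmb p) _ ∈ curveField p N
      rw [coeffMap_complexEmb_coeffEmb]
      exact coeffEmb_mem_laurentBaseChange _ hy
  exact hle (mem_laurentBaseChange_iff.mp hx)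

/-- The inclusion of the function field over `ℚ̄`. -/
def baseHom : modularFunctionFieldBar N →+* curveField p N :=
  ((coeffMap (complexEmb p)).comp (modularFunctionFieldBar N).val.toRingHom).codRestrict
    (curveField p N) fun x => coeffMap_mem_curveField p N x.2

instance barAlgebra : Algebra (modularFunctionFieldBar N) (curveField p N) :=
  (baseHom p N).toAlgebra

omit [NeZero N] in
/-- The inclusion of the function field over `ℚ̄`, on expansions. -/
theorem coe_algebraMap_bar (x : modularFunctionFieldBar N) :
    ((algebraMap (modularFunctionFieldBar N) (curveField p N) x : curveField p N) :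
      LaurentSeries ℂ_[p]) = coeffMap (complexEmb p) x := rfl

/-- `ℚ̄`-structure on the function field over `ℂ_p`. -/
instance qbarFieldAlgebra : Algebra Qbar (curveField p N) :=
  ((algebraMap ℂ_[p] (curveField p N)).comp (complexEmb p)).toAlgebra

instance scalarTower_complex : IsScalarTower Qbar ℂ_[p] (curveField p N) :=
  IsScalarTower.of_algebraMap_eq fun _ => rfl

instance scalarTower_bar :
    IsScalarTower Qbar (modularFunctionFieldBar N) (curveField p N) :=
  IsScalarTower.of_algebraMap_eq fun c => Subtype.ext <| by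
    rw [coe_algebraMap_bar]
    exact (coeffMap_const (complexEmb p) c).symm

instance isFunctionField_curveField : IsFunctionField ℂ_[p] (curveField p N) :=
  Hecke.isFunctionField_of_data ℂ_[p] N fun d _ =>
    ⟨ModularFunctionField.modularPolynomialData d⟩

instance isConstExt_curveField :
    IsConstExt Qbar (modularFunctionFieldBar N) ℂ_[p] (curveField p N) where
  linearIndependent {n} g hg := by
    rw [Fintype.linearIndependent_iff]
    intro c hc i₀
    by_contra hne
    obtain ⟨φ, hφ⟩ : ∃ φ : ℂ_[p] →ₗ[Qbar] Qbar, φ (c i₀) ≠ 0 := by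
      by_contra! hall
      exact hne ((Module.forall_dual_apply_eq_zero_iff Qbar (c i₀)).mp hall)
    refine hφ (Fintype.linearIndependent_iff.mp hg (fun i => φ (c i)) ?_ i₀)
    refine Subtype.ext (HahnSeries.ext (funext fun k => ?_))
    have h := congrArg (fun z : curveField p N => φ ((z : LaurentSeries ℂ_[p]).coeff k)) hc
    simp only [AddSubmonoidClass.coe_finsetSum, HahnSeries.coeff_sum,
      MW.Modular.coe_smul_coeff, coe_algebraMap_bar, coeffMap_coeff, map_sum,
      ZeroMemClass.coe_zero, HahnSeries.coeff_zero, map_zero] at h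
    simp only [AddSubmonoidClass.coe_finsetSum, HahnSeries.coeff_sum, MW.Modular.coe_smul_coeff,
      ZeroMemClass.coe_zero, HahnSeries.coeff_zero]
    rw [← h]
    refine Finset.sum_congr rfl fun i _ => ?_
    rw [mul_comm (c i), show complexEmb p ((g i : LaurentSeries Qbar).coeff k) * c i =
      ((g i : LaurentSeries Qbar).coeff k) • c i from (Algebra.smul_def _ _).symm,
      map_smul, smul_eq_mul, mul_comm]
  adjoin_eq_top := by
    rw [eq_top_iff]
    rintro ⟨x, hx⟩ -
    set E := IntermediateField.adjoin ℂ_[p]
      (Set.range (algebraMap (modularFunctionFieldBar N) (curveField p N)))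
    have hle : Subfield.closure (Set.range (algebraMap ℂ_[p] (LaurentSeries ℂ_[p])) ∪
        ⇑(coeffEmb ℂ_[p]) '' (modularFunctionFieldFull N : Set (LaurentSeries ℚ))) ≤
        E.toSubfield.map (curveField p N).val.toRingHom := by
      rw [Subfield.closure_le]
      rintro _ (⟨c, rfl⟩ | ⟨y, hy, rfl⟩)
      · exact ⟨algebraMap ℂ_[p] (curveField p N) c, E.algebraMap_mem c, rfl⟩
      · refine ⟨algebraMap (modularFunctionFieldBar N) (curveField p N)
          ⟨coeffEmb Qbar y, coeffEmb_mem_laurentBaseChange _ hy⟩,
          IntermediateField.subset_adjoin _ _ ⟨_, rfl⟩, ?_⟩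
        exact coeffMap_complexEmb_coeffEmb p y
    obtain ⟨z, hz, hzx⟩ := hle (mem_laurentBaseChange_iff.mp hx)
    obtain rfl : z = ⟨x, hx⟩ := Subtype.ext hzx
    exact hz

instance hasSimplePole_curveField : HasSimplePole (curveField p N) := by
  obtain ⟨x, hx⟩ := HasSimplePole.exists_order_eq_neg_one (E := modularFunctionFieldFull N)
  refine ⟨⟨coeffEmb ℂ_[p] (x : LaurentSeries ℚ), coeffEmb_mem_laurentBaseChange _ x.2⟩, ?_⟩
  show (coeffEmb ℂ_[p] (x : LaurentSeries ℚ)).order = -1
  have hne : (x : LaurentSeries ℚ) ≠ 0 := fun e => by simp [e] at hx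
  have h1 : (coeffEmb ℂ_[p] (x : LaurentSeries ℚ)).coeff (-1) ≠ 0 := by
    rw [coeffEmb_coeff, ← hx]
    exact (map_ne_zero _).mpr (HahnSeries.coeff_order_eq_zero.not.mpr hne)
  refine le_antisymm (order_le_of_coeff_ne_zero h1) (le_of_not_gt fun hlt => ?_)
  have h2 := coeff_order_eq_zero.not.mpr (fun e : coeffEmb ℂ_[p] (x : LaurentSeries ℚ) = 0 =>
    h1 (by rw [e, HahnSeries.coeff_zero]))
  rw [coeffEmb_coeff, coeff_eq_zero_of_lt_order (hx.symm ▸ hlt), map_zero] at h2
  exact h2 rfl

/-- The place of the curve over `ℂ_p` centred at `∞`. -/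
abbrev inftyPlace : Place ℂ_[p] (curveField p N) := qPlace (curveField p N)

variable {p N}

theorem noPoleAtInfty_iff_mem {x : curveField p N} :
    NoPoleAtInfty p N x ↔ x ∈ (inftyPlace p N).toValuationSubring := by
  rw [mem_qPlace, mem_intSub_iff_coeff]
  rfl

theorem exists_noPole_iff_ne {v : Place ℂ_[p] (curveField p N)} :
    (∃ x : curveField p N, NoPoleAtInfty p N x ∧ v.ord x < 0) ↔ v ≠ inftyPlace p N := by
  constructor
  · rintro ⟨x, hx, hlt⟩ rfl
    have := (FFPlaces.mem_iff _).mp (noPoleAtInfty_iff_mem.mp hx)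
    omega
  · intro hv
    by_contra! hall
    exact hv (FunctionField.eq_of_le fun x hx => (FFPlaces.mem_iff v).mpr
      (hall x (noPoleAtInfty_iff_mem.mpr hx))).symm

/-- `RegularAway` in terms of `inftyPlace`. -/
theorem regularAway_iff_infty {b : curveField p N} :
    RegularAway p N b ↔ ∀ v : Place ℂ_[p] (curveField p N),
      v ≠ inftyPlace p N → b ∈ v.toValuationSubring :=
  ⟨fun h v hv => h v (exists_noPole_iff_ne.mpr hv), fun h v hv => h v (exists_noPole_iff_ne.mp hv)⟩

variable (p N)

/-- The place at `∞` over `ℂ_p` is the extension of the one over `ℚ̄`. -/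
theorem liftPlace_inftyPlace :
    liftPlace ℂ_[p] (curveField p N) (qPlace (modularFunctionFieldBar N)) = inftyPlace p N := by
  refine (CurveBaseChange.eq_liftPlace_of_ord fun f => ?_).symm
  rw [ord_qPlace, ord_qPlace, coe_algebraMap_bar]
  rcases eq_or_ne (f : LaurentSeries Qbar) 0 with hf | hf
  · rw [hf, map_zero, order_zero, order_zero]
  have h : (coeffMap (complexEmb p) (f : LaurentSeries Qbar)).coeff
      (f : LaurentSeries Qbar).order ≠ 0 := by
    rw [coeffMap_coeff]
    exact (map_ne_zero _).mpr (coeff_order_eq_zero.not.mpr hf)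
  refine le_antisymm (order_le_of_coeff_ne_zero h) (le_of_not_gt fun hlt => ?_)
  refine coeff_order_eq_zero.not.mpr
    (fun e : coeffMap (complexEmb p) (f : LaurentSeries Qbar) = 0 =>
      h (by rw [e, HahnSeries.coeff_zero])) ?_
  rw [coeffMap_coeff, coeff_eq_zero_of_lt_order hlt, map_zero]

end Fermat.Agent.OrdinaryCurve
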