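import Fermat.Agent.EichlerPeriods.Primitive
import Mathlib.NumberTheory.ModularForms.SlashActions
import Mathlib.NumberTheory.Modular
import Mathlib.Analysis.Complex.Periodic
import Mathlib.Analysis.Complex.UpperHalfPlane.Manifold

/-!
A level one weight two holomorphic function which is a finite Laurent polynomial in `q` up to
`o(1)` at `i∞` has vanishing constant term: its primitive changes by a character of `SL(2,ℤ)`,
which is zero because `S` and `S T` have finite order.
-/

set_option autoImplicit false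

noncomputable section

open Filter Topology ModularGroup Fermat.Agent.EichlerPeriods
open Complex
open UpperHalfPlane hiding I
open scoped Real MatrixGroups Manifold ModularForm

namespace Fermat.Agent.OrdinaryCurve

variable {J : Type*} [Fintype J] (c : J → ℂ) (e : J → ℤ)

local notation "𝕢" => Function.Periodic.qParam

/-- A Laurent polynomial in `q`. -/
def qPoly (z : ℂ) : ℂ := ∑ j, c j * 𝕢 1 z ^ e j

/-- A primitive of `qPoly`. -/
def qPolyPrim (z : ℂ) : ℂ :=
  ∑ j, if e j = 0 then c j * z else c j / (2 * π * Complex.I * e j) * 𝕢 1 z ^ e j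

theorem qParam_one_zpow (z : ℂ) (n : ℤ) : 𝕢 1 z ^ n = Complex.exp (2 * π * Complex.I * n * z) := by
  rw [Function.Periodic.qParam, ← Complex.exp_int_mul]
  congr 1
  push_cast
  ring

theorem qParam_one_add_one_zpow (z : ℂ) (n : ℤ) : 𝕢 1 (z + 1) ^ n = 𝕢 1 z ^ n := by
  rw [qParam_one_zpow, qParam_one_zpow, mul_add, mul_one, Complex.exp_add,
    show 2 * (π : ℂ) * Complex.I * n = n * (2 * π * Complex.I) by ring,
    Complex.exp_int_mul_two_pi_mul_I, mul_one]

theorem hasDerivAt_qPolyPrim (z : ℂ) : HasDerivAt (qPolyPrim c e) (qPoly c e z) z := by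
  refine HasDerivAt.fun_sum fun j _ => ?_
  by_cases h : e j = 0
  · simp only [if_pos h]
    rw [h, zpow_zero]
    simpa using (hasDerivAt_id z).const_mul (c j)
  · simp only [if_neg h]
    simp_rw [qParam_one_zpow]
    have h1 := ((((hasDerivAt_id z).const_mul (2 * (π : ℂ) * Complex.I * e j))).cexp).const_mul
      (c j / (2 * π * Complex.I * e j))
    convert! h1 using 1
    have : (2 * (π : ℂ) * Complex.I * e j) ≠ 0 := by simp [h, Real.pi_ne_zero]
    simp only [id, mul_one]
    field_simp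

theorem qPolyPrim_add_one (z : ℂ) :
    qPolyPrim c e (z + 1) - qPolyPrim c e z = ∑ j, if e j = 0 then c j else 0 := by
  rw [qPolyPrim, qPolyPrim, ← Finset.sum_sub_distrib]
  refine Finset.sum_congr rfl fun j _ => ?_
  by_cases h : e j = 0
  · simp only [if_pos h]
    ring
  · simp only [if_neg h, qParam_one_add_one_zpow, sub_self]

theorem qPoly_add_one (z : ℂ) : qPoly c e (z + 1) = qPoly c e z := by
  simp only [qPoly, qParam_one_add_one_zpow]

theorem differentiableAt_qPoly (z : ℂ) : DifferentiableAt ℂ (qPoly c e) z := by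
  refine DifferentiableAt.fun_sum fun j _ => ?_
  simp_rw [qParam_one_zpow]
  fun_prop

/-- A level one weight two function at `γ τ`. -/
theorem apply_smul_eq_mul_denom {h : ℍ → ℂ} (hinv : ∀ γ : SL(2, ℤ), h ∣[(2 : ℤ)] γ = h)
    (γ : SL(2, ℤ)) (τ : ℍ) : h (γ • τ) = h τ * denom γ τ ^ (2 : ℤ) := by
  have h1 := congrFun (hinv γ) τ
  rw [ModularForm.SL_slash_apply, zpow_neg] at h1
  have hd : denom (γ : GL (Fin 2) ℝ) (τ : ℂ) ≠ 0 := UpperHalfPlane.denom_ne_zero _ τ
  rw [← h1]
  field_simp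

/-- A level one weight two function minus a Laurent polynomial in `q` is `1`-periodic. -/
theorem sub_qPoly_add_one {h : ℍ → ℂ} (hinv : ∀ γ : SL(2, ℤ), h ∣[(2 : ℤ)] γ = h) {z : ℂ}
    (hz : z ∈ uhpSet) :
    h (UpperHalfPlane.ofComplex (z + 1)) - qPoly c e (z + 1) =
      h (UpperHalfPlane.ofComplex z) - qPoly c e z := by
  have hT : h ((1 : ℝ) +ᵥ (⟨z, hz⟩ : ℍ)) = h ⟨z, hz⟩ := by
    rw [← modular_T_smul, apply_smul_eq_mul_denom hinv]
    simp [UpperHalfPlane.denom, T]
  have hz' : 0 < (z + 1).im := by simpa using hz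
  rw [qPoly_add_one, ofComplex_apply_of_im_pos hz', ofComplex_apply_of_im_pos hz, ← hT]
  congr 2
  refine UpperHalfPlane.ext ?_
  simp [coe_vadd, add_comm]

/-- If `h - qPoly` is periodic and tends to zero at `i∞`, it decays exponentially. -/
theorem decays_sub_qPoly {h : ℍ → ℂ} (hol : MDiff h)
    (hRper : ∀ z ∈ uhpSet, h (UpperHalfPlane.ofComplex (z + 1)) - qPoly c e (z + 1) =
      h (UpperHalfPlane.ofComplex z) - qPoly c e z)
    (hlim : Tendsto (fun τ : ℍ => h τ - qPoly c e (τ : ℂ)) atImInfty (𝓝 0)) :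
    Decays fun z => h (UpperHalfPlane.ofComplex z) - qPoly c e z := by
  set F : ℂ → ℂ := fun z => h (UpperHalfPlane.ofComplex z)
  set R : ℂ → ℂ := fun z => F z - qPoly c e z with hR
  have hFd : DifferentiableOn ℂ F uhpSet := UpperHalfPlane.mdifferentiable_iff.mp hol
  refine ⟨hFd.sub fun z _ => (differentiableAt_qPoly c e z).differentiableWithinAt, ?_⟩
  set R' : ℂ → ℂ := fun z => if 0 < z.im then R z else 0 with hR'
  have hper : Function.Periodic R' (1 : ℝ) := by
    intro z
    by_cases hz : 0 < z.im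
    · have hz' : 0 < (z + ((1 : ℝ) : ℂ)).im := by simpa using hz
      simp only [hR', if_pos hz, if_pos hz']
      simpa using hRper z hz
    · have hz' : ¬ 0 < (z + ((1 : ℝ) : ℂ)).im := by simpa using hz
      simp only [hR', if_neg hz, if_neg hz']
  have him : ∀ᶠ z in comap Complex.im atTop, 0 < z.im :=
    preimage_mem_comap (Ioi_mem_atTop 0)
  have hdiff : ∀ᶠ z in comap Complex.im atTop, DifferentiableAt ℂ R' z := by
    filter_upwards [him] with z hz
    have hopen : uhpSet ∈ 𝓝 z := isOpen_uhpSet.mem_nhds hz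
    have hdR : DifferentiableAt ℂ R z :=
      (hFd.differentiableAt hopen).sub (differentiableAt_qPoly c e z)
    refine hdR.congr_of_eventuallyEq ?_
    filter_upwards [hopen] with w hw
    simp only [hR', if_pos (show 0 < w.im from hw)]
  have hzero : ZeroAtFilter (comap Complex.im atTop) R' := by
    refine ((hlim.comp tendsto_comap_im_ofComplex)).congr' ?_
    filter_upwards [him] with z hz
    simp only [hR', if_pos hz, Function.comp_apply, hR, F, ofComplex_apply_of_im_pos hz]
  obtain ⟨C, hC⟩ := (Function.Periodic.exp_decay_of_zero_at_inf one_pos hper hdiff hzero).bound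
  obtain ⟨A, hA⟩ : ∃ A : ℝ, ∀ z : ℂ, A ≤ z.im →
      ‖R' z‖ ≤ C * ‖Real.exp (-2 * π * z.im / 1)‖ := by
    rw [eventually_comap, eventually_atTop] at hC
    obtain ⟨A, hA⟩ := hC
    exact ⟨A, fun z hz => hA z.im hz z rfl⟩
  refine ⟨C, 2 * π, max A 1, by positivity, fun z hz => ?_⟩
  have hz1 : 0 < z.im := lt_of_lt_of_le one_pos ((le_max_right _ _).trans hz)
  have h1 := hA z ((le_max_left _ _).trans hz)
  simp only [hR', if_pos hz1, Real.norm_eq_abs, Real.abs_exp, div_one] at h1
  rwa [show -(2 * π * z.im) = -2 * π * z.im by ring]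

/-- The primitive of a periodic decaying function is periodic. -/
theorem prim_add_one {R : ℂ → ℂ} (hR : Decays R) (hper : ∀ z ∈ uhpSet, R (z + 1) = R z)
    {z : ℂ} (hz : z ∈ uhpSet) : prim R (z + 1) = prim R z := by
  have hP := hR.isPrim_prim
  set P := prim R
  refine eqOn_of_vertZero (h := R) (H₁ := fun w => P (w + 1)) (H₂ := P) (fun w hw => ?_) hP.1
    (fun x => ?_) (fun x => hP.2.tendsto_zero x) z hz
  · have hw' : w + 1 ∈ uhpSet := by simpa using hw
    have := (hP.1 (w + 1) hw').comp_add_const w 1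
    rwa [hper w hw] at this
  · refine (hP.2.tendsto_zero (x + 1)).congr fun y => ?_
    congr 1
    push_cast
    ring

/-- A primitive of a level one weight two function, translated by `γ`, is again one. -/
theorem hasDerivAt_comp_smul {h : ℍ → ℂ} (hinv : ∀ γ : SL(2, ℤ), h ∣[(2 : ℤ)] γ = h)
    {G : ℂ → ℂ}
    (hG : ∀ z ∈ uhpSet, HasDerivAt G (h (UpperHalfPlane.ofComplex z)) z) (γ : SL(2, ℤ)) {z : ℂ}
    (hz : z ∈ uhpSet) :
    HasDerivAt (fun w => G ((γ • UpperHalfPlane.ofComplex w : ℍ) : ℂ))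
      (h (UpperHalfPlane.ofComplex z)) z := by
  set τ : ℍ := ⟨z, hz⟩
  have hdet : ((γ 0 0 : ℂ) * γ 1 1 - γ 0 1 * γ 1 0) = 1 := by
    exact_mod_cast (Matrix.det_fin_two γ.1).symm.trans γ.2
  have hden : (γ 1 0 : ℂ) * z + γ 1 1 ≠ 0 := by
    have := UpperHalfPlane.denom_ne_zero (γ : GL (Fin 2) ℝ) τ
    simpa [UpperHalfPlane.denom] using this
  have hmob : HasDerivAt (fun w : ℂ => ((γ 0 0 : ℂ) * w + γ 0 1) / ((γ 1 0 : ℂ) * w + γ 1 1))
      (1 / ((γ 1 0 : ℂ) * z + γ 1 1) ^ 2) z := by
    have h1 := (((hasDerivAt_id z).const_mul (γ 0 0 : ℂ)).add_const (γ 0 1 : ℂ)).div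
      (((hasDerivAt_id z).const_mul (γ 1 0 : ℂ)).add_const (γ 1 1 : ℂ)) hden
    convert! h1 using 1
    simp only [id, mul_one]
    congr 1
    linear_combination -hdet
  have hval : ∀ w : ℂ, 0 < w.im → ((γ • UpperHalfPlane.ofComplex w : ℍ) : ℂ) =
      ((γ 0 0 : ℂ) * w + γ 0 1) / ((γ 1 0 : ℂ) * w + γ 1 1) := by
    intro w hw
    rw [ofComplex_apply_of_im_pos hw, specialLinearGroup_apply]
    simp
  have hpos : 0 < (((γ 0 0 : ℂ) * z + γ 0 1) / ((γ 1 0 : ℂ) * z + γ 1 1)).im := by
    rw [← hval z hz]; exact UpperHalfPlane.im_pos _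
  have h2 := (hG _ hpos).comp z hmob
  have hFval :
      h (UpperHalfPlane.ofComplex (((γ 0 0 : ℂ) * z + γ 0 1) / ((γ 1 0 : ℂ) * z + γ 1 1))) *
      (1 / ((γ 1 0 : ℂ) * z + γ 1 1) ^ 2) = h (UpperHalfPlane.ofComplex z) := by
    rw [← hval z hz, ofComplex_apply, apply_smul_eq_mul_denom hinv, ofComplex_apply_of_im_pos hz]
    have : denom (γ : GL (Fin 2) ℝ) ((⟨z, hz⟩ : ℍ) : ℂ) = (γ 1 0 : ℂ) * z + γ 1 1 := by
      simp [UpperHalfPlane.denom]
    rw [this]
    field_simp
  rw [hFval] at h2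
  refine h2.congr_of_eventuallyEq ?_
  filter_upwards [isOpen_uhpSet.mem_nhds hz] with w hw
  simp only [Function.comp_apply, hval w hw]

/-- A homomorphism `SL(2, ℤ) → ℂ` vanishes at `T`, as `S` and `S T` have finite order. -/
theorem apply_T_eq_zero {φ : SL(2, ℤ) → ℂ} (hmul : ∀ γ δ, φ (γ * δ) = φ γ + φ δ) : φ T = 0 := by
  have hone : φ 1 = 0 := by simpa using hmul 1 1
  have hpow : ∀ (γ : SL(2, ℤ)) (n : ℕ), φ (γ ^ n) = n * φ γ := by
    intro γ n
    induction n with
    | zero => simp [hone]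
    | succ n ih => rw [pow_succ, hmul, ih]; push_cast; ring
  have hS : φ S = 0 := by
    have h4 : S ^ 4 = (1 : SL(2, ℤ)) := by decide
    have := hpow S 4
    rw [h4, hone] at this
    simpa using this
  have hST : φ (S * T) = 0 := by
    have h6 : (S * T) ^ 6 = (1 : SL(2, ℤ)) := by decide
    have := hpow (S * T) 6
    rw [h6, hone] at this
    simpa using this
  rwa [hmul, hS, zero_add] at hST

/-- The constant term of a level one weight two function is zero. -/
theorem sum_eq_zero_of_tendsto {h : ℍ → ℂ} (hol : MDiff h)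
    (hinv : ∀ γ : SL(2, ℤ), h ∣[(2 : ℤ)] γ = h)
    (hlim : Tendsto (fun τ : ℍ => h τ - qPoly c e (τ : ℂ)) atImInfty (𝓝 0)) :
    (∑ j, if e j = 0 then c j else 0) = 0 := by
  set R : ℂ → ℂ := fun z => h (UpperHalfPlane.ofComplex z) - qPoly c e z with hR
  have hRper : ∀ z ∈ uhpSet, R (z + 1) = R z := fun z hz => sub_qPoly_add_one c e hinv hz
  have hdec : Decays R := decays_sub_qPoly c e hol hRper hlim
  set G : ℂ → ℂ := fun z => prim R z + qPolyPrim c e z
  have hG : ∀ z ∈ uhpSet, HasDerivAt G (h (UpperHalfPlane.ofComplex z)) z := by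
    intro z hz
    refine ((hdec.isPrim_prim.1 z hz).add (hasDerivAt_qPolyPrim c e z)).congr_deriv ?_
    simp [hR]
  -- the periods of the primitive
  set per : SL(2, ℤ) → ℂ := fun γ =>
    G ((γ • UpperHalfPlane.I : ℍ) : ℂ) - G (UpperHalfPlane.I : ℍ) with hper
  have hconst : ∀ (γ : SL(2, ℤ)) (τ : ℍ), G ((γ • τ : ℍ) : ℂ) = G τ + per γ := by
    intro γ τ
    obtain ⟨C, hC⟩ := eq_add_const_of_hasDerivAt (fun z => hasDerivAt_comp_smul hinv hG γ) hG
    have e1 := hC τ τ.im_pos
    have e2 := hC (UpperHalfPlane.I : ℂ) UpperHalfPlane.I.im_pos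
    simp only [ofComplex_apply] at e1 e2
    linear_combination e1 - e2
  have hmul : ∀ γ δ : SL(2, ℤ), per (γ * δ) = per γ + per δ := by
    intro γ δ
    have h1 := hconst γ (δ • UpperHalfPlane.I)
    rw [← mul_smul] at h1
    simp only [hper] at h1 ⊢
    linear_combination h1
  have hfin : qPolyPrim c e ((UpperHalfPlane.I : ℂ) + 1) - qPolyPrim c e UpperHalfPlane.I = 0 := by
    have h1 := hconst T UpperHalfPlane.I
    rw [apply_T_eq_zero hmul, add_zero, modular_T_smul] at h1
    simp only [G, coe_vadd, Complex.ofReal_one] at h1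
    rw [show (1 : ℂ) + UpperHalfPlane.I = (UpperHalfPlane.I : ℂ) + 1 by ring,
      prim_add_one hdec hRper UpperHalfPlane.I.im_pos] at h1
    linear_combination h1
  rwa [qPolyPrim_add_one] at hfin

end Fermat.Agent.OrdinaryCurve
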