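import Fermat.Agent.OrdinaryCurve.Point

/-!
Bounded power series on the open unit disc: evaluation, division by `X - a`, and the order of
vanishing at a point of the disc.
-/

set_option autoImplicit false

noncomputable section

open PowerSeries Finset

namespace Fermat.Agent.OrdinaryCurve

variable {K : Type*} [NormedField K] [IsUltrametricDist K]

variable (K) in
/-- Power series with bounded coefficients. -/
def boundedSeries : Subring K⟦X⟧ where
  carrier := {r | IsBoundedSeries r}
  one_mem' := ⟨1, fun l => by rw [coeff_one]; split_ifs <;> simp⟩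
  zero_mem' := ⟨0, fun l => by simp⟩
  neg_mem' := fun {r} ⟨M, hM⟩ => ⟨M, fun l => by rw [map_neg, norm_neg]; exact hM l⟩
  add_mem' := fun {r s} ⟨M, hM⟩ ⟨M', hM'⟩ => ⟨M + M', fun l => by
    rw [map_add]
    exact (norm_add_le _ _).trans (add_le_add (hM l) (hM' l))⟩
  mul_mem' := fun {r s} ⟨M, hM⟩ ⟨M', hM'⟩ => ⟨M * M', fun l => by
    rw [coeff_mul]
    refine IsUltrametricDist.norm_sum_le_of_forall_le_of_nonneg
      (mul_nonneg ((norm_nonneg _).trans (hM 0)) ((norm_nonneg _).trans (hM' 0))) fun ab _ => ?_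
    rw [norm_mul]
    exact mul_le_mul (hM _) (hM' _) (norm_nonneg _) ((norm_nonneg _).trans (hM ab.1))⟩

/-- Membership in `boundedSeries`. -/
theorem mem_boundedSeries {r : K⟦X⟧} : r ∈ boundedSeries K ↔ IsBoundedSeries r := Iff.rfl

/-- Constants are bounded. -/
theorem C_mem_boundedSeries (c : K) : (C c : K⟦X⟧) ∈ boundedSeries K :=
  ⟨‖c‖, fun l => by rw [coeff_C]; split_ifs <;> simp⟩

/-- `X` is bounded. -/
theorem X_mem_boundedSeries : (X : K⟦X⟧) ∈ boundedSeries K :=
  ⟨1, fun l => by rw [coeff_X]; split_ifs <;> simp⟩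

/-- Series with integral coefficients are bounded. -/
theorem mem_boundedSeries_of_le_one {r : K⟦X⟧} (h : ∀ l, ‖coeff l r‖ ≤ 1) : r ∈ boundedSeries K :=
  ⟨1, h⟩

/-- Linear series are bounded. -/
theorem X_sub_C_mem_boundedSeries (a : K) : (X - C a : K⟦X⟧) ∈ boundedSeries K :=
  sub_mem X_mem_boundedSeries (C_mem_boundedSeries a)

section Eval

variable [CompleteSpace K] (a : DiscPoint K)

omit [IsUltrametricDist K] [CompleteSpace K] in
theorem summable_norm_bdd {r : K⟦X⟧} (hr : IsBoundedSeries r) (k : ℕ) :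
    Summable fun n => ‖coeff (k + n) r * a.val ^ n‖ := by
  obtain ⟨M, hM⟩ := hr
  refine Summable.of_nonneg_of_le (fun n => norm_nonneg _) (fun n => ?_)
    ((summable_geometric_of_lt_one (norm_nonneg a.val) a.norm_lt).mul_left M)
  rw [norm_mul, norm_pow]
  exact mul_le_mul_of_nonneg_right (hM _) (pow_nonneg (norm_nonneg _) _)

omit [IsUltrametricDist K] in
/-- Bounded series converge on the disc. -/
theorem summable_bdd {r : K⟦X⟧} (hr : IsBoundedSeries r) (k : ℕ) :
    Summable fun n => coeff (k + n) r * a.val ^ n :=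
  (summable_norm_bdd a hr k).of_norm

/-- Evaluation of a bounded series at a point of the disc. -/
def evBdd : boundedSeries K →+* K where
  toFun r := ∑' n, coeff n (r : K⟦X⟧) * a.val ^ n
  map_one' := by
    rw [tsum_eq_single 0]
    · simp
    · intro n hn
      simp [coeff_one, hn]
  map_zero' := by simp
  map_add' r s := by
    rw [← (by simpa using summable_bdd a r.2 0 :
      Summable fun n => coeff n (r : K⟦X⟧) * a.val ^ n).tsum_add
      (by simpa using summable_bdd a s.2 0)]
    exact tsum_congr fun n => by simp [add_mul]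
  map_mul' r s := by
    rw [tsum_mul_tsum_eq_tsum_sum_antidiagonal_of_summable_norm
      (by simpa using summable_norm_bdd a r.2 0) (by simpa using summable_norm_bdd a s.2 0)]
    refine tsum_congr fun n => ?_
    rw [Subring.coe_mul, coeff_mul, Finset.sum_mul]
    refine Finset.sum_congr rfl fun ij hij => ?_
    rw [Finset.HasAntidiagonal.mem_antidiagonal] at hij
    rw [← hij, pow_add]
    ring

/-- Evaluation of a bounded series is the sum of the series. -/
theorem evBdd_apply (r : boundedSeries K) :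
    evBdd a r = ∑' n, coeff n (r : K⟦X⟧) * a.val ^ n := rfl

/-- Evaluation of a constant. -/
theorem evBdd_C (c : K) : evBdd a ⟨C c, C_mem_boundedSeries c⟩ = c := by
  rw [evBdd_apply, tsum_eq_single 0]
  · simp
  · intro n hn
    simp [coeff_C, hn]

/-- Evaluation of `X`. -/
theorem evBdd_X : evBdd a ⟨X, X_mem_boundedSeries⟩ = a.val := by
  rw [evBdd_apply, tsum_eq_single 1]
  · simp
  · intro n hn
    simp [coeff_X, hn]

/-- Evaluation of `X - b`. -/
theorem evBdd_X_sub_C (b : K) :
    evBdd a ⟨X - C b, X_sub_C_mem_boundedSeries b⟩ = a.val - b := by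
  have : (⟨X - C b, X_sub_C_mem_boundedSeries b⟩ : boundedSeries K) =
      ⟨X, X_mem_boundedSeries⟩ - ⟨C b, C_mem_boundedSeries b⟩ := rfl
  rw [this, map_sub, evBdd_X, evBdd_C]

/-- The quotient of `r - r (a)` by `X - a`. -/
def divX (r : K⟦X⟧) : K⟦X⟧ := mk fun l => ∑' n, coeff (l + 1 + n) r * a.val ^ n

omit [CompleteSpace K] in
/-- `divX` preserves bounds. -/
theorem divX_bound {r : K⟦X⟧} {M : ℝ} (hM : ∀ l, ‖coeff l r‖ ≤ M) (l : ℕ) :
    ‖coeff l (divX a r)‖ ≤ M := by
  rw [divX, coeff_mk]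
  refine IsUltrametricDist.norm_tsum_le_of_forall_le_of_nonneg ((norm_nonneg _).trans (hM 0))
    fun n => ?_
  rw [norm_mul, norm_pow]
  exact (mul_le_of_le_one_right (norm_nonneg _)
    (pow_le_one₀ (norm_nonneg _) a.norm_lt.le)).trans (hM _)

omit [CompleteSpace K] in
/-- `divX` of a bounded series is bounded. -/
theorem divX_mem {r : K⟦X⟧} (hr : IsBoundedSeries r) : divX a r ∈ boundedSeries K :=
  let ⟨M, hM⟩ := hr
  ⟨M, divX_bound a hM⟩

omit [IsUltrametricDist K] in
/-- Splitting off the first term of a tail sum. -/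
theorem tsum_coeff_succ {r : K⟦X⟧} (hr : IsBoundedSeries r) (k : ℕ) :
    ∑' n, coeff (k + n) r * a.val ^ n =
      coeff k r + a.val * ∑' n, coeff (k + 1 + n) r * a.val ^ n := by
  rw [(summable_bdd a hr k).tsum_eq_zero_add, ← tsum_mul_left]
  refine congrArg₂ (· + ·) (by simp) (tsum_congr fun n => ?_)
  rw [show k + (n + 1) = k + 1 + n by ring, pow_succ]
  ring

/-- Division by `X - a` with remainder the value at `a`. -/
theorem eq_mul_divX (r : boundedSeries K) :
    (r : K⟦X⟧) = (X - C a.val) * divX a (r : K⟦X⟧) + C (evBdd a r) := by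
  ext l
  rw [map_add, sub_mul, map_sub, coeff_C_mul, divX, coeff_mk, coeff_C, evBdd_apply]
  rcases l with _ | l
  · rw [coeff_zero_X_mul, if_pos rfl]
    have h := tsum_coeff_succ a r.2 0
    simp only [zero_add] at h ⊢
    rw [h]
    ring
  · rw [coeff_succ_X_mul, coeff_mk, if_neg (Nat.succ_ne_zero l), add_zero,
      tsum_coeff_succ a r.2 (l + 1)]
    ring

/-- A bounded series vanishing at `a` is a multiple of `X - a`. -/
theorem exists_eq_mul_of_evBdd_eq_zero (r : boundedSeries K) (h : evBdd a r = 0) :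
    ∃ s : boundedSeries K, (r : K⟦X⟧) = (X - C a.val) * (s : K⟦X⟧) :=
  ⟨⟨divX a r, divX_mem a r.2⟩, by
    conv_lhs => rw [eq_mul_divX a r, h, map_zero, add_zero]⟩

omit [CompleteSpace K] in
/-- A bound for a series descends to its quotient by `X - a`. -/
theorem bound_of_mul {r s : K⟦X⟧} (hs : IsBoundedSeries s) (h : r = (X - C a.val) * s) {M : ℝ}
    (hM : ∀ l, ‖coeff l r‖ ≤ M) (l : ℕ) : ‖coeff l s‖ ≤ M := by
  obtain ⟨B, hB⟩ := hs
  have hM0 : 0 ≤ M := (norm_nonneg _).trans (hM 0)
  have hB0 : 0 ≤ B := (norm_nonneg _).trans (hB 0)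
  have hrec : ∀ m, coeff m s = coeff (m + 1) r + a.val * coeff (m + 1) s := fun m => by
    rw [h, sub_mul, map_sub, coeff_succ_X_mul, coeff_C_mul]
    ring
  have key : ∀ k m, ‖coeff m s‖ ≤ max M (‖a.val‖ ^ k * B) := by
    intro k
    induction k with
    | zero => exact fun m => le_max_of_le_right (by simpa using hB m)
    | succ k ih =>
      intro m
      rw [hrec m]
      refine (IsUltrametricDist.norm_add_le_max _ _).trans (max_le (le_max_of_le_left (hM _)) ?_)
      rw [norm_mul]
      refine (mul_le_mul_of_nonneg_left (ih (m + 1)) (norm_nonneg _)).trans ?_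
      rw [mul_max_of_nonneg _ _ (norm_nonneg a.val)]
      exact max_le_max (mul_le_of_le_one_left hM0 a.norm_lt.le) (by rw [pow_succ', mul_assoc])
  have hlim : Filter.Tendsto (fun k => max M (‖a.val‖ ^ k * B)) Filter.atTop (nhds (max M 0)) :=
    tendsto_const_nhds.max (by
      simpa using (tendsto_pow_atTop_nhds_zero_of_lt_one (norm_nonneg _) a.norm_lt).mul_const B)
  rw [max_eq_left hM0] at hlim
  exact ge_of_tendsto' hlim fun k => key k l

omit [CompleteSpace K] in
theorem bound_of_pow_mul {M : ℝ} (k : ℕ) :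
    ∀ {r s : K⟦X⟧}, IsBoundedSeries s → r = (X - C a.val) ^ k * s →
      (∀ l, ‖coeff l r‖ ≤ M) → ∀ l, ‖coeff l s‖ ≤ M := by
  induction k with
  | zero => intro r s _ h hM; simpa [h] using hM
  | succ k ih =>
    intro r s hs h hM
    refine bound_of_mul a hs rfl (ih ?_ (by rw [h, pow_succ, mul_assoc]) hM)
    exact mul_mem (X_sub_C_mem_boundedSeries a.val) (mem_boundedSeries.mpr hs)

/-- Bounded series have finite order at disc points. -/
theorem exists_order (r : boundedSeries K) (hr : r ≠ 0) :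
    ∃ k, ∃ s : boundedSeries K, (r : K⟦X⟧) = (X - C a.val) ^ k * (s : K⟦X⟧) ∧ evBdd a s ≠ 0 := by
  by_contra hcon
  push Not at hcon
  have hdiv : ∀ k, ∃ s : boundedSeries K, (r : K⟦X⟧) = (X - C a.val) ^ k * (s : K⟦X⟧) := by
    intro k
    induction k with
    | zero => exact ⟨r, by simp⟩
    | succ k ih =>
      obtain ⟨s, hs⟩ := ih
      obtain ⟨t, ht⟩ := exists_eq_mul_of_evBdd_eq_zero a s (hcon k s hs)
      exact ⟨t, by rw [hs, ht, pow_succ, mul_assoc]⟩
  obtain ⟨M, hM⟩ := r.2
  have hM0 : 0 ≤ M := (norm_nonneg _).trans (hM 0)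
  refine hr (Subtype.ext (ext fun m => ?_))
  rw [ZeroMemClass.coe_zero, map_zero, ← norm_le_zero_iff]
  have hlim : Filter.Tendsto (fun j => ‖a.val‖ ^ j * M) Filter.atTop (nhds 0) := by
    simpa using (tendsto_pow_atTop_nhds_zero_of_lt_one (norm_nonneg _) a.norm_lt).mul_const M
  refine ge_of_tendsto' hlim fun j => ?_
  obtain ⟨s, hs⟩ := hdiv (m + j)
  have hsb := bound_of_pow_mul a (m + j) s.2 hs hM
  have hP : ((X - C a.val) ^ (m + j) : K⟦X⟧) =
      ((Polynomial.X + Polynomial.C (-a.val)) ^ (m + j) : Polynomial K) := by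
    rw [Polynomial.coe_pow, Polynomial.coe_add, Polynomial.coe_X, Polynomial.coe_C, map_neg,
      sub_eq_add_neg]
  rw [hs, coeff_mul]
  refine IsUltrametricDist.norm_sum_le_of_forall_le_of_nonneg (by positivity) fun ij hij => ?_
  rw [Finset.HasAntidiagonal.mem_antidiagonal] at hij
  rw [norm_mul, hP, Polynomial.coeff_coe, Polynomial.coeff_X_add_C_pow, norm_mul, norm_pow,
    norm_neg]
  refine mul_le_mul ((mul_le_of_le_one_right (by positivity)
    (IsUltrametricDist.norm_natCast_le_one K _)).trans ?_) (hsb _) (norm_nonneg _) (by positivity)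
  exact pow_le_pow_of_le_one (norm_nonneg _) a.norm_lt.le (by omega)

open scoped Classical in
/-- The order of vanishing at a point of the disc. -/
def ordB (r : boundedSeries K) : ℕ :=
  if hr : r ≠ 0 then (exists_order a r hr).choose else 0

/-- The defining property of `ordB`. -/
theorem ordB_spec {r : boundedSeries K} (hr : r ≠ 0) :
    ∃ s : boundedSeries K,
      (r : K⟦X⟧) = (X - C a.val) ^ ordB a r * (s : K⟦X⟧) ∧ evBdd a s ≠ 0 := by
  rw [ordB, dif_pos hr]
  exact (exists_order a r hr).choose_spec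

/-- Divisibility by powers of `X - a` is read off `ordB`. -/
theorem exists_pow_dvd_iff {r : boundedSeries K} (hr : r ≠ 0) (k : ℕ) :
    (∃ s : boundedSeries K, (r : K⟦X⟧) = (X - C a.val) ^ k * (s : K⟦X⟧)) ↔ k ≤ ordB a r := by
  obtain ⟨s, hs, hs0⟩ := ordB_spec a hr
  constructor
  · rintro ⟨t, ht⟩
    by_contra hlt
    obtain ⟨d, rfl⟩ := Nat.exists_eq_add_of_lt (not_le.mp hlt)
    have hne : (X - C a.val : K⟦X⟧) ≠ 0 := by
      intro h
      have := congrArg (coeff 1) h
      simp at this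
    have h : (s : K⟦X⟧) = (X - C a.val) ^ (d + 1) * (t : K⟦X⟧) :=
      mul_left_cancel₀ (pow_ne_zero (ordB a r) hne)
        (by rw [← hs, ht, ← mul_assoc, ← pow_add, add_assoc])
    apply hs0
    have h' : s =
      (⟨X - C a.val, X_sub_C_mem_boundedSeries a.val⟩ : boundedSeries K) ^ (d + 1) * t :=
      Subtype.ext (by simpa using h)
    rw [h', map_mul, map_pow, evBdd_X_sub_C, sub_self, zero_pow (Nat.succ_ne_zero d), zero_mul]
  · intro hk
    refine ⟨⟨(X - C a.val) ^ (ordB a r - k) * (s : K⟦X⟧),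
      mul_mem (pow_mem (X_sub_C_mem_boundedSeries _) _) s.2⟩, ?_⟩
    rw [← mul_assoc, ← pow_add, Nat.add_sub_cancel' hk, hs]

/-- `ordB` is characterised by its defining property. -/
theorem ordB_eq {r : boundedSeries K} {k : ℕ} {s : boundedSeries K}
    (h : (r : K⟦X⟧) = (X - C a.val) ^ k * (s : K⟦X⟧)) (hs : evBdd a s ≠ 0) : ordB a r = k := by
  have hne : (X - C a.val : K⟦X⟧) ≠ 0 := by
    intro h
    have := congrArg (coeff 1) h
    simp at this
  have hs0 : (s : K⟦X⟧) ≠ 0 := by
    intro h0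
    exact hs (by rw [show s = 0 from Subtype.ext h0, map_zero])
  have hr : r ≠ 0 := by
    intro h0
    rw [h0, ZeroMemClass.coe_zero] at h
    exact mul_ne_zero (pow_ne_zero _ hne) hs0 h.symm
  obtain ⟨t, ht, ht0⟩ := ordB_spec a hr
  refine le_antisymm ?_ ((exists_pow_dvd_iff a hr k).mp ⟨s, h⟩)
  by_contra hlt
  obtain ⟨d, hd⟩ := Nat.exists_eq_add_of_lt (not_le.mp hlt)
  apply hs
  have h' : s =
    (⟨X - C a.val, X_sub_C_mem_boundedSeries a.val⟩ : boundedSeries K) ^ (d + 1) * t := by
    refine Subtype.ext (mul_left_cancel₀ (pow_ne_zero k hne) ?_)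
    rw [← h, ht, hd]
    simp only [Subring.coe_mul, SubmonoidClass.coe_pow]
    rw [← mul_assoc, ← pow_add, add_assoc]
  rw [h', map_mul, map_pow, evBdd_X_sub_C, sub_self, zero_pow (Nat.succ_ne_zero d), zero_mul]

/-- The order of vanishing is additive. -/
theorem ordB_mul {r s : boundedSeries K} (hr : r ≠ 0) (hs : s ≠ 0) :
    ordB a (r * s) = ordB a r + ordB a s := by
  obtain ⟨r', hr', hr0⟩ := ordB_spec a hr
  obtain ⟨s', hs', hs0⟩ := ordB_spec a hs
  refine ordB_eq a (s := r' * s') ?_ (by rw [map_mul]; exact mul_ne_zero hr0 hs0)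
  rw [Subring.coe_mul, Subring.coe_mul, hr', hs', pow_add]
  ring

/-- The order of a sum is at least the smaller order. -/
theorem le_ordB_add {r s : boundedSeries K} (hr : r ≠ 0) (hs : s ≠ 0) (hrs : r + s ≠ 0) {k : ℕ}
    (h1 : k ≤ ordB a r) (h2 : k ≤ ordB a s) : k ≤ ordB a (r + s) := by
  obtain ⟨r', hr'⟩ := (exists_pow_dvd_iff a hr k).mpr h1
  obtain ⟨s', hs'⟩ := (exists_pow_dvd_iff a hs k).mpr h2
  exact (exists_pow_dvd_iff a hrs k).mp
    ⟨r' + s', by rw [Subring.coe_add, Subring.coe_add, hr', hs', mul_add]⟩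

/-- A series not vanishing at `a` has order zero. -/
theorem ordB_eq_zero {r : boundedSeries K} (h : evBdd a r ≠ 0) : ordB a r = 0 :=
  ordB_eq a (s := r) (by simp) h

/-- `1` has order zero. -/
theorem ordB_one : ordB a 1 = 0 := ordB_eq_zero a (by simp)

/-- `X - a` has order one at `a`. -/
theorem ordB_X_sub_C_self :
    ordB a ⟨X - C a.val, X_sub_C_mem_boundedSeries a.val⟩ = 1 :=
  ordB_eq a (s := 1) (by simp) (by simp)

/-- `X - b` has order zero away from `b`. -/
theorem ordB_X_sub_C_of_ne {b : K} (h : b ≠ a.val) :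
    ordB a ⟨X - C b, X_sub_C_mem_boundedSeries b⟩ = 0 :=
  ordB_eq_zero a (by rw [evBdd_X_sub_C, sub_ne_zero]; exact h.symm)

end Eval

end Fermat.Agent.OrdinaryCurve
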