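import Fermat.Agent.OrdinaryCurve.DiscOrd
import Fermat.Agent.FunctionField.PlaceExists

/-!
Places at the points of the open disc at infinity of a function field inside Laurent series over
a complete nonarchimedean field.
-/

set_option autoImplicit false

noncomputable section

open PowerSeries AlgebraicCurve Fermat.Agent.FunctionField

namespace Fermat.Agent.OrdinaryCurve

variable {K : Type*} [NormedField K] [IsUltrametricDist K]
variable (F : IntermediateField K (LaurentSeries K))

/-- The disc at infinity of `F`: every function is a quotient of bounded series, and some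
function `h` is a parameter on the whole disc. -/
structure DiscData where
  h : F
  hser : K⟦X⟧
  h_eq : (h : LaurentSeries K) = HahnSeries.ofPowerSeries ℤ K hser
  h_zero : constantCoeff hser = 0
  h_one : coeff 1 hser = 1
  h_le : ∀ l, ‖coeff l hser‖ ≤ 1
  frac : ∀ f : F, ∃ x y : boundedSeries K, y ≠ 0 ∧
    (f : LaurentSeries K) * HahnSeries.ofPowerSeries ℤ K (y : K⟦X⟧) =
      HahnSeries.ofPowerSeries ℤ K (x : K⟦X⟧)

namespace DiscData

variable {F} (D : DiscData F)

/-- The parameter as a bounded series. -/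
def hbd : boundedSeries K := ⟨D.hser, mem_boundedSeries_of_le_one D.h_le⟩

/-- `(x, y)` represents `f`. -/
def Rep (f : F) (x y : boundedSeries K) : Prop :=
  y ≠ 0 ∧ (f : LaurentSeries K) * HahnSeries.ofPowerSeries ℤ K (y : K⟦X⟧) =
    HahnSeries.ofPowerSeries ℤ K (x : K⟦X⟧)

/-- The numerator of a nonzero function is nonzero. -/
theorem Rep.ne_zero {f : F} {x y : boundedSeries K} (h : Rep f x y) (hf : f ≠ 0) : x ≠ 0 := by
  rintro rfl
  have h2 := h.2
  rw [ZeroMemClass.coe_zero, map_zero, mul_eq_zero, ZeroMemClass.coe_eq_zero, or_iff_right hf] at h2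
  rw [← map_zero (HahnSeries.ofPowerSeries ℤ K)] at h2
  exact h.1 (Subtype.ext (HahnSeries.ofPowerSeries_injective h2))

/-- Two representations of a function agree after cross-multiplication. -/
theorem Rep.cross {f : F} {x y x' y' : boundedSeries K} (h : Rep f x y) (h' : Rep f x' y') :
    x * y' = x' * y := by
  refine Subtype.ext (HahnSeries.ofPowerSeries_injective (Γ := ℤ) (R := K) ?_)
  simp only [Subring.coe_mul, map_mul]
  rw [← h.2, ← h'.2]
  ring

/-- Representations of products. -/
theorem Rep.mul {f g : F} {x y x' y' : boundedSeries K} (h : Rep f x y) (h' : Rep g x' y') :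
    Rep (f * g) (x * x') (y * y') := by
  refine ⟨mul_ne_zero h.1 h'.1, ?_⟩
  simp only [Subring.coe_mul, map_mul, IntermediateField.coe_mul]
  rw [← h.2, ← h'.2]
  ring

/-- Representations of sums. -/
theorem Rep.add {f g : F} {x y x' y' : boundedSeries K} (h : Rep f x y) (h' : Rep g x' y') :
    Rep (f + g) (x * y' + x' * y) (y * y') := by
  refine ⟨mul_ne_zero h.1 h'.1, ?_⟩
  simp only [Subring.coe_mul, Subring.coe_add, map_mul, map_add, IntermediateField.coe_add]
  rw [← h.2, ← h'.2]
  ring

theorem rep_algebraMap (c : K) : Rep (algebraMap K F c) ⟨C c, C_mem_boundedSeries c⟩ 1 := by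
  refine ⟨one_ne_zero, ?_⟩
  rw [OneMemClass.coe_one, map_one, mul_one]
  show algebraMap K (LaurentSeries K) c = _
  rw [algebraMap_eq_C, HahnSeries.ofPowerSeries_C]

include D in
/-- Every function has a representation. -/
theorem exists_rep (f : F) : ∃ x y, Rep f x y := D.frac f

variable [CompleteSpace K] (a : DiscPoint K)

/-- The order of a function at a disc point. -/
def ordF (f : F) : ℤ :=
  (ordB a (D.frac f).choose : ℤ) - ordB a (D.frac f).choose_spec.choose

/-- `ordF` in terms of any representation. -/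
theorem ordF_eq {f : F} (hf : f ≠ 0) {x y : boundedSeries K} (h : Rep f x y) :
    D.ordF a f = (ordB a x : ℤ) - ordB a y := by
  have h' : Rep f (D.frac f).choose (D.frac f).choose_spec.choose :=
    (D.frac f).choose_spec.choose_spec
  have hc := congrArg (ordB a) (h.cross h')
  rw [ordB_mul a (h.ne_zero hf) h'.1, ordB_mul a (h'.ne_zero hf) h.1] at hc
  rw [ordF]
  omega

theorem ordF_mul {f g : F} (hf : f ≠ 0) (hg : g ≠ 0) :
    D.ordF a (f * g) = D.ordF a f + D.ordF a g := by
  obtain ⟨x, y, h⟩ := D.exists_rep f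
  obtain ⟨x', y', h'⟩ := D.exists_rep g
  rw [D.ordF_eq a (mul_ne_zero hf hg) (h.mul h'), D.ordF_eq a hf h, D.ordF_eq a hg h',
    ordB_mul a (h.ne_zero hf) (h'.ne_zero hg), ordB_mul a h.1 h'.1]
  push_cast
  ring

theorem ordF_algebraMap {c : K} (hc : c ≠ 0) : D.ordF a (algebraMap K F c) = 0 := by
  rw [D.ordF_eq a (by simpa using hc) (rep_algebraMap c), ordB_one,
    ordB_eq_zero a (by rw [evBdd_C]; exact hc)]
  simp

theorem ordF_one : D.ordF a 1 = 0 := by
  simpa using D.ordF_algebraMap a (one_ne_zero (α := K))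

theorem ordF_inv {f : F} (hf : f ≠ 0) : D.ordF a f⁻¹ = -D.ordF a f := by
  have h := D.ordF_mul a hf (inv_ne_zero hf)
  rw [mul_inv_cancel₀ hf, D.ordF_one] at h
  omega

theorem le_ordF_add {f g : F} (hf : f ≠ 0) (hg : g ≠ 0) (hfg : f + g ≠ 0) :
    min (D.ordF a f) (D.ordF a g) ≤ D.ordF a (f + g) := by
  obtain ⟨x, y, h⟩ := D.exists_rep f
  obtain ⟨x', y', h'⟩ := D.exists_rep g
  have hx := h.ne_zero hf
  have hx' := h'.ne_zero hg
  rw [D.ordF_eq a hf h, D.ordF_eq a hg h', D.ordF_eq a hfg (h.add h'), ordB_mul a h.1 h'.1]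
  have := le_ordB_add a (mul_ne_zero hx h'.1) (mul_ne_zero hx' h.1) ((h.add h').ne_zero hfg)
    (k := min (ordB a (x * y')) (ordB a (x' * y))) (min_le_left _ _) (min_le_right _ _)
  rw [ordB_mul a hx h'.1, ordB_mul a hx' h.1] at this
  omega

/-- The valuation subring of a disc point. -/
def discRing : ValuationSubring F where
  carrier := {f | f = 0 ∨ 0 ≤ D.ordF a f}
  zero_mem' := Or.inl rfl
  one_mem' := Or.inr (by rw [D.ordF_one])
  mul_mem' := fun {f g} hf hg => by
    rcases eq_or_ne f 0 with rfl | hf0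
    · exact Or.inl (zero_mul g)
    rcases eq_or_ne g 0 with rfl | hg0
    · exact Or.inl (mul_zero f)
    exact Or.inr (by
      rw [D.ordF_mul a hf0 hg0]
      exact add_nonneg (hf.resolve_left hf0) (hg.resolve_left hg0))
  add_mem' := fun {f g} hf hg => by
    rcases eq_or_ne f 0 with rfl | hf0
    · rwa [zero_add]
    rcases eq_or_ne g 0 with rfl | hg0
    · rwa [add_zero]
    rcases eq_or_ne (f + g) 0 with h | h
    · exact Or.inl h
    exact Or.inr ((le_min (hf.resolve_left hf0) (hg.resolve_left hg0)).trans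
      (D.le_ordF_add a hf0 hg0 h))
  neg_mem' := fun {f} hf => by
    rcases eq_or_ne f 0 with rfl | hf0
    · exact Or.inl neg_zero
    refine Or.inr ?_
    have hm1 : algebraMap K F (-1) = -1 := by rw [map_neg, map_one]
    rw [← neg_one_mul, D.ordF_mul a (by simp) hf0, ← hm1,
      D.ordF_algebraMap a (neg_ne_zero.mpr one_ne_zero), zero_add]
    exact hf.resolve_left hf0
  mem_or_inv_mem' := fun f => by
    rcases eq_or_ne f 0 with rfl | hf0
    · exact Or.inl (Or.inl rfl)
    rcases le_total 0 (D.ordF a f) with h | h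
    · exact Or.inl (Or.inr h)
    · exact Or.inr (Or.inr (by rw [D.ordF_inv a hf0]; omega))

theorem mem_discRing {f : F} : f ∈ D.discRing a ↔ f = 0 ∨ 0 ≤ D.ordF a f := Iff.rfl

/-- `(h - h (a)) / (X - a)` has no zero in the disc. -/
theorem evBdd_divX_hser (b : DiscPoint K) :
    evBdd b ⟨divX a D.hser, divX_mem a ⟨1, D.h_le⟩⟩ ≠ 0 := by
  set r : boundedSeries K := ⟨divX a D.hser, divX_mem a ⟨1, D.h_le⟩⟩ with hr
  have hb : ∀ l, ‖coeff l (r : K⟦X⟧)‖ ≤ 1 := divX_bound a D.h_le
  have e0 : coeff 0 (r : K⟦X⟧) = 1 + a.val * ∑' n, coeff (1 + 1 + n) D.hser * a.val ^ n := by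
    rw [hr, Subtype.coe_mk, divX, coeff_mk, zero_add, tsum_coeff_succ a ⟨1, D.h_le⟩ 1, D.h_one]
  have e1 := tsum_coeff_succ b r.2 0
  simp only [zero_add] at e1
  have hA : ‖∑' n, coeff (1 + 1 + n) D.hser * a.val ^ n‖ ≤ 1 :=
    IsUltrametricDist.norm_tsum_le_of_forall_le_of_nonneg zero_le_one fun n => by
      rw [norm_mul, norm_pow]
      exact mul_le_one₀ (D.h_le _) (pow_nonneg (norm_nonneg _) _)
        (pow_le_one₀ (norm_nonneg _) a.norm_lt.le)
  have hB : ‖∑' n, coeff (1 + n) (r : K⟦X⟧) * b.val ^ n‖ ≤ 1 :=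
    IsUltrametricDist.norm_tsum_le_of_forall_le_of_nonneg zero_le_one fun n => by
      rw [norm_mul, norm_pow]
      exact mul_le_one₀ (hb _) (pow_nonneg (norm_nonneg _) _)
        (pow_le_one₀ (norm_nonneg _) b.norm_lt.le)
  intro h0
  rw [evBdd_apply, e1, e0, add_assoc, add_eq_zero_iff_eq_neg] at h0
  have h1 := congrArg (‖·‖) h0
  simp only [norm_one, norm_neg] at h1
  refine absurd h1.symm (ne_of_lt (lt_of_le_of_lt (IsUltrametricDist.norm_add_le_max _ _)
    (max_lt ?_ ?_)))
  · rw [norm_mul]
    exact lt_of_le_of_lt (mul_le_of_le_one_right (norm_nonneg _) hA) a.norm_lt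
  · rw [norm_mul]
    exact lt_of_le_of_lt (mul_le_of_le_one_right (norm_nonneg _) hB) b.norm_lt

/-- The parameter centred at `a`. -/
def param : F := D.h - algebraMap K F (evBdd a D.hbd)

theorem rep_param : Rep (D.param a)
    (⟨X - C a.val, X_sub_C_mem_boundedSeries a.val⟩ * ⟨divX a D.hser, divX_mem a ⟨1, D.h_le⟩⟩)
    1 := by
  refine ⟨one_ne_zero, ?_⟩
  rw [OneMemClass.coe_one, map_one, mul_one, param, AddSubgroupClass.coe_sub, D.h_eq]
  show _ - algebraMap K (LaurentSeries K) _ = _
  rw [algebraMap_eq_C, ← HahnSeries.ofPowerSeries_C, ← map_sub]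
  congr 1
  rw [Subring.coe_mul, sub_eq_iff_eq_add]
  exact eq_mul_divX a D.hbd

/-- The parameter at a disc point is nonzero. -/
theorem param_ne_zero : D.param a ≠ 0 := by
  intro h
  have h1 : D.h = algebraMap K F (evBdd a D.hbd) := sub_eq_zero.mp h
  have h2 := congrArg (fun x : F => (x : LaurentSeries K)) h1
  simp only [D.h_eq] at h2
  rw [show ((algebraMap K F (evBdd a D.hbd) : F) : LaurentSeries K) =
      HahnSeries.ofPowerSeries ℤ K (C (evBdd a D.hbd)) by
    rw [HahnSeries.ofPowerSeries_C, ← algebraMap_eq_C]; rfl] at h2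
  have h3 := congrArg (coeff 1) (HahnSeries.ofPowerSeries_injective h2)
  simp [D.h_one] at h3

theorem ordF_param_self : D.ordF a (D.param a) = 1 := by
  rw [D.ordF_eq a (D.param_ne_zero a) (D.rep_param a), ordB_one]
  have h := ordB_eq a (r := ⟨X - C a.val, X_sub_C_mem_boundedSeries a.val⟩ *
    ⟨divX a D.hser, divX_mem a ⟨1, D.h_le⟩⟩) (k := 1) (by rw [pow_one]; rfl)
    (D.evBdd_divX_hser a a)
  rw [h]
  simp

theorem ordF_param_of_ne {b : DiscPoint K} (h : b.val ≠ a.val) : D.ordF b (D.param a) = 0 := by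
  rw [D.ordF_eq b (D.param_ne_zero a) (D.rep_param a), ordB_one, ordB_eq_zero]
  · simp
  · rw [map_mul, evBdd_X_sub_C]
    exact mul_ne_zero (sub_ne_zero.mpr h) (D.evBdd_divX_hser a b)

theorem discRing_ne_top : D.discRing a ≠ ⊤ := by
  intro h
  have hm : (D.param a)⁻¹ ∈ D.discRing a := h ▸ ValuationSubring.mem_top _
  rw [mem_discRing, D.ordF_inv a (D.param_ne_zero a), D.ordF_param_self] at hm
  rcases hm with hm | hm
  · exact inv_ne_zero (D.param_ne_zero a) hm
  · omega

theorem algebraMap_mem_discRing (c : K) : algebraMap K F c ∈ D.discRing a := by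
  rcases eq_or_ne c 0 with rfl | hc
  · rw [map_zero]; exact zero_mem _
  · exact Or.inr (by rw [D.ordF_algebraMap a hc])

variable [IsFunctionField K F]

/-- The place at a point of the disc. -/
def place : Place K F :=
  placeOfValuationSubring (D.discRing a) (D.algebraMap_mem_discRing a) (D.discRing_ne_top a)

/-- Membership in the valuation ring of a disc place. -/
theorem mem_place_iff {f : F} :
    f ∈ (D.place a).toValuationSubring ↔ f = 0 ∨ 0 ≤ D.ordF a f := Iff.rfl

theorem place_ord_nonneg_iff {f : F} (hf : f ≠ 0) :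
    0 ≤ (D.place a).ord f ↔ 0 ≤ D.ordF a f := by
  have h := (mem_iff_adicValuation_le_one (D.place a) (f := f))
  rw [D.mem_place_iff, (D.place a).adicValuation_le_one_iff, or_iff_right hf, or_iff_right hf] at h
  exact h.symm

/-- The order at a disc place is `ordF`. -/
theorem place_ord (f : F) (hf : f ≠ 0) : (D.place a).ord f = D.ordF a f := by
  have hzero : ∀ g : F, g ≠ 0 → D.ordF a g = 0 → (D.place a).ord g = 0 := by
    intro g hg h
    have h1 := (D.place_ord_nonneg_iff a hg).mpr h.ge
    have h2 := (D.place_ord_nonneg_iff a (inv_ne_zero hg)).mpr (by rw [D.ordF_inv a hg, h]; rfl)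
    rw [(D.place a).ord_inv] at h2
    omega
  have hpow : ∀ m : ℤ, D.ordF a (D.param a ^ m) = m := by
    intro m
    induction m using Int.induction_on with
    | zero => simp [D.ordF_one]
    | succ k ih =>
      rw [zpow_add_one₀ (D.param_ne_zero a),
        D.ordF_mul a (zpow_ne_zero _ (D.param_ne_zero a)) (D.param_ne_zero a), ih,
        D.ordF_param_self]
    | pred k ih =>
      rw [zpow_sub_one₀ (D.param_ne_zero a),
        D.ordF_mul a (zpow_ne_zero _ (D.param_ne_zero a)) (inv_ne_zero (D.param_ne_zero a)),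
        D.ordF_inv a (D.param_ne_zero a), ih, D.ordF_param_self]
      ring
  have key : ∀ g : F, g ≠ 0 → (D.place a).ord g = D.ordF a g * (D.place a).ord (D.param a) := by
    intro g hg
    have hp := zpow_ne_zero (-D.ordF a g) (D.param_ne_zero a)
    have h := hzero (g * D.param a ^ (-D.ordF a g)) (mul_ne_zero hg hp)
      (by rw [D.ordF_mul a hg hp, hpow]; ring)
    rw [(D.place a).ord_mul hg hp, (D.place a).ord_zpow] at h
    linarith
  obtain ⟨g, hg, hg1⟩ := exists_ord_eq (D.place a) 1
  rw [key g hg] at hg1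
  have he : (D.place a).ord (D.param a) = 1 := by
    rcases Int.eq_one_or_neg_one_of_mul_eq_one' hg1 with ⟨-, h⟩ | ⟨-, h⟩
    · exact h
    · have := (D.place_ord_nonneg_iff a (D.param_ne_zero a)).mpr (by rw [D.ordF_param_self]; omega)
      omega
  rw [key f hf, he, mul_one]

/-- The order at a disc place in terms of a representation. -/
theorem place_ord_of_rep {f : F} (hf : f ≠ 0) {x y : boundedSeries K} (h : Rep f x y) :
    (D.place a).ord f = (ordB a x : ℤ) - ordB a y := by
  rw [D.place_ord a f hf, D.ordF_eq a hf h]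

/-- Disc points are determined by their places. -/
theorem place_injective {a b : DiscPoint K} (h : D.place a = D.place b) : a.val = b.val := by
  by_contra hne
  have h1 := D.place_ord a (D.param a) (D.param_ne_zero a)
  rw [D.ordF_param_self, h, D.place_ord b (D.param a) (D.param_ne_zero a),
    D.ordF_param_of_ne a (Ne.symm hne)] at h1
  omega

end DiscData

end Fermat.Agent.OrdinaryCurve
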