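import Mathlib.NumberTheory.Basic
import Mathlib.NumberTheory.Padics.PadicVal.Basic
import Mathlib.RingTheory.PowerSeries.Log
import Mathlib.RingTheory.PowerSeries.Expand
import Mathlib.RingTheory.Ideal.Quotient.Operations
import Mathlib.Algebra.CharP.Quotient
import Mathlib.Data.Fintype.BigOperators
import Mathlib.Algebra.BigOperators.Field
import Mathlib.LinearAlgebra.Matrix.NonsingularInverse

/-!
Integrality of the series `z` with `L (z) = R` (for instance `R = c * log (1 + X)`), where `L` is
the vector of series `Σ_j Σ_k A (k * n_j) * y_j ^ k / k` attached to a sequence with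
`A (p * m) = U * A m + p * V * A (m / p)`, and `R` satisfies the same functional equation with
respect to a lift `σ` of Frobenius.
-/

set_option autoImplicit false

noncomputable section

open PowerSeries

namespace Fermat.Agent.OrdinaryCurve

section Coeff

variable {R : Type*} [CommRing R]

/-- Constant coefficients commute with `map`. -/
theorem const_map {S : Type*} [CommRing S] (f : R →+* S) (a : R⟦X⟧) :
    constantCoeff (PowerSeries.map f a) = f (constantCoeff a) := by
  rw [← coeff_zero_eq_constantCoeff_apply, coeff_map, coeff_zero_eq_constantCoeff_apply]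

/-- `map` commutes with substitution. -/
theorem map_subst' {S : Type*} [CommRing S] {h : R →+* S} {a : R⟦X⟧} (ha : HasSubst a)
    (f : R⟦X⟧) :
    PowerSeries.map h (f.subst a) = (PowerSeries.map h f).subst (PowerSeries.map h a) :=
  PowerSeries.map_subst ha f

theorem map_monomial' {S : Type*} [CommRing S] (h : R →+* S) (l : ℕ) (r : R) :
    PowerSeries.map h (monomial l r) = monomial l (h r) := by
  ext k
  simp only [coeff_map, coeff_monomial]
  split_ifs <;> simp

theorem expand_subst' {q : ℕ} (hq : q ≠ 0) {a : R⟦X⟧} (ha : HasSubst a) (f : R⟦X⟧) :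
    expand q hq (f.subst a) = f.subst (expand q hq a) := by
  rw [expand_apply, expand_apply, subst_comp_subst_apply ha (HasSubst.X_pow hq)]

/-- A coefficient of a substitution as a finite sum. -/
theorem coeff_subst_eq_sum {S : Type*} [CommRing S] [Algebra R S] {a : S⟦X⟧}
    (ha : constantCoeff a = 0) (f : R⟦X⟧) (l : ℕ) :
    coeff l (f.subst a) = ∑ d ∈ Finset.range (l + 1), coeff d f • coeff l (a ^ d) := by
  rw [coeff_subst' (HasSubst.of_constantCoeff_zero' ha)]
  refine finsum_eq_finsetSum_of_support_subset _ ?_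
  intro d hd
  simp only [Function.mem_support] at hd
  simp only [Finset.coe_range, Set.mem_Iio]
  by_contra hlt
  apply hd
  have hX : (X : S⟦X⟧) ∣ a := X_dvd_iff.mpr ha
  rw [(X_pow_dvd_iff.mp (pow_dvd_pow_of_dvd hX d)) l (by omega), smul_zero]

theorem coeff_pow_congr {a b : R⟦X⟧} {l : ℕ} (ha : constantCoeff a = 0) (hb : constantCoeff b = 0)
    (h : X ^ l ∣ a - b) {d : ℕ} (hd : 2 ≤ d) : coeff l (a ^ d) = coeff l (b ^ d) := by
  have hX : (X : R⟦X⟧) ∣ ∑ i ∈ Finset.range d, a ^ i * b ^ (d - 1 - i) := by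
    refine Finset.dvd_sum fun i _ => ?_
    rcases Nat.eq_zero_or_pos i with rfl | hi
    · exact Dvd.dvd.mul_left (dvd_pow (X_dvd_iff.mpr hb) (by omega)) _
    · exact Dvd.dvd.mul_right (dvd_pow (X_dvd_iff.mpr ha) (by omega)) _
  have h2 : (X : R⟦X⟧) ^ (l + 1) ∣ a ^ d - b ^ d := by
    rw [← geom_sum₂_mul, pow_succ']
    exact mul_dvd_mul hX h
  have := (X_pow_dvd_iff.mp h2) l (by omega)
  rwa [map_sub, sub_eq_zero] at this

theorem coeff_subst_add_monomial {S : Type*} [CommRing S] [Algebra R S] (f : R⟦X⟧) {b : S⟦X⟧}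
    (hb : constantCoeff b = 0) {l : ℕ} (hl : 1 ≤ l) (δ : S) :
    coeff l (f.subst (b + monomial l δ)) = coeff l (f.subst b) + coeff 1 f • δ := by
  have ha : constantCoeff (b + monomial l δ) = 0 := by
    rw [map_add, hb, ← coeff_zero_eq_constantCoeff_apply, coeff_monomial, if_neg (by omega),
      add_zero]
  rw [coeff_subst_eq_sum ha, coeff_subst_eq_sum hb]
  have key : ∀ d ∈ Finset.range (l + 1), coeff d f • coeff l ((b + monomial l δ) ^ d) =
      coeff d f • coeff l (b ^ d) + if d = 1 then coeff d f • δ else 0 := by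
    intro d _
    match d with
    | 0 => simp
    | 1 => simp [smul_add]
    | d + 2 =>
      rw [if_neg (by omega), add_zero, coeff_pow_congr ha hb ?_ (by omega)]
      rw [add_sub_cancel_left, X_pow_dvd_iff]
      intro m hm
      rw [coeff_monomial, if_neg (by omega)]
  rw [Finset.sum_congr rfl key, Finset.sum_add_distrib, Finset.sum_ite_eq',
    if_pos (Finset.mem_range.mpr (by omega))]

theorem coeff_subst_congr {S : Type*} [CommRing S] [Algebra R S] (f : R⟦X⟧) {a b : S⟦X⟧}
    (ha : constantCoeff a = 0) (hb : constantCoeff b = 0) {l : ℕ}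
    (h : ∀ m ≤ l, coeff m a = coeff m b) :
    coeff l (f.subst a) = coeff l (f.subst b) := by
  rw [coeff_subst_eq_sum ha, coeff_subst_eq_sum hb]
  refine Finset.sum_congr rfl fun d _ => ?_
  congr 1
  have h2 : (X : S⟦X⟧) ^ (l + 1) ∣ a - b := by
    rw [X_pow_dvd_iff]
    intro m hm
    rw [map_sub, h m (by omega), sub_self]
  have := (X_pow_dvd_iff.mp (h2.trans (sub_dvd_pow_sub_pow a b d))) l (by omega)
  rwa [map_sub, sub_eq_zero] at this

end Coeff

/-- If `p` divides `a - b`, then `p ^ (v + 1)` divides `a ^ k - b ^ k` for `p ^ v ∣ k`. -/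
theorem pow_dvd_pow_sub_pow {R : Type*} [CommRing R] {p : ℕ} {a b : R} (h : (p : R) ∣ a - b)
    {v k : ℕ} (hv : p ^ v ∣ k) : (p : R) ^ (v + 1) ∣ a ^ k - b ^ k := by
  obtain ⟨k', rfl⟩ := hv
  rw [pow_mul, pow_mul]
  exact (dvd_sub_pow_of_dvd_sub h v).trans (sub_dvd_pow_sub_pow _ _ _)

section Dwork

variable {p : ℕ} [hp : Fact p.Prime] {K : Type*} [Field K] [CharZero K]
variable {ι : Type*} [Fintype ι]

/-- The series `Σ_k A (k * n) i / k * y ^ k`. -/
def lam (A : ℕ → ι → K) (n : ℕ) (i : ι) : K⟦X⟧ := mk fun k => A (k * n) i / (k : K)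

omit [CharZero K] [Fintype ι] in
/-- The coefficients of `lam`. -/
@[simp] theorem coeff_lam (A : ℕ → ι → K) (n k : ℕ) (i : ι) :
    coeff k (lam A n i) = A (k * n) i / (k : K) := coeff_mk _ _

omit [CharZero K] [Fintype ι] in
/-- `lam` is fixed by maps fixing its coefficients. -/
theorem map_lam (σ : K →+* K) {A : ℕ → ι → K} (hA : ∀ m i, σ (A m i) = A m i) (n : ℕ) (i : ι) :
    PowerSeries.map σ (lam A n i) = lam A n i := by
  ext k
  rw [coeff_map, coeff_lam, map_div₀, hA, map_natCast]

/-- `L (z) i = Σ_j lam A (n j) i` evaluated at `z j`. -/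
def logVec {J : Type*} [Fintype J] (A : ℕ → ι → K) (n : J → ℕ) (z : J → K⟦X⟧) (i : ι) : K⟦X⟧ :=
  ∑ j, (lam A (n j) i).subst (z j)

/-- Data for the integrality lemma: an integral ring with a Frobenius lift and a sequence of
vectors satisfying `A (p * m) = U * A m + p * V * A (m / p)` (take `V = 0` at a prime dividing
the level, and `V = -1` at a prime not dividing it). -/
structure DworkData (p : ℕ) (K : Type*) [Field K] [CharZero K] (ι : Type*) [Fintype ι] where
  W : Subring K
  σ : K →+* K
  inv_mem : ∀ k : ℕ, ¬ p ∣ k → (k : K)⁻¹ ∈ W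
  not_inv_mem : (p : K)⁻¹ ∉ W
  σ_mem : ∀ x ∈ W, σ x ∈ W
  σ_frob : ∀ x ∈ W, ∃ y ∈ W, σ x - x ^ p = p * y
  A : ℕ → ι → K
  U : Matrix ι ι K
  V : Matrix ι ι K
  A_mem : ∀ m i, A m i ∈ W
  U_mem : ∀ i l, U i l ∈ W
  V_mem : ∀ i l, V i l ∈ W
  σ_A : ∀ m i, σ (A m i) = A m i
  A_mul : ∀ m i, A (p * m) i = ∑ l, U i l * A m l +
    (p : K) * if p ∣ m then ∑ l, V i l * A (m / p) l else 0

namespace DworkData

variable (D : DworkData p K ι)

/-- The defect of `lam` against its two expansions is integral. -/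
theorem lam_eq (n : ℕ) (i : ι) :
    ∃ G : D.W⟦X⟧, lam D.A n i = PowerSeries.map D.W.subtype G +
      ∑ l, (C (D.U i l / (p : K)) * expand p hp.out.ne_zero (lam D.A n l) +
        C (D.V i l / (p : K)) *
          expand p hp.out.ne_zero (expand p hp.out.ne_zero (lam D.A n l))) := by
  have hpr := hp.out
  suffices h : ∀ k, coeff k (lam D.A n i -
      ∑ l, (C (D.U i l / (p : K)) * expand p hpr.ne_zero (lam D.A n l) +
        C (D.V i l / (p : K)) * expand p hpr.ne_zero (expand p hpr.ne_zero (lam D.A n l)))) ∈ D.W by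
    refine ⟨PowerSeries.mk fun k => ⟨_, h k⟩, ext fun k => ?_⟩
    simp [map_sub]
  intro k
  simp only [map_sub, map_sum, map_add, coeff_C_mul, coeff_lam, coeff_expand]
  by_cases h : p ∣ k
  · obtain ⟨k', rfl⟩ := h
    simp only [dvd_mul_right, if_true, Nat.mul_div_cancel_left _ hpr.pos]
    rw [mul_assoc, D.A_mul, Finset.sum_add_distrib]
    have hU : ∑ l, D.U i l / (p : K) * (D.A (k' * n) l / (k' : K)) =
        (∑ l, D.U i l * D.A (k' * n) l) / ((p * k' : ℕ) : K) := by
      rw [Finset.sum_div]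
      exact Finset.sum_congr rfl fun l _ => by rw [Nat.cast_mul, div_mul_div_comm]
    rw [hU, add_div, add_sub_add_left_eq_sub]
    have hpK : (p : K) ≠ 0 := Nat.cast_ne_zero.mpr hpr.ne_zero
    by_cases h2 : p ∣ k'
    · obtain ⟨j, rfl⟩ := h2
      simp only [mul_assoc p j n, dvd_mul_right, if_true, Nat.mul_div_cancel_left _ hpr.pos]
      convert D.W.zero_mem using 1
      rw [sub_eq_zero, mul_div_assoc, Finset.sum_div, Finset.mul_sum]
      refine Finset.sum_congr rfl fun l _ => ?_
      rcases Nat.eq_zero_or_pos j with rfl | hj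
      · simp
      have hj0 : (j : K) ≠ 0 := Nat.cast_ne_zero.mpr hj.ne'
      push_cast
      field_simp
    · have hk0 : (k' : K) ≠ 0 := Nat.cast_ne_zero.mpr (by rintro rfl; exact h2 (dvd_zero p))
      simp only [if_neg h2, mul_zero, Finset.sum_const_zero, sub_zero]
      rw [Nat.cast_mul, mul_div_mul_left _ _ hpK, div_eq_mul_inv]
      refine D.W.mul_mem ?_ (D.inv_mem k' h2)
      split_ifs
      · exact D.W.sum_mem fun l _ => D.W.mul_mem (D.V_mem _ _) (D.A_mem _ _)
      · exact D.W.zero_mem
  · simp only [if_neg h, mul_zero, add_zero, Finset.sum_const_zero, sub_zero]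
    rw [div_eq_mul_inv]
    exact D.W.mul_mem (D.A_mem _ _) (D.inv_mem k h)

/-- A congruence modulo `p` between integral substitutions is preserved by `lam`. -/
theorem subst_congr_mod (n : ℕ) (i : ι) {a b : D.W⟦X⟧} (ha : constantCoeff a = 0)
    (hb : constantCoeff b = 0) (hab : (p : D.W⟦X⟧) ∣ a - b) (m : ℕ) :
    ∃ w ∈ D.W, coeff m ((lam D.A n i).subst (PowerSeries.map D.W.subtype a)) -
      coeff m ((lam D.A n i).subst (PowerSeries.map D.W.subtype b)) = p * w := by
  have ha' : constantCoeff (PowerSeries.map D.W.subtype a) = 0 := by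
    rw [const_map, ha, map_zero]
  have hb' : constantCoeff (PowerSeries.map D.W.subtype b) = 0 := by
    rw [const_map, hb, map_zero]
  rw [coeff_subst_eq_sum ha', coeff_subst_eq_sum hb', ← Finset.sum_sub_distrib]
  have key : ∀ k : ℕ, ∃ w ∈ D.W,
      coeff k (lam D.A n i) • coeff m (PowerSeries.map D.W.subtype a ^ k) -
      coeff k (lam D.A n i) • coeff m (PowerSeries.map D.W.subtype b ^ k) = p * w := by
    intro k
    rcases Nat.eq_zero_or_pos k with rfl | hk
    · exact ⟨0, D.W.zero_mem, by simp⟩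
    obtain ⟨v, k', hk', rfl⟩ :=
      Nat.exists_eq_pow_mul_and_not_dvd hk.ne' p hp.out.ne_one
    obtain ⟨c, hc⟩ := pow_dvd_pow_sub_pow hab (dvd_mul_right (p ^ v) k')
    refine ⟨D.A (p ^ v * k' * n) i * (k' : K)⁻¹ * (coeff m c : D.W), ?_, ?_⟩
    · exact D.W.mul_mem (D.W.mul_mem (D.A_mem _ _) (D.inv_mem k' hk')) (coeff m c).2
    have hc' : coeff m (PowerSeries.map D.W.subtype a ^ (p ^ v * k')) -
        coeff m (PowerSeries.map D.W.subtype b ^ (p ^ v * k')) =
          (p : K) ^ (v + 1) * (coeff m c : D.W) := by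
      rw [← map_pow, ← map_pow, ← map_sub, ← map_sub, hc, map_mul, map_pow, map_natCast,
        ← Nat.cast_pow, ← map_natCast (C (R := K)), coeff_C_mul, coeff_map, Nat.cast_pow]
      rfl
    rw [coeff_lam, smul_eq_mul, smul_eq_mul, ← mul_sub, hc', Nat.cast_mul, Nat.cast_pow]
    have hpK : (p : K) ≠ 0 := Nat.cast_ne_zero.mpr hp.out.ne_zero
    have hkK : (k' : K) ≠ 0 := Nat.cast_ne_zero.mpr (by rintro rfl; exact hk' (dvd_zero p))
    field_simp
    ring
  choose w hw hw' using key
  exact ⟨∑ k ∈ Finset.range (m + 1), w k, D.W.sum_mem fun k _ => hw k,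
    by rw [Finset.mul_sum]; exact Finset.sum_congr rfl fun k _ => hw' k⟩

/-- The Frobenius lift on `W`. -/
def σW : D.W →+* D.W := (D.σ.comp D.W.subtype).codRestrict D.W fun x => D.σ_mem x x.2

theorem pow_sub_expand_map (a : D.W⟦X⟧) :
    (p : D.W⟦X⟧) ∣ a ^ p - expand p hp.out.ne_zero (PowerSeries.map D.σW a) := by
  have hne : Ideal.span {(p : D.W)} ≠ ⊤ := by
    rw [Ne, Ideal.span_singleton_eq_top]
    intro h
    obtain ⟨u, hu⟩ := h
    apply D.not_inv_mem
    have h1 : (p : K) * ((u⁻¹ : D.Wˣ) : D.W) = 1 := by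
      have := congrArg (fun x : D.W => (x : K)) (hu ▸ u.mul_inv : (p : D.W) * (u⁻¹ : D.Wˣ) = 1)
      simpa using this
    rw [inv_eq_of_mul_eq_one_right h1]
    exact Subtype.mem _
  let π := Ideal.Quotient.mk (Ideal.span {(p : D.W)})
  have : Nontrivial (D.W ⧸ Ideal.span {(p : D.W)}) := Ideal.Quotient.nontrivial_iff.mpr hne
  have : CharP (D.W ⧸ Ideal.span {(p : D.W)}) p :=
    CharP.quotient D.W p (fun h => hne (Ideal.span_singleton_eq_top.mpr h))
  have hπ : π.comp D.σW = (frobenius _ p).comp π := by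
    refine RingHom.ext fun x => ?_
    rw [RingHom.comp_apply, RingHom.comp_apply, frobenius_def, ← map_pow,
      Ideal.Quotient.mk_eq_mk_iff_sub_mem, Ideal.mem_span_singleton]
    obtain ⟨y, hy, hxy⟩ := D.σ_frob x x.2
    exact ⟨⟨y, hy⟩, Subtype.ext hxy⟩
  have h0 : PowerSeries.map π (a ^ p - expand p hp.out.ne_zero (PowerSeries.map D.σW a)) = 0 := by
    rw [map_sub, map_pow, map_expand, sub_eq_zero]
    have : PowerSeries.map π (PowerSeries.map D.σW a) =
        PowerSeries.map (frobenius _ p) (PowerSeries.map π a) := by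
      ext k
      simp only [coeff_map]
      exact DFunLike.congr_fun hπ _
    rw [this]
    exact ((map_expand p hp.out.ne_zero _ _).symm.trans
      (MvPowerSeries.map_frobenius_expand p _)).symm
  have hk : ∀ k, (p : D.W) ∣
      coeff k (a ^ p - expand p hp.out.ne_zero (PowerSeries.map D.σW a)) := by
    intro k
    have := congrArg (coeff k) h0
    rwa [coeff_map, map_zero, Ideal.Quotient.eq_zero_iff_mem, Ideal.mem_span_singleton] at this
  choose q hq using hk
  refine ⟨PowerSeries.mk q, ext fun k => ?_⟩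
  rw [hq k, ← map_natCast (C (R := D.W)), coeff_C_mul, coeff_mk]

omit hp in
theorem log_sub_expand (hp : p.Prime) (k : ℕ) :
    coeff k (log K) - (p : K)⁻¹ * coeff k (expand p hp.ne_zero (log K)) ∈ D.W := by
  rw [coeff_expand]
  by_cases h : p ∣ k
  · obtain ⟨k', rfl⟩ := h
    rw [if_pos (dvd_mul_right p k'), Nat.mul_div_cancel_left _ hp.pos, coeff_log, coeff_log]
    rcases Nat.eq_zero_or_pos k' with rfl | hk'
    · simp
    rw [if_neg (mul_ne_zero hp.ne_zero hk'.ne'), if_neg hk'.ne']
    simp only [eq_ratCast, Rat.cast_div, Rat.cast_pow, Rat.cast_neg, Rat.cast_one, Rat.cast_natCast]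
    rw [Nat.cast_mul]
    rcases hp.eq_two_or_odd' with rfl | hodd
    · rcases Nat.even_or_odd k' with he | ho
      · convert D.W.zero_mem using 1
        rw [pow_succ, pow_mul, pow_succ (-1 : K) k', he.neg_one_pow]
        ring
      · have h2 : ¬ 2 ∣ k' := fun h => Nat.not_even_iff_odd.mpr ho (even_iff_two_dvd.mpr h)
        convert D.W.neg_mem (D.inv_mem k' h2) using 1
        rw [pow_succ, pow_mul, pow_succ (-1 : K) k', ho.neg_one_pow]
        have : (k' : K) ≠ 0 := Nat.cast_ne_zero.mpr hk'.ne'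
        push_cast
        field_simp
        ring
    · have : (-1 : K) ^ (p * k' + 1) = (-1) ^ (k' + 1) := by
        rw [pow_succ, pow_succ, pow_mul, hodd.neg_one_pow]
      rw [this]
      convert D.W.zero_mem using 1
      ring
  · rw [if_neg h, mul_zero, sub_zero, coeff_log]
    split_ifs with h0
    · exact D.W.zero_mem
    simp only [eq_ratCast, div_eq_mul_inv]
    push_cast
    exact D.W.mul_mem (D.W.pow_mem (D.W.neg_mem D.W.one_mem) _) (D.inv_mem k h)

/-- A right hand side with the same functional equation as `lam`. -/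
def HasFunctionalEquation (R : ι → K⟦X⟧) : Prop :=
  (∀ i, constantCoeff (R i) = 0) ∧ ∀ i m, coeff m (R i) -
    ∑ l, (D.U i l / (p : K) * coeff m (expand p hp.out.ne_zero (PowerSeries.map D.σ (R l))) +
      D.V i l / (p : K) * coeff m (expand p hp.out.ne_zero (expand p hp.out.ne_zero
        (PowerSeries.map D.σ (PowerSeries.map D.σ (R l)))))) ∈ D.W

/-- `c * log (1 + X)` has the functional equation when `c = U σ(c) + p V σ²(c)`. -/
theorem hasFunctionalEquation_log (c : ι → K) (hc : ∀ i, c i ∈ D.W)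
    (hUc : ∀ i, ∑ l, D.U i l * D.σ (c l) + (p : K) * ∑ l, D.V i l * D.σ (D.σ (c l)) = c i) :
    D.HasFunctionalEquation fun i => C (c i) * log K := by
  refine ⟨fun i => by simp, fun i m => ?_⟩
  have hpK : (p : K) ≠ 0 := Nat.cast_ne_zero.mpr hp.out.ne_zero
  simp only [map_mul, map_C, map_log, expand_C, coeff_C_mul]
  set L1 := coeff m (expand p hp.out.ne_zero (log K)) with hL1
  set L2 := coeff m (expand p hp.out.ne_zero (expand p hp.out.ne_zero (log K))) with hL2
  set A1 := ∑ l, D.U i l * D.σ (c l) with hA1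
  set A2 := ∑ l, D.V i l * D.σ (D.σ (c l)) with hA2
  have h1 : coeff m (log K) - (p : K)⁻¹ * L1 ∈ D.W := D.log_sub_expand hp.out m
  have h2 : L1 - (p : K)⁻¹ * L2 ∈ D.W := by
    rw [hL1, hL2, coeff_expand, coeff_expand]
    split_ifs
    · exact D.log_sub_expand hp.out (m / p)
    · rw [mul_zero, sub_zero]
      exact D.W.zero_mem
  have hA1' : A1 ∈ D.W := D.W.sum_mem fun l _ => D.W.mul_mem (D.U_mem _ _) (D.σ_mem _ (hc l))
  have hA2' : A2 ∈ D.W :=
    D.W.sum_mem fun l _ => D.W.mul_mem (D.V_mem _ _) (D.σ_mem _ (D.σ_mem _ (hc l)))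
  have hsum : ∑ l, (D.U i l / (p : K) * (D.σ (c l) * L1) +
      D.V i l / (p : K) * (D.σ (D.σ (c l)) * L2)) = A1 * L1 / p + A2 * L2 / p := by
    rw [hA1, hA2, Finset.sum_mul, Finset.sum_mul, Finset.sum_div, Finset.sum_div,
      ← Finset.sum_add_distrib]
    exact Finset.sum_congr rfl fun l _ => by ring
  have key : c i * coeff m (log K) - (A1 * L1 / p + A2 * L2 / p) =
      A1 * (coeff m (log K) - (p : K)⁻¹ * L1) + (p : K) * A2 * (coeff m (log K) - (p : K)⁻¹ * L1) +
        A2 * (L1 - (p : K)⁻¹ * L2) := by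
    rw [← hUc i]
    field_simp
    ring
  rw [hsum, key]
  exact D.W.add_mem (D.W.add_mem (D.W.mul_mem hA1' h1)
    (D.W.mul_mem (D.W.mul_mem (natCast_mem D.W p) hA2') h1)) (D.W.mul_mem hA2' h2)

variable (R : ι → K⟦X⟧) (hR : D.HasFunctionalEquation R)

include hR in
/-- The key congruence: if the equation holds below degree `m`, its defect in degree `m` is
integral. -/
theorem defect_mem {J : Type*} [Fintype J] (n : J → ℕ) (z : J → D.W⟦X⟧)
    (hz : ∀ j, constantCoeff (z j) = 0) {m : ℕ} (hm : 1 ≤ m)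
    (hlt : ∀ i, ∀ l < m, coeff l (logVec D.A n (fun j => PowerSeries.map D.W.subtype (z j)) i) =
      coeff l (R i)) (i : ι) :
    coeff m (logVec D.A n (fun j => PowerSeries.map D.W.subtype (z j)) i) -
      coeff m (R i) ∈ D.W := by
  have hpr := hp.out
  have hpne := hp.out.ne_zero
  choose G hG using fun j => D.lam_eq (n j) i
  set zK := fun j => PowerSeries.map D.W.subtype (z j) with hzK
  have hzK0 : ∀ j, constantCoeff (zK j) = 0 := fun j => by rw [hzK, const_map, hz, map_zero]
  have hS : ∀ j, HasSubst (zK j) := fun j => HasSubst.of_constantCoeff_zero' (hzK0 j)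
  -- functional equation after substitution
  have hfe : ∀ j, coeff m ((lam D.A (n j) i).subst (zK j)) =
      coeff m ((PowerSeries.map D.W.subtype (G j)).subst (zK j)) +
      ∑ l, (D.U i l / (p : K) * coeff m ((lam D.A (n j) l).subst (zK j ^ p)) +
        D.V i l / (p : K) * coeff m ((lam D.A (n j) l).subst ((zK j ^ p) ^ p))) := by
    intro j
    conv_lhs => rw [hG j, ← coe_substAlgHom (hS j), map_add, map_sum]
    rw [map_add, map_sum]
    simp only [map_mul, map_add, coe_substAlgHom]
    congr 1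
    refine Finset.sum_congr rfl fun l _ => ?_
    have hex : ∀ f : K⟦X⟧, (expand p hpne f).subst (zK j) = f.subst (zK j ^ p) := by
      intro f
      rw [expand_apply, subst_comp_subst_apply (HasSubst.X_pow hpne) (hS j), subst_pow (hS j),
        subst_X (hS j)]
    have hS' : HasSubst (zK j ^ p) :=
      HasSubst.of_constantCoeff_zero' (by rw [map_pow, hzK0, zero_pow hpne])
    have hex2 : ∀ f : K⟦X⟧, (expand p hpne f).subst (zK j ^ p) = f.subst ((zK j ^ p) ^ p) := by
      intro f
      rw [expand_apply, subst_comp_subst_apply (HasSubst.X_pow hpne) hS', subst_pow hS',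
        subst_X hS']
    rw [subst_C, subst_C, ← PowerSeries.C, coeff_C_mul, coeff_C_mul, hex, hex, hex2]
  have hGmem : ∀ j, coeff m ((PowerSeries.map D.W.subtype (G j)).subst (zK j)) ∈ D.W := by
    intro j
    rw [hzK]; dsimp only; rw [← map_subst' (HasSubst.of_constantCoeff_zero' (hz j)), coeff_map]
    exact Subtype.mem _
  -- the shifted right hand side
  let e1 : J → D.W⟦X⟧ := fun j => expand p hpne (PowerSeries.map D.σW (z j))
  let e2 : J → D.W⟦X⟧ := fun j => expand p hpne (PowerSeries.map D.σW (e1 j))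
  have he1 : ∀ j, constantCoeff (e1 j) = 0 := fun j => by
    rw [constantCoeff_expand, const_map, hz, map_zero]
  have he2 : ∀ j, constantCoeff (e2 j) = 0 := fun j => by
    rw [constantCoeff_expand, const_map, he1, map_zero]
  have hcomm : ∀ (j : J) (l : ι) (a : D.W⟦X⟧), constantCoeff a = 0 →
      (lam D.A (n j) l).subst (PowerSeries.map D.W.subtype
          (expand p hpne (PowerSeries.map D.σW a))) =
        expand p hpne (PowerSeries.map D.σ
          ((lam D.A (n j) l).subst (PowerSeries.map D.W.subtype a))) := by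
    intro j l a ha
    have ha0 : constantCoeff (PowerSeries.map D.W.subtype a) = 0 := by
      rw [const_map, ha, map_zero]
    rw [map_subst' (HasSubst.of_constantCoeff_zero' ha0), map_lam D.σ D.σ_A, expand_subst' hpne
      (HasSubst.of_constantCoeff_zero' (by rw [const_map, ha0, map_zero])), map_expand]
    congr 1
  have htarget1 : ∀ l, coeff m (expand p hpne (PowerSeries.map D.σ (R l))) =
      ∑ j, coeff m ((lam D.A (n j) l).subst (PowerSeries.map D.W.subtype (e1 j))) := by
    intro l
    simp only [e1, hcomm _ l _ (hz _), coeff_expand]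
    split_ifs
    · simp only [coeff_map]
      rw [← hlt l (m / p) (Nat.div_lt_self hm hpr.one_lt), logVec, map_sum, map_sum]
    · simp
  have htarget2 : ∀ l, coeff m (expand p hpne (expand p hpne
        (PowerSeries.map D.σ (PowerSeries.map D.σ (R l))))) =
      ∑ j, coeff m ((lam D.A (n j) l).subst (PowerSeries.map D.W.subtype (e2 j))) := by
    intro l
    simp only [e2, hcomm _ l _ (he1 _)]
    simp only [e1]
    simp only [hcomm _ l _ (hz _)]
    simp only [map_expand, coeff_expand]
    split_ifs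
    · simp only [coeff_map]
      rw [← hlt l (m / p / p) (lt_of_le_of_lt (Nat.div_le_self _ _)
        (Nat.div_lt_self hm hpr.one_lt)), logVec, map_sum, map_sum, map_sum]
    · simp
    · simp
  -- congruences modulo `p`
  have hcong1 : ∀ j l, ∃ w ∈ D.W, coeff m ((lam D.A (n j) l).subst (zK j ^ p)) -
      coeff m ((lam D.A (n j) l).subst (PowerSeries.map D.W.subtype (e1 j))) = p * w := by
    intro j l
    rw [hzK, ← map_pow]
    refine D.subst_congr_mod (n j) l ?_ (he1 j) (D.pow_sub_expand_map (z j)) m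
    rw [map_pow, hz, zero_pow hpne]
  have hcong2 : ∀ j l, ∃ w ∈ D.W, coeff m ((lam D.A (n j) l).subst ((zK j ^ p) ^ p)) -
      coeff m ((lam D.A (n j) l).subst (PowerSeries.map D.W.subtype (e2 j))) = p * w := by
    intro j l
    rw [hzK, ← map_pow, ← map_pow]
    refine D.subst_congr_mod (n j) l ?_ (he2 j) ?_ m
    · rw [map_pow, map_pow, hz, zero_pow hpne, zero_pow hpne]
    · have h1 := (D.pow_sub_expand_map (z j)).trans (sub_dvd_pow_sub_pow _ _ p)
      have h2 := D.pow_sub_expand_map (e1 j)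
      have := dvd_add h1 h2
      simpa only [e2, e1, sub_add_sub_cancel] using this
  choose w hw hw' using hcong1
  choose w₂ hw₂ hw₂' using hcong2
  have hlhs : coeff m (logVec D.A n zK i) - coeff m (R i) =
      (∑ j, coeff m ((PowerSeries.map D.W.subtype (G j)).subst (zK j))) +
      (∑ j, ∑ l, (D.U i l * w j l + D.V i l * w₂ j l)) -
      (coeff m (R i) -
        ∑ l, (D.U i l / (p : K) * coeff m (expand p hpne (PowerSeries.map D.σ (R l))) +
          D.V i l / (p : K) * coeff m (expand p hpne (expand p hpne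
            (PowerSeries.map D.σ (PowerSeries.map D.σ (R l))))))) := by
    have h1 : ∀ j l, D.U i l * w j l + D.V i l * w₂ j l =
        (D.U i l / (p : K) * coeff m ((lam D.A (n j) l).subst (zK j ^ p)) +
          D.V i l / (p : K) * coeff m ((lam D.A (n j) l).subst ((zK j ^ p) ^ p))) -
        (D.U i l / (p : K) * coeff m ((lam D.A (n j) l).subst
            (PowerSeries.map D.W.subtype (e1 j))) +
          D.V i l / (p : K) * coeff m ((lam D.A (n j) l).subst
            (PowerSeries.map D.W.subtype (e2 j)))) := by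
      intro j l
      rw [add_sub_add_comm, ← mul_sub, ← mul_sub, hw', hw₂', ← mul_assoc, ← mul_assoc,
        div_mul_cancel₀ _ (Nat.cast_ne_zero.mpr hpne),
        div_mul_cancel₀ _ (Nat.cast_ne_zero.mpr hpne)]
    simp only [h1, htarget1, htarget2, Finset.mul_sum, ← Finset.sum_add_distrib]
    rw [logVec, map_sum]
    simp only [hfe, Finset.sum_add_distrib, Finset.sum_sub_distrib]
    rw [Finset.sum_comm (f := fun l j => D.U i l / (p : K) * _),
      Finset.sum_comm (f := fun l j => D.V i l / (p : K) * _)]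
    ring
  rw [hlhs]
  exact D.W.sub_mem (D.W.add_mem (D.W.sum_mem fun j _ => hGmem j)
    (D.W.sum_mem fun j _ => D.W.sum_mem fun l _ => D.W.add_mem
      (D.W.mul_mem (D.U_mem _ _) (hw j l)) (D.W.mul_mem (D.V_mem _ _) (hw₂ j l))))
    (hR.2 i m)

variable (n : ι → ℕ) (M : Matrix ι ι K) (hM : ∀ a b, M a b ∈ D.W)
  (hMinv : ∀ δ : ι → K, ∀ i, ∑ j, D.A (n j) i * (∑ b, M j b * δ b) = δ i)

include hR hM hMinv in
/-- One more coefficient of the logarithms can be matched. -/
theorem exists_approx (z : ι → D.W⟦X⟧) (hz : ∀ j, constantCoeff (z j) = 0)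
    {m : ℕ} (hm : 1 ≤ m)
    (hlt : ∀ i, ∀ l < m, coeff l (logVec D.A n (fun j => PowerSeries.map D.W.subtype (z j)) i) =
      coeff l (R i)) :
    ∃ δ : ι → D.W, ∀ i, ∀ l ≤ m,
      coeff l (logVec D.A n (fun j => PowerSeries.map D.W.subtype (z j + monomial m (δ j))) i) =
      coeff l (R i) := by
  have he := D.defect_mem R hR n z hz hm hlt
  refine ⟨fun j => ⟨∑ b, M j b *
      -(coeff m (logVec D.A n (fun j => PowerSeries.map D.W.subtype (z j)) b) -
      coeff m (R b)), D.W.sum_mem fun b _ => D.W.mul_mem (hM _ _) (D.W.neg_mem (he b))⟩,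
    fun i l hl => ?_⟩
  rcases hl.lt_or_eq with hl | rfl
  · rw [← hlt i l hl, logVec, logVec, map_sum, map_sum]
    refine Finset.sum_congr rfl fun j _ => coeff_subst_congr _ ?_ ?_ ?_
    · rw [const_map, map_add, hz, ← coeff_zero_eq_constantCoeff_apply, coeff_monomial,
        if_neg (by omega), add_zero, map_zero]
    · rw [const_map, hz, map_zero]
    · intro k hk
      rw [coeff_map, coeff_map, map_add, coeff_monomial, if_neg (by omega), add_zero]
  · rw [logVec, map_sum]
    simp only [map_add, map_monomial']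
    rw [Finset.sum_congr rfl fun j _ => coeff_subst_add_monomial (lam D.A (n j) i)
      (by rw [const_map, hz, map_zero]) hm _, Finset.sum_add_distrib]
    simp only [coeff_lam, one_mul, Nat.cast_one, div_one, smul_eq_mul, Subring.subtype_apply]
    rw [hMinv (fun b => -(coeff l (logVec D.A n (fun j => PowerSeries.map D.W.subtype (z j)) b) -
      coeff l (R b))) i, logVec, map_sum]
    ring

include hR hM hMinv in
/-- **Integrality**: the solution of `L (z) = R` has coefficients in `W`. -/
theorem exists_series :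
    ∃ z : ι → D.W⟦X⟧, (∀ j, constantCoeff (z j) = 0) ∧
      ∀ i, logVec D.A n (fun j => PowerSeries.map D.W.subtype (z j)) i = R i := by
  let P : ℕ → (ι → D.W⟦X⟧) → Prop := fun m z => (∀ j, constantCoeff (z j) = 0) ∧
    ∀ i, ∀ l < m, coeff l (logVec D.A n (fun j => PowerSeries.map D.W.subtype (z j)) i) =
      coeff l (R i)
  have h0 : P 1 0 := by
    refine ⟨fun j => by simp, fun i l hl => ?_⟩
    obtain rfl : l = 0 := by omega
    rw [logVec, map_sum, coeff_zero_eq_constantCoeff_apply, hR.1]
    refine Finset.sum_eq_zero fun j _ => ?_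
    rw [coeff_subst_eq_sum (by simp)]
    simp
  have hstep : ∀ m z, P (m + 1) z →
      ∃ z', P (m + 2) z' ∧ ∀ j, ∀ l ≤ m, coeff l (z' j) = coeff l (z j) := by
    rintro m z ⟨hz, hlt⟩
    obtain ⟨δ, hδ⟩ := D.exists_approx R hR n M hM hMinv z hz (by omega) hlt
    refine ⟨fun j => z j + monomial (m + 1) (δ j), ⟨fun j => ?_, fun i l hl => hδ i l (by omega)⟩,
      fun j l hl => ?_⟩
    · rw [map_add, hz, ← coeff_zero_eq_constantCoeff_apply, coeff_monomial, if_neg (by omega),
        add_zero]
    · rw [map_add, coeff_monomial, if_neg (by omega), add_zero]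
  choose step hstep1 hstep2 using hstep
  let seq : (m : ℕ) → {z : ι → D.W⟦X⟧ // P (m + 1) z} := fun m =>
    Nat.rec (motive := fun m => {z : ι → D.W⟦X⟧ // P (m + 1) z}) ⟨0, h0⟩
      (fun m z => ⟨step m z.1 z.2, hstep1 m z.1 z.2⟩) m
  have hstab : ∀ m k j l, l ≤ m → coeff l ((seq (m + k)).1 j) = coeff l ((seq m).1 j) := by
    intro m k j l hl
    induction k with
    | zero => rfl
    | succ k ih =>
      rw [← ih]
      exact hstep2 (m + k) (seq (m + k)).1 (seq (m + k)).2 j l (by omega)
  let z : ι → D.W⟦X⟧ := fun j => PowerSeries.mk fun l => coeff l ((seq l).1 j)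
  have hz0 : ∀ j, constantCoeff (z j) = 0 := fun j => by
    rw [← coeff_zero_eq_constantCoeff_apply, coeff_mk, coeff_zero_eq_constantCoeff_apply]
    exact (seq 0).2.1 j
  refine ⟨z, hz0, fun i => ext fun m => ?_⟩
  rw [← (seq m).2.2 i m (Nat.lt_succ_self m), logVec, logVec, map_sum, map_sum]
  refine Finset.sum_congr rfl fun j _ => coeff_subst_congr _ ?_ ?_ ?_
  · rw [const_map, hz0, map_zero]
  · rw [const_map, (seq m).2.1 j, map_zero]
  · intro k hk
    obtain ⟨e, rfl⟩ := Nat.exists_eq_add_of_le hk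
    rw [coeff_map, coeff_map, coeff_mk, hstab k e j k le_rfl]

end DworkData

end Dwork

end Fermat.Agent.OrdinaryCurve
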