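import Fermat.Agent.OrdinaryCurve.Point

/-!
Families of divisors `Σ_j (roots of q ^ n_j - z_j (t)) - (Σ n_j) ∞` in the disc at infinity, their
formal logarithm, and the resulting torsion family when `L (z) = c * log (1 + t)`.
-/

set_option autoImplicit false

noncomputable section

open PowerSeries Finset

namespace Fermat.Agent.OrdinaryCurve

section Factor

variable {R : Type*} [CommRing R]

/-- `q ^ n - z (t)`. -/
def discFactor (n : ℕ) (z : R⟦X⟧) : R⟦X⟧⟦X⟧ := C (X ^ n) - PowerSeries.map C z

/-- `∏_j (q ^ n_j - z_j (t))`. -/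
def discFamily {J : Type*} [Fintype J] (n : J → ℕ) (z : J → R⟦X⟧) : R⟦X⟧⟦X⟧ :=
  ∏ j, discFactor (n j) (z j)

theorem isDist_discFactor {n : ℕ} (hn : 1 ≤ n) {z : R⟦X⟧} (hz : constantCoeff z = 0) :
    IsDist n (discFactor n z) where
  zero := by rw [discFactor, map_sub, constantCoeff_C, const_map, hz, map_zero, sub_zero]
  low e he l hl := by
    rw [discFactor, map_sub, map_sub, coeff_C, if_neg (by omega), map_zero, coeff_map, coeff_C,
      if_neg (by omega), sub_zero]

theorem isDist_prod {J : Type*} (s : Finset J) {N : J → ℕ} {u : J → R⟦X⟧⟦X⟧}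
    (h : ∀ j ∈ s, IsDist (N j) (u j)) : IsDist (∑ j ∈ s, N j) (∏ j ∈ s, u j) := by
  classical
  induction s using Finset.induction with
  | empty => simpa using IsDist.one
  | insert j s hj ih =>
    rw [Finset.sum_insert hj, Finset.prod_insert hj]
    exact (h j (Finset.mem_insert_self j s)).mul
      (ih fun i hi => h i (Finset.mem_insert_of_mem hi))

/-- `discFamily` is distinguished. -/
theorem isDist_discFamily {J : Type*} [Fintype J] {n : J → ℕ} (hn : ∀ j, 1 ≤ n j)
    {z : J → R⟦X⟧} (hz : ∀ j, constantCoeff (z j) = 0) :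
    IsDist (∑ j, n j) (discFamily n z) :=
  isDist_prod _ fun j _ => isDist_discFactor (hn j) (hz j)

/-- `discFamily` commutes with `map`. -/
theorem map_discFamily {S : Type*} [CommRing S] (f : R →+* S) {J : Type*} [Fintype J]
    (n : J → ℕ) (z : J → R⟦X⟧) :
    PowerSeries.map (PowerSeries.map f) (discFamily n z) =
      discFamily n fun j => PowerSeries.map f (z j) := by
  simp only [discFamily, discFactor, map_prod, map_sub, map_C, map_pow, map_X]
  refine Finset.prod_congr rfl fun j _ => ?_
  congr 1
  ext e l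
  simp [coeff_map, coeff_C]

end Factor

section LogPair

variable {K : Type*} [Field K] [CharZero K] {ι : Type*}

namespace FormalCurve

variable (C₀ : FormalCurve K ι)

theorem logPair_discFactor {n : ℕ} (hn : 1 ≤ n) {z : K⟦X⟧} (hz : constantCoeff z = 0) (i : ι) :
    C₀.logPair n (discFactor n z) i = -(lam C₀.A n i).subst z := by
  set Y : (LaurentSeries K)⟦X⟧ :=
    C (HahnSeries.single (-(n : ℤ)) (-1 : K)) * PowerSeries.map HahnSeries.C z with hY
  have hnorm : normalize n (discFactor n z) - 1 = Y := by
    ext e : 1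
    rw [map_sub, coeff_normalize, discFactor, map_sub, coeff_C, coeff_map, map_sub, mul_sub,
      coeff_one, hY, coeff_C_mul, coeff_map, HahnSeries.ofPowerSeries_C]
    rw [show HahnSeries.single (-(n : ℤ)) (-1 : K) = -HahnSeries.single (-(n : ℤ)) 1 by
      ext l; rw [HahnSeries.coeff_neg, HahnSeries.coeff_single, HahnSeries.coeff_single];
        split_ifs <;> simp]
    split_ifs
    · rw [HahnSeries.ofPowerSeries_X_pow, HahnSeries.single_mul_single, neg_add_cancel, one_mul]
      rw [show HahnSeries.single (0 : ℤ) (1 : K) = 1 from rfl]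
      ring
    · rw [map_zero, mul_zero]
      ring
  ext e
  have hY0 : constantCoeff Y = 0 := by rw [hY, map_mul, const_map, hz, map_zero, mul_zero]
  rw [logPair, coeff_mk, logOf_eq, hnorm, map_neg, coeff_subst_eq_sum hY0, map_sum,
    coeff_subst_eq_sum hz, ← Finset.sum_neg_distrib]
  refine Finset.sum_congr rfl fun d _ => ?_
  rw [smul_eq_mul, smul_eq_mul, coeff_log, coeff_lam]
  rcases Nat.eq_zero_or_pos d with rfl | hd
  · simp
  rw [if_neg hd.ne', hY, mul_pow, ← map_pow C, ← map_pow (PowerSeries.map _), coeff_C_mul,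
    coeff_map, HahnSeries.single_pow, nsmul_eq_mul, mul_neg,
    ← (HahnSeries.C (Γ := ℤ) (R := K)).map_rat_algebraMap]
  rw [HahnSeries.C_apply, HahnSeries.C_apply, HahnSeries.single_mul_single,
    HahnSeries.single_mul_single, add_zero, zero_add, ← Nat.cast_mul,
    polarPairing_single _ _ (by nlinarith)]
  simp only [eq_ratCast, Rat.cast_div, Rat.cast_pow, Rat.cast_neg, Rat.cast_one, Rat.cast_natCast]
  rw [pow_succ]
  have h1 : ((-1 : K) ^ d) * (-1 : K) ^ d = 1 := by rw [← mul_pow]; norm_num
  linear_combination (-(coeff e (z ^ d)) * C₀.A (d * n) i / (d : K)) * h1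

theorem logPair_prod {J : Type*} (s : Finset J) {N : J → ℕ} {u : J → K⟦X⟧⟦X⟧}
    (h : ∀ j ∈ s, IsDist (N j) (u j)) (i : ι) :
    C₀.logPair (∑ j ∈ s, N j) (∏ j ∈ s, u j) i = ∑ j ∈ s, C₀.logPair (N j) (u j) i := by
  classical
  induction s using Finset.induction with
  | empty =>
    simp only [Finset.sum_empty, Finset.prod_empty]
    simpa using C₀.logPair_pow (IsDist.one (R := K)) 0 i
  | insert j s hj ih =>
    rw [Finset.sum_insert hj, Finset.prod_insert hj, Finset.sum_insert hj,
      C₀.logPair_mul (h j (Finset.mem_insert_self j s))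
        (isDist_prod s fun l hl => h l (Finset.mem_insert_of_mem hl)),
      ih fun l hl => h l (Finset.mem_insert_of_mem hl)]

/-- `logPair` of a family is minus its vector of logarithms. -/
theorem logPair_discFamily {J : Type*} [Fintype J] {n : J → ℕ} (hn : ∀ j, 1 ≤ n j)
    {z : J → K⟦X⟧} (hz : ∀ j, constantCoeff (z j) = 0) (i : ι) :
    C₀.logPair (∑ j, n j) (discFamily n z) i = -logVec C₀.A n z i := by
  rw [discFamily, C₀.logPair_prod _ fun j _ => isDist_discFactor (hn j) (hz j), logVec,
    ← Finset.sum_neg_distrib]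
  exact Finset.sum_congr rfl fun j _ => C₀.logPair_discFactor (hn j) (hz j) i

end FormalCurve

omit [CharZero K] in
/-- `logVec` commutes with substitution. -/
theorem logVec_subst [Fintype ι] {J : Type*} [Fintype J] (A : ℕ → ι → K) (n : J → ℕ)
    {z : J → K⟦X⟧} (hz : ∀ j, constantCoeff (z j) = 0) {φ : K⟦X⟧} (hφ : constantCoeff φ = 0)
    (i : ι) : logVec A n (fun j => (z j).subst φ) i = (logVec A n z i).subst φ := by
  simp only [logVec, ← coe_substAlgHom (HasSubst.of_constantCoeff_zero' hφ), map_sum]
  simp only [coe_substAlgHom]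
  refine Finset.sum_congr rfl fun j _ => ?_
  rw [subst_comp_subst_apply (HasSubst.of_constantCoeff_zero' (hz j))
    (HasSubst.of_constantCoeff_zero' hφ)]

end LogPair

section Eval

variable {K : Type*} [NormedField K] [CompleteSpace K] [IsUltrametricDist K]
variable (W : Subring K) (hW : ∀ x ∈ W, ‖x‖ ≤ 1)

/-- The image of a disc point under an integral series without constant term. -/
def imagePoint (φ : W⟦X⟧) (hφ : constantCoeff φ = 0) (a : DiscPoint K) : DiscPoint K :=
  ⟨evalAt W hW a φ, norm_evalAt_lt W hW a φ hφ⟩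

/-- Evaluation of a substitution is evaluation at the image point. -/
theorem evalAt_subst (φ : W⟦X⟧) (hφ : constantCoeff φ = 0) (f : W⟦X⟧) (a : DiscPoint K) :
    evalAt W hW a (f.subst φ) = evalAt W hW (imagePoint W hW φ hφ a) f := by
  have hs : HasSubst φ := HasSubst.of_constantCoeff_zero' hφ
  set b := imagePoint W hW φ hφ a with hb
  let ψ₁ : W⟦X⟧ →+* K := (evalAt W hW a).comp (substAlgHom hs).toRingHom
  have hψ₁ : ∀ g, ψ₁ g = evalAt W hW a (g.subst φ) := fun g => by
    simp [ψ₁, coe_substAlgHom]
  have hX : ψ₁ X = b.val := by rw [hψ₁, subst_X hs]; rfl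
  have hpoly : ∀ P : Polynomial W, ψ₁ P = evalAt W hW b P := by
    intro P
    suffices h : ψ₁.comp Polynomial.coeToPowerSeries.ringHom =
        (evalAt W hW b).comp Polynomial.coeToPowerSeries.ringHom from DFunLike.congr_fun h P
    refine Polynomial.ringHom_ext (fun c => ?_) ?_
    · simp only [RingHom.comp_apply, Polynomial.coeToPowerSeries.ringHom_apply, Polynomial.coe_C]
      rw [hψ₁, evalAt_C, subst_C, ← PowerSeries.C, evalAt_C]
    · simp only [RingHom.comp_apply, Polynomial.coeToPowerSeries.ringHom_apply, Polynomial.coe_X]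
      rw [hX, evalAt_X]
  have hbound : ∀ N : ℕ, ‖ψ₁ f - evalAt W hW b f‖ ≤ ‖b.val‖ ^ N := by
    intro N
    obtain ⟨g, hg⟩ : (X : W⟦X⟧) ^ N ∣ f - ((trunc N f : Polynomial W) : W⟦X⟧) := by
      rw [X_pow_dvd_iff]
      intro m hm
      rw [map_sub, coeff_coe_trunc_of_lt hm, sub_self]
    have hf : f = ((trunc N f : Polynomial W) : W⟦X⟧) + X ^ N * g := by rw [← hg]; ring
    rw [hf, map_add, map_add, hpoly, add_sub_add_left_eq_sub, map_mul, map_mul, map_pow, map_pow,
      hX, evalAt_X, ← mul_sub, norm_mul, norm_pow]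
    refine mul_le_of_le_one_right (pow_nonneg (norm_nonneg _) _) ?_
    rw [sub_eq_add_neg]
    refine (IsUltrametricDist.norm_add_le_max _ _).trans (max_le ?_ ?_)
    · rw [hψ₁]; exact norm_evalAt_le W hW a _
    · rw [norm_neg]; exact norm_evalAt_le W hW b _
  rw [← hψ₁, ← sub_eq_zero, ← norm_le_zero_iff]
  exact ge_of_tendsto' (tendsto_pow_atTop_nhds_zero_of_lt_one (norm_nonneg _) b.norm_lt) hbound

/-- `∏_j (q ^ n_j - y_j)`. -/
def discPoly {J : Type*} [Fintype J] (n : J → ℕ) (y : J → K) : K⟦X⟧ :=
  ∏ j, (X ^ n j - C (y j))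

omit [IsUltrametricDist K] in
/-- The value of a family is its `discPoly`. -/
theorem evq_discFamily (a : DiscPoint K) {J : Type*} [Fintype J] (n : J → ℕ) (z : J → W⟦X⟧) :
    evq W hW a (discFamily n z) = discPoly n fun j => evalAt W hW a (z j) := by
  rw [discFamily, discPoly, map_prod]
  refine Finset.prod_congr rfl fun j _ => ?_
  rw [discFactor, map_sub, evq_C, map_pow, map_X]
  congr 1
  ext l
  rw [coeff_evq, coeff_C]
  have : coeff l (swapVars (PowerSeries.map C (z j))) = if l = 0 then z j else 0 := by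
    ext e
    rw [coeff_coeff_swapVars, coeff_map, coeff_C]
    split_ifs <;> simp
  rw [this]
  split_ifs <;> simp

end Eval

section Torsion

variable {K : Type*} [NormedField K] [CompleteSpace K] [IsUltrametricDist K] [CharZero K]
variable {ι : Type*} [Fintype ι] (W : Subring K) (hW : ∀ x ∈ W, ‖x‖ ≤ 1)

/-- `(1 + X) ^ m - 1`. -/
def powParam (m : ℕ) : W⟦X⟧ := (1 + X) ^ m - 1

/-- `(1 + X)⁻¹ - 1`. -/
def invParam : W⟦X⟧ := invOfUnit (1 + X) 1 - 1

omit [CompleteSpace K] [IsUltrametricDist K] [CharZero K] in
/-- `powParam` vanishes at `0`. -/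
theorem constantCoeff_powParam (m : ℕ) : constantCoeff (powParam W m) = 0 := by
  simp [powParam]

omit [CompleteSpace K] [IsUltrametricDist K] [CharZero K] in
theorem constantCoeff_invParam : constantCoeff (invParam W) = 0 := by
  simp [invParam]

omit [CompleteSpace K] [IsUltrametricDist K] in
/-- `powParam` multiplies the logarithm by `m`. -/
theorem log_subst_powParam (m : ℕ) :
    (log K).subst (PowerSeries.map W.subtype (powParam W m)) = m • log K := by
  have : PowerSeries.map W.subtype (powParam W m) = (1 + X) ^ m - 1 := by simp [powParam]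
  rw [this, ← logOf_eq, logOf_pow (by simp), logOf_one_add_X]

omit [CompleteSpace K] [IsUltrametricDist K] in
theorem log_subst_invParam :
    (log K).subst (PowerSeries.map W.subtype (invParam W)) = -log K := by
  set g := PowerSeries.map W.subtype (invOfUnit (1 + X) 1) with hg
  have h : PowerSeries.map W.subtype (invParam W) = g - 1 := by simp [invParam, hg]
  have hmul : (1 + X) * g = 1 := by
    rw [hg, show (1 + X : K⟦X⟧) = PowerSeries.map W.subtype (1 + X) by simp, ← map_mul,
      mul_invOfUnit _ _ (by simp), map_one]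
  have hg0 : constantCoeff g = 1 := by
    have := congrArg constantCoeff hmul
    simpa using this
  rw [h, ← logOf_eq, eq_neg_iff_add_eq_zero, add_comm, ← logOf_one_add_X, ← logOf_mul (by simp) hg0,
    hmul, logOf_eq, sub_self, subst_zero_of_constantCoeff_zero constantCoeff_log]

variable (C₀ : FormalCurve K ι) (Λ : ∀ N, C₀.Lattice W N)
variable {J : Type*} [Fintype J] (n : J → ℕ) (hn : ∀ j, 1 ≤ n j)
variable (z : J → W⟦X⟧) (hz : ∀ j, constantCoeff (z j) = 0) (c : ι → K)
  (hL : ∀ i, logVec C₀.A n (fun j => PowerSeries.map W.subtype (z j)) i = C (c i) * log K)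

/-- The point `z (a)`, as coordinates. -/
def familyPoint (a : DiscPoint K) (j : J) : K := evalAt W hW a (z j)

include hn hz hL in
omit [CompleteSpace K] [IsUltrametricDist K] in
theorem logPair_param (φ : W⟦X⟧) (hφ : constantCoeff φ = 0) (i : ι) :
    C₀.logPair (∑ j, n j) (FormalCurve.toK W (discFamily n fun j => (z j).subst φ)) i =
      -(C (c i) * (log K).subst (PowerSeries.map W.subtype φ)) := by
  have hφK : constantCoeff (PowerSeries.map W.subtype φ) = 0 := by rw [const_map, hφ, map_zero]
  have hzK : ∀ j, constantCoeff (PowerSeries.map W.subtype (z j)) = 0 := fun j => by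
    rw [const_map, hz, map_zero]
  rw [FormalCurve.toK, map_discFamily, C₀.logPair_discFamily hn]
  · simp only [map_subst' (HasSubst.of_constantCoeff_zero' hφ)]
    rw [logVec_subst _ _ hzK hφK, hL, subst_mul (HasSubst.of_constantCoeff_zero' hφK), subst_C]
    rfl
  · intro j
    rw [const_map, ← coeff_zero_eq_constantCoeff_apply, coeff_subst_eq_sum hφ]
    simp [hz]

include hn hz hL Λ in
/-- The torsion family is additive: `P (a ^ m) + m * P (a⁻¹)` is principal, in multiplicative
notation for the parameter `1 + a`. -/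
theorem principal_pow_inv (m : ℕ) (a : DiscPoint K) :
    C₀.Principal ((∑ j, n j) + m * ∑ j, n j)
      (discPoly n (familyPoint W hW z (imagePoint W hW _ (constantCoeff_powParam W m) a)) *
        discPoly n (familyPoint W hW z (imagePoint W hW _ (constantCoeff_invParam W) a)) ^ m) := by
  have hd : ∀ (φ : W⟦X⟧), constantCoeff φ = 0 →
      IsDist (∑ j, n j) (discFamily n fun j => (z j).subst φ) := fun φ hφ =>
    isDist_discFamily hn fun j => by
      rw [← coeff_zero_eq_constantCoeff_apply, coeff_subst_eq_sum hφ]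
      simp [hz]
  have h1 := hd _ (constantCoeff_powParam W m)
  have h2 := hd _ (constantCoeff_invParam W)
  have k1 : IsDist (∑ j, n j) (FormalCurve.toK W
      (discFamily n fun j => (z j).subst (powParam W m))) := h1.map _
  have k2 : IsDist (∑ j, n j) (FormalCurve.toK W
      (discFamily n fun j => (z j).subst (invParam W))) := h2.map _
  have := C₀.principal_of_logPair_eq_zero W hW (h1.mul (h2.pow m)) (Λ _) (fun i => by
    rw [map_mul, map_pow, C₀.logPair_mul k1 (k2.pow m), C₀.logPair_pow k2,
      logPair_param W C₀ n hn z hz c hL _ (constantCoeff_powParam W m),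
      logPair_param W C₀ n hn z hz c hL _ (constantCoeff_invParam W),
      log_subst_powParam, log_subst_invParam]
    simp
    ring) a
  rw [map_mul, map_pow, evq_discFamily, evq_discFamily] at this
  simp only [evalAt_subst W hW _ (constantCoeff_powParam W m),
    evalAt_subst W hW _ (constantCoeff_invParam W)] at this
  exact this

include hn hz hL Λ in
omit [Fintype ι] in
/-- The torsion family is not identically principal near the boundary when `c` is nonzero. -/
theorem exists_not_principal {π : K} (hπ : ‖π‖ < 1)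
    (hdisc : ∀ x ∈ W, x ≠ 0 → ∃ k : ℕ, ‖x‖ = ‖π‖ ^ k) (S : Set (DiscPoint K))
    (hS : ∀ d : ℕ, ∃ a ∈ S, ‖π‖ < ‖a.val‖ ^ d) (hc : c ≠ 0) :
    ∃ a ∈ S, ¬ C₀.Principal (∑ j, n j) (discPoly n (familyPoint W hW z a)) := by
  by_contra hcon
  push Not at hcon
  refine hc (funext fun i => ?_)
  have hd : IsDist (∑ j, n j) (discFamily n z) := isDist_discFamily hn hz
  have h0 := C₀.logPair_eq_zero_of_principal W hW hd (Λ _) hπ hdisc S hS
    (fun a ha => by rw [evq_discFamily]; exact hcon a ha) i
  rw [FormalCurve.toK, map_discFamily, C₀.logPair_discFamily hn, hL, neg_eq_zero] at h0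
  · have := congrArg (coeff 1) h0
    simpa using this
  · intro j
    rw [const_map, hz, map_zero]

end Torsion

end Fermat.Agent.OrdinaryCurve
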