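import Fermat.Agent.OrdinaryCurve.Family
import Fermat.Agent.OrdinaryCurve.DiscClass
import Fermat.Agent.OrdinaryCurve.HeckeDiscPlace

/-!
Divisor classes of families in the disc at infinity: a family with zero logarithm has class zero,
a class zero is principal, and the images of a family under a continuous automorphism and under
the Hecke correspondence are families.
-/

set_option autoImplicit false

noncomputable section

open PowerSeries AlgebraicCurve Fermat.Agent.FunctionField

namespace Fermat.Agent.OrdinaryCurve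

variable {K : Type*} [NormedField K] [IsAlgClosed K] [CharZero K]

section Points

variable {J J' : Type*} [Fintype J] [Fintype J']

open scoped Classical in
/-- The points `q ^ n = b`. -/
def rootsOfPow (n : ℕ) (b : DiscPoint K) : Multiset (DiscPoint K) :=
  if h : n = 0 then 0 else haveI : NeZero n := ⟨h⟩; rootPts n b

/-- `rootsOfPow` is `rootPts` at nonzero exponents. -/
theorem rootsOfPow_eq (n : ℕ) [NeZero n] (b : DiscPoint K) : rootsOfPow n b = rootPts n b := by
  rw [rootsOfPow, dif_neg (NeZero.ne n)]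

theorem splitSeries_rootsOfPow {n : ℕ} (hn : 1 ≤ n) (b : DiscPoint K) :
    splitSeries (rootsOfPow n b) = X ^ n - C b.val := by
  have : NeZero n := ⟨by omega⟩
  rw [rootsOfPow_eq, splitSeries_rootPts]

theorem card_rootsOfPow {n : ℕ} (hn : 1 ≤ n) (b : DiscPoint K) :
    Multiset.card (rootsOfPow n b) = n := by
  have : NeZero n := ⟨by omega⟩
  rw [rootsOfPow_eq, card_rootPts]

/-- The points of the divisor `∏_j (q ^ n_j - y_j)`. -/
def idxPts (n : J → ℕ) (y : J → DiscPoint K) : Multiset (DiscPoint K) :=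
  ∑ j, rootsOfPow (n j) (y j)

omit [IsAlgClosed K] [CharZero K] [Fintype J] in
theorem splitSeries_sum (s : Finset J) (m : J → Multiset (DiscPoint K)) :
    splitSeries (∑ j ∈ s, m j) = ∏ j ∈ s, splitSeries (m j) := by
  classical
  induction s using Finset.induction_on with
  | empty => simp [splitSeries]
  | insert a s ha ih => rw [Finset.sum_insert ha, Finset.prod_insert ha, splitSeries_add, ih]

/-- The series cutting out `idxPts`. -/
theorem splitSeries_idxPts {n : J → ℕ} (hn : ∀ j, 1 ≤ n j) (y : J → DiscPoint K) :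
    splitSeries (idxPts n y) = discPoly n fun j => (y j).val := by
  rw [idxPts, splitSeries_sum, discPoly]
  exact Finset.prod_congr rfl fun j _ => splitSeries_rootsOfPow (hn j) (y j)

/-- The number of `idxPts`. -/
theorem card_idxPts {n : J → ℕ} (hn : ∀ j, 1 ≤ n j) (y : J → DiscPoint K) :
    Multiset.card (idxPts n y) = ∑ j, n j := by
  rw [idxPts, Multiset.card_sum]
  exact Finset.sum_congr rfl fun j _ => card_rootsOfPow (hn j) (y j)

/-- `idxPts` of two families together. -/
theorem idxPts_elim (n : J → ℕ) (n' : J' → ℕ) (y : J → DiscPoint K) (y' : J' → DiscPoint K) :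
    idxPts (Sum.elim n n') (Sum.elim y y') = idxPts n y + idxPts n' y' := by
  simp [idxPts, Fintype.sum_sum_type]

variable [IsUltrametricDist K] [CompleteSpace K]

omit [IsAlgClosed K] [CharZero K] in
theorem ordB_pow (a : DiscPoint K) {r : boundedSeries K} (hr : r ≠ 0) (k : ℕ) :
    ordB a (r ^ k) = k * ordB a r := by
  induction k with
  | zero => rw [pow_zero, ordB_one, Nat.zero_mul]
  | succ k ih => rw [pow_succ, ordB_mul a (pow_ne_zero k hr) hr, ih, Nat.succ_mul]

omit [IsAlgClosed K] [CharZero K] in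
open scoped Classical in
theorem ordB_X_pow (a : DiscPoint K) (k : ℕ) :
    ordB a ⟨X ^ k, pow_mem X_mem_boundedSeries k⟩ = if a = discZero K then k else 0 := by
  have hX : (⟨X, X_mem_boundedSeries⟩ : boundedSeries K) ≠ 0 := fun h => by
    simpa using congrArg (fun x : boundedSeries K => coeff 1 (x : K⟦X⟧)) h
  rw [show (⟨X ^ k, pow_mem X_mem_boundedSeries k⟩ : boundedSeries K) =
    ⟨X, X_mem_boundedSeries⟩ ^ k from Subtype.ext (by simp), ordB_pow a hX]
  have h0 : (⟨X, X_mem_boundedSeries⟩ : boundedSeries K) =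
      ⟨X - C (0 : K), X_sub_C_mem_boundedSeries 0⟩ := Subtype.ext (by simp)
  split_ifs with h
  · subst h
    rw [h0, show (⟨X - C (0 : K), X_sub_C_mem_boundedSeries 0⟩ : boundedSeries K) =
      ⟨X - C (discZero K).val, X_sub_C_mem_boundedSeries _⟩ from rfl, ordB_X_sub_C_self, mul_one]
  · rw [h0, ordB_X_sub_C_of_ne a (b := (0 : K)) (fun hv => h (DiscPoint.ext hv.symm)), mul_zero]

omit [IsAlgClosed K] [CharZero K] in
/-- A bounded series vanishing on `s` is divisible by `splitSeries s`. -/
theorem exists_eq_splitSeries_mul (s : Multiset (DiscPoint K)) :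
    ∀ {x : boundedSeries K}, x ≠ 0 →
      (∀ a, (haveI := Classical.decEq (DiscPoint K); s.count a) ≤ ordB a x) →
      ∃ r : boundedSeries K, (x : K⟦X⟧) = splitSeries s * (r : K⟦X⟧) := by
  classical
  induction s using Multiset.induction with
  | empty => intro x _ _; exact ⟨x, by simp [splitSeries]⟩
  | cons b t ih =>
    intro x hx h
    obtain ⟨y, hy⟩ := (exists_pow_dvd_iff b hx 1).mpr (by
      have := h b
      rw [Multiset.count_cons_self] at this
      omega)
    rw [pow_one] at hy
    set L : boundedSeries K := ⟨X - C b.val, X_sub_C_mem_boundedSeries b.val⟩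
    have hxe : x = L * y := Subtype.ext hy
    have hy0 : y ≠ 0 := fun h0 => hx (by rw [hxe, h0, mul_zero])
    have hL : L ≠ 0 := fun h0 => hx (by rw [hxe, h0, zero_mul])
    obtain ⟨r, hr⟩ := ih hy0 fun a => by
      have h1 := h a
      rw [hxe, ordB_mul a hL hy0] at h1
      rcases eq_or_ne a b with rfl | hab
      · rw [ordB_X_sub_C_self, Multiset.count_cons_self] at h1
        convert! (show t.count a ≤ ordB a y by omega) using 2
      · rw [ordB_X_sub_C_of_ne a (fun hv => hab (DiscPoint.ext hv.symm)), zero_add,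
          Multiset.count_cons_of_ne hab] at h1
        convert! h1 using 2
    exact ⟨r, by rw [hy, hr, splitSeries_cons, mul_assoc]⟩

/-- `idxPts` commutes with isometric automorphisms. -/
theorem idxPts_map (τ : K ≃+* K) (hτ : ∀ x, ‖τ x‖ = ‖x‖) {n : J → ℕ} (hn : ∀ j, 1 ≤ n j)
    (y : J → DiscPoint K) :
    (idxPts n y).map (mapPoint τ hτ) = idxPts n fun j => mapPoint τ hτ (y j) := by
  refine splitSeries_injective ?_
  rw [splitSeries_mapPoint, splitSeries_idxPts hn, splitSeries_idxPts hn,
    discPoly, discPoly, map_prod]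
  refine Finset.prod_congr rfl fun j _ => ?_
  rw [map_sub, map_pow, map_X, map_C]
  rfl

/-- The roots of `X ^ n = b` above are the roots of `X ^ (n l) = b`. -/
theorem bind_rootPts (l n : ℕ) [NeZero l] [NeZero n] (b : DiscPoint K) :
    (rootPts n b).bind (rootPts l) = rootsOfPow (n * l) b := by
  refine splitSeries_injective ?_
  have hn : 1 ≤ n * l := Nat.pos_of_ne_zero (mul_ne_zero (NeZero.ne n) (NeZero.ne l))
  rw [splitSeries_rootsOfPow hn]
  have hsplit : ∀ t : Multiset (DiscPoint K),
      splitSeries (t.bind (rootPts l)) = expand l (NeZero.ne l) (splitSeries t) := by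
    intro t
    induction t using Multiset.induction with
    | empty => simp [splitSeries]
    | cons a t ih =>
      rw [Multiset.cons_bind, splitSeries_add, splitSeries_cons, map_mul, ih, splitSeries_rootPts,
        map_sub, expand_X, expand_C]
  rw [hsplit, splitSeries_rootPts, map_sub, map_pow, expand_X, expand_C, ← pow_mul, mul_comm n l]

omit [IsAlgClosed K] [CharZero K] [IsUltrametricDist K] [CompleteSpace K] in
theorem prod_pow_roots {n : ℕ} (hn : 1 ≤ n) {ω : K} (hω : IsPrimitiveRoot ω n) {α c : K}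
    (hα : α ^ n = c) (k : ℕ) :
    ∏ i ∈ Finset.range (k * n), (X - C (ω ^ i * α) : K⟦X⟧) = (X ^ n - C c) ^ k := by
  have h1 : ∏ i ∈ Finset.range n, (X - C (ω ^ i * α) : K⟦X⟧) = X ^ n - C c := by
    have h := congrArg Polynomial.coeToPowerSeries.ringHom (X_pow_sub_C_eq_prod hω hn hα)
    simp only [map_sub, map_pow, map_prod, map_mul, Polynomial.coeToPowerSeries.ringHom_apply,
      Polynomial.coe_X, Polynomial.coe_C] at h
    simp only [map_mul, map_pow]
    exact h.symm
  induction k with
  | zero => simp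
  | succ k ih =>
    rw [Nat.succ_mul, Finset.prod_range_add, ih, pow_succ, ← h1]
    congr 1
    refine Finset.prod_congr rfl fun i _ => ?_
    rw [pow_add, mul_comm k n, pow_mul, hω.pow_eq_one, one_pow, one_mul]

omit [IsAlgClosed K] [CharZero K] [IsUltrametricDist K] [CompleteSpace K] in
theorem splitSeries_map_range (n : ℕ) (f : ℕ → DiscPoint K) :
    splitSeries ((Multiset.range n).map f) = ∏ i ∈ Finset.range n, (X - C (f i).val) := by
  rw [splitSeries, Multiset.map_map, Finset.prod_eq_multiset_prod, Finset.range_val]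
  rfl

omit [IsAlgClosed K] [CharZero K] [IsUltrametricDist K] [CompleteSpace K] in
theorem val_powPoint_mulPoint (l : ℕ) (hl : l ≠ 0) (c : K) (hc : ‖c‖ ≤ 1) (a : DiscPoint K) :
    (powPoint l hl (mulPoint c hc a)).val = c ^ l * a.val ^ l :=
  mul_pow _ _ _

/-- The `l`-th powers of the roots of `X ^ n = b` when `l` is prime to `n`. -/
theorem map_powPoint_rootPts {l : ℕ} (hl : l.Prime) (n : ℕ) [NeZero n] (hln : ¬ l ∣ n)
    (b : DiscPoint K) :
    (rootPts n b).map (powPoint l hl.ne_zero) = rootsOfPow n (powPoint l hl.ne_zero b) := by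
  refine splitSeries_injective ?_
  rw [splitSeries_rootsOfPow (Nat.pos_of_ne_zero (NeZero.ne n)), rootPts, Multiset.map_map,
    splitSeries_map_range]
  have hz : IsPrimitiveRoot (rootZeta K n : K) n :=
    IsPrimitiveRoot.coe_units_iff.mpr (isPrimitiveRoot_rootZeta n)
  have hω := hz.pow_of_coprime l ((Nat.Prime.coprime_iff_not_dvd hl).mpr hln)
  have h := prod_pow_roots (Nat.pos_of_ne_zero (NeZero.ne n)) hω
    (α := (rootPoint n b).val ^ l) (c := b.val ^ l)
    (by rw [← pow_mul, mul_comm, pow_mul, rootPoint_pow]) 1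
  rw [one_mul, pow_one] at h
  refine Eq.trans (Finset.prod_congr rfl fun i _ => ?_) h
  rw [Function.comp_apply, val_powPoint_mulPoint, ← pow_mul, mul_comm i l, pow_mul]

/-- The `l`-th powers of the roots of `X ^ (l m) = b`. -/
theorem map_powPoint_rootPts_mul {l : ℕ} (hl : l.Prime) (m : ℕ) [NeZero m] [NeZero (l * m)]
    (b : DiscPoint K) :
    (rootPts (l * m) b).map (powPoint l hl.ne_zero) = l • rootsOfPow m b := by
  refine splitSeries_injective ?_
  have hsmul : ∀ (k : ℕ) (t : Multiset (DiscPoint K)),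
      splitSeries (k • t) = splitSeries t ^ k := by
    intro k t
    induction k with
    | zero => simp [splitSeries]
    | succ k ih => rw [succ_nsmul, splitSeries_add, ih, pow_succ]
  rw [hsmul, splitSeries_rootsOfPow (Nat.pos_of_ne_zero (NeZero.ne m)), rootPts, Multiset.map_map,
    splitSeries_map_range]
  have hz : IsPrimitiveRoot (rootZeta K (l * m) : K) (l * m) :=
    IsPrimitiveRoot.coe_units_iff.mpr (isPrimitiveRoot_rootZeta _)
  have hω := hz.pow (Nat.pos_of_ne_zero (NeZero.ne (l * m))) rfl
  refine Eq.trans (Finset.prod_congr rfl fun i _ => ?_)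
    (prod_pow_roots (Nat.pos_of_ne_zero (NeZero.ne m)) hω
      (α := (rootPoint (l * m) b).val ^ l) (c := b.val)
      (by rw [← pow_mul, rootPoint_pow]) l)
  rw [Function.comp_apply, val_powPoint_mulPoint, ← pow_mul, mul_comm i l, pow_mul]

end Points

section Class

variable [IsUltrametricDist K] [CompleteSpace K]
variable {ι : Type*} [Fintype ι] (C₀ : FormalCurve K ι) (W : Subring K) (hW : ∀ x ∈ W, ‖x‖ ≤ 1)
variable (Λ : ∀ N, C₀.Lattice W N)
variable {F : IntermediateField K (LaurentSeries K)} (D : DiscData F) [IsFunctionField K F]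

/-- The points of a family at a point of the disc. -/
def famAt {J : Type*} (z : J → W⟦X⟧) (hz : ∀ j, constantCoeff (z j) = 0) (a : DiscPoint K)
    (j : J) : DiscPoint K :=
  imagePoint W hW (z j) (hz j) a

/-- The functions of `F` with no pole outside the point at infinity are those of `C₀`. -/
structure IsRegularRing : Prop where
  le : ∀ b ∈ C₀.B, b ∈ F
  regular : ∀ b : F, (b : LaurentSeries K) ∈ C₀.B →
    ∀ v : Place K F, v ≠ D.place (discZero K) → 0 ≤ v.ord b
  mem : ∀ b : F, (∀ v : Place K F, v ≠ D.place (discZero K) → 0 ≤ v.ord b) →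
    (b : LaurentSeries K) ∈ C₀.B

variable {C₀ D}

omit [Fintype ι] in
include Λ in
/-- A family with zero logarithm has class zero. -/
theorem discClass_idxPts_eq_zero (hle : ∀ b ∈ C₀.B, b ∈ F)
    (hreg : ∀ b : F, (b : LaurentSeries K) ∈ C₀.B →
      ∀ v : Place K F, v ≠ D.place (discZero K) → 0 ≤ v.ord b) {J : Type*} [Fintype J]
    {n : J → ℕ} (hn : ∀ j, 1 ≤ n j) {z : J → W⟦X⟧} (hz : ∀ j, constantCoeff (z j) = 0)
    (hlog : ∀ i, logVec C₀.A n (fun j => PowerSeries.map W.subtype (z j)) i = 0)
    (a : DiscPoint K) : D.discClass (idxPts n (famAt W hW z hz a)) = 0 := by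
  refine D.discClass_eq_zero_of_principal C₀ hle hreg _ ?_
  rw [card_idxPts hn, splitSeries_idxPts hn]
  have h := C₀.principal_of_logPair_eq_zero W hW (isDist_discFamily hn hz) (Λ _) (fun i => by
    rw [FormalCurve.toK, map_discFamily, C₀.logPair_discFamily hn, hlog, neg_zero]
    intro j
    rw [const_map, hz, map_zero]) a
  rw [evq_discFamily] at h
  exact h

omit [Fintype ι] [CharZero K] in
include hW Λ in
/-- Class zero is principal. -/
theorem principal_of_discClass_eq_zero (hR : IsRegularRing C₀ D) (s : Multiset (DiscPoint K))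
    (h : D.discClass s = 0) : C₀.Principal (Multiset.card s) (splitSeries s) := by
  classical
  rw [DiscData.discClass] at h
  obtain ⟨f, hf, hdiv⟩ := (QuotientAddGroup.eq_zero_iff _).mp h
  have hdiv' : ∀ v, D.discDiv s v = v.ord f := hdiv
  have hplace : ∀ a, ((D.place a).ord f : ℤ) = (s.count a : ℤ) -
      if a = discZero K then (Multiset.card s : ℤ) else 0 := fun a => by
    rw [← hdiv', D.discDiv_apply_place]
  have hB : (f : LaurentSeries K) ∈ C₀.B := hR.mem f fun v hv => by
    rw [← hdiv']
    by_cases hex : ∃ a, v = D.place a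
    · obtain ⟨a, rfl⟩ := hex
      rw [D.discDiv_apply_place, if_neg (fun h0 => hv (by rw [h0]))]
      omega
    · push Not at hex
      rw [D.discDiv_apply_of_ne v hex]
  obtain ⟨x, y, hrep⟩ := D.exists_rep f
  obtain ⟨x', hx', hx0⟩ := ordB_spec (discZero K) (hrep.ne_zero hf)
  obtain ⟨y', hy', hy0⟩ := ordB_spec (discZero K) hrep.1
  set k := ordB (discZero K) x
  set m := ordB (discZero K) y
  have hord : (k : ℤ) - m = (s.count (discZero K) : ℤ) - Multiset.card s := by
    have := hplace (discZero K)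
    rwa [if_pos rfl, D.place_ord_of_rep _ hf hrep] at this
  have hX : (X - C (discZero K).val : K⟦X⟧) = X := by simp [discZero]
  rw [hX] at hx' hy'
  have hc0 : constantCoeff (y' : K⟦X⟧) ≠ 0 := by
    intro h0
    apply hy0
    rw [evBdd_apply, tsum_eq_single 0]
    · simpa [discZero, coeff_zero_eq_constantCoeff_apply] using h0
    · intro n hn
      simp [discZero, zero_pow hn]
  set N := Multiset.card s
  obtain ⟨e, he⟩ : ∃ e : ℕ, m + e = k + N := ⟨k + N - m, by omega⟩
  set x₀ : K⟦X⟧ := X ^ e * (x' : K⟦X⟧) * (y' : K⟦X⟧)⁻¹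
  have hfx : (f : LaurentSeries K) * HahnSeries.ofPowerSeries ℤ K (X ^ N) =
      HahnSeries.ofPowerSeries ℤ K x₀ := by
    have h1 := hrep.2
    have hyne : HahnSeries.ofPowerSeries ℤ K (y : K⟦X⟧) ≠ 0 :=
      (map_ne_zero_iff _ HahnSeries.ofPowerSeries_injective).mpr
        (fun h0 => hrep.1 (Subtype.ext h0))
    refine mul_right_cancel₀ hyne ?_
    rw [mul_right_comm, h1, ← map_mul, ← map_mul]
    congr 1
    rw [hx', hy']
    calc X ^ k * (x' : K⟦X⟧) * X ^ N = X ^ (k + N) * (x' : K⟦X⟧) := by ring
      _ = X ^ e * (x' : K⟦X⟧) * (X ^ m * ((y' : K⟦X⟧)⁻¹ * (y' : K⟦X⟧))) := by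
        rw [PowerSeries.inv_mul_cancel _ hc0, ← he]; ring
      _ = x₀ * (X ^ m * (y' : K⟦X⟧)) := by simp only [x₀]; ring
  have hmem : C₀.Mem N x₀ := by
    rw [FormalCurve.Mem, ← hfx, HahnSeries.ofPowerSeries_X_pow, mul_comm, mul_assoc,
      HahnSeries.single_mul_single]
    simp [hB]
  have hbd : x₀ ∈ boundedSeries K := by
    obtain ⟨w, hw⟩ := (Λ N).spans x₀ hmem
    rw [hw]
    refine sum_mem fun i _ =>
      mul_mem (C_mem_boundedSeries _) (mem_boundedSeries_of_le_one fun l => ?_)
    rw [coeff_map]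
    exact hW _ (Subtype.mem _)
  set X₀ : boundedSeries K := ⟨x₀, hbd⟩
  set XN : boundedSeries K := ⟨X ^ N, pow_mem X_mem_boundedSeries N⟩
  have hXN : XN ≠ 0 := fun h0 => by
    simpa [XN] using congrArg (fun x : boundedSeries K => coeff N (x : K⟦X⟧)) h0
  have hrep' : DiscData.Rep f X₀ XN := ⟨hXN, hfx⟩
  obtain ⟨r, hr⟩ := exists_eq_splitSeries_mul s (hrep'.ne_zero hf) fun a => by
    have h1 := hplace a
    rw [D.place_ord_of_rep _ hf hrep', ordB_X_pow] at h1
    convert! (show s.count a ≤ ordB a X₀ by split_ifs at h1 <;> omega) using 2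
  exact ⟨x₀, fun h0 => hrep'.ne_zero hf (Subtype.ext h0), hmem, r, r.2, hr⟩

end Class

end Fermat.Agent.OrdinaryCurve
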