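import Fermat.Agent.OrdinaryCurve.Interface
import Fermat.Agent.OrdinaryCurve.Dwork

/-!
Indices whose coefficient vectors span modulo `p`, and integral solutions `z` of
`L (z) = c * log (1 + X)` for vectors `c` fixed by `U` composed with Frobenius.
-/

set_option autoImplicit false

noncomputable section

open PowerSeries Matrix

namespace Fermat.Agent.OrdinaryCurve

namespace QBasis

variable {N : ℕ} (Q : QBasis N)

/-- Some coefficient vectors `a (n j)` form a basis modulo `p`. -/
theorem exists_indices (p : ℕ) [hp : Fact p.Prime] :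
    ∃ n : Fin Q.rank → ℕ, (∀ j, 1 ≤ n j) ∧
      ¬ (p : ℤ) ∣ (Matrix.of fun i j => Q.a (n j) i).det := by
  classical
  let v : ℕ → Fin Q.rank → ZMod p := fun n i => (Q.a n i : ZMod p)
  have hspan : Submodule.span (ZMod p) (Set.range v) = ⊤ := by
    by_contra hne
    obtain ⟨φ, hφ0, hφ⟩ := Submodule.exists_dual_map_eq_bot_of_lt_top (Ne.lt_top hne) inferInstance
    refine hφ0 (LinearMap.pi_ext' fun i => LinearMap.ext_ring ?_)
    let c : Fin Q.rank → ℤ := fun i => ((φ (Pi.single i 1) : ZMod p).val : ℤ)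
    have hsum : ∀ m, (p : ℤ) ∣ ∑ i, c i * Q.a m i := by
      intro m
      rw [← ZMod.intCast_zmod_eq_zero_iff_dvd]
      have h0 : φ (v m) = 0 := by
        have : φ (v m) ∈ Submodule.map φ (Submodule.span (ZMod p) (Set.range v)) :=
          Submodule.mem_map_of_mem (Submodule.subset_span ⟨m, rfl⟩)
        rwa [hφ, Submodule.mem_bot] at this
      rw [pi_eq_sum_univ' (v m), map_sum] at h0
      rw [← h0]
      push_cast
      refine Finset.sum_congr rfl fun i _ => ?_
      rw [map_smul, smul_eq_mul, mul_comm]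
      simp [c, v]
    have := Q.saturated p c hsum i
    rw [← ZMod.intCast_zmod_eq_zero_iff_dvd] at this
    simpa [c] using this
  obtain ⟨s, hs, hspan', hli⟩ := exists_linearIndependent (ZMod p) (Set.range v)
  rw [hspan] at hspan'
  let b : Module.Basis s (ZMod p) (Fin Q.rank → ZMod p) :=
    Module.Basis.mk hli (by rw [Subtype.range_coe_subtype, Set.ofPred_mem_eq, hspan'])
  let e : Fin Q.rank ≃ s := (Pi.basisFun (ZMod p) (Fin Q.rank)).indexEquiv b
  choose n hn using fun j => hs (e j).2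
  have hcol : ∀ j, v (n j) = b (e j) := fun j => by rw [hn, Module.Basis.mk_apply]
  refine ⟨n, fun j => Nat.one_le_iff_ne_zero.mpr fun h0 => b.ne_zero (e j) ?_, fun hdvd => ?_⟩
  · rw [← hcol, h0]
    funext i
    simp [v, Q.a_zero i]
  · rw [← ZMod.intCast_zmod_eq_zero_iff_dvd] at hdvd
    have hdet : (Matrix.of fun i j => v (n j) i).det = 0 := by
      rw [← hdvd]
      exact ((Int.castRingHom (ZMod p)).map_det (Matrix.of fun i j => Q.a (n j) i)).symm
    obtain ⟨w, hw0, hw⟩ := Matrix.exists_mulVec_eq_zero_iff.mpr hdet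
    apply hw0
    have h2 : ∑ j, w j • b (e j) = 0 := by
      funext i
      have := congrFun hw i
      simp only [mulVec, dotProduct, Matrix.of_apply, Pi.zero_apply] at this
      simp only [Finset.sum_apply, Pi.smul_apply, ← hcol, smul_eq_mul, Pi.zero_apply]
      rw [← this]
      exact Finset.sum_congr rfl fun j _ => mul_comm _ _
    exact funext ((Fintype.linearIndependent_iff.mp (b.linearIndependent.comp e e.injective)) w h2)

end QBasis

variable (p : ℕ) [hp : Fact p.Prime]

/-- Integers prime to `p` are units of `unramHat`. -/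
theorem natCast_inv_mem_unramHat {k : ℕ} (hk : ¬ p ∣ k) : (k : ℂ_[p])⁻¹ ∈ unramHat p := by
  refine inv_mem_unramHat p (natCast_mem _ k) ?_
  rw [← PadicComplex.coe_natCast, PadicComplex.norm_extends,
    ← map_natCast (algebraMap ℚ_[p] (PadicAlgCl p)), norm_algebraMap']
  exact Padic.norm_natCast_eq_one_iff.mpr ((hp.out.coprime_iff_not_dvd).mpr hk)

/-- `p` is not a unit of `unramHat`. -/
theorem inv_prime_notMem_unramHat : (p : ℂ_[p])⁻¹ ∉ unramHat p := fun h =>
  absurd (norm_unramHat_le p h) (by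
    rw [norm_inv, norm_prime_complex, inv_inv, not_le]
    exact_mod_cast hp.out.one_lt)

/-- The Frobenius of `ℂ_p` lifts the `p`-th power map on `unramHat p`. -/
theorem exists_completeGal_sub_pow {x : ℂ_[p]} (hx : x ∈ unramHat p) :
    ∃ y ∈ unramHat p, completeGal p (frobElt p) x - x ^ p = p * y := by
  obtain ⟨y, hy⟩ := dvd_unramFrob_sub_pow p ⟨x, hx⟩
  refine ⟨y, y.2, ?_⟩
  have h := congrArg Subtype.val hy
  simpa [unramFrob, coe_unramGal] using h

/-- An integral matrix with determinant prime to `p` has an inverse with coefficients in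
`unramHat p`. -/
theorem exists_inverse_mem_unramHat {r : ℕ} {B : Matrix (Fin r) (Fin r) ℤ}
    (hB : ¬ (p : ℤ) ∣ B.det) :
    ∃ M : Matrix (Fin r) (Fin r) ℂ_[p], (∀ a b, M a b ∈ unramHat p) ∧
      ∀ (δ : Fin r → ℂ_[p]) (i : Fin r), ∑ j, (B i j : ℂ_[p]) * (∑ b, M j b * δ b) = δ i := by
  set d : ℂ_[p] := (B.det : ℂ_[p])
  have hd0 : d ≠ 0 := Int.cast_ne_zero.mpr fun h => hB (h ▸ dvd_zero _)
  have hdinv : d⁻¹ ∈ unramHat p := by
    have hnat : ¬ p ∣ B.det.natAbs := fun h => hB (Int.natCast_dvd.mpr h)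
    rcases Int.natAbs_eq B.det with h | h <;> simp only [d] <;> rw [h]
    · rw [Int.cast_natCast]
      exact natCast_inv_mem_unramHat p hnat
    · rw [Int.cast_neg, Int.cast_natCast, inv_neg]
      exact neg_mem (natCast_inv_mem_unramHat p hnat)
  refine ⟨d⁻¹ • B.adjugate.map (Int.cast : ℤ → ℂ_[p]),
    fun a b => mul_mem hdinv (intCast_mem _ _), fun δ i => ?_⟩
  have key : B.map (Int.cast : ℤ → ℂ_[p]) * (d⁻¹ • B.adjugate.map (Int.cast : ℤ → ℂ_[p])) = 1 := by
    have hmul : B.map (Int.cast : ℤ → ℂ_[p]) * B.adjugate.map (Int.cast : ℤ → ℂ_[p]) =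
        (B.det • (1 : Matrix _ _ ℤ)).map (Int.cast : ℤ → ℂ_[p]) := by
      rw [← Matrix.mul_adjugate]
      exact (Matrix.map_mul (f := Int.castRingHom ℂ_[p])).symm
    rw [Matrix.mul_smul, hmul]
    ext a b
    rcases eq_or_ne a b with rfl | hab
    · rw [Matrix.smul_apply, Matrix.map_apply, Matrix.smul_apply, Matrix.one_apply_eq,
        Matrix.one_apply_eq, smul_eq_mul, smul_eq_mul, mul_one]
      exact inv_mul_cancel₀ hd0
    · rw [Matrix.smul_apply, Matrix.map_apply, Matrix.smul_apply, Matrix.one_apply_ne hab,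
        Matrix.one_apply_ne hab, smul_zero, Int.cast_zero, smul_zero]
  have h : ((B.map (Int.cast : ℤ → ℂ_[p]) * (d⁻¹ • B.adjugate.map (Int.cast : ℤ → ℂ_[p]))) *ᵥ δ) i
      = δ i := by rw [key, one_mulVec]
  rw [← mulVec_mulVec] at h
  exact h

variable {N : ℕ} (Q : QBasis N)

/-- The Dwork data of the coefficient vectors at a prime dividing the level. -/
@[reducible] def dworkData (U : Matrix (Fin Q.rank) (Fin Q.rank) ℤ) (hU : IsUMat Q p U) :
    DworkData p ℂ_[p] (Fin Q.rank) where
  W := unramHat p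
  σ := completeGal p (frobElt p)
  inv_mem _ hk := natCast_inv_mem_unramHat p hk
  not_inv_mem := inv_prime_notMem_unramHat p
  σ_mem x hx := (unramGal p (frobElt p) ⟨x, hx⟩).2
  σ_frob _ hx := exists_completeGal_sub_pow p hx
  A m i := (Q.a m i : ℂ_[p])
  U := U.map (Int.cast : ℤ → ℂ_[p])
  V := 0
  A_mem m i := intCast_mem _ _
  U_mem i l := intCast_mem _ _
  V_mem i l := zero_mem _
  σ_A m i := map_intCast _ _
  A_mul m i := by
    have := congrArg (Int.cast : ℤ → ℂ_[p]) (congrFun (hU m) i)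
    simp only [this, mulVec, dotProduct, Matrix.map_apply, Int.cast_sum, Int.cast_mul]
    simp

/-- The series with logarithm `c log (1 + X)`. -/
theorem exists_family {U : Matrix (Fin Q.rank) (Fin Q.rank) ℤ} (hU : IsUMat Q p U)
    {n : Fin Q.rank → ℕ} (hn : ¬ (p : ℤ) ∣ (Matrix.of fun i j => Q.a (n j) i).det)
    (c : fixVectors p U) :
    ∃ z : Fin Q.rank → (unramHat p)⟦X⟧, (∀ j, constantCoeff (z j) = 0) ∧
      ∀ i, logVec (fun m i => (Q.a m i : ℂ_[p])) n
          (fun j => PowerSeries.map (unramHat p).subtype (z j)) i =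
        C ((c : Fin Q.rank → unramHat p) i : ℂ_[p]) * log ℂ_[p] := by
  obtain ⟨M, hM, hMinv⟩ := exists_inverse_mem_unramHat p hn
  refine (dworkData p Q U hU).exists_series _
    ((dworkData p Q U hU).hasFunctionalEquation_log
      (fun i => ((c : Fin Q.rank → unramHat p) i : ℂ_[p])) (fun i => Subtype.mem _) (fun i => ?_))
    n M hM hMinv
  have h := congrArg Subtype.val (congrFun c.2 i)
  simpa [mulVec, dotProduct, dworkData, unramFrob, coe_unramGal] using h

end Fermat.Agent.OrdinaryCurve
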