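import Fermat.Agent.OrdinaryCurve.ClassFamily
import Fermat.Agent.OrdinaryCurve.Vectors
import Fermat.Agent.OrdinaryCurve.CurveDisc
import Fermat.Agent.OrdinaryCurve.CurveB
import Fermat.Agent.OrdinaryCurve.CurveLattice

/-!
`X₀(N)` over `ℂ_p` at a prime not dividing the level: the disc curve, the Dwork data
`a (p m) = H (a m) - p a (m / p)`, and divisor classes on the disc for every vector of series with
the functional equation of `H`.
-/

set_option autoImplicit false

noncomputable section

open PowerSeries Matrix AlgebraicCurve ModularCurve Fermat.Agent.FunctionField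

namespace Fermat.Agent.OrdinaryCurve

/-! ### Closure properties of the functional equation -/

section FE

variable {p : ℕ} [hp : Fact p.Prime] {K : Type*} [Field K] [CharZero K] {ι : Type*} [Fintype ι]

namespace DworkData

variable (D : DworkData p K ι) {R R' : ι → K⟦X⟧}

theorem hasFunctionalEquation_lam (n : ℕ) : D.HasFunctionalEquation (lam D.A n) := by
  refine ⟨fun i => by simp [← coeff_zero_eq_constantCoeff_apply], fun i m => ?_⟩
  obtain ⟨G, hG⟩ := D.lam_eq n i
  have h := congrArg (coeff m) hG
  simp only [map_add, map_sum, coeff_C_mul] at h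
  simp only [map_lam D.σ D.σ_A]
  rw [sub_eq_iff_eq_add.mpr h, coeff_map]
  exact (coeff m G).2

/-- Functional equations add. -/
theorem HasFunctionalEquation.add (h : D.HasFunctionalEquation R)
    (h' : D.HasFunctionalEquation R') : D.HasFunctionalEquation fun i => R i + R' i := by
  refine ⟨fun i => by rw [map_add, h.1, h'.1, add_zero], fun i m => ?_⟩
  convert D.W.add_mem (h.2 i m) (h'.2 i m) using 1
  simp only [map_add, mul_add, Finset.sum_add_distrib]
  ring

/-- Functional equations negate. -/
theorem HasFunctionalEquation.neg (h : D.HasFunctionalEquation R) :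
    D.HasFunctionalEquation fun i => -R i := by
  refine ⟨fun i => by rw [map_neg, h.1, neg_zero], fun i m => ?_⟩
  convert D.W.neg_mem (h.2 i m) using 1
  simp only [map_neg, mul_neg, ← neg_add, Finset.sum_neg_distrib]
  ring

/-- Integral `σ`-fixed matrices commuting with `U` and `V` act on the solutions. -/
theorem HasFunctionalEquation.mulVec (h : D.HasFunctionalEquation R) (M : Matrix ι ι K)
    (hM : ∀ i l, M i l ∈ D.W) (hσ : ∀ i l, D.σ (M i l) = M i l) (hU : D.U * M = M * D.U)
    (hV : D.V * M = M * D.V) :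
    D.HasFunctionalEquation fun i => ∑ l, C (M i l) * R l := by
  refine ⟨fun i => by simp [h.1], fun i m => ?_⟩
  let v0 : ι → K := fun l => coeff m (R l)
  let v1 : ι → K := fun l => coeff m (expand p hp.out.ne_zero (PowerSeries.map D.σ (R l)))
  let v2 : ι → K := fun l => coeff m (expand p hp.out.ne_zero (expand p hp.out.ne_zero
    (PowerSeries.map D.σ (PowerSeries.map D.σ (R l)))))
  have key : ∀ (B : Matrix ι ι K) (v : ι → K), B * M = M * B → ∀ i,
      ∑ l, B i l / (p : K) * (M *ᵥ v) l = (M *ᵥ fun a => ∑ l, B a l / (p : K) * v l) i := by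
    intro B v hBM i
    have e1 : ∀ (w : ι → K) a, ∑ l, B a l / (p : K) * w l = ((p : K)⁻¹ • (B *ᵥ w)) a := by
      intro w a
      rw [Pi.smul_apply, Matrix.mulVec, dotProduct, smul_eq_mul, Finset.mul_sum]
      exact Finset.sum_congr rfl fun l _ => by ring
    rw [e1, mulVec_mulVec, hBM, funext (e1 v), mulVec_smul, mulVec_mulVec]
  have hmem : (M *ᵥ fun a => v0 a - (∑ l, D.U a l / (p : K) * v1 l +
      ∑ l, D.V a l / (p : K) * v2 l)) i ∈ D.W := by
    refine D.W.sum_mem fun a _ => D.W.mul_mem (hM i a) ?_
    have := h.2 a m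
    rwa [Finset.sum_add_distrib] at this
  convert hmem using 1
  rw [show (fun a => v0 a - (∑ l, D.U a l / (p : K) * v1 l + ∑ l, D.V a l / (p : K) * v2 l)) =
    v0 - ((fun a => ∑ l, D.U a l / (p : K) * v1 l) + fun a => ∑ l, D.V a l / (p : K) * v2 l)
    from rfl, mulVec_sub, mulVec_add, Pi.sub_apply, Pi.add_apply, ← key D.U v1 hU i,
    ← key D.V v2 hV i, ← Finset.sum_add_distrib]
  simp only [v0, v1, v2, Matrix.mulVec, dotProduct, map_sum, map_mul, map_C, hσ, expand_C,
    coeff_C_mul]

end DworkData

end FE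

/-! ### The curve at a prime of good reduction -/

variable (p : ℕ) [hp : Fact p.Prime] {N : ℕ} [NeZero N] (Q : QBasis N)

/-- `ℤ_p → ℂ_p`. -/
def padicIntToComplex : ℤ_[p] →+* ℂ_[p] :=
  (algebraMap (PadicAlgCl p) ℂ_[p]).comp (algebraMap ℤ_[p] (PadicAlgCl p))

theorem padicIntToComplex_mem (r : ℤ_[p]) : padicIntToComplex p r ∈ unramHat p :=
  coe_mem_unramHat p ((unramRing p).algebraMap_mem r)

/-- Galois fixes `ℤ_p`. -/
theorem completeGal_padicIntToComplex (g : PadicAlgCl p ≃ₐ[ℚ_[p]] PadicAlgCl p) (r : ℤ_[p]) :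
    completeGal p g (padicIntToComplex p r) = padicIntToComplex p r :=
  (completeGal_coe p g _).trans (congrArg _ (localGalois_algebraMap_int p g r))

/-- A lattice over a subring of the unit ball gives a lattice over the unit ball. -/
def latticeOfLE {K ι : Type*} [NormedField K] [IsUltrametricDist K] [CharZero K] [Fintype ι]
    {C₀ : FormalCurve K ι} {W : Subring K} (hW : ∀ x ∈ W, ‖x‖ ≤ 1) {n : ℕ}
    (L : C₀.Lattice W n) : C₀.Lattice (ballRing K) n :=
  have h : ∀ k, PowerSeries.map (ballRing K).subtype
      (PowerSeries.map (Subring.inclusion fun x hx => hW x hx : W →+* ballRing K) (L.basis k)) =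
      PowerSeries.map W.subtype (L.basis k) := fun k =>
    PowerSeries.ext fun e => rfl
  { rank := L.rank
    basis := fun k => PowerSeries.map (Subring.inclusion fun x hx => hW x hx) (L.basis k)
    mem := fun k => by rw [h k]; exact L.mem k
    indep := by simp only [h]; exact L.indep
    spans := fun x hx => by simp only [h]; exact L.spans x hx }

/-- The disc curve of `X₀(N)` over `ℂ_p`, its forms having the expansions of `Q`. -/
theorem exists_discCurve_disc :
    ∃ S : DiscCurve (curveField p N) (Fin Q.rank), S.disc = discData p N ∧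
      S.curve.A = fun n i => (Q.a n i : ℂ_[p]) := by
  obtain ⟨C₀, hB, hA⟩ := hasFormalCurve p N Q
  have hmem : ∀ b ∈ C₀.B, b ∈ curveField p N := fun b hb => by
    rw [hB] at hb
    exact mem_curveField_of_mem_regularRing p N hb
  have hreg : ∀ b : curveField p N, (b : LaurentSeries ℂ_[p]) ∈ C₀.B →
      ∀ v : Place ℂ_[p] (curveField p N),
        v ≠ (discData p N).place (discZero ℂ_[p]) → 0 ≤ v.ord b := fun b hb => by
    rw [hB] at hb
    exact ord_nonneg_of_mem_regularRing p N b hb
  suffices hlat : ∀ n, Nonempty (C₀.Lattice (ballRing ℂ_[p]) n) by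
    exact ⟨⟨C₀, discData p N, hmem, hreg, hlat⟩, rfl, hA⟩
  exact fun n => (hasLattices N p (Fin Q.rank) C₀ hB n).elim
    fun L => ⟨latticeOfLE (fun x hx => norm_unramHat_le p hx) L⟩

/-- The Dwork data of the coefficient vectors at a prime not dividing the level. -/
@[reducible] def goodDworkData (H : Matrix (Fin Q.rank) (Fin Q.rank) ℤ) (hH : IsTMat Q p H) :
    DworkData p ℂ_[p] (Fin Q.rank) where
  W := unramHat p
  σ := completeGal p (frobElt p)
  inv_mem _ hk := natCast_inv_mem_unramHat p hk
  not_inv_mem := inv_prime_notMem_unramHat p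
  σ_mem x hx := (unramGal p (frobElt p) ⟨x, hx⟩).2
  σ_frob _ hx := exists_completeGal_sub_pow p hx
  A m i := (Q.a m i : ℂ_[p])
  U := H.map (Int.cast : ℤ → ℂ_[p])
  V := -1
  A_mem m i := intCast_mem _ _
  U_mem i l := intCast_mem _ _
  V_mem i l := by
    rw [Matrix.neg_apply, Matrix.one_apply]
    split_ifs
    · exact neg_mem (one_mem _)
    · exact neg_mem (zero_mem _)
  σ_A m i := map_intCast _ _
  A_mul m i := by
    have h := hH.cast_apply ℂ_[p] m i
    simp only [Matrix.map_apply, ← h]
    split_ifs with hpm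
    · have hneg : ∑ l, (-1 : Matrix (Fin Q.rank) (Fin Q.rank) ℂ_[p]) i l * (Q.a (m / p) l : ℂ_[p])
          = -(Q.a (m / p) i : ℂ_[p]) := by
        simp [Matrix.neg_apply, Matrix.one_apply]
      rw [hneg]
      ring
    · simp

variable {H : Matrix (Fin Q.rank) (Fin Q.rank) ℤ} (hH : IsTMat Q p H)

omit [NeZero N] in
/-- The vector of logarithms of the point `q = t` has the functional equation. -/
theorem hasFunctionalEquation_lam_good (n : ℕ) :
    (goodDworkData p Q H hH).HasFunctionalEquation (lam (fun m i => (Q.a m i : ℂ_[p])) n) :=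
  (goodDworkData p Q H hH).hasFunctionalEquation_lam n

omit [NeZero N] in
/-- `ℤ_p`-matrices commuting with `H` preserve the functional equation. -/
theorem hasFunctionalEquation_mulVec_good {R : Fin Q.rank → ℂ_[p]⟦X⟧}
    (hR : (goodDworkData p Q H hH).HasFunctionalEquation R)
    (M : Matrix (Fin Q.rank) (Fin Q.rank) ℤ_[p])
    (hM : H.map (Int.cast : ℤ → ℤ_[p]) * M = M * H.map (Int.cast : ℤ → ℤ_[p])) :
    (goodDworkData p Q H hH).HasFunctionalEquation
      fun i => ∑ l, C (padicIntToComplex p (M i l)) * R l := by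
  refine hR.mulVec _ (M.map (padicIntToComplex p)) (fun i l => padicIntToComplex_mem p _)
    (fun i l => completeGal_padicIntToComplex p _ _) ?_ ?_
  · have := congrArg (fun B : Matrix _ _ ℤ_[p] => B.map (padicIntToComplex p)) hM
    simpa [Matrix.map_mul, Matrix.map_map, Function.comp_def] using this
  · show (-1 : Matrix (Fin Q.rank) (Fin Q.rank) ℂ_[p]) * _ = _ * (-1)
    rw [neg_one_mul, mul_neg_one]

omit [NeZero N] in
/-- `c log (1 + X)` has the functional equation when `c = H σ c - p σ² c`. -/
theorem hasFunctionalEquation_log_good (c : Fin Q.rank → unramHat p)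
    (hc : ∀ i, ∑ l, (H i l : unramHat p) * unramFrob p (c l) -
      (p : unramHat p) * unramFrob p (unramFrob p (c i)) = c i) :
    (goodDworkData p Q H hH).HasFunctionalEquation
      fun i => C (c i : ℂ_[p]) * log ℂ_[p] := by
  refine (goodDworkData p Q H hH).hasFunctionalEquation_log (fun i => (c i : ℂ_[p]))
    (fun i => (c i).2) fun i => ?_
  conv_rhs => rw [← hc i]
  push_cast
  simp [unramFrob, Matrix.one_apply, sub_eq_add_neg]

variable {n : Fin Q.rank → ℕ}

omit [NeZero N] in
/-- The integral series with a given vector of logarithms. -/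
theorem exists_family_good (hn : ¬ (p : ℤ) ∣ (Matrix.of fun i j => Q.a (n j) i).det)
    {R : Fin Q.rank → ℂ_[p]⟦X⟧} (hR : (goodDworkData p Q H hH).HasFunctionalEquation R) :
    ∃ z : Fin Q.rank → (unramHat p)⟦X⟧, (∀ j, constantCoeff (z j) = 0) ∧
      ∀ i, logVec (fun m i => (Q.a m i : ℂ_[p])) n
          (fun j => PowerSeries.map (unramHat p).subtype (z j)) i = R i := by
  obtain ⟨M, hM, hMinv⟩ := exists_inverse_mem_unramHat p hn
  exact (goodDworkData p Q H hH).exists_series R hR n M hM hMinv

/-- A solution of the functional equation is the vector of logarithms of a class at every point. -/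
theorem exists_isClass_of_functionalEquation (S : DiscCurve (curveField p N) (Fin Q.rank))
    (hS : S.curve.A = fun m i => (Q.a m i : ℂ_[p])) {R : Fin Q.rank → ℂ_[p]⟦X⟧}
    (hR : (goodDworkData p Q H hH).HasFunctionalEquation R) (a : DiscPoint ℂ_[p]) :
    ∃ x, S.IsClass a R x := by
  obtain ⟨n, hn1, hn⟩ := Q.exists_indices p
  obtain ⟨z, hz, hzR⟩ := exists_family_good p Q hH hn hR
  obtain ⟨z', hz', hzR'⟩ := exists_family_good p Q hH hn hR.neg
  exact S.isClass_of_series (fun x hx => norm_unramHat_le p hx) n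
    (fun j => (Nat.one_le_iff_ne_zero.mp (hn1 j))) z z' hz hz' R
    (fun i => by rw [hS]; exact hzR i) (fun i => by rw [hS]; exact hzR' i) a

end Fermat.Agent.OrdinaryCurve
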