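import Fermat.Agent.OrdinaryCurve.DiscClass
import Mathlib.RingTheory.PowerSeries.Expand

/-!
Orders of vanishing at disc points of `r (X ^ l)` and `r (c X)`.
-/

set_option autoImplicit false

noncomputable section

open PowerSeries Finset

namespace Fermat.Agent.OrdinaryCurve

variable {K : Type*} [NormedField K]

/-- The point `a ^ l`. -/
def powPoint (l : ℕ) (hl : l ≠ 0) (a : DiscPoint K) : DiscPoint K :=
  ⟨a.val ^ l, by rw [norm_pow]; exact pow_lt_one₀ (norm_nonneg _) a.norm_lt hl⟩

/-- The point `c * a`. -/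
def mulPoint (c : K) (hc : ‖c‖ ≤ 1) (a : DiscPoint K) : DiscPoint K :=
  ⟨c * a.val, by
    rw [norm_mul]
    exact lt_of_le_of_lt (mul_le_of_le_one_left (norm_nonneg _) hc) a.norm_lt⟩

/-- The value of `powPoint`. -/
@[simp] theorem powPoint_val (l : ℕ) (hl : l ≠ 0) (a : DiscPoint K) :
    (powPoint l hl a).val = a.val ^ l := rfl

/-- The value of `mulPoint`. -/
@[simp] theorem mulPoint_val (c : K) (hc : ‖c‖ ≤ 1) (a : DiscPoint K) :
    (mulPoint c hc a).val = c * a.val := rfl

variable [IsUltrametricDist K]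

/-- `expand` preserves bounded series. -/
theorem expand_mem_boundedSeries (l : ℕ) (hl : l ≠ 0) {r : K⟦X⟧} (hr : r ∈ boundedSeries K) :
    expand l hl r ∈ boundedSeries K := by
  obtain ⟨M, hM⟩ := hr
  refine ⟨M, fun m => ?_⟩
  rw [coeff_expand]
  split_ifs
  · exact hM _
  · rw [norm_zero]; exact (norm_nonneg _).trans (hM 0)

/-- `r ↦ r (X ^ l)` on bounded series. -/
def bddExpand (l : ℕ) (hl : l ≠ 0) : boundedSeries K →+* boundedSeries K :=
  ((expand l hl).toRingHom.comp (boundedSeries K).subtype).codRestrict _ fun r =>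
    expand_mem_boundedSeries l hl r.2

/-- `bddExpand` is `expand`. -/
@[simp] theorem coe_bddExpand (l : ℕ) (hl : l ≠ 0) (r : boundedSeries K) :
    (bddExpand l hl r : K⟦X⟧) = expand l hl (r : K⟦X⟧) := rfl

theorem rescale_mem_boundedSeries {c : K} (hc : ‖c‖ ≤ 1) {r : K⟦X⟧} (hr : r ∈ boundedSeries K) :
    rescale c r ∈ boundedSeries K := by
  obtain ⟨M, hM⟩ := hr
  refine ⟨M, fun m => ?_⟩
  rw [coeff_rescale, norm_mul, norm_pow]
  exact (mul_le_of_le_one_left (norm_nonneg _) (pow_le_one₀ (norm_nonneg _) hc)).trans (hM m)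

/-- `r ↦ r (c X)` on bounded series. -/
def bddRescale (c : K) (hc : ‖c‖ ≤ 1) : boundedSeries K →+* boundedSeries K :=
  ((rescale c).comp (boundedSeries K).subtype).codRestrict _ fun r =>
    rescale_mem_boundedSeries hc r.2

/-- `bddRescale` is `rescale`. -/
@[simp] theorem coe_bddRescale (c : K) (hc : ‖c‖ ≤ 1) (r : boundedSeries K) :
    (bddRescale c hc r : K⟦X⟧) = rescale c (r : K⟦X⟧) := rfl

/-- `bddExpand` preserves nonvanishing. -/
theorem bddExpand_ne_zero (l : ℕ) (hl : l ≠ 0) {r : boundedSeries K} (hr : r ≠ 0) :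
    bddExpand l hl r ≠ 0 := by
  intro h
  refine hr (Subtype.ext (ext fun m => ?_))
  have := congrArg (fun x : boundedSeries K => coeff (l * m) (x : K⟦X⟧)) h
  simpa [coeff_expand_mul] using this

/-- `bddRescale` preserves nonvanishing. -/
theorem bddRescale_ne_zero {c : K} (hc : ‖c‖ ≤ 1) (hc0 : c ≠ 0) {r : boundedSeries K} (hr : r ≠ 0) :
    bddRescale c hc r ≠ 0 := by
  intro h
  refine hr (Subtype.ext (ext fun m => ?_))
  have := congrArg (fun x : boundedSeries K => coeff m (x : K⟦X⟧)) h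
  simpa [coeff_rescale, hc0] using this

variable [CompleteSpace K]

/-- Evaluating an expanded series is evaluating at the power of the point. -/
theorem evBdd_bddExpand (l : ℕ) (hl : l ≠ 0) (a : DiscPoint K) (r : boundedSeries K) :
    evBdd a (bddExpand l hl r) = evBdd (powPoint l hl a) r := by
  rw [evBdd_apply, evBdd_apply]
  have hinj : Function.Injective (fun n : ℕ => l * n) := mul_right_injective₀ hl
  refine (hinj.tsum_eq ?_).symm.trans (tsum_congr fun n => ?_)
  · intro m hm
    rw [Function.mem_support, coe_bddExpand, coeff_expand] at hm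
    split_ifs at hm with h
    · obtain ⟨k, rfl⟩ := h
      exact ⟨k, rfl⟩
    · exact absurd (zero_mul _) hm
  · simp [coeff_expand_mul, pow_mul]

theorem evBdd_bddRescale (c : K) (hc : ‖c‖ ≤ 1) (a : DiscPoint K) (r : boundedSeries K) :
    evBdd a (bddRescale c hc r) = evBdd (mulPoint c hc a) r := by
  rw [evBdd_apply, evBdd_apply]
  exact tsum_congr fun n => by simp [coeff_rescale, mul_pow]; ring

/-- The order of an expanded series away from the centre. -/
theorem ordB_bddExpand (l : ℕ) (hl : l ≠ 0) (hlK : (l : K) ≠ 0) {a : DiscPoint K} (ha : a.val ≠ 0)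
    {r : boundedSeries K} (hr : r ≠ 0) :
    ordB a (bddExpand l hl r) = ordB (powPoint l hl a) r := by
  obtain ⟨s, hs, hs0⟩ := ordB_spec (powPoint l hl a) hr
  set k := ordB (powPoint l hl a) r
  set Q : boundedSeries K := ∑ i ∈ range l,
    (⟨X, X_mem_boundedSeries⟩ : boundedSeries K) ^ i *
      ⟨C a.val, C_mem_boundedSeries _⟩ ^ (l - 1 - i) with hQ
  have hQv : (Q : K⟦X⟧) * (X - C a.val) = X ^ l - C a.val ^ l := by
    rw [hQ, AddSubmonoidClass.coe_finsetSum]
    exact geom_sum₂_mul (X : K⟦X⟧) (C a.val) l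
  refine ordB_eq a (s := Q ^ k * bddExpand l hl s) ?_ ?_
  · rw [coe_bddExpand, hs, Subring.coe_mul, SubmonoidClass.coe_pow, map_mul, map_pow, map_sub,
      expand_X, expand_C, powPoint_val, map_pow, ← hQv, coe_bddExpand, mul_pow]
    ring
  · rw [map_mul, map_pow, evBdd_bddExpand]
    refine mul_ne_zero (pow_ne_zero _ ?_) hs0
    rw [hQ, map_sum]
    simp only [map_mul, map_pow, evBdd_X, evBdd_C, ← pow_add]
    rw [Finset.sum_congr rfl fun i hi => show a.val ^ (i + (l - 1 - i)) = a.val ^ (l - 1) by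
      rw [Nat.add_sub_cancel' (Nat.le_sub_one_of_lt (Finset.mem_range.mp hi))]]
    rw [Finset.sum_const, Finset.card_range, nsmul_eq_mul]
    exact mul_ne_zero hlK (pow_ne_zero _ ha)

/-- The order of an expanded series at the centre. -/
theorem ordB_bddExpand_zero (l : ℕ) (hl : l ≠ 0) {r : boundedSeries K} (hr : r ≠ 0) :
    ordB (discZero K) (bddExpand l hl r) = l * ordB (discZero K) r := by
  obtain ⟨s, hs, hs0⟩ := ordB_spec (discZero K) hr
  have h0 : (discZero K).val = 0 := rfl
  refine ordB_eq _ (s := bddExpand l hl s) ?_ ?_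
  · rw [coe_bddExpand, hs, h0, map_zero, sub_zero, map_mul, map_pow, expand_X, ← pow_mul,
      coe_bddExpand]
  · rw [evBdd_bddExpand, show powPoint l hl (discZero K) = discZero K from
      DiscPoint.ext (by rw [powPoint_val, h0, zero_pow hl])]
    exact hs0

/-- The order of a rescaled series. -/
theorem ordB_bddRescale {c : K} (hc : ‖c‖ ≤ 1) (hc0 : c ≠ 0) (a : DiscPoint K)
    {r : boundedSeries K} (hr : r ≠ 0) :
    ordB a (bddRescale c hc r) = ordB (mulPoint c hc a) r := by
  obtain ⟨s, hs, hs0⟩ := ordB_spec (mulPoint c hc a) hr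
  set k := ordB (mulPoint c hc a) r
  refine ordB_eq a (s := ⟨C c, C_mem_boundedSeries c⟩ ^ k * bddRescale c hc s) ?_ ?_
  · have hrC : rescale c (C (c * a.val) : K⟦X⟧) = C (c * a.val) := by
      ext m
      rw [coeff_rescale, coeff_C]
      split_ifs with h <;> simp [h]
    rw [coe_bddRescale, hs, Subring.coe_mul, SubmonoidClass.coe_pow, map_mul, map_pow, map_sub,
      rescale_X, mulPoint_val, hrC, coe_bddRescale]
    rw [map_mul C c a.val, ← mul_sub, mul_pow]
    ring
  · rw [map_mul, map_pow, evBdd_C, evBdd_bddRescale]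
    exact mul_ne_zero (pow_ne_zero _ hc0) hs0

end Fermat.Agent.OrdinaryCurve
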