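import Fermat.Agent.OrdinaryCurve.Abel
import Mathlib.Topology.Algebra.InfiniteSum.Constructions

/-!
Specialisation of the formal Abel theorem at points of the open unit disc.
-/

set_option autoImplicit false

noncomputable section

open PowerSeries Finset

namespace Fermat.Agent.OrdinaryCurve

variable {K : Type*} [NormedField K] [CompleteSpace K] [IsUltrametricDist K]
variable {ι : Type*} (W : Subring K) (hW : ∀ x ∈ W, ‖x‖ ≤ 1)

/-- A power series with bounded coefficients. -/
def IsBoundedSeries (r : K⟦X⟧) : Prop := ∃ M : ℝ, ∀ l, ‖coeff l r‖ ≤ M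

/-- A polynomial of degree `N`, monic, with all other coefficients of norm `< 1`. -/
structure IsSmallDist (N : ℕ) (u : K⟦X⟧) : Prop where
  lead : coeff N u = 1
  high : ∀ l, N < l → coeff l u = 0
  small : ∀ l, l < N → ‖coeff l u‖ < 1

omit [CompleteSpace K] in
/-- A bounded series whose product with `u` has no tail is zero. -/
theorem IsSmallDist.eq_zero_of_low {N : ℕ} {u s : K⟦X⟧} (hu : IsSmallDist N u)
    (hs : IsBoundedSeries s) (h : ∀ l, N ≤ l → coeff l (u * s) = 0) : s = 0 := by
  obtain ⟨M, hM⟩ := hs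
  have hM0 : 0 ≤ M := (norm_nonneg _).trans (hM 0)
  obtain ⟨ε, hε0, hε1, hε⟩ : ∃ ε : ℝ, 0 ≤ ε ∧ ε < 1 ∧ ∀ l, l < N → ‖coeff l u‖ ≤ ε := by
    rcases Nat.eq_zero_or_pos N with rfl | hN
    · exact ⟨0, le_rfl, zero_lt_one, fun l hl => absurd hl (Nat.not_lt_zero l)⟩
    · have hne : (Finset.range N).Nonempty := ⟨0, Finset.mem_range.mpr hN⟩
      refine ⟨(Finset.range N).sup' hne fun l => ‖coeff l u‖, ?_, ?_, ?_⟩
      · exact (norm_nonneg (coeff 0 u)).trans
          (Finset.le_sup' (fun l => ‖coeff l u‖) (Finset.mem_range.mpr hN))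
      · exact (Finset.sup'_lt_iff hne).mpr fun l hl => hu.small l (Finset.mem_range.mp hl)
      · exact fun l hl => Finset.le_sup' (fun l => ‖coeff l u‖) (Finset.mem_range.mpr hl)
  have key : ∀ (k n : ℕ), ‖coeff n s‖ ≤ ε ^ k * M := by
    intro k
    induction k with
    | zero => simpa using hM
    | succ k ih =>
      intro n
      have hn := h (n + N) (Nat.le_add_left N n)
      rw [coeff_mul, ← Finset.add_sum_erase _ _
        (Finset.HasAntidiagonal.mem_antidiagonal.mpr (Nat.add_comm N n) :
          (N, n) ∈ antidiagonal (n + N)), hu.lead, one_mul] at hn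
      rw [eq_neg_of_add_eq_zero_left hn, norm_neg]
      refine IsUltrametricDist.norm_sum_le_of_forall_le_of_nonneg (by positivity) fun ab hab => ?_
      rw [Finset.mem_erase, Finset.HasAntidiagonal.mem_antidiagonal] at hab
      rcases lt_trichotomy ab.1 N with h1 | h1 | h1
      · rw [norm_mul, pow_succ', mul_assoc]
        exact mul_le_mul (hε _ h1) (ih _) (norm_nonneg _) hε0
      · exact absurd (Prod.ext h1 (by simp only; omega)) hab.1
      · rw [hu.high _ h1, zero_mul, norm_zero]
        positivity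
  ext n
  rw [map_zero, ← norm_le_zero_iff]
  have hlim : Filter.Tendsto (fun k => ε ^ k * M) Filter.atTop (nhds 0) := by
    simpa using (tendsto_pow_atTop_nhds_zero_of_lt_one hε0 hε1).mul_const M
  exact ge_of_tendsto' hlim fun k => key k n

/-- Specialise the parameter of an iterated series at a point of the disc. -/
def evq (a : DiscPoint K) : W⟦X⟧⟦X⟧ →+* K⟦X⟧ :=
  (PowerSeries.map (evalAt W hW a)).comp swapVars

omit [IsUltrametricDist K] in
/-- The coefficients of `evq`. -/
theorem coeff_evq (a : DiscPoint K) (f : W⟦X⟧⟦X⟧) (l : ℕ) :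
    coeff l (evq W hW a f) = evalAt W hW a (coeff l (swapVars f)) := by
  rw [evq, RingHom.comp_apply, coeff_map]

omit [IsUltrametricDist K] in
/-- `evq` of a series free of the parameter. -/
theorem evq_C (a : DiscPoint K) (g : W⟦X⟧) :
    evq W hW a (C g) = PowerSeries.map W.subtype g := by
  ext l
  rw [coeff_evq, coeff_map, coeff_swapVars]
  have : (PowerSeries.mk fun e => coeff l (coeff e (C g))) = C (coeff l g) := by
    ext e
    rw [coeff_mk, coeff_C, coeff_C]
    split_ifs <;> simp
  rw [this, evalAt_C]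
  rfl

theorem isSmallDist_evq (a : DiscPoint K) {N : ℕ} {u : W⟦X⟧⟦X⟧} (hu : IsDist N u) :
    IsSmallDist N (evq W hW a u) := by
  have h0 : ∀ l, coeff l (constantCoeff u) = if l = N then (1 : W) else 0 := fun l => by
    rw [hu.zero, coeff_X_pow]
  constructor
  · rw [coeff_evq, show coeff N (swapVars u) = C 1 from ?_, evalAt_C, Subring.coe_one]
    ext e
    rw [coeff_coeff_swapVars, coeff_C]
    split_ifs with he
    · rw [he, coeff_zero_eq_constantCoeff_apply, h0, if_pos rfl]
    · rw [hu.low e (by omega) N le_rfl]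
  · intro l hl
    rw [coeff_evq, show coeff l (swapVars u) = 0 from ?_, map_zero]
    ext e
    rw [coeff_coeff_swapVars, map_zero]
    rcases Nat.eq_zero_or_pos e with rfl | he
    · rw [coeff_zero_eq_constantCoeff_apply, h0, if_neg (by omega)]
    · rw [hu.low e he l hl.le]
  · intro l hl
    rw [coeff_evq]
    refine norm_evalAt_lt W hW a _ ?_
    rw [← coeff_zero_eq_constantCoeff_apply, coeff_coeff_swapVars,
      coeff_zero_eq_constantCoeff_apply, h0, if_neg (by omega)]

namespace FormalCurve

variable (C₀ : FormalCurve K ι)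

/-- The divisor of zeros of `u` in the disc, minus `N` times the point at infinity, is principal:
some nonzero function with pole order at most `N` is divisible by `u`. -/
def Principal (N : ℕ) (u : K⟦X⟧) : Prop :=
  ∃ x : K⟦X⟧, x ≠ 0 ∧ C₀.Mem N x ∧ ∃ r, IsBoundedSeries r ∧ x = u * r

variable {N : ℕ} (Λ : C₀.Lattice W N) {u : W⟦X⟧⟦X⟧} (hu : IsDist N u)

omit [IsUltrametricDist K] in
theorem evq_basis (a : DiscPoint K) (k : Fin Λ.rank) :
    PowerSeries.map W.subtype (Λ.basis k) =
      evq W hW a u * evq W hW a (C₀.quotient W Λ hu k) +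
        evq W hW a (C₀.remainder W Λ hu k) := by
  rw [← map_mul, ← map_add, ← (C₀.division_spec W Λ hu k).1, evq_C]

/-- A kernel vector of the specialised matrix gives a principal divisor. -/
theorem principal_of_kernel (a : DiscPoint K) (w : Fin Λ.rank → K) (hw : w ≠ 0)
    (h : ((C₀.matrix W Λ hu).map (evalAt W hW a)).mulVec w = 0) :
    C₀.Principal N (evq W hW a u) := by
  refine ⟨∑ k, C (w k) * PowerSeries.map W.subtype (Λ.basis k), fun h0 => hw ?_, ?_,
    ∑ k, C (w k) * evq W hW a (C₀.quotient W Λ hu k), ?_, ?_⟩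
  · funext k
    exact linearIndependent_iff'.mp Λ.indep Finset.univ w
      (by rw [← h0]; exact Finset.sum_congr rfl fun k _ => by rw [PowerSeries.smul_eq_C_mul])
      k (Finset.mem_univ k)
  · simp only [Mem, map_sum, map_mul, HahnSeries.ofPowerSeries_C, Finset.mul_sum]
    refine Subalgebra.sum_mem _ fun k _ => ?_
    rw [mul_left_comm]
    exact Subalgebra.mul_mem _ (algebraMap_eq_C (w k) ▸ C₀.B.algebraMap_mem _) (Λ.mem k)
  · refine ⟨∑ k, ‖w k‖, fun l => ?_⟩
    rw [map_sum]
    refine (norm_sum_le _ _).trans (Finset.sum_le_sum fun k _ => ?_)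
    rw [coeff_C_mul, norm_mul]
    exact mul_le_of_le_one_right (norm_nonneg _) (by rw [coeff_evq]; exact norm_evalAt_le W hW a _)
  · have hrem : ∑ k, C (w k) * evq W hW a (C₀.remainder W Λ hu k) = 0 := by
      ext l
      simp only [map_sum, coeff_C_mul, map_zero, coeff_evq]
      rcases lt_or_ge l N with hl | hl
      · have h' := congrFun h ⟨l, hl⟩
        simp only [Matrix.mulVec, dotProduct, Matrix.map_apply, matrix, Pi.zero_apply] at h'
        rw [← h']
        exact Finset.sum_congr rfl fun k _ => mul_comm _ _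
      · refine Finset.sum_eq_zero fun k _ => ?_
        rw [show coeff l (swapVars (C₀.remainder W Λ hu k)) = 0 from ext fun e => by
          rw [coeff_coeff_swapVars, map_zero, (C₀.division_spec W Λ hu k).2 e l hl], map_zero,
          mul_zero]
    conv_lhs => arg 2; ext k; rw [C₀.evq_basis W hW Λ hu a k, mul_add]
    rw [Finset.sum_add_distrib, hrem, add_zero, Finset.mul_sum]
    exact Finset.sum_congr rfl fun k _ => by ring

/-- A principal divisor gives a kernel vector of the specialised matrix. -/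
theorem kernel_of_principal (a : DiscPoint K) (h : C₀.Principal N (evq W hW a u)) :
    ∃ w : Fin Λ.rank → K, w ≠ 0 ∧ ((C₀.matrix W Λ hu).map (evalAt W hW a)).mulVec w = 0 := by
  obtain ⟨x, hx0, hxmem, r, ⟨M, hM⟩, hxr⟩ := h
  obtain ⟨w, hw⟩ := Λ.spans x hxmem
  refine ⟨w, fun h0 => hx0 (by simp [hw, h0]), ?_⟩
  have heq : evq W hW a u * (r - ∑ k, C (w k) * evq W hW a (C₀.quotient W Λ hu k)) =
      ∑ k, C (w k) * evq W hW a (C₀.remainder W Λ hu k) := by
    rw [mul_sub, ← hxr, hw, Finset.mul_sum, ← Finset.sum_sub_distrib]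
    exact Finset.sum_congr rfl fun k _ => by rw [C₀.evq_basis W hW Λ hu a k]; ring
  have hz : r - ∑ k, C (w k) * evq W hW a (C₀.quotient W Λ hu k) = 0 := by
    refine (isSmallDist_evq W hW a hu).eq_zero_of_low ?_ fun l hl => ?_
    · refine ⟨M + ∑ k, ‖w k‖, fun l => ?_⟩
      rw [map_sub, map_sum]
      refine (norm_sub_le _ _).trans (add_le_add (hM l) ?_)
      refine (norm_sum_le _ _).trans (Finset.sum_le_sum fun k _ => ?_)
      rw [coeff_C_mul, norm_mul]
      exact mul_le_of_le_one_right (norm_nonneg _)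
        (by rw [coeff_evq]; exact norm_evalAt_le W hW a _)
    · rw [heq, map_sum]
      refine Finset.sum_eq_zero fun k _ => ?_
      rw [coeff_C_mul, coeff_evq, show coeff l (swapVars (C₀.remainder W Λ hu k)) = 0 from
        ext fun e => by rw [coeff_coeff_swapVars, map_zero, (C₀.division_spec W Λ hu k).2 e l hl],
        map_zero, mul_zero]
  rw [hz, mul_zero] at heq
  funext l
  have h' := congrArg (coeff (l : ℕ)) heq.symm
  simp only [map_sum, coeff_C_mul, map_zero, coeff_evq] at h'
  simp only [Matrix.mulVec, dotProduct, Matrix.map_apply, matrix, Pi.zero_apply]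
  rw [← h']
  exact Finset.sum_congr rfl fun k _ => mul_comm _ _

variable [CharZero K]

include hu in
/-- **Abel at a point**: vanishing logarithm makes every specialisation principal. -/
theorem principal_of_logPair_eq_zero (Λ : C₀.Lattice W N)
    (hlog : ∀ i, C₀.logPair N (toK W u) i = 0) (a : DiscPoint K) :
    C₀.Principal N (evq W hW a u) := by
  obtain ⟨c, hc0, hc⟩ := C₀.exists_kernel_of_logPair_eq_zero W Λ hu hlog
  have hinj : Function.Injective (PowerSeries.map W.subtype) := fun f g hfg => ext fun n =>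
    Subtype.ext (by simpa using congrArg (coeff n) hfg)
  obtain ⟨w, hw0, hw⟩ := exists_kernel_of_specialize (PowerSeries.map W.subtype) hinj
    (evalAt W hW a) (C₀.matrix W Λ hu) c hc0 hc
  exact C₀.principal_of_kernel W hW Λ hu a w hw0 hw

include hu in
/-- **Converse**: principal at points approaching the boundary forces vanishing logarithm. -/
theorem logPair_eq_zero_of_principal (Λ : C₀.Lattice W N) {π : K} (hπ : ‖π‖ < 1)
    (hdisc : ∀ x ∈ W, x ≠ 0 → ∃ k : ℕ, ‖x‖ = ‖π‖ ^ k) (S : Set (DiscPoint K))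
    (hS : ∀ d : ℕ, ∃ a ∈ S, ‖π‖ < ‖a.val‖ ^ d)
    (h : ∀ a ∈ S, C₀.Principal N (evq W hW a u)) (i : ι) :
    C₀.logPair N (toK W u) i = 0 := by
  classical
  set Mk := (C₀.matrix W Λ hu).map (PowerSeries.map W.subtype) with hMk
  suffices hker : ∃ c, c ≠ 0 ∧ Mk.mulVec c = 0 by
    obtain ⟨c, hc0, hc⟩ := hker
    exact C₀.logPair_eq_zero_of_kernel W Λ hu c hc0 hc i
  by_contra hno
  push Not at hno
  obtain ⟨row, hdet⟩ := exists_submatrix_det_ne_zero
    (Mk.map (HahnSeries.ofPowerSeries ℤ K)) fun w hw => by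
    by_contra hw0
    let n₀ : ℕ := ∑ k, (-(w k).order).toNat
    have hw' : ∀ k, ∃ g : K⟦X⟧,
        HahnSeries.ofPowerSeries ℤ K g = HahnSeries.single (n₀ : ℤ) 1 * w k := fun k => by
      refine exists_ofPowerSeries_eq _ fun m hm => ?_
      rw [HahnSeries.coeff_single_mul, one_mul]
      by_contra hne
      have h1 := HahnSeries.order_le_of_coeff_ne_zero hne
      have h2 : (-(w k).order).toNat ≤ n₀ :=
        Finset.single_le_sum (f := fun k => (-(w k).order).toNat) (fun _ _ => Nat.zero_le _)
          (Finset.mem_univ k)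
      omega
    choose g hg using hw'
    refine hno g (fun hg0 => hw0 (funext fun k => ?_)) (funext fun l => ?_)
    · have := hg k
      rw [hg0, Pi.zero_apply, map_zero, zero_eq_mul] at this
      exact this.resolve_left (by simp)
    · apply HahnSeries.ofPowerSeries_injective (Γ := ℤ) (R := K)
      have h' := congrFun hw l
      simp only [Matrix.mulVec, dotProduct, Matrix.map_apply, Pi.zero_apply, map_sum, map_mul,
        map_zero, hg] at h' ⊢
      rw [← mul_zero (HahnSeries.single (n₀ : ℤ) (1 : K)), ← h', Finset.mul_sum]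
      exact Finset.sum_congr rfl fun k _ => by ring
  have hD : ((C₀.matrix W Λ hu).submatrix row id).det ≠ 0 := by
    intro h0
    apply hdet
    rw [hMk, Matrix.map_map, Matrix.submatrix_map, ← RingHom.coe_comp, ← RingHom.mapMatrix_apply,
      ← RingHom.map_det, h0, map_zero]
  obtain ⟨d, hd⟩ := exists_bound W hW hπ hdisc _ hD
  obtain ⟨a, haS, ha⟩ := hS d
  obtain ⟨w, hw0, hw⟩ := C₀.kernel_of_principal W hW Λ hu a (h a haS)
  apply hw0
  refine Matrix.eq_zero_of_mulVec_eq_zero
    (M := ((C₀.matrix W Λ hu).map (evalAt W hW a)).submatrix row id) ?_ ?_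
  · rw [Matrix.submatrix_map, ← RingHom.mapMatrix_apply, ← RingHom.map_det]
    exact hd a ha
  · funext j
    exact congrFun hw (row j)

end FormalCurve

end Fermat.Agent.OrdinaryCurve
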